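import Fermat.Agent.Reduction.Level.Gap
import Fermat.Agent.Reduction.Level.Units

/-!
# A unit of level `M` with zeros at all cusps but `∞`

`etaSer R n` is the expansion of `∏ (m¹² Δ(mτ)/Δ(τ))^(n m)` with integral coefficients. For
suitable exponents this unit has positive order at every cusp other than `∞`.
-/

set_option autoImplicit false

noncomputable section

open Polynomial ModularCurve IntermediateField AlgebraicCurve Fermat.Agent.Igusa
  Fermat.Agent.Reduction Fermat.Agent.Reduction.Level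

namespace Fermat.Agent.MazurPrinciple

variable {N : ℕ} [NeZero N]

/-- One factor of `etaSer`. -/
def etaFactor (R : Type*) [CommRing R] (n : ℕ → ℤ) (m : N.divisors) : LaurentSeries R :=
  haveI : NeZero (m : ℕ) := ⟨(Nat.pos_of_mem_divisors m.2).ne'⟩
  (HahnSeries.C (((m : ℕ) : R) ^ 12) * qExpand R (m : ℕ) (deltaR R) * deltaInvR R) ^ (n m).toNat *
    (deltaR R * qExpand R (m : ℕ) (deltaInvR R)) ^ (-(n m)).toNat

variable (N) in
/-- The expansion of `∏ (m¹² Δ(mτ)/Δ(τ))^(n m)`. -/
def etaSer (R : Type*) [CommRing R] (n : ℕ → ℤ) : LaurentSeries R :=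
  ∏ m ∈ N.divisors.attach, etaFactor R n m

omit [NeZero N] in
theorem coeffMap_etaSer {R S : Type*} [CommRing R] [CommRing S] (f : R →+* S) (n : ℕ → ℤ) :
    coeffMap f (etaSer N R n) = etaSer N S n := by
  rw [etaSer, etaSer, map_prod]
  refine Finset.prod_congr rfl fun m _ => ?_
  have : NeZero (m : ℕ) := ⟨(Nat.pos_of_mem_divisors m.2).ne'⟩
  simp only [etaFactor, map_mul, map_pow, coeffMap_qExpand, coeffMap_deltaR, coeffMap_deltaInvR,
    map_natCast]

omit [NeZero N] in
theorem etaSer_mul_neg {k : Type*} [Field k] (hN : (N : k) ≠ 0) (n : ℕ → ℤ) :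
    ∃ c : k, c ≠ 0 ∧ etaSer N k n * etaSer N k (-n) = HahnSeries.C c := by
  classical
  refine ⟨∏ m ∈ N.divisors.attach, (((m : ℕ) : k) ^ 12) ^ ((n m).toNat + (-(n m)).toNat),
    Finset.prod_ne_zero_iff.mpr fun m _ => pow_ne_zero _ (pow_ne_zero _ fun h => hN ?_), ?_⟩
  · obtain ⟨e, he⟩ := Nat.dvd_of_mem_divisors m.2
    have := congrArg (Nat.cast (R := k)) he
    rw [Nat.cast_mul, h, zero_mul] at this
    exact this
  rw [etaSer, etaSer, ← Finset.prod_mul_distrib, map_prod]
  refine Finset.prod_congr rfl fun m _ => ?_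
  have : NeZero (m : ℕ) := ⟨(Nat.pos_of_mem_divisors m.2).ne'⟩
  simp only [etaFactor, Pi.neg_apply, neg_neg]
  have h1 : (HahnSeries.C (((m : ℕ) : k) ^ 12) * qExpand k (m : ℕ) (deltaR k) * deltaInvR k) *
      (deltaR k * qExpand k (m : ℕ) (deltaInvR k)) = HahnSeries.C (((m : ℕ) : k) ^ 12) := by
    have h := deltaR_mul_deltaInvR k
    have h' := congrArg (qExpand k (m : ℕ)) h
    rw [map_mul, map_one] at h'
    linear_combination (HahnSeries.C (((m : ℕ) : k) ^ 12) * (deltaInvR k * deltaR k)) * h' +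
      HahnSeries.C (((m : ℕ) : k) ^ 12) * h
  conv_rhs => rw [map_pow _ (((m : ℕ) : k) ^ 12), ← h1]
  ring

theorem red_unitFam_cst0 {k : Type*} [Field k] (π : Rz N →+* k) (n : ℕ → ℤ) :
    Igusa.red π (unitFam n (cst0 : Cst N)) = qExpand k N (etaSer N k n) := by
  rw [unitFam, etaSer, map_prod, map_prod]
  refine Finset.prod_congr rfl fun m _ => ?_
  have : NeZero (m : ℕ) := ⟨(Nat.pos_of_mem_divisors m.2).ne'⟩
  have hm := Nat.dvd_of_mem_divisors m.2
  have hcls : cls (m : ℕ) (repg (cst0 : Cst N)) = (m : ℕ) := cls_of_mem hm repg_cst0_mem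
  have hcod : cod (m : ℕ) (repg (cst0 : Cst N)) = 1 := by
    rw [cod, hcls, Nat.div_self (NeZero.pos (m : ℕ))]
  have he : expo N m (repg (cst0 : Cst N)) = N * (m : ℕ) := by
    rw [expo, hcls, hcod, Nat.div_one, mul_comm]
  have htw : tw N m (repg (cst0 : Cst N)) = 1 := by
    have hu : zetaU N ^ N = 1 := Units.ext (zetaR_pow_self N)
    rw [tw, hcod, Nat.div_one, mul_comm, zpow_mul, zpow_natCast, hu, one_zpow]
  have := neZero_expo hm (repg (cst0 : Cst N))
  have hu : Igusa.red π (uFam hm (cst0 : Cst N)) = qExpand k N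
      (HahnSeries.C (((m : ℕ) : k) ^ 12) * qExpand k (m : ℕ) (deltaR k) * deltaInvR k) := by
    simp only [Igusa.red, RingHom.comp_apply, uFam, serHom_mk, conjSer, htw, twist_one_apply, hcls,
      map_mul, coeffMap_qExpand, coeffMap_deltaR, coeffMap_deltaInvR, map_pow,
      map_natCast]
    rw [qExpand_qExpand, qExpand_congr he]
  have hw : Igusa.red π (wFam hm (cst0 : Cst N)) = qExpand k N
      (deltaR k * qExpand k (m : ℕ) (deltaInvR k)) := by
    simp only [Igusa.red, RingHom.comp_apply, wFam, serHom_mk, conjSer, htw, twist_one_apply, hcod,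
      map_mul, coeffMap_qExpand, coeffMap_deltaR, coeffMap_deltaInvR,
      Nat.cast_one, one_pow, map_one, one_mul]
    rw [qExpand_qExpand, qExpand_congr he]
  rw [unitFactor, etaFactor, map_mul, map_pow, map_pow, hu, hw]
  simp only [map_mul, map_pow]

/-- The unit in the function field over any field where the level is invertible. -/
theorem exists_etaUnit {k : Type*} [Field k] [IsAlgClosed k] (π : Rz N →+* k)
    (hπ : IsPrimitiveRoot (π (zetaR N)) N) (n : ℕ → ℤ) :
    ∃ U : modularFunctionFieldFullC k N, (U : LaurentSeries k) = etaSer N k n ∧ RegFin U ∧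
      ∀ i, sig π hπ i U = Igusa.red π (unitFam n i) := by
  have heq : Equivariant (unitFam (N := N) n) :=
    equivariant_prod _ (fun m i => unitFactor n m i) fun m _ => by
      have : NeZero (m : ℕ) := ⟨(Nat.pos_of_mem_divisors m.2).ne'⟩
      exact equivariant_mul (equivariant_pow (equivariant_uFam _) _)
        (equivariant_pow (equivariant_wFam _) _)
  obtain ⟨U, hU⟩ := exists_sig_eq π hπ _ heq
  refine ⟨U, qExpand_injective N ?_, ?_, hU⟩
  · rw [← sig_cst0_apply π hπ, hU, red_unitFam_cst0]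
  · obtain ⟨P, hPm, -, hP⟩ := exists_charPoly_red π _ heq
    refine ⟨P, hPm, (sig π hπ cst0).injective ?_⟩
    rw [map_zero, Polynomial.hom_eval₂,
      show (sig π hπ cst0).comp (evC k N) = (phiJ N k).comp (algebraMap k[X] (Kj k)) from
        RingHom.ext fun p => by rw [RingHom.comp_apply, RingHom.comp_apply, phiJ_algebraMap,
          sig_evC],
      hU, ← Polynomial.eval₂_map, ← Polynomial.eval_map, hP, Polynomial.eval_prod]
    exact Finset.prod_eq_zero (Finset.mem_univ cst0) (by simp)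

theorem ord_cuspPlace_pos {k : Type*} [Field k] [IsAlgClosed k] (π : Rz N →+* k)
    (hπ : IsPrimitiveRoot (π (zetaR N)) N) {i : Cst N} {x : modularFunctionFieldFullC k N}
    (h : 0 < (sig π hπ i x).order) : 0 < (cuspPlace π hπ i).ord x := by
  have hx : x ≠ 0 := by
    rintro rfl
    rw [map_zero, HahnSeries.order_zero] at h
    exact lt_irrefl _ h
  have hsx : sig π hπ i x ≠ 0 := (_root_.map_ne_zero _).mpr hx
  have h1 : x⁻¹ ∉ (cuspPlace π hπ i).toValuationSubring := by
    rw [mem_cuspPlace, map_inv₀, poleLE_iff_order (inv_ne_zero hsx)]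
    have h2 := HahnSeries.order_mul hsx (inv_ne_zero hsx)
    rw [mul_inv_cancel₀ hsx, HahnSeries.order_one] at h2
    omega
  rw [FF.mem_toValuationSubring_iff_ord _ (inv_ne_zero hx), Place.ord_inv] at h1
  omega

/-- Units without poles where `j` is finite have order zero there. -/
theorem ord_etaUnit_eq_zero {k : Type*} [Field k] [IsAlgClosed k] (π : Rz N →+* k)
    (hπ : IsPrimitiveRoot (π (zetaR N)) N) (n : ℕ → ℤ) {U : modularFunctionFieldFullC k N}
    (hU : (U : LaurentSeries k) = etaSer N k n) :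
    U ≠ 0 ∧ ∀ v : Place k (modularFunctionFieldFullC k N),
      jC k N ∈ v.toValuationSubring → v.ord U = 0 := by
  obtain ⟨U₁, hU₁, hreg, -⟩ := exists_etaUnit π hπ n
  obtain ⟨V, hV, hVreg, -⟩ := exists_etaUnit π hπ (-n)
  obtain rfl : U₁ = U := Subtype.ext (hU₁.trans hU.symm)
  obtain ⟨c, hc, hUV⟩ := etaSer_mul_neg (natCast_ne_zero_of_primitive π hπ) n
  have hmul : U₁ * V = algebraMap k _ c := Subtype.ext (by
    show (U₁ : LaurentSeries k) * (V : LaurentSeries k) = algebraMap k (LaurentSeries k) c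
    rw [hU, hV, hUV, algebraMap_laurentSeries_eq_single, HahnSeries.C_apply])
  obtain ⟨h1, h2⟩ := mul_ne_zero_iff.mp (hmul ▸ (_root_.map_ne_zero _).mpr hc : U₁ * V ≠ 0)
  refine ⟨h1, fun v hv => ?_⟩
  have h := congrArg v.ord hmul
  rw [v.ord_mul h1 h2, FF.ord_algebraMap] at h
  have h3 := FF.ord_nonneg_of_mem v (hreg.mem_place v hv)
  have h4 := FF.ord_nonneg_of_mem v (hVreg.mem_place v hv)
  omega

/-- **Exponents of a unit whose only pole is at `∞`.** -/
theorem exists_cuspExponents {K : Type*} [Field K] [IsAlgClosed K] (hN : (N : K) ≠ 0)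
    (π : Rz N →+* K) (hπ : IsPrimitiveRoot (π (zetaR N)) N) :
    ∃ n : ℕ → ℤ, ∀ U : modularFunctionFieldFullC K N, (U : LaurentSeries K) = etaSer N K n →
      ∀ v : Place K (modularFunctionFieldFullC K N), jC K N ∉ v.toValuationSubring →
        v ≠ cuspPlace π hπ cst0 → 0 < v.ord U := by
  classical
  obtain ⟨n, D, hD, hn⟩ := exists_exponents (N := N) (Nat.mem_divisors_self N (NeZero.ne N))
  set s : ℤ := ∑ m ∈ N.divisors, n m with hs
  have hord : ∀ (ν : ℕ → ℤ) (i : Cst N), Igusa.red π (unitFam ν i) ≠ 0 ∧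
      (Igusa.red π (unitFam ν i)).order =
        ∑ m ∈ N.divisors, ν m * ((Nat.gcd (kls i) m : ℤ) ^ 2 * ((N / m : ℕ) : ℤ)) -
          (N : ℤ) * ∑ m ∈ N.divisors, ν m := fun ν i => by
    have h := red_topFam π hπ ν 1 0 0 i
    simpa [topFam] using h
  have hs0 : s < 0 := by
    by_contra hle
    push Not at hle
    obtain ⟨U', hU', hreg, hsig⟩ := exists_etaUnit π hπ (-n)
    have ho : ∀ i, sig π hπ i U' ≠ 0 ∧ (sig π hπ i U').order =
        (if kls i = N then (N : ℤ) * D else 0) + (N : ℤ) * s := fun i => by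
      obtain ⟨h0, h⟩ := hord (-n) i
      rw [hsig]
      refine ⟨h0, h.trans ?_⟩
      simp only [Pi.neg_apply, neg_mul, Finset.sum_neg_distrib, hn _ (kls_mem i), ← hs]
      split_ifs <;> ring
    have hN0 : (0 : ℤ) ≤ N := Int.natCast_nonneg N
    have hN1 : (0 : ℤ) < N := by exact_mod_cast NeZero.pos N
    have hall : ∀ v : Place K (modularFunctionFieldFullC K N), U' ∈ v.toValuationSubring := by
      intro v
      by_cases hj : jC K N ∈ v.toValuationSubring
      · exact hreg.mem_place v hj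
      obtain ⟨i, rfl⟩ := exists_cuspPlace_eq π hπ v hj
      rw [mem_cuspPlace, poleLE_iff_order (ho i).1, (ho i).2]
      have : 0 ≤ (N : ℤ) * s := mul_nonneg hN0 hle
      have : 0 ≤ (N : ℤ) * D := mul_nonneg hN0 hD.le
      split_ifs <;> omega
    have hpos : 0 < (cuspPlace π hπ (cst0 : Cst N)).ord U' := by
      refine ord_cuspPlace_pos π hπ ?_
      rw [(ho cst0).2, if_pos kls_cst0]
      have : 0 ≤ (N : ℤ) * s := mul_nonneg hN0 hle
      have : 0 < (N : ℤ) * D := mul_pos hN1 hD
      omega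
    have := isFunctionField_level (k := K) hN
    obtain ⟨w, hw⟩ := FF.exists_place_ord_neg
      (FF.transcendental_of_ord_ne_zero _ hpos.ne')
    have := FF.ord_nonneg_of_mem w (hall w)
    omega
  refine ⟨n, fun U hU v hv hne => ?_⟩
  obtain ⟨U₁, hU₁, -, hsig⟩ := exists_etaUnit π hπ n
  obtain rfl : U₁ = U := Subtype.ext (hU₁.trans hU.symm)
  obtain ⟨i, rfl⟩ := exists_cuspPlace_eq π hπ v hv
  refine ord_cuspPlace_pos π hπ ?_
  have hi : kls i ≠ N := fun h => hne (by rw [eq_cst0_of_kls_eq h])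
  rw [hsig, (hord n i).2, hn _ (kls_mem i), if_neg hi, ← hs, zero_sub]
  have : (0 : ℤ) < N := by exact_mod_cast NeZero.pos N
  nlinarith

end Fermat.Agent.MazurPrinciple
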