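import Mathlib

/-!
# Modules with the quadratic relations of a two-dimensional representation

Group rings satisfying the characteristic polynomials of a two-dimensional representation with a
non-scalar commutator: the kernel of the representation acts trivially, and no nonzero submodule
killed by the maximal ideal is an eigenspace of a non-scalar element.
-/

set_option autoImplicit false

namespace Fermat.Agent.MazurPrinciple

variable {R : Type*} [CommRing R] {G : Type*} [Group G] {W : Type*} [AddCommGroup W] [Module R W]

/-- Every group element satisfies the characteristic polynomial given by `t` and `d`. -/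
def QuadRel (act : G →* Module.End R W) (t d : G → R) : Prop :=
  ∀ g : G, act g * act g - t g • act g + d g • (1 : Module.End R W) = 0

/-- Trace and determinant of a two-dimensional representation, with a non-scalar commutator. -/
structure TraceDet (t d : G → R) : Prop where
  det_unit : ∀ g, IsUnit (d g)
  det_mul : ∀ g h, d (g * h) = d g * d h
  commutator : ∃ h k : G, IsUnit (t (h * k * h⁻¹ * k⁻¹) - 2)

theorem traceDet_of_matrix (ρ : G →* Matrix (Fin 2) (Fin 2) R)
    (h : ∃ h k : G, IsUnit ((ρ (h * k * h⁻¹ * k⁻¹)).trace - 2)) :
    TraceDet (fun g => (ρ g).trace) (fun g => (ρ g).det) where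
  det_unit g := by
    refine IsUnit.of_mul_eq_one ((ρ g⁻¹).det) ?_
    rw [← Matrix.det_mul, ← map_mul, mul_inv_cancel, map_one, Matrix.det_one]
  det_mul g h := by rw [map_mul, Matrix.det_mul]
  commutator := h

namespace TraceDet

variable {t d : G → R} (hT : TraceDet t d)
include hT

theorem det_one : d 1 = 1 := by
  have h := hT.det_mul 1 1
  rw [mul_one] at h
  exact ((hT.det_unit 1).mul_eq_left).mp h.symm

theorem det_inv_mul (g : G) : d g⁻¹ * d g = 1 := by
  rw [← hT.det_mul, inv_mul_cancel, hT.det_one]

theorem det_commutator (h k : G) : d (h * k * h⁻¹ * k⁻¹) = 1 := by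
  rw [hT.det_mul, hT.det_mul, hT.det_mul]
  linear_combination (d k⁻¹ * d k) * hT.det_inv_mul h + hT.det_inv_mul k

end TraceDet

variable {act : G →* Module.End R W} {t d : G → R}

theorem act_inv_mul_act (g : G) : act g⁻¹ * act g = 1 := by
  rw [← map_mul, inv_mul_cancel, map_one]

/-- `g + d g⁻¹ = t`. -/
theorem QuadRel.add_inv (hW : QuadRel act t d) (g : G) :
    act g + d g • act g⁻¹ = t g • (1 : Module.End R W) := by
  have h := congrArg (fun f => act g⁻¹ * f) (hW g)
  simp only [mul_add, mul_sub, mul_zero, ← mul_assoc, act_inv_mul_act, one_mul, mul_smul_comm,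
    mul_one] at h
  linear_combination (norm := module) h

/-- **The kernel of the representation acts trivially.** -/
theorem QuadRel.act_eq_one (hW : QuadRel act t d) (hT : TraceDet t d) {g : G}
    (ht : ∀ h, t (h * g) = t h) (hd : d g = 1) (h1 : t 1 = 2) : act g = 1 := by
  set e : Module.End R W := act g - 1 with he
  have hg : act g = 1 + e := by rw [he]; abel
  have htg : t g = 2 := by rw [← one_mul g, ht, h1]
  have he2 : e * e = 0 := by
    have h := hW g
    rw [htg, hd] at h
    rw [he]
    simp only [sub_mul, mul_sub, one_mul, mul_one]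
    linear_combination (norm := module) h
  have key : ∀ h, e * act h = d h • act h⁻¹ * e := by
    intro h
    have e1 := hW (h * g)
    rw [ht, hT.det_mul, hd, mul_one, map_mul, hg] at e1
    have e2 := hW h
    have e3 : act h * (e * act h + act h * e + e * act h * e - t h • e) = 0 := by
      simp only [mul_add, mul_sub, mul_one, add_mul, mul_smul_comm, smul_add, ← mul_assoc] at e1 ⊢
      linear_combination (norm := module) e1 - e2
    have e4 : e * act h + act h * e + e * act h * e - t h • e = 0 := by
      have := congrArg (fun f => act h⁻¹ * f) e3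
      simpa only [← mul_assoc, act_inv_mul_act, one_mul, mul_zero] using this
    have e5 : e * act h * e = 0 := by
      have := congrArg (fun f => e * f) e4
      simpa only [mul_add, mul_sub, ← mul_assoc, he2, zero_mul, zero_add, mul_smul_comm, smul_zero,
        add_zero, sub_zero, mul_zero] using this
    rw [e5, add_zero] at e4
    have e6 : (d h • act h⁻¹) * e = t h • e - act h * e := by
      rw [eq_sub_iff_add_eq'.mpr (hW.add_inv h), sub_mul, smul_mul_assoc, one_mul]
    rw [e6]
    linear_combination (norm := module) e4
  obtain ⟨h, k, hu⟩ := hT.commutator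
  set u := h * k * h⁻¹ * k⁻¹ with hudef
  have hswap : ((d h * d k) • act (h⁻¹ * k⁻¹)) * e = ((d h * d k) • act (k⁻¹ * h⁻¹)) * e := by
    have a := key (h * k)
    rw [mul_inv_rev, map_mul, ← mul_assoc, key h, hT.det_mul] at a
    rw [← a, mul_assoc (d h • act h⁻¹), key k]
    simp only [smul_mul_assoc, mul_smul_comm, map_mul, mul_assoc, smul_smul, mul_comm (d k)]
  have hcomm : act (h⁻¹ * k⁻¹) * e = act (k⁻¹ * h⁻¹) * e := by
    rw [smul_mul_assoc, smul_mul_assoc] at hswap
    exact (((hT.det_unit h).mul (hT.det_unit k)).smul_left_cancel).mp hswap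
  have hue : (act u - 1) * e = 0 := by
    have := congrArg (fun f => act (h * k) * f) hcomm
    simp only [← mul_assoc, ← map_mul] at this
    rw [show h * k * h⁻¹ * k⁻¹ = u from rfl, show h * k * k⁻¹ * h⁻¹ = 1 by group, map_one] at this
    rw [sub_mul, this, sub_self]
  have h2 : (t u - 2) • e = 0 := by
    have hq := hW u
    rw [hT.det_commutator] at hq
    have hfac : (act u - (t u - 1) • 1) * (act u - 1) = (t u - 2) • (1 : Module.End R W) := by
      simp only [sub_mul, mul_sub, mul_one, smul_mul_assoc, one_mul]
      linear_combination (norm := module) hq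
    have := congrArg (fun f => f * e) hfac
    rw [mul_assoc, hue, mul_zero, smul_mul_assoc, one_mul] at this
    exact this.symm
  rw [hg, hu.smul_eq_zero.mp h2, add_zero]

/-- A matrix representation: its kernel acts trivially. -/
theorem QuadRel.act_eq_one_of_ker {ρ : G →* Matrix (Fin 2) (Fin 2) R}
    (hW : QuadRel act (fun g => (ρ g).trace) (fun g => (ρ g).det))
    (h : ∃ h k : G, IsUnit ((ρ (h * k * h⁻¹ * k⁻¹)).trace - 2)) {g : G} (hg : ρ g = 1) :
    act g = 1 :=
  hW.act_eq_one (traceDet_of_matrix ρ h) (fun a => by simp [map_mul, hg]) (by simp [hg]) (by simp)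

variable [IsLocalRing R]

open IsLocalRing

/-- **No residual eigenspace.** If the element `F` is a scalar `c` on all translates of `z`, which
is killed by the maximal ideal, and `F` is residually not the scalar `c`, then `z = 0`. -/
theorem QuadRel.eq_zero_of_forall_eigen (hW : QuadRel act t d) (hT : TraceDet t d) {F : G} {c : R}
    (hc : IsUnit c)
    (hF : IsUnit (d F - c ^ 2) ∨ (d F - c ^ 2 ∈ maximalIdeal R ∧ ∃ h, IsUnit (c * t h - t (h * F))))
    {z : W} (hz : ∀ r ∈ maximalIdeal R, r • z = 0)
    (hev : ∀ g, act F (act g z) = c • act g z) : z = 0 := by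
  have hev1 : act F z = c • z := by simpa using hev 1
  have key : ∀ h, (c * (c * t h - t (h * F))) • act h z + (d h * (d F - c ^ 2)) • z = 0 := by
    intro h
    have h1 := LinearMap.congr_fun (hW (h * F)) z
    have h2 := LinearMap.congr_fun (hW h) z
    simp only [map_mul, hT.det_mul, LinearMap.add_apply, LinearMap.sub_apply, LinearMap.smul_apply,
      Module.End.mul_apply, Module.End.one_apply, LinearMap.zero_apply, hev1, map_smul, hev h]
      at h1 h2
    linear_combination (norm := module) h1 - (c ^ 2) • h2
  rcases hF with hunit | ⟨hm, h, hu⟩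
  · have hμ : ∀ h, ∃ μ : R, act h z = μ • z := by
      intro h
      have e := key h
      by_cases ha : IsUnit (c * (c * t h - t (h * F)))
      · obtain ⟨v, hv⟩ := ha.exists_left_inv
        refine ⟨-(v * (d h * (d F - c ^ 2))), ?_⟩
        have := congrArg (fun x => v • x) e
        rw [smul_add, smul_zero, smul_smul, hv, one_smul, smul_smul] at this
        linear_combination (norm := module) this
      · have h0 : (c * (c * t h - t (h * F))) • act h z = 0 := by
          rw [← LinearMap.map_smul, hz _ ((mem_maximalIdeal _).mpr ha), map_zero]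
        rw [h0, zero_add] at e
        rw [((hT.det_unit h).mul hunit).smul_eq_zero.mp e]
        exact ⟨0, by simp⟩
    choose μ hμ using hμ
    obtain ⟨h, k, hu⟩ := hT.commutator
    set u := h * k * h⁻¹ * k⁻¹ with hudef
    have hkh : act (h * k) z = act (k * h) z := by
      rw [map_mul, map_mul, Module.End.mul_apply, Module.End.mul_apply, hμ k, map_smul, hμ h,
        map_smul, hμ k, smul_smul, smul_smul, mul_comm]
    have hinv : act (h⁻¹ * k⁻¹) (act (k * h) z) = z := by
      rw [← Module.End.mul_apply, ← map_mul, show h⁻¹ * k⁻¹ * (k * h) = 1 by group]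
      simp
    have huz : act u z = z := by
      have h3 : act u (act (k * h) z) = act (h * k) z := by
        rw [← Module.End.mul_apply, ← map_mul,
          show u * (k * h) = h * k by rw [hudef]; group]
      rw [hkh, hμ (k * h), map_smul] at h3
      have h4 : z = μ (h⁻¹ * k⁻¹) • μ (k * h) • z := by
        conv_lhs => rw [← hinv, hμ (k * h), map_smul, hμ]
        rw [smul_comm]
      conv_lhs => rw [h4, map_smul, map_smul, h3]
      exact h4.symm
    have hq := LinearMap.congr_fun (hW u) z
    simp only [LinearMap.add_apply, LinearMap.sub_apply, LinearMap.smul_apply,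
      Module.End.mul_apply, Module.End.one_apply, LinearMap.zero_apply, huz,
      show d u = 1 from hT.det_commutator h k] at hq
    refine hu.smul_eq_zero.mp ?_
    linear_combination (norm := module) -hq
  · have e := key h
    rw [hz (d h * (d F - c ^ 2)) (Ideal.mul_mem_left _ _ hm), add_zero] at e
    have h0 := (hc.mul hu).smul_eq_zero.mp e
    have := congrArg (act h⁻¹) h0
    rwa [map_zero, ← Module.End.mul_apply, act_inv_mul_act, Module.End.one_apply] at this

end Fermat.Agent.MazurPrinciple
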