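import Fermat.Agent.RootIrred.Three
import Fermat.Agent.Density.Places
import Fermat.Agent.Root.Selmer.Cubic

/-!
# An auxiliary prime for Mazur's principle modulo `3`

An auxiliary prime for Mazur's principle modulo `3`: `r ≡ 11 (mod 12)` with `3 ∤ a_r`.
-/

set_option autoImplicit false

noncomputable section

namespace Fermat.Agent.MazurPrinciple

open Matrix WeierstrassCurve

local notation "ℚbar" => AlgebraicClosure ℚ
local notation "Γℚbar" => AlgebraicClosure ℚ ≃ₐ[ℚ] AlgebraicClosure ℚ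
local notation "M₃" => Matrix (Fin 2) (Fin 2) (ZMod 3)

set_option synthInstance.maxSize 4096 in
/-- The commutators of two opposite transvections span with the scalars. -/
theorem eq_zero_of_trace_commutators : ∀ a b c₀ c₁ c₂ c₃ : ZMod 3, a ≠ 0 → b ≠ 0 →
    (!![c₀, c₁; c₂, c₃] : M₃).trace = 0 →
    (!![c₀, c₁; c₂, c₃] *
      (!![1, a; 0, 1] * !![1, 0; b, 1] * !![1, -a; 0, 1] * !![1, 0; -b, 1]) : M₃).trace = 0 →
    (!![c₀, c₁; c₂, c₃] *
      (!![1, -a; 0, 1] * !![1, 0; b, 1] * !![1, a; 0, 1] * !![1, 0; -b, 1]) : M₃).trace = 0 →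
    (!![c₀, c₁; c₂, c₃] *
      (!![1, a; 0, 1] * !![1, 0; -b, 1] * !![1, -a; 0, 1] * !![1, 0; b, 1]) : M₃).trace = 0 →
    (!![c₀, c₁; c₂, c₃] *
      (!![1, -a; 0, 1] * !![1, 0; -b, 1] * !![1, a; 0, 1] * !![1, 0; b, 1]) : M₃).trace = 0 →
    (!![c₀, c₁; c₂, c₃] : M₃) = 0 := by
  decide +kernel

/-- A transvection moved by the image gives a matrix of non-zero trace in every coset of the
commutators. -/
theorem exists_trace_ne_zero {G : Type*} [Group G] (R : G →* M₃) (hno : RootIrred.NoEigen R)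
    {u : G} (hsq : (R u - 1) * (R u - 1) = 0) (hne : R u ≠ 1) (c : G) :
    ∃ k : G, k ∈ commutator G ∧ (R (c * k)).trace ≠ 0 := by
  by_contra hall
  push Not at hall
  set N := R u - 1 with hN
  have hN0 : N ≠ 0 := sub_ne_zero.2 hne
  have hd : N.det = 0 := by
    have := congrArg Matrix.det hsq
    rw [Matrix.det_mul, Matrix.det_zero] at this
    exact mul_self_eq_zero.1 this
  obtain ⟨v, hv, hNv⟩ := Matrix.exists_mulVec_eq_zero_iff.2 hd
  obtain ⟨g, hg⟩ := hno v hv
  set v' := R g *ᵥ v with hv'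
  set w := g * u * g⁻¹ with hw
  have hNw : (R w - 1) *ᵥ v' = 0 := by
    rw [hv', Matrix.mulVec_mulVec, sub_mul, one_mul, ← map_mul, show w * g = g * u by
      rw [hw]; group, map_mul, show R g * R u - R g = R g * N by rw [hN, mul_sub, mul_one],
      ← Matrix.mulVec_mulVec, hNv, Matrix.mulVec_zero]
  -- the change of basis
  set P : M₃ := Matrix.of fun i j => ![v, v'] j i with hP
  have hPinj : Function.Injective P.mulVec := by
    intro x y hxy
    have e : ∀ z : Fin 2 → ZMod 3, P *ᵥ z = z 0 • v + z 1 • v' := fun z => by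
      ext i
      simp [hP, Matrix.mulVec, dotProduct, Fin.sum_univ_two, mul_comm]
    rw [e, e, ← sub_eq_zero] at hxy
    have h2 := RootIrred.eq_zero_of_indep hv hg (α := x 0 - y 0) (β := x 1 - y 1) (by
      rw [sub_smul, sub_smul]; linear_combination (norm := module) hxy)
    funext i
    fin_cases i <;> simp [sub_eq_zero.1 h2.1, sub_eq_zero.1 h2.2]
  have hPu : IsUnit P := Matrix.mulVec_injective_iff_isUnit.1 hPinj
  obtain ⟨P, hPP⟩ := hPu
  let conj : G →* M₃ :=
    { toFun := fun x => ((P⁻¹ : M₃ˣ) : M₃) * R x * P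
      map_one' := by simp
      map_mul' := fun x y => by
        simp only [map_mul, mul_assoc]
        rw [← mul_assoc (P : M₃) ((P⁻¹ : M₃ˣ) : M₃), Units.mul_inv, one_mul] }
  have hcol : ∀ x : G, ∀ j : Fin 2, ((P : M₃) * conj x) *ᵥ Pi.single j 1 = R x *ᵥ ![v, v'] j := by
    intro x j
    rw [show (P : M₃) * conj x = R x * (P : M₃) by
      show (P : M₃) * (((P⁻¹ : M₃ˣ) : M₃) * R x * (P : M₃)) = _
      rw [← mul_assoc, ← mul_assoc, Units.mul_inv, one_mul], ← Matrix.mulVec_mulVec]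
    congr 1
    rw [hPP, hP]
    ext i
    simp
  have hcancel : ∀ {y z : Fin 2 → ZMod 3}, (P : M₃) *ᵥ y = (P : M₃) *ᵥ z → y = z :=
    fun h => hPinj (by rw [← hPP]; exact h)
  have huv : ∀ x : G, ∀ j : Fin 2, R x *ᵥ ![v, v'] j = ![v, v'] j →
      conj x *ᵥ Pi.single j 1 = Pi.single j 1 := fun x j h => by
    refine hcancel ?_
    rw [Matrix.mulVec_mulVec, hcol, h, hPP, hP]
    ext i
    simp
  have hunip : ∀ x : G, (R x - 1) * (R x - 1) = 0 → (conj x).det = 1 := fun x hx => by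
    show (((P⁻¹ : M₃ˣ) : M₃) * R x * P).det = 1
    rw [Matrix.det_units_conj', (RootIrred.trace_det_of_unipotent hx).2]
  have hwsq : (R w - 1) * (R w - 1) = 0 := by
    have e : R w - 1 = R g * N * R g⁻¹ := by
      rw [hw, hN, map_mul, map_mul, mul_sub, sub_mul, mul_one, RootIrred.map_mul_inv_eq]
    rw [e, show R g * N * R g⁻¹ * (R g * N * R g⁻¹) = R g * (N * N) * R g⁻¹ by
      simp only [mul_assoc]; rw [← mul_assoc (R g⁻¹) (R g), RootIrred.map_inv_mul_eq, one_mul],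
      hsq, mul_zero, zero_mul]
  have entry : ∀ (A : M₃) (i j : Fin 2), (A *ᵥ Pi.single j 1) i = A i j := fun A i j => by simp
  obtain ⟨a, hU⟩ : ∃ a, conj u = !![1, a; 0, 1] := by
    have h0 := huv u 0 (by
      rw [hN, Matrix.sub_mulVec, Matrix.one_mulVec, sub_eq_zero] at hNv
      exact hNv)
    refine ⟨conj u 0 1, ?_⟩
    have e00 : conj u 0 0 = 1 := by rw [← entry (conj u) 0 0, h0]; rfl
    have e10 : conj u 1 0 = 0 := by rw [← entry (conj u) 1 0, h0]; rfl
    have e11 := hunip u hsq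
    rw [Matrix.det_fin_two, e00, e10, one_mul, mul_zero, sub_zero] at e11
    rw [Matrix.eta_fin_two (conj u), e00, e10, e11]
    simp
  obtain ⟨b, hW⟩ : ∃ b, conj w = !![1, 0; b, 1] := by
    have h1 := huv w 1 (by
      rw [Matrix.sub_mulVec, Matrix.one_mulVec, sub_eq_zero] at hNw
      exact hNw)
    refine ⟨conj w 1 0, ?_⟩
    have e01 : conj w 0 1 = 0 := by rw [← entry (conj w) 0 1, h1]; rfl
    have e11 : conj w 1 1 = 1 := by rw [← entry (conj w) 1 1, h1]; rfl
    have e00 := hunip w hwsq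
    rw [Matrix.det_fin_two, e01, e11, mul_one, zero_mul, sub_zero] at e00
    rw [Matrix.eta_fin_two (conj w), e00, e01, e11]
    simp
  have hR : ∀ x : G, conj x = 1 → R x = 1 := fun x h => by
    have := congrArg (fun m : M₃ => (P : M₃) * m * ((P⁻¹ : M₃ˣ) : M₃)) h
    simpa [conj, mul_assoc, ← mul_assoc (P : M₃) ((P⁻¹ : M₃ˣ) : M₃)] using this
  have ha : a ≠ 0 := fun h => hne (hR u (by rw [hU, h, ← Matrix.one_fin_two]))
  have hb : b ≠ 0 := fun h => by
    have h' : R w = 1 := hR w (by rw [hW, h, ← Matrix.one_fin_two])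
    refine hne ?_
    have e : R u = R g⁻¹ * R w * R g := by rw [← map_mul, ← map_mul, hw]; congr 1; group
    rw [e, h', mul_one, RootIrred.map_inv_mul_eq]
  have hUi : conj u⁻¹ = !![1, -a; 0, 1] := by
    refine left_inv_eq_right_inv (a := conj u) (by rw [← map_mul, inv_mul_cancel, map_one]) ?_
    rw [hU, Matrix.mul_fin_two, Matrix.one_fin_two]
    simp
  have hWi : conj w⁻¹ = !![1, 0; -b, 1] := by
    refine left_inv_eq_right_inv (a := conj w) (by rw [← map_mul, inv_mul_cancel, map_one]) ?_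
    rw [hW, Matrix.mul_fin_two, Matrix.one_fin_two]
    simp
  have htr : ∀ x : G, (conj x).trace = (R x).trace := fun x => Matrix.trace_units_conj' P (R x)
  have key : ∀ x y : G, (conj c * (conj x * conj y * conj x⁻¹ * conj y⁻¹)).trace = 0 :=
      fun x y => by
    rw [← map_mul, ← map_mul, ← map_mul, ← map_mul, htr]
    refine hall _ ?_
    rw [commutator_def]
    exact Subgroup.commutator_mem_commutator (Subgroup.mem_top x) (Subgroup.mem_top y)
  have k1 := key u w
  have k2 := key u⁻¹ w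
  have k3 := key u w⁻¹
  have k4 := key u⁻¹ w⁻¹
  rw [inv_inv] at k2 k3
  rw [inv_inv, inv_inv] at k4
  rw [hU, hW, hUi, hWi] at k1 k2 k3 k4
  have k0 : (conj c).trace = 0 := by
    have h := hall 1 (one_mem _)
    rwa [mul_one, ← htr] at h
  have hC := eq_zero_of_trace_commutators a b (conj c 0 0) (conj c 0 1) (conj c 1 0) (conj c 1 1)
    ha hb
  simp only [← Matrix.eta_fin_two (conj c)] at hC
  have hz := hC k0 k1 k2 k3 k4
  have hone : conj c * conj c⁻¹ = 1 := by rw [← map_mul, mul_inv_cancel, map_one]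
  rw [hz, zero_mul] at hone
  exact zero_ne_one hone

variable {W : WeierstrassCurve ℤ}

/-- A prime `r ≡ 11 (mod 12)` outside `S` with `3 ∤ a_r`. -/
theorem exists_aux_prime_three (hW : Root.Semistable W) (hirr : W.ModRepIsIrreducible 3)
    (S : Finset ℕ) :
    ∃ r : ℕ, r.Prime ∧ r ∉ S ∧ W.IsGoodPrimeFor r ∧ r % 12 = 11 ∧
      ¬ (3 : ℤ) ∣ W.apOfModel r := by
  classical
  have : Fact (Nat.Prime 3) := ⟨Nat.prime_three⟩
  have hΔ := hW.ne
  obtain ⟨u, hsq, hne⟩ := RootIrred.exists_transvection_three hΔ hW.ss hirr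
  obtain ⟨k, hk, hktr⟩ := exists_trace_ne_zero (RootIrred.mat (p := 3) hΔ)
    (RootIrred.noEigen_of_irreducible hΔ hirr) hsq hne complexConjugation
  set σ : Γℚbar := complexConjugation * k
  obtain ⟨ζ, hζ⟩ := HasEnoughRootsOfUnity.exists_primitiveRoot ℚbar 12
  have hkζ : k ζ = ζ := by
    have hpow : ∀ (σ : Γℚbar) {ξ : ℚbar}, ξ ^ 12 = 1 → ∃ e : ℕ, σ ξ = ξ ^ e ∧ (σ ξ) ^ 12 = 1 ∧
        ∀ η : ℚbar, η ^ 12 = 1 → σ η = η ^ e := by
      intro σ ξ hξ
      obtain ⟨e, -, he⟩ := hζ.eq_pow_of_pow_eq_one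
        (show σ ζ ^ 12 = 1 by rw [← map_pow, hζ.pow_eq_one, map_one])
      have hall : ∀ η : ℚbar, η ^ 12 = 1 → σ η = η ^ e := fun η hη => by
        obtain ⟨i, -, rfl⟩ := hζ.eq_pow_of_pow_eq_one hη
        rw [map_pow, ← he, ← pow_mul, ← pow_mul, mul_comm]
      exact ⟨e, hall ξ hξ, by rw [← map_pow, hξ, map_one], hall⟩
    let K : Subgroup Γℚbar :=
      { carrier := {σ | ∀ η : ℚbar, η ^ 12 = 1 → σ η = η}
        one_mem' := fun _ _ => rfl
        mul_mem' := fun {x y} hx hy η hη => by rw [AlgEquiv.mul_apply, hy η hη, hx η hη]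
        inv_mem' := fun {x} hx η hη => by
          conv_lhs => rw [← hx η hη]
          exact x.symm_apply_apply η }
    suffices h : commutator Γℚbar ≤ K from h hk ζ hζ.pow_eq_one
    rw [commutator_def, Subgroup.commutator_le]
    intro x _ y _ η hη
    set ξ := x⁻¹ (y⁻¹ η) with hξdef
    have hξ : ξ ^ 12 = 1 := by rw [hξdef, ← map_pow, ← map_pow, hη, map_one, map_one]
    obtain ⟨e, -, -, he⟩ := hpow x hξ
    obtain ⟨f, -, -, hf⟩ := hpow y hξ
    show (x * y * x⁻¹ * y⁻¹) η = η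
    rw [AlgEquiv.mul_apply, AlgEquiv.mul_apply, AlgEquiv.mul_apply, ← hξdef, hf ξ hξ, map_pow,
      he ξ hξ, ← pow_mul, mul_comm e, pow_mul, ← he (ξ ^ f) (by rw [← pow_mul, mul_comm, pow_mul,
        hξ, one_pow]), ← hf ξ hξ]
    have : y (x ξ) = η := by
      rw [hξdef]
      show y (x (x.symm (y.symm η))) = η
      rw [AlgEquiv.apply_symm_apply, AlgEquiv.apply_symm_apply]
    rwa [he ξ hξ, map_pow, hf ξ hξ, ← he (ξ ^ f) (by rw [← pow_mul, mul_comm, pow_mul, hξ,
      one_pow]), ← hf ξ hξ] at this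
  have hσζ : σ ζ = ζ ^ 11 := by
    show (complexConjugation * k) ζ = _
    rw [AlgEquiv.mul_apply, hkζ,
      Root.Selmer.complexConjugation_rootOfUnity (by norm_num) hζ.pow_eq_one]
    exact inv_eq_of_mul_eq_one_right (by rw [← pow_succ', hζ.pow_eq_one])
  obtain ⟨L, hL, hLmat⟩ := RootIrred.exists_level (W := W) (p := 3) hΔ
  set L' : IntermediateField ℚ ℚbar := L ⊔ IntermediateField.adjoin ℚ {ζ}
  have : FiniteDimensional ℚ (IntermediateField.adjoin ℚ ({ζ} : Set ℚbar)) :=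
    IntermediateField.adjoin.finiteDimensional (hζ.isIntegral (by norm_num)).tower_top
  obtain ⟨r, hr, hrS, hfrob⟩ := Density.exists_prime_eqOn_conj_frobenius_pow L' σ
    (S ∪ {2, 3} ∪ W.Δ.natAbs.primeFactors)
  simp only [Finset.mem_union, Finset.mem_insert, Finset.mem_singleton, not_or,
    Nat.mem_primeFactors] at hrS
  have hgood : W.IsGoodPrimeFor r := fun hd =>
    hrS.2 ⟨hr, Int.natCast_dvd.mp hd, Int.natAbs_ne_zero.mpr hΔ⟩
  obtain ⟨A, hA⟩ := Gal.exists_liesOverPrime (L := ℚbar) hr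
  obtain ⟨τ, hτ⟩ := Gal.exists_isFrobeniusAt hr hA
  obtain ⟨g, j, hgj⟩ := hfrob A hA τ hτ
  have hnd : ¬ r ∣ 12 := fun h => by
    have h' : r ∣ 2 * 2 * 3 := h
    rcases hr.dvd_mul.mp h' with h' | h'
    · rcases hr.dvd_mul.mp h' with h' | h' <;>
        exact hrS.1.2.1 ((Nat.prime_dvd_prime_iff_eq hr Nat.prime_two).mp h')
    · exact hrS.1.2.2 ((Nat.prime_dvd_prime_iff_eq hr Nat.prime_three).mp h')
  have hτall : ∀ η : ℚbar, η ^ 12 = 1 → ∀ i : ℕ, (τ ^ i) η = η ^ r ^ i := by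
    intro η hη i
    induction i with
    | zero => simp
    | succ i ih =>
      rw [pow_succ' τ, AlgEquiv.mul_apply, ih, map_pow,
        Gal.apply_rootOfUnity_of_isFrobeniusAt hτ hr hA hnd hη, ← pow_mul, pow_succ']
  have hr11 : r ^ j % 12 = 11 := by
    have hξ : (g⁻¹ ζ) ^ 12 = 1 := by rw [← map_pow, hζ.pow_eq_one, map_one]
    have h := hgj ζ (le_sup_right (a := L) (IntermediateField.subset_adjoin ℚ _ rfl))
    rw [hσζ, AlgEquiv.mul_apply, AlgEquiv.mul_apply, hτall _ hξ, map_pow,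
      show g (g⁻¹ ζ) = ζ from g.apply_symm_apply ζ] at h
    rw [← pow_mod_orderOf ζ (r ^ j), ← hζ.eq_orderOf] at h
    exact (hζ.pow_inj (by norm_num) (Nat.mod_lt _ (by norm_num)) h).symm
  have hpar : ∀ i : ℕ, r % 12 ∈ ({1, 5, 7, 11} : Finset ℕ) →
      r ^ i % 12 = if Even i then 1 else r % 12 := by
    intro i hi
    induction i with
    | zero => simp
    | succ i ih =>
      rw [pow_succ, Nat.mul_mod, ih]
      simp only [Finset.mem_insert, Finset.mem_singleton] at hi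
      rcases hi with h | h | h | h <;> by_cases he : Even i <;> simp [he, h, Nat.even_add_one]
  have hr12 : r % 12 ∈ ({1, 5, 7, 11} : Finset ℕ) := by
    have h2 : ¬ 2 ∣ r := fun h =>
      hrS.1.2.1 ((Nat.prime_dvd_prime_iff_eq Nat.prime_two hr).mp h).symm
    have h3 : ¬ 3 ∣ r := fun h =>
      hrS.1.2.2 ((Nat.prime_dvd_prime_iff_eq Nat.prime_three hr).mp h).symm
    simp only [Finset.mem_insert, Finset.mem_singleton]
    omega
  obtain ⟨hodd, hr'⟩ : Odd j ∧ r % 12 = 11 := by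
    have h := hpar j hr12
    rw [hr11] at h
    by_cases he : Even j
    · rw [if_pos he] at h; omega
    · rw [if_neg he] at h; exact ⟨Nat.not_even_iff_odd.mp he, h.symm⟩
  refine ⟨r, hr, hrS.1.1, hgood, hr', fun h3 => hktr ?_⟩
  have hmatσ : RootIrred.mat (p := 3) hΔ σ = RootIrred.mat hΔ (g * τ ^ j * g⁻¹) := by
    have h1 : RootIrred.mat (p := 3) hΔ ((g * τ ^ j * g⁻¹)⁻¹ * σ) = 1 :=
      hLmat _ ((IntermediateField.mem_fixingSubgroup_iff L _).mpr fun x hx => by
        rw [AlgEquiv.mul_apply, hgj x (le_sup_left (a := L) hx)]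
        exact (g * τ ^ j * g⁻¹).symm_apply_apply x)
    rw [show σ = g * τ ^ j * g⁻¹ * ((g * τ ^ j * g⁻¹)⁻¹ * σ) by group, map_mul, h1, mul_one]
  have htτ : (RootIrred.mat (p := 3) hΔ τ).trace = 0 := by
    have := EC.Frobenius.isElliptic_map_rat hΔ
    have := EC.Frobenius.moduleFinite_torsion (W.map (Int.castRingHom ℚ)) 3
    have ht := (EC.Frobenius.trace_det_charpoly (W := W) hr hgood (Ne.symm hrS.1.2.2) hA hτ).1
    refine ((LinearMap.trace_eq_matrix_trace (ZMod 3) (RootIrred.torsBasis hΔ) _).symm.trans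
      ht).trans ?_
    rwa [ZMod.intCast_zmod_eq_zero_iff_dvd]
  show (RootIrred.mat (p := 3) hΔ σ).trace = 0
  rw [hmatσ, map_mul, map_mul, ← RootIrred.conjBy, RootIrred.trace_conjBy, map_pow]
  set m := RootIrred.mat (p := 3) hΔ τ
  obtain ⟨i, rfl⟩ := hodd
  have hm : m * m = -m.det • (1 : M₃) := by
    rw [RootIrred.sq_eq, htτ, zero_smul, zero_sub, neg_smul]
  rw [pow_succ, pow_mul, sq, hm, smul_pow, one_pow, smul_one_mul, Matrix.trace_smul, htτ, smul_zero]

end Fermat.Agent.MazurPrinciple
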