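import Fermat.Agent.Semistable.Galois
import Fermat.Agent.Kummer.Main

/-!
# Divisors and functions fixed by Galois elements

A class fixed by a set of Galois elements has a divisor fixed by them, and a function with such a
divisor is fixed up to constants.
-/

set_option autoImplicit false

noncomputable section

namespace Fermat.Agent.MazurPrinciple

open HahnSeries AlgebraicCurve ModularCurve Fermat.Agent.Reduction
open Fermat.Agent.Semistable (cuspInf ord_cuspInf galPlace galPlace_cuspInf)

local notation "ℚbar" => AlgebraicClosure ℚ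
local notation "Γℚbar" => AlgebraicClosure ℚ ≃ₐ[ℚ] AlgebraicClosure ℚ

/-- The Galois action on functions. -/
abbrev galFun (N : ℕ) (σ : Γℚbar) : modularFunctionFieldBar N ≃+* modularFunctionFieldBar N :=
  arithmeticRingAut (modularFunctionFieldFull N) σ

theorem galois_fun_ord {N : ℕ} (σ : Γℚbar) {m : ℤ} {D : Divisor ℚbar (modularFunctionFieldBar N)}
    {f : modularFunctionFieldBar N} (h : ∀ v, v.ord f = m * D v)
    (v : Place ℚbar (modularFunctionFieldBar N)) :
    v.ord (galFun N σ f) =
      m * (arithmeticGalois (modularFunctionFieldFull N) σ • D) v := by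
  obtain ⟨u, rfl⟩ : ∃ u, arithmeticGalois (modularFunctionFieldFull N) σ • u = v :=
    ⟨_, smul_inv_smul _ v⟩
  rw [SemilinearAut.divisor_smul_apply_smul, ← h]
  exact SemilinearAut.ord_smul (arithmeticGalois (modularFunctionFieldFull N) σ) u f

/-- **A class fixed by a set of Galois elements has a divisor fixed by them.** -/
theorem exists_fixed_div {N : ℕ} [NeZero N] (H : Set Γℚbar) {x : JZero N}
    (hfix : ∀ σ ∈ H, σ • x = x) :
    ∃ D : Divisor.degZero (K := ℚbar) (F := modularFunctionFieldBar N), Pic0.mk D = x ∧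
      ∀ σ ∈ H, arithmeticGalois (modularFunctionFieldFull N) σ •
        (D : Divisor ℚbar (modularFunctionFieldBar N)) = D := by
  have := Kummer.isFunctionField_FL (N := N) Kummer.ιbar
  obtain ⟨D, rfl⟩ := Pic0.mk_surjective x
  set P₀ := cuspInf N
  have hdeg : Divisor.degree (D : Divisor ℚbar (modularFunctionFieldBar N)) = 0 :=
    Divisor.mem_degZero.mp D.2
  set V : ℤ → Submodule ℚbar (modularFunctionFieldBar N) :=
    fun n => riemannRochSpace
      (Finsupp.single P₀ n + (D : Divisor ℚbar (modularFunctionFieldBar N))) with hV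
  have hVmem : ∀ {n : ℤ} {u : modularFunctionFieldBar N}, u ≠ 0 →
      (u ∈ V n ↔ ∀ v,
        0 ≤ v.ord u + (Finsupp.single P₀ n + (D : Divisor ℚbar (modularFunctionFieldBar N))) v) :=
    fun {n u} hu => by
      rw [hV, FF.mem_riemannRochSpace]
      exact forall_congr' fun v => by
        rw [FF.mem_ordGE_of_ne_zero v hu]
        omega
  have hbound : ∀ n, (∃ u ∈ V n, u ≠ (0 : modularFunctionFieldBar N)) → 0 ≤ n :=
      fun n ⟨u, hu, hu0⟩ => by
    have h1 : 0 ≤ Divisor.degree (FF.divOf ℚbar u +
        (Finsupp.single P₀ n + (D : Divisor ℚbar (modularFunctionFieldBar N)))) := by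
      rw [FF.degree_eq_sum]
      refine Finset.sum_nonneg fun v _ => mul_nonneg ?_ (Int.natCast_nonneg _)
      have := (hVmem hu0).mp hu v
      rw [Finsupp.add_apply, FF.divOf_apply]
      omega
    rw [map_add, map_add, FF.degree_divOf, hdeg, Divisor.degree_single, FF.deg_eq_one] at h1
    simpa using h1
  obtain ⟨n, ⟨u, hu, hu0⟩, hmin⟩ := Int.exists_least_of_bdd
    (P := fun n => ∃ u ∈ V n, u ≠ (0 : modularFunctionFieldBar N)) ⟨0, hbound⟩ (by
      obtain ⟨γ, hγ⟩ := FF.exists_riemann_inequality ℚbar (modularFunctionFieldBar N)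
      refine ⟨|γ|, Submodule.exists_mem_ne_zero_of_ne_bot fun hb => ?_⟩
      have h1 := hγ (Finsupp.single P₀ |γ| + (D : Divisor ℚbar (modularFunctionFieldBar N)))
      rw [map_add, hdeg, Divisor.degree_single, FF.deg_eq_one, FF.ell,
        show riemannRochSpace
            (Finsupp.single P₀ |γ| + (D : Divisor ℚbar (modularFunctionFieldBar N))) = ⊥ from hb,
        finrank_bot] at h1
      have := le_abs_self γ
      push_cast at h1
      omega)
  have hone : ∀ z ∈ V n, ∃ c : ℚbar, z = algebraMap ℚbar (modularFunctionFieldBar N) c * u := by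
    intro z hz
    set i : ℤ :=
      -((Finsupp.single P₀ n + (D : Divisor ℚbar (modularFunctionFieldBar N))) P₀) with hi
    have low : ∀ {y : modularFunctionFieldBar N}, y ∈ V n → y ≠ 0 →
        (y : LaurentSeries ℚbar).coeff i = 0 → False := by
      intro y hy hy0 hyi
      have hy' : y ∈ V (n - 1) := by
        rw [hVmem hy0]
        intro v
        have h1 := (hVmem hy0).mp hy v
        rw [Finsupp.add_apply] at h1 ⊢
        rcases eq_or_ne v P₀ with rfl | hv
        · rw [Finsupp.single_eq_same] at h1 ⊢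
          have hne : (y : LaurentSeries ℚbar).order ≠ i := fun he => by
            rw [← he] at hyi
            exact hy0 (Subtype.ext (HahnSeries.coeff_order_eq_zero.mp hyi))
          rw [ord_cuspInf] at h1 ⊢
          rw [hi, Finsupp.add_apply, Finsupp.single_eq_same] at hne
          omega
        · rw [Finsupp.single_eq_of_ne hv] at h1 ⊢
          omega
      have := hmin (n - 1) ⟨y, hy', hy0⟩
      omega
    have hui : (u : LaurentSeries ℚbar).coeff i ≠ 0 := fun h => low hu hu0 h
    refine ⟨(z : LaurentSeries ℚbar).coeff i / (u : LaurentSeries ℚbar).coeff i,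
      sub_eq_zero.mp (by_contra fun hne => low ?_ hne ?_)⟩
    · exact Submodule.sub_mem _ hz (by rw [← Algebra.smul_def]; exact Submodule.smul_mem _ _ hu)
    · push_cast
      rw [← map_div₀, HahnSeries.coeff_sub, coeff_algebraMap_mul, div_mul_cancel₀ _ hui, sub_self]
  set E : Divisor ℚbar (modularFunctionFieldBar N) :=
    FF.divOf ℚbar u + (D : Divisor ℚbar (modularFunctionFieldBar N)) with hE
  have hEdeg : Divisor.degree E = 0 := by rw [hE, map_add, FF.degree_divOf, hdeg, add_zero]
  have hmk : Pic0.mk ⟨E, Divisor.mem_degZero.mpr hEdeg⟩ = Pic0.mk D := by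
    refine sub_eq_zero.mp ((QuotientAddGroup.eq_zero_iff _).mpr
      (AddSubgroup.mem_addSubgroupOf.mpr ⟨u, hu0, fun v => ?_⟩))
    change (E - (D : Divisor ℚbar (modularFunctionFieldBar N))) v = _
    rw [hE, add_sub_cancel_right, FF.divOf_apply]
  refine ⟨⟨E, Divisor.mem_degZero.mpr hEdeg⟩, hmk, fun σ hσ => ?_⟩
  set g := arithmeticGalois (modularFunctionFieldFull N) σ
  have hdiff := hfix σ hσ
  rw [← hmk, galois_smul_pic0_def, SemilinearAut.pic0_smul_mk, ← sub_eq_zero] at hdiff
  obtain ⟨f, hf, hfd⟩ :=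
    AddSubgroup.mem_addSubgroupOf.mp ((QuotientAddGroup.eq_zero_iff _).mp hdiff)
  have hfd' : ∀ v, v.ord f = (g • E) v - E v := fun v => (hfd v).symm
  have hg0 : g • P₀ = P₀ := galPlace_cuspInf σ N
  have hfu : f * u ∈ V n := by
    rw [hVmem (mul_ne_zero hf hu0)]
    intro v
    obtain ⟨w, rfl⟩ : ∃ w, g • w = v := ⟨g⁻¹ • v, smul_inv_smul g v⟩
    rw [(g • w).ord_mul hf hu0, hfd', SemilinearAut.divisor_smul_apply_smul]
    have h1 := (hVmem hu0).mp hu w
    have h2 : (Finsupp.single P₀ n : Divisor ℚbar (modularFunctionFieldBar N)) (g • w) =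
        Finsupp.single P₀ n w := by
      conv_lhs => rw [← hg0, ← SemilinearAut.smul_single, SemilinearAut.divisor_smul_apply_smul]
    simp only [hE, Finsupp.add_apply, FF.divOf_apply, h2] at h1 ⊢
    omega
  obtain ⟨c, hc⟩ := hone _ hfu
  have hfc : f = algebraMap ℚbar (modularFunctionFieldBar N) c := mul_right_cancel₀ hu0 hc
  refine sub_eq_zero.mp (Finsupp.ext fun v => ?_)
  show (g • E) v - E v = (0 : ℤ)
  rw [← hfd', hfc, FF.ord_algebraMap]

/-- A function with fixed divisor is fixed up to constants. -/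
theorem galois_eq_const_mul {N : ℕ} [NeZero N] {m : ℤ}
    {D : Divisor ℚbar (modularFunctionFieldBar N)} {f : modularFunctionFieldBar N} (hf : f ≠ 0)
    (h : ∀ v, v.ord f = m * D v) {σ : Γℚbar}
    (hD : arithmeticGalois (modularFunctionFieldFull N) σ • D = D) :
    ∃ c : ℚbar, c ≠ 0 ∧ galFun N σ f = algebraMap ℚbar (modularFunctionFieldBar N) c * f := by
  have := Kummer.isFunctionField_FL (N := N) Kummer.ιbar
  have hg : galFun N σ f ≠ 0 := (map_ne_zero _).mpr hf
  have halg := (FF.forall_ord_eq_zero_iff (K := ℚbar) (f := galFun N σ f / f)).mp fun v => by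
    rw [FF.ord_div v hg hf, galois_fun_ord σ h v, hD, h, sub_self]
  obtain ⟨c, hc⟩ := minpoly.mem_range_of_degree_eq_one ℚbar (galFun N σ f / f)
    (IsAlgClosed.degree_eq_one_of_irreducible ℚbar (minpoly.irreducible halg.isIntegral))
  refine ⟨c, fun h0 => ?_, by rw [hc, div_mul_cancel₀ _ hf]⟩
  rw [h0, map_zero] at hc
  exact div_ne_zero hg hf hc.symm

end Fermat.Agent.MazurPrinciple
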