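import Fermat.Agent.MazurPrinciple.TSer
import Fermat.Agent.Kummer.NormSeries
import Fermat.Agent.LevelLowerP.ArithRelation

/-!
# `T_ℓ` on Kummer functions

`T_ℓ` on divisor classes of `J₀(N)` with their Kummer functions, and the commutation of its series
lift with `w_q` on functions.
-/

set_option autoImplicit false

noncomputable section

namespace Fermat.Agent.MazurPrinciple

open HahnSeries AlgebraicCurve ModularCurve Fermat.Agent.Reduction

local notation "ℚbar" => AlgebraicClosure ℚ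

/-- The expansion at `∞`. -/
abbrev expN (N : ℕ) : modularFunctionFieldBar N →ₐ[ℚbar] LaurentSeries ℚbar :=
  (modularFunctionFieldBar N).val

/-- `T_ℓ` on divisors and functions. -/
theorem exists_hecke_div (N : ℕ) [NeZero N] (ℓ : Nat.Primes) (hℓN : ¬ (ℓ : ℕ) ∣ N) {m : ℤ}
    (D : Divisor.degZero (K := ℚbar) (F := modularFunctionFieldBar N))
    {f : modularFunctionFieldBar N} (hf : f ≠ 0)
    (hfD : ∀ v, v.ord f = m * (D : Divisor ℚbar (modularFunctionFieldBar N)) v) :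
    haveI : NeZero (ℓ : ℕ) := ⟨ℓ.2.ne_zero⟩
    ∃ (D' : Divisor.degZero (K := ℚbar) (F := modularFunctionFieldBar N))
      (f' : modularFunctionFieldBar N), f' ≠ 0 ∧
      Pic0.mk D' = heckeOperatorBar N ℓ (Pic0.mk D) ∧
      (∀ v, v.ord f' = m * (D' : Divisor ℚbar (modularFunctionFieldBar N)) v) ∧
      (f' : LaurentSeries ℚbar) = tSer ℚbar ℓ (f : LaurentSeries ℚbar) := by
  have : NeZero (ℓ : ℕ) := ⟨ℓ.2.ne_zero⟩
  have : Fact (ℓ : ℕ).Prime := ⟨ℓ.2⟩
  obtain ⟨f', hf', hser, hcor⟩ := Kummer.exists_norm_lift hℓN hf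
  set α := heckeAlphaBar ℚbar N ℓ with hαdef
  set β := heckeBetaBar ℚbar N ℓ with hβdef
  have hαi : α.toRingHom.IsIntegral := FF.isIntegralAlong α
  have hβi : β.toRingHom.IsIntegral := FF.isIntegralAlong β
  have hfin : FiniteAlong ℚbar α := FF.finiteAlong α
  have hFI := FF.fundamentalIdentityAlong β hβi
  have hN := FF.normFormulaAlong α hfin
  refine ⟨Pic0.degZeroCorrespondence β α hβi hαi hFI D, f', hf', ?_, fun v => ?_, hser⟩
  · rw [heckeOperatorBar_apply]
    exact ((congrArg (fun T => T (Pic0.mk D)) (heckeOperatorAlong_eq hαi hβi hFI hfin hN)).trans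
      (Pic0.correspondence_mk β α hβi hαi hFI hfin hN D)).symm
  · rw [← hcor hβi hαi (m • (D : Divisor ℚbar (modularFunctionFieldBar N))) (fun w => by
      rw [Finsupp.smul_apply, smul_eq_mul, hfD]) v, map_zsmul, Finsupp.smul_apply, smul_eq_mul]
    rfl

open Fermat.Agent.Semistable (ALData wEquiv) in
/-- The lifts of `T_ℓ` commute with `w_q`. -/
theorem wEquiv_tSer {M q : ℕ} [NeZero M] [NeZero q] [Fact q.Prime] (hqM : ¬ q ∣ M)
    (w : ALData q M) (ℓ : ℕ) [NeZero ℓ] [Fact ℓ.Prime] (hℓ : ¬ ℓ ∣ M * q)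
    {u u' : modularFunctionFieldBar (M * q)}
    (hu : (u' : LaurentSeries ℚbar) = tSer ℚbar ℓ (u : LaurentSeries ℚbar)) :
    (wEquiv w (Fact.out : q.Prime) u' : LaurentSeries ℚbar) =
      tSer ℚbar ℓ (wEquiv w (Fact.out : q.Prime) u : LaurentSeries ℚbar) := by
  set w' := wEquiv w (Fact.out : q.Prime)
  obtain ⟨y, hy, hye⟩ := LevelLowerP.exists_embed_eq_heckeSys (ℓ := ℓ) Kummer.ιbar (M * q) hℓ u
  obtain ⟨z, hz, hze⟩ :=
    LevelLowerP.exists_embed_eq_heckeSys (ℓ := ℓ) Kummer.ιbar (M * q) hℓ (w' u)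
  have hyu : y = u' := Subtype.ext (hy.trans hu.symm)
  subst hyu
  suffices h : w' y = z by rw [h]; exact hz
  refine Kummer.embed_injective Kummer.ιbar (M * q) ?_
  rw [LevelLowerP.embed_wEquiv hqM w, hye, hze, LevelLowerP.embed_wEquiv hqM w,
    LevelLowerP.funOp_heckeSys_wSys hqM hℓ fun γ hγ => Kummer.slComp_embed Kummer.ιbar u hγ]

end Fermat.Agent.MazurPrinciple
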