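import Fermat.Agent.MazurPrinciple.Kum
import Fermat.Agent.MazurPrinciple.Hecke
import Fermat.Agent.GalRep.DatumJZero
import Fermat.Agent.LevelLowerP.ArithTwist

/-!
# Series lifts of all Hecke operators on Kummer functions

The series lift of all Hecke operators on Kummer functions: for `ℓ ∣ N` the norm series `N_ℓ` lifts
the conjugate `heckeTw` of `heckeOperatorBar` by the twist of the Kummer description.
-/

set_option autoImplicit false

noncomputable section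

namespace Fermat.Agent.MazurPrinciple

open HahnSeries AlgebraicCurve ModularCurve CongruenceSubgroup Fermat.Agent.Reduction
open scoped MatrixGroups
open Fermat.Agent.Kummer (Tors kummer coe_kummer twist twist_twist ιbar multHom multHom_eq
  isKummer_multHom IsKummer)
open Fermat.Agent.Cosets (parEllHoms)
open Fermat.Agent.LevelLowerP (seriesNorm seriesNorm_mul seriesNorm_one seriesNorm_C
  seriesNorm_ne_zero coeffMap_seriesNorm)

local notation "ℚbar" => AlgebraicClosure ℚ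
local notation "Γℚbar" => AlgebraicClosure ℚ ≃ₐ[ℚ] AlgebraicClosure ℚ

/-! ### The series -/

/-- The series of the Hecke operator at `ℓ` for level `N`. -/
def hSer (R : Type*) [CommRing R] (N ℓ : ℕ) [NeZero ℓ] : LaurentSeries R →*₀ LaurentSeries R :=
  if ℓ ∣ N then
    { toFun := seriesNorm ℓ
      map_zero' := seriesNorm_zero ℓ
      map_one' := seriesNorm_one ℓ
      map_mul' := seriesNorm_mul ℓ }
  else tSer R ℓ

theorem hSer_of_dvd {R : Type*} [CommRing R] {N ℓ : ℕ} [NeZero ℓ] (h : ℓ ∣ N)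
    (y : LaurentSeries R) : hSer R N ℓ y = seriesNorm ℓ y := by
  rw [hSer, if_pos h]; rfl

theorem hSer_of_not_dvd {R : Type*} [CommRing R] {N ℓ : ℕ} [NeZero ℓ] (h : ¬ ℓ ∣ N) :
    hSer R N ℓ = tSer R ℓ := by
  rw [hSer, if_neg h]

theorem hSer_ne_zero {K : Type*} [Field K] (N ℓ : ℕ) [NeZero ℓ] {y : LaurentSeries K}
    (hy : y ≠ 0) : hSer K N ℓ y ≠ 0 := by
  by_cases h : ℓ ∣ N
  · rw [hSer_of_dvd h]; exact seriesNorm_ne_zero ℓ hy
  · rw [hSer_of_not_dvd h]; exact tSer_ne_zero ℓ hy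

theorem coeffMap_hSer {R S : Type*} [CommRing R] [CommRing S] (f : R →+* S) (N ℓ : ℕ) [NeZero ℓ]
    (y : LaurentSeries R) : coeffMap f (hSer R N ℓ y) = hSer S N ℓ (coeffMap f y) := by
  by_cases h : ℓ ∣ N
  · rw [hSer_of_dvd h, hSer_of_dvd h, coeffMap_seriesNorm]
  · rw [hSer_of_not_dvd h, hSer_of_not_dvd h, coeffMap_tSer]

theorem hSer_algebraMap {K : Type*} [Field K] (N ℓ : ℕ) [NeZero ℓ] (c : K) :
    hSer K N ℓ (algebraMap K (LaurentSeries K) c) =
      algebraMap K (LaurentSeries K) (c ^ (if ℓ ∣ N then ℓ else ℓ + 1)) := by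
  by_cases h : ℓ ∣ N
  · rw [hSer_of_dvd h, if_pos h, algebraMap_laurentSeries_eq_single,
      algebraMap_laurentSeries_eq_single, ← HahnSeries.C_apply, seriesNorm_C, HahnSeries.C_apply]
  · rw [hSer_of_not_dvd h, if_neg h, tSer_algebraMap]

section Reduction

variable {K k : Type*} [Field K] [Field k] {A : ValuationSubring K} {π : A →+* k}

theorem red_hSer (N ℓ : ℕ) [NeZero ℓ] {y : LaurentSeries K} {x : LaurentSeries k}
    (h : Red A π y x) : Red A π (hSer K N ℓ y) (hSer k N ℓ x) := by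
  obtain ⟨z, rfl, rfl⟩ := red_iff_exists.mp h
  exact red_iff_exists.mpr ⟨hSer A N ℓ z, coeffMap_hSer _ _ _ _, coeffMap_hSer _ _ _ _⟩

theorem NRed.hSer {y : LaurentSeries K} {g : LaurentSeries k} (N ℓ : ℕ) [NeZero ℓ]
    (h : NRed A π y g) : NRed A π (MazurPrinciple.hSer K N ℓ y) (MazurPrinciple.hSer k N ℓ g) :=
  h.map (fun c hc => ⟨c ^ (if ℓ ∣ N then ℓ else ℓ + 1), pow_ne_zero _ hc, hSer_algebraMap N ℓ c⟩)
    (fun _ _ => red_hSer N ℓ) fun _ => hSer_ne_zero N ℓ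

end Reduction

/-! ### The twist of the torsion and the conjugate operators -/

section Tw

variable (N : ℕ) [NeZero N] (n : ℕ) [NeZero n]

theorem kummer_multHom_symm (x : Tors N n) :
    (multHom ιbar N n ((kummer N n).symm (multHom ιbar N n x)) : Additive (Gamma0 N) →+ ZMod n) =
      (kummer N n x : Additive (Gamma0 N) →+ ZMod n) := by
  have h := coe_kummer N ((kummer N n).symm (multHom ιbar N n x))
  rw [AddEquiv.apply_symm_apply] at h
  rw [coe_kummer, h, twist_twist]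

/-- **The twist of `J₀(N)[n]`**: on multipliers it is the conjugation by `!![0, -1; N, 0]`. -/
def twistPt : Tors N n ≃+ Tors N n where
  toFun x := (kummer N n).symm (multHom ιbar N n x)
  invFun x := (kummer N n).symm (multHom ιbar N n x)
  left_inv x := (kummer N n).injective (Subtype.ext (by
    rw [AddEquiv.apply_symm_apply, kummer_multHom_symm]))
  right_inv x := (kummer N n).injective (Subtype.ext (by
    rw [AddEquiv.apply_symm_apply, kummer_multHom_symm]))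
  map_add' x y := by rw [map_add, map_add]

theorem coe_kummer_twistPt (x : Tors N n) :
    (kummer N n (twistPt N n x) : Additive (Gamma0 N) →+ ZMod n) =
      (multHom ιbar N n x : Additive (Gamma0 N) →+ ZMod n) :=
  congrArg Subtype.val ((kummer N n).apply_symm_apply _)

theorem coe_multHom_twistPt (x : Tors N n) :
    (multHom ιbar N n (twistPt N n x) : Additive (Gamma0 N) →+ ZMod n) =
      (kummer N n x : Additive (Gamma0 N) →+ ZMod n) := kummer_multHom_symm N n x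

theorem twistPt_twistPt (x : Tors N n) : twistPt N n (twistPt N n x) = x :=
  (twistPt N n).left_inv x

/-- The conjugate of the Hecke operator by the twist. -/
def heckeTw (ℓ : Nat.Primes) : Tors N n →+ Tors N n :=
  AddMonoidHom.mk' (fun x => twistPt N n (GalRep.torsHecke N n ℓ (twistPt N n x))) fun x y => by
    have e : GalRep.torsHecke N n ℓ (twistPt N n x + twistPt N n y) =
        GalRep.torsHecke N n ℓ (twistPt N n x) + GalRep.torsHecke N n ℓ (twistPt N n y) :=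
      Subtype.ext (map_add (heckeOperatorBar N ℓ) _ _)
    rw [map_add, e, map_add]

theorem heckeTw_twistPt (ℓ : Nat.Primes) (x : Tors N n) :
    heckeTw N n ℓ (twistPt N n x) = twistPt N n (GalRep.torsHecke N n ℓ x) := by
  show twistPt N n (GalRep.torsHecke N n ℓ (twistPt N n (twistPt N n x))) = _
  rw [twistPt_twistPt]

omit [NeZero N] in
omit [NeZero n] in
theorem op_eq_heckeTHom {ℓ : ℕ} [Fact ℓ.Prime] (h : ¬ ℓ ∣ N)
    (φ : Additive (Gamma0 N) →+ ZMod n) :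
    (Ihara.heckeSys N ℓ h).op ℤ (ZMod n) φ =
      Periods.heckeTHom (ZMod n) (ZMod n) (Fact.out : ℓ.Prime) h φ := by
  rw [← Ihara.heckeSys_op_eq (R := ZMod n) h]
  refine AddMonoidHom.ext fun γ => ?_
  obtain ⟨γ, rfl⟩ := Additive.ofMul.surjective γ
  rw [Ihara.CosetSys.op_apply, Ihara.CosetSys.op_apply]

/-- Away from the level nothing changes. -/
theorem heckeTw_of_not_dvd (ℓ : Nat.Primes) (h : ¬ (ℓ : ℕ) ∣ N) (x : Tors N n) :
    heckeTw N n ℓ x = GalRep.torsHecke N n ℓ x := by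
  have : Fact (ℓ : ℕ).Prime := ⟨ℓ.2⟩
  refine (kummer N n).injective (Subtype.ext ?_)
  show (kummer N n (twistPt N n _) : Additive (Gamma0 N) →+ ZMod n) = _
  rw [coe_kummer_twistPt, Kummer.kummer_heckeT N ℓ h x (GalRep.torsHecke N n ℓ x) rfl]
  have h1 := Kummer.kummer_heckeT N ℓ h (twistPt N n x) (GalRep.torsHecke N n ℓ (twistPt N n x)) rfl
  rw [coe_kummer_twistPt, coe_kummer, ← op_eq_heckeTHom N n h] at h1
  rw [← op_eq_heckeTHom N n h, coe_kummer, LevelLowerP.twist_heckeSys h, ← h1, twist_twist]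

theorem coe_multHom_heckeTw (ℓ : Nat.Primes) (h : (ℓ : ℕ) ∣ N) (x : Tors N n) :
    (multHom ιbar N n (heckeTw N n ℓ x) : Additive (Gamma0 N) →+ ZMod n) =
      haveI : NeZero (ℓ : ℕ) := ⟨ℓ.2.ne_zero⟩
      Periods.heckeUHom (ZMod n) (ZMod n) h
        (multHom ιbar N n x : Additive (Gamma0 N) →+ ZMod n) := by
  show (multHom ιbar N n (twistPt N n _) : Additive (Gamma0 N) →+ ZMod n) = _
  rw [coe_multHom_twistPt, Kummer.kummer_heckeU N ℓ h (twistPt N n x) _ rfl, coe_kummer_twistPt]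

end Tw

/-! ### The lift on divisors and functions -/

theorem mk_mem_tors {N : ℕ} {m : ℕ}
    (D : Divisor.degZero (K := ℚbar) (F := modularFunctionFieldBar N))
    {f : modularFunctionFieldBar N} (hf : f ≠ 0)
    (hfD : ∀ v, v.ord f = (m : ℤ) * (D : Divisor ℚbar (modularFunctionFieldBar N)) v) :
    Pic0.mk D ∈ Tors N m := by
  rw [Pic0.mem_torsion]
  change (((m : ℤ) • D : Divisor.degZero (K := ℚbar) (F := modularFunctionFieldBar N)) :
    Pic0 ℚbar (modularFunctionFieldBar N)) = 0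
  rw [QuotientAddGroup.eq_zero_iff, AddSubgroup.mem_addSubgroupOf]
  exact ⟨f, hf, fun v => by
    rw [AddSubgroupClass.coe_zsmul, Finsupp.smul_apply, smul_eq_mul, hfD]⟩

open Fermat.Agent.Kummer.MeroH in
/-- A root of an embedded function, invariant and meromorphic at the cusps, is embedded. -/
theorem exists_pow_eq_of_invariant {N : ℕ} [NeZero N] {m : ℕ} [NeZero m] {R : Kummer.MeroH}
    (hRinv : ∀ γ ∈ Gamma0 N, slComp γ R = R) (hRc : MeroAtCusps N R)
    {F₀ : modularFunctionFieldBar N} (hF₀ : F₀ ≠ 0) (hpow : R ^ m = Kummer.embed ιbar N F₀) :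
    ∃ h : modularFunctionFieldBar N, h ^ m = F₀ := by
  obtain ⟨z, hz⟩ := Kummer.exists_embed_eq hRinv hRc
  have ht : IsExp 1 R (coeffMap (RingHom.id ℂ) (z : LaurentSeries ℂ)) :=
    hz ▸ Kummer.isExp_embed (RingHom.id ℂ) z
  have htn : coeffMap (RingHom.id ℂ) (z : LaurentSeries ℂ) ^ m =
      coeffMap ιbar (F₀ : LaurentSeries ℚbar) :=
    ((ht.pow m).unique one_pos (Kummer.isExp_embed ιbar F₀)).2 hpow
  have h0 : (F₀ : LaurentSeries ℚbar) ≠ 0 := fun h0 => hF₀ (Subtype.ext h0)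
  have hord : (coeffMap ιbar (F₀ : LaurentSeries ℚbar)).order =
      (F₀ : LaurentSeries ℚbar).order := by
    refine le_antisymm (HahnSeries.order_le_of_coeff_ne_zero ?_)
      (HahnSeries.order_le_of_coeff_ne_zero ?_)
    · rw [coeffMap_coeff]
      exact (map_ne_zero ιbar).2 (HahnSeries.coeff_order_eq_zero.not.2 h0)
    · intro h1
      refine HahnSeries.coeff_order_eq_zero.not.2 ((map_ne_zero (coeffMap ιbar)).2 h0) ?_
      rw [coeffMap_coeff, h1, map_zero]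
  have hdvd : (m : ℤ) ∣ (F₀ : LaurentSeries ℚbar).order := by
    rw [← hord, ← htn, HahnSeries.order_pow, nsmul_eq_mul]
    exact dvd_mul_right _ _
  obtain ⟨h, hh⟩ := Kummer.exists_embed_eq_of_coeff ιbar hRinv hRc ht
    (Kummer.exists_eq_coeff_of_pow ιbar (NeZero.ne m) _ hdvd htn)
  exact ⟨h, Kummer.embed_injective ιbar N (by rw [map_pow, hh, hpow])⟩

open Fermat.Agent.Kummer.MeroH in
/-- `heckeTw` at `ℓ ∣ N` on divisors and functions. -/
theorem exists_hecke_div_dvd (N : ℕ) [NeZero N] (ℓ : Nat.Primes) (hℓN : (ℓ : ℕ) ∣ N) (m : ℕ)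
    [NeZero m] (D : Divisor.degZero (K := ℚbar) (F := modularFunctionFieldBar N))
    {f : modularFunctionFieldBar N} (hf : f ≠ 0)
    (hfD : ∀ v, v.ord f = (m : ℤ) * (D : Divisor ℚbar (modularFunctionFieldBar N)) v) :
    haveI : NeZero (ℓ : ℕ) := ⟨ℓ.2.ne_zero⟩
    ∃ (D' : Divisor.degZero (K := ℚbar) (F := modularFunctionFieldBar N))
      (f' : modularFunctionFieldBar N), f' ≠ 0 ∧
      Pic0.mk D' = (heckeTw N m ℓ ⟨Pic0.mk D, mk_mem_tors D hf hfD⟩ : JZero N) ∧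
      (∀ v, v.ord f' = (m : ℤ) * (D' : Divisor ℚbar (modularFunctionFieldBar N)) v) ∧
      (f' : LaurentSeries ℚbar) = seriesNorm ℓ (f : LaurentSeries ℚbar) := by
  obtain ⟨ℓ, hℓ⟩ := ℓ
  have : NeZero ℓ := ⟨hℓ.ne_zero⟩
  have : Fact ℓ.Prime := ⟨hℓ⟩
  change ℓ ∣ N at hℓN
  obtain ⟨N', rfl⟩ : ∃ N', N = N' * ℓ := ⟨N / ℓ, (Nat.div_mul_cancel hℓN).symm⟩
  have : NeZero N' := ⟨fun h => NeZero.ne (N' * ℓ) (by rw [h, zero_mul])⟩
  have := Kummer.isFunctionField_FL (N := N' * ℓ) ιbar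
  have hfD' : ∀ v, (m : ℤ) * (D : Divisor ℚbar (modularFunctionFieldBar (N' * ℓ))) v = v.ord f :=
    fun v => (hfD v).symm
  obtain ⟨G, hG⟩ := Kummer.exists_root ιbar hf hfD'
  obtain ⟨φ, hGφ⟩ := Kummer.exists_hasMult_root ιbar hf hG
  set x : Tors (N' * ℓ) m := ⟨Pic0.mk D, mk_mem_tors D hf hfD⟩
  have hφ : (multHom ιbar (N' * ℓ) m x : Additive (Gamma0 (N' * ℓ)) →+ ZMod m) = φ :=
    multHom_eq ιbar ⟨D, f, G, rfl, hf, hfD', hG, hGφ⟩
  set S := Ihara.uSys N' ℓ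
  have hmemR := Kummer.hasMult_mem_parEllHoms ιbar hf hfD' hG hGφ
  have hmem : φ ∈ parEllHoms ℤ (Gamma0 (N' * ℓ)) (ZMod m) :=
    fun γ hγ => hmemR γ hγ
  set z := heckeTw (N' * ℓ) m ⟨ℓ, hℓ⟩ x
  obtain ⟨Dz, fz, Gz, hDz, hfz, hfDz, hGz, hGzφ⟩ := isKummer_multHom ιbar z
  have hmz : (multHom ιbar (N' * ℓ) m z : Additive (Gamma0 (N' * ℓ)) →+ ZMod m) =
      S.op ℤ (ZMod m) φ := by
    rw [coe_multHom_heckeTw (N' * ℓ) m ⟨ℓ, hℓ⟩ hℓN, hφ, ← Ihara.uSys_op_eq (R := ZMod m) N' ℓ]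
    refine AddMonoidHom.ext fun γ => ?_
    obtain ⟨γ, rfl⟩ := Additive.ofMul.surjective γ
    rw [Ihara.CosetSys.op_apply, Ihara.CosetSys.op_apply]
  obtain ⟨y, hy, hye⟩ := LevelLowerP.exists_embed_eq_uSys (ℓ := ℓ) ιbar N' f
  have hy0 : y ≠ 0 := fun h0 => seriesNorm_ne_zero ℓ
    (fun h1 => hf (Subtype.ext h1) : (f : LaurentSeries ℚbar) ≠ 0)
    (by rw [← hy, h0]; rfl)
  set R := LevelLowerP.funOp S G / Gz with hR
  have hN : (0 : ℝ) < (N' * ℓ : ℕ) := Nat.cast_pos.2 (NeZero.pos _)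
  have hRinv : ∀ γ ∈ Gamma0 (N' * ℓ), slComp γ R = R := fun γ hγ => by
    have h1 := LevelLowerP.hasMult_funOp S hGφ ⟨γ, hγ⟩
    rw [← hmz] at h1
    rw [hR, map_div₀, h1, hGzφ ⟨γ, hγ⟩,
      mul_div_mul_left _ _ ((map_ne_zero _).2 (Kummer.zeta_ne_zero _))]
  have hRc : MeroAtCusps (N' * ℓ) R := fun δ => by
    obtain ⟨u, hu⟩ := LevelLowerP.meroAtCusps_funOp S (LevelLowerP.det_uRep ℓ)
      (Kummer.meroAtCusps_root ιbar hf hfD' hG) hGφ hmem δ
    obtain ⟨v, hv⟩ := Kummer.meroAtCusps_root ιbar hfz hfDz hGz δ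
    rw [hR, map_div₀]
    exact ⟨_, hu.div hN hv⟩
  obtain ⟨h, hh⟩ := exists_pow_eq_of_invariant (m := m) hRinv hRc (div_ne_zero hy0 hfz) (by
    rw [hR, div_pow, hGz, ← map_pow, hG, map_div₀, hye])
  have hh0 : h ≠ 0 := fun h0 => div_ne_zero hy0 hfz (by rw [← hh, h0, zero_pow (NeZero.ne m)])
  obtain ⟨P, hP, hP0⟩ := HasPrincipalDivisors.exists_divisor (K := ℚbar) h hh0
  refine ⟨Dz + ⟨P, hP0⟩, y, hy0, ?_, fun v => ?_, hy⟩
  · rw [Pic0.mk_add, hDz, add_eq_left]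
    exact (QuotientAddGroup.eq_zero_iff _).2
      (AddSubgroup.mem_addSubgroupOf.2 ⟨h, hh0, fun v => hP v⟩)
  · rw [AddSubgroup.coe_add, Finsupp.add_apply, mul_add, hfDz, hP, ← FF.ord_pow, hh,
      FF.ord_div v hy0 hfz]
    ring

/-- **All Hecke operators on divisors and functions.** -/
theorem exists_hecke_div' (N : ℕ) [NeZero N] (ℓ : Nat.Primes) (m : ℕ) [NeZero m]
    (D : Divisor.degZero (K := ℚbar) (F := modularFunctionFieldBar N))
    {f : modularFunctionFieldBar N} (hf : f ≠ 0)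
    (hfD : ∀ v, v.ord f = (m : ℤ) * (D : Divisor ℚbar (modularFunctionFieldBar N)) v) :
    haveI : NeZero (ℓ : ℕ) := ⟨ℓ.2.ne_zero⟩
    ∃ (D' : Divisor.degZero (K := ℚbar) (F := modularFunctionFieldBar N))
      (f' : modularFunctionFieldBar N), f' ≠ 0 ∧
      Pic0.mk D' = (heckeTw N m ℓ ⟨Pic0.mk D, mk_mem_tors D hf hfD⟩ : JZero N) ∧
      (∀ v, v.ord f' = (m : ℤ) * (D' : Divisor ℚbar (modularFunctionFieldBar N)) v) ∧
      (f' : LaurentSeries ℚbar) = hSer ℚbar N ℓ (f : LaurentSeries ℚbar) := by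
  have : NeZero (ℓ : ℕ) := ⟨ℓ.2.ne_zero⟩
  by_cases h : (ℓ : ℕ) ∣ N
  · obtain ⟨D', f', hf', hD', hfD', hser⟩ := exists_hecke_div_dvd N ℓ h m D hf hfD
    exact ⟨D', f', hf', hD', hfD', by rw [hser, hSer_of_dvd h]⟩
  · obtain ⟨D', f', hf', hD', hfD', hser⟩ := exists_hecke_div N ℓ h D hf hfD
    refine ⟨D', f', hf', ?_, hfD', by rw [hser, hSer_of_not_dvd h]⟩
    rw [hD', heckeTw_of_not_dvd N m ℓ h]
    rfl

variable {k : Type*} [Field k] {A : ValuationSubring ℚbar} {π : A →+* k}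

/-- **All Hecke operators on reduced Kummer functions.** -/
theorem Kum.heckeTw {N : ℕ} [NeZero N] (ℓ : Nat.Primes) {m : ℕ} [NeZero m] {x : Tors N m}
    {g : LaurentSeries k} (h : Kum π (expN N) m (x : JZero N) g) :
    haveI : NeZero (ℓ : ℕ) := ⟨ℓ.2.ne_zero⟩
    Kum π (expN N) m (MazurPrinciple.heckeTw N m ℓ x : JZero N)
      (MazurPrinciple.hSer k N ℓ g) := by
  have : NeZero (ℓ : ℕ) := ⟨ℓ.2.ne_zero⟩
  obtain ⟨D, f, hf, hDx, hfD, hn⟩ := h
  obtain ⟨D', f', hf', hD', hfD', hser⟩ := exists_hecke_div' N ℓ m D hf hfD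
  refine ⟨D', f', hf', hD'.trans ?_, hfD', ?_⟩
  · exact congrArg (fun t => (MazurPrinciple.heckeTw N m ℓ t : JZero N)) (Subtype.ext hDx)
  · rw [IntermediateField.coe_val, hser]
    exact NRed.hSer N ℓ hn

/-- `heckeTw` commutes with Galois. -/
theorem heckeTw_galois (N : ℕ) [NeZero N] (m : ℕ) [NeZero m] (ℓ : Nat.Primes) (σ : Γℚbar)
    (x y : Tors N m) (hy : (y : JZero N) = σ • (x : JZero N)) :
    (heckeTw N m ℓ y : JZero N) = σ • (heckeTw N m ℓ x : JZero N) := by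
  have : NeZero (ℓ : ℕ) := ⟨ℓ.2.ne_zero⟩
  have := Kummer.isFunctionField_FL (N := N) ιbar
  set g := arithmeticGalois (modularFunctionFieldFull N) σ
  obtain ⟨D, hD⟩ := Pic0.mk_surjective (x : JZero N)
  have hx := x.2
  rw [← hD, Pic0.mem_torsion] at hx
  change (((m : ℤ) • D : Divisor.degZero (K := ℚbar) (F := modularFunctionFieldBar N)) :
    Pic0 ℚbar (modularFunctionFieldBar N)) = 0 at hx
  rw [QuotientAddGroup.eq_zero_iff, AddSubgroup.mem_addSubgroupOf] at hx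
  obtain ⟨f, hf, hfD⟩ := hx
  have hfD' : ∀ v, v.ord f = (m : ℤ) * (D : Divisor ℚbar (modularFunctionFieldBar N)) v :=
    fun v => by rw [← hfD v]; simp
  have hσ : ∀ (D₀ : Divisor.degZero (K := ℚbar) (F := modularFunctionFieldBar N))
      (f₀ : modularFunctionFieldBar N),
      (∀ v, v.ord f₀ = (m : ℤ) * (D₀ : Divisor ℚbar (modularFunctionFieldBar N)) v) →
      ∀ v, v.ord (g • f₀) = (m : ℤ) *
        (SemilinearAut.degZeroSMulHom g D₀ : Divisor ℚbar (modularFunctionFieldBar N)) v := by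
    intro D₀ f₀ h v
    obtain ⟨u, rfl⟩ : ∃ u, g • u = v := ⟨g⁻¹ • v, smul_inv_smul g v⟩
    rw [SemilinearAut.ord_smul, SemilinearAut.coe_degZeroSMulHom,
      SemilinearAut.divisor_smul_apply_smul, h]
  have hσf : g • f ≠ 0 := fun h0 => hf (by
    rw [← inv_smul_smul g f, h0, smul_zero])
  obtain ⟨D₁, f₁, hf₁, hD₁, hfD₁, hser₁⟩ := exists_hecke_div' N ℓ m D hf hfD'
  obtain ⟨D₂, f₂, hf₂, hD₂, hfD₂, hser₂⟩ :=
    exists_hecke_div' N ℓ m (SemilinearAut.degZeroSMulHom g D) hσf (hσ D f hfD')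
  have hf₂' : f₂ = g • f₁ := Subtype.ext (by
    rw [hser₂, coe_arithmeticGalois_smul, coe_arithmeticGalois_smul, hser₁, coeffMap_hSer])
  have hD' : D₂ = SemilinearAut.degZeroSMulHom g D₁ := Subtype.ext (Finsupp.ext fun v =>
    mul_left_cancel₀ (Nat.cast_ne_zero.2 (NeZero.ne m) : (m : ℤ) ≠ 0) (by
      rw [← hfD₂ v, hf₂', hσ D₁ f₁ hfD₁ v]))
  have hxeq : x = ⟨Pic0.mk D, mk_mem_tors D hf hfD'⟩ := Subtype.ext hD.symm
  have hyeq : y = ⟨Pic0.mk (SemilinearAut.degZeroSMulHom g D),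
      mk_mem_tors _ hσf (hσ D f hfD')⟩ :=
    Subtype.ext (hy.trans ((congrArg (g • ·) hD.symm).trans (SemilinearAut.pic0_smul_mk g D)))
  rw [hxeq, hyeq, ← hD₁, ← hD₂, hD']
  exact (SemilinearAut.pic0_smul_mk g D₁).symm

/-! ### Commutation with `w_q` -/

theorem det_uRep_pos (ℓ : ℕ) [hℓ : Fact ℓ.Prime] (j : ZMod ℓ) : 0 < (Ihara.uRep ℓ j).det := by
  rw [LevelLowerP.det_uRep]; exact_mod_cast hℓ.out.pos

/-- The norm series as a product of translates, at any level divisible by `ℓ`. -/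
theorem exists_embed_eq_prod_uRep {N ℓ : ℕ} [NeZero N] [hℓ : Fact ℓ.Prime] (hℓN : ℓ ∣ N)
    (x : modularFunctionFieldBar N) :
    haveI : NeZero ℓ := ⟨hℓ.out.ne_zero⟩
    ∃ y : modularFunctionFieldBar N,
      (y : LaurentSeries ℚbar) = seriesNorm ℓ (x : LaurentSeries ℚbar) ∧
      Kummer.embed ιbar N y =
        ∏ j, Kummer.MeroH.intComp (Ihara.uRep ℓ j) (det_uRep_pos ℓ j)
          (Kummer.embed ιbar N x) := by
  have : NeZero ℓ := ⟨hℓ.out.ne_zero⟩
  obtain ⟨N', rfl⟩ : ∃ N', N = N' * ℓ := ⟨N / ℓ, (Nat.div_mul_cancel hℓN).symm⟩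
  have : NeZero N' := ⟨fun h => NeZero.ne (N' * ℓ) (by rw [h, zero_mul])⟩
  obtain ⟨y, hy, hye⟩ := LevelLowerP.exists_embed_eq_uSys (ℓ := ℓ) ιbar N' x
  exact ⟨y, hy, hye⟩

open Fermat.Agent.Ihara (wMat mcoe bezout bezout_eq slMk slMk_mem mcoe_slMk uRep) in
/-- `w_q u_j = g u_{σ j} w_q` with `σ` affine. -/
theorem wMat_uRep (M q ℓ : ℕ) [NeZero M] [hq : Fact q.Prime] (hqM : ¬ q ∣ M)
    [hℓ : Fact ℓ.Prime] (hℓM : ℓ ∣ M) :
    ∃ σ : Equiv.Perm (ZMod ℓ), ∀ j, ∃ g : Gamma0 (M * q),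
      wMat M q * uRep ℓ j = mcoe g * (uRep ℓ (σ j) * wMat M q) := by
  have : NeZero ℓ := ⟨hℓ.out.ne_zero⟩
  obtain ⟨K, hK⟩ := hℓM
  have hb := bezout_eq M q hqM
  have hKZ : (M : ℤ) = ℓ * K := by rw [hK]; push_cast; ring
  set x := (bezout M q).1 with hx
  set y := (bezout M q).2 with hy
  have hM0 : (M : ZMod ℓ) = 0 := by rw [hK]; simp
  have hqx : (q : ZMod ℓ) * (x : ZMod ℓ) = 1 := by
    have := congrArg (fun t : ℤ => (t : ZMod ℓ)) hb
    push_cast at this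
    rw [hM0] at this
    simpa using this
  refine ⟨{ toFun := fun j => -((x : ZMod ℓ) * y) + x * j
            invFun := fun j => (q : ZMod ℓ) * (j + x * y)
            left_inv := fun j => by linear_combination j * hqx
            right_inv := fun j => by linear_combination (j + x * y) * hqx }, fun j => ?_⟩
  set j' : ZMod ℓ := -((x : ZMod ℓ) * y) + x * j with hj'
  set a : ℤ := (q : ℤ) * x - M * q * x * j.val - M * y * ℓ with ha
  set b : ℤ := -(x * y) + q * x ^ 2 * j.val + x * y * ℓ with hbdef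
  set c : ℤ := (M : ℤ) * q * (1 - M * j.val - ℓ) with hc
  obtain ⟨e, he⟩ : (ℓ : ℤ) ∣ b - a * j'.val := by
    rw [← ZMod.intCast_zmod_eq_zero_iff_dvd, ha, hbdef]
    push_cast
    rw [hM0, ZMod.natCast_zmod_val, ZMod.natCast_zmod_val, ZMod.natCast_self, hj']
    linear_combination ((x : ZMod ℓ) * y) * hqx
  set f : ℤ := -((K : ℤ) * y) + K * q * x * j.val + q * x - K * q * (1 - M * j.val - ℓ) * j'.val
    with hf
  have hdet : a * f - e * c = 1 := by
    refine mul_left_cancel₀ (Nat.cast_ne_zero.2 hℓ.out.ne_zero : (ℓ : ℤ) ≠ 0) ?_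
    rw [ha, hc, hf]
    rw [ha, hbdef] at he
    linear_combination ((M : ℤ) * q * (1 - M * j.val - ℓ)) * he
      + (ℓ : ℤ) * ((q : ℤ) * x - M * y + 1) * hb
      + ((q : ℤ) * x - M * q * x * j.val - M * y * ℓ) *
          (y - q * x * j.val + q * (1 - M * j.val - ℓ) * j'.val) * hKZ
  refine ⟨⟨slMk a e c f hdet, slMk_mem _ ?_⟩, ?_⟩
  · rw [hc, Nat.cast_mul]; exact dvd_mul_right _ _
  change wMat M q * uRep ℓ j = mcoe (slMk a e c f hdet) * (uRep ℓ j' * wMat M q)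
  rw [mcoe_slMk, wMat, uRep, uRep, ← hx, ← hy]
  rw [ha, hbdef] at he
  ext i k
  fin_cases i <;> fin_cases k <;>
    simp [Matrix.mul_apply, Fin.sum_univ_two, ha, hc, hf, -ZMod.natCast_val]
  · linear_combination ((M : ℤ) * q) * he - ((q : ℤ) * x) * hb
  · linear_combination (q : ℤ) * he - ((y : ℤ) + q * x * j.val) * hb + y * (1 - (ℓ : ℤ)) * hb
  · linear_combination
      ((M : ℤ) * q) * (-(y : ℤ) + q * x * j.val - q * (1 - M * j.val - ℓ) * j'.val) * hKZ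
      - ((M : ℤ) * q) * hb
  · linear_combination (q : ℤ) * (-(y : ℤ) + q * x * j.val - q * (1 - M * j.val - ℓ) * j'.val) * hKZ
      - ((M : ℤ) * q * j.val + ℓ * q) * hb

open Fermat.Agent.Semistable (ALData wEquiv) in
open Fermat.Agent.Ihara (wMat mcoe uRep wSys det_wMat mcoe_det) in
open Fermat.Agent.Kummer.MeroH in
/-- The lifts of all `T_ℓ`, `ℓ ≠ q`, commute with `w_q`. -/
theorem wEquiv_hSer {M q : ℕ} [NeZero M] [NeZero q] [Fact q.Prime] (hqM : ¬ q ∣ M)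
    (w : ALData q M) (ℓ : ℕ) [NeZero ℓ] [Fact ℓ.Prime] (hℓq : ℓ ≠ q)
    {u u' : modularFunctionFieldBar (M * q)}
    (hu : (u' : LaurentSeries ℚbar) = hSer ℚbar (M * q) ℓ (u : LaurentSeries ℚbar)) :
    (wEquiv w (Fact.out : q.Prime) u' : LaurentSeries ℚbar) =
      hSer ℚbar (M * q) ℓ (wEquiv w (Fact.out : q.Prime) u : LaurentSeries ℚbar) := by
  have hq : q.Prime := Fact.out
  by_cases hℓ : ℓ ∣ M * q
  swap
  · rw [hSer_of_not_dvd hℓ] at hu ⊢
    exact wEquiv_tSer hqM w ℓ hℓ hu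
  have hℓM : ℓ ∣ M := ((Fact.out : ℓ.Prime).dvd_mul.mp hℓ).resolve_right fun h =>
    hℓq ((Nat.prime_dvd_prime_iff_eq Fact.out hq).mp h)
  rw [hSer_of_dvd hℓ] at hu ⊢
  set w' := wEquiv w hq
  obtain ⟨y, hy, hye⟩ := exists_embed_eq_prod_uRep hℓ u
  obtain ⟨z, hz, hze⟩ := exists_embed_eq_prod_uRep hℓ (w' u)
  have hyu : y = u' := Subtype.ext (hy.trans hu.symm)
  subst hyu
  suffices h : w' y = z by rw [h]; exact hz
  refine Kummer.embed_injective ιbar (M * q) ?_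
  have hd : 0 < (wMat M q).det := by rw [det_wMat M q hqM]; exact_mod_cast hq.pos
  have hw : ∀ x, LevelLowerP.funOp (wSys M q hqM) x = intComp (wMat M q) hd x := fun x => by
    rw [LevelLowerP.funOp_apply, Fintype.prod_unique]; rfl
  rw [LevelLowerP.embed_wEquiv hqM w, hye, hze, LevelLowerP.embed_wEquiv hqM w, hw, hw, map_prod]
  obtain ⟨σ, hσ⟩ := wMat_uRep M q ℓ hqM hℓM
  refine (Fintype.prod_equiv σ _ _ fun j => ?_).symm
  obtain ⟨g, hg⟩ := hσ j
  have h1 : 0 < (uRep ℓ (σ j) * wMat M q).det := by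
    rw [Matrix.det_mul]; exact mul_pos (det_uRep_pos ℓ _) hd
  have h2 : 0 < (wMat M q * uRep ℓ j).det := by
    rw [Matrix.det_mul]; exact mul_pos hd (det_uRep_pos ℓ _)
  rw [intComp_intComp hd (det_uRep_pos ℓ j) h2, intComp_intComp (det_uRep_pos ℓ _) hd h1,
    intComp_congr h2 (hg ▸ h2) hg, LevelLowerP.intComp_mcoe_mul _ h1,
    Kummer.slComp_embed ιbar u g.2]

end Fermat.Agent.MazurPrinciple
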