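import Fermat.Agent.MazurPrinciple.BalancedRep
import Fermat.Agent.MazurPrinciple.USer
import Fermat.Agent.MazurPrinciple.FixedDiv
import Fermat.Agent.Semistable.Level

/-!
# Balanced representatives fixed by inertia

Fixed balanced representatives of classes fixed by inertia, Frobenius on the torsion with trivial
reduced Kummer functions, and `w_q` against the Hecke operators.
-/

set_option autoImplicit false

noncomputable section

namespace Fermat.Agent.MazurPrinciple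

open HahnSeries AlgebraicCurve ModularCurve Fermat.Agent.Reduction
open Fermat.Agent.Semistable (ALData wEquiv cuspInf ord_cuspInf galPlace galPlace_cuspInf LevelData
  Ser2 Sheets)
open Fermat.Agent.Kummer (Tors)

local notation "ℚbar" => AlgebraicClosure ℚ
local notation "Γℚbar" => AlgebraicClosure ℚ ≃ₐ[ℚ] AlgebraicClosure ℚ

variable {k : Type*} [Field k] [IsAlgClosed k] {A : ValuationSubring ℚbar} {π : A →+* k} {q M : ℕ}
  [NeZero q] [NeZero M] [Fact q.Prime] [CharP k q]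

section Omega

variable (w : ALData q M)

/-- `w_q` on divisors and classes of level `M q`. -/
abbrev omQ : SemilinearAut ℚbar (modularFunctionFieldBar (M * q)) :=
  SemilinearAut.ofAlgAut (wEquiv w (Fact.out : q.Prime))

theorem galois_omQ (σ : Γℚbar) (x : JZero (M * q)) : σ • (omQ w • x) = omQ w • (σ • x) := by
  have h : arithmeticGalois (modularFunctionFieldFull (M * q)) σ * omQ w =
      omQ w * arithmeticGalois (modularFunctionFieldFull (M * q)) σ := by
    refine Subtype.ext (Prod.ext (RingEquiv.ext fun f => ?_) (mul_one _))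
    exact (Semistable.wEquiv_arithmeticRingAut w Fact.out σ f).symm
  rw [galois_smul_pic0_def, galois_smul_pic0_def, ← mul_smul, h, mul_smul]

theorem omQ_omQ (x : JZero (M * q)) : omQ w • omQ w • x = x := by
  rw [← mul_smul]
  have h : omQ w * omQ w = 1 := by
    rw [omQ, ← map_mul]
    convert map_one SemilinearAut.ofAlgAut
    exact AlgEquiv.ext fun f => Semistable.wEquiv_wEquiv w Fact.out f
  rw [h, one_smul]

theorem heckeTw_omQ (hqM : ¬ q ∣ M) {m : ℕ} [NeZero m] (ℓ : Nat.Primes) (hℓ : (ℓ : ℕ) ≠ q)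
    (x y : Tors (M * q) m) (hy : (y : JZero (M * q)) = omQ w • (x : JZero (M * q))) :
    (heckeTw (M * q) m ℓ y : JZero (M * q)) = omQ w • (heckeTw (M * q) m ℓ x : JZero (M * q)) := by
  have : NeZero (ℓ : ℕ) := ⟨ℓ.2.ne_zero⟩
  have : Fact (ℓ : ℕ).Prime := ⟨ℓ.2⟩
  have := Kummer.isFunctionField_FL (N := M * q) Kummer.ιbar
  obtain ⟨D, hD⟩ := Pic0.mk_surjective (x : JZero (M * q))
  have hx := x.2
  rw [← hD, Pic0.mem_torsion] at hx
  change (((m : ℤ) • D : Divisor.degZero (K := ℚbar) (F := modularFunctionFieldBar (M * q))) :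
    Pic0 ℚbar (modularFunctionFieldBar (M * q))) = 0 at hx
  rw [QuotientAddGroup.eq_zero_iff, AddSubgroup.mem_addSubgroupOf] at hx
  obtain ⟨f, hf, hfD⟩ := hx
  have hfD' : ∀ v, v.ord f =
      (m : ℤ) * (D : Divisor ℚbar (modularFunctionFieldBar (M * q))) v := fun v => by
    rw [← hfD v]; simp
  have hω : ∀ (D₀ : Divisor.degZero (K := ℚbar) (F := modularFunctionFieldBar (M * q)))
      (f₀ : modularFunctionFieldBar (M * q)),
      (∀ v, v.ord f₀ = (m : ℤ) * (D₀ : Divisor ℚbar (modularFunctionFieldBar (M * q))) v) →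
      ∀ v, v.ord (omQ w • f₀) = (m : ℤ) *
        (SemilinearAut.degZeroSMulHom (omQ w) D₀ :
          Divisor ℚbar (modularFunctionFieldBar (M * q))) v := by
    intro D₀ f₀ h v
    obtain ⟨u, rfl⟩ : ∃ u, omQ w • u = v := ⟨_, smul_inv_smul _ v⟩
    rw [SemilinearAut.ord_smul, SemilinearAut.coe_degZeroSMulHom,
      SemilinearAut.divisor_smul_apply_smul, h]
  have hωf : omQ w • f ≠ 0 := (map_ne_zero (wEquiv w (Fact.out : q.Prime))).mpr hf
  obtain ⟨D₁, f₁, hf₁, hD₁, hfD₁, hser₁⟩ := exists_hecke_div' (M * q) ℓ m D hf hfD'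
  obtain ⟨D₂, f₂, hf₂, hD₂, hfD₂, hser₂⟩ :=
    exists_hecke_div' (M * q) ℓ m (SemilinearAut.degZeroSMulHom (omQ w) D) hωf (hω D f hfD')
  have hf₂' : f₂ = omQ w • f₁ := Subtype.ext
    (hser₂.trans (wEquiv_hSer hqM w ℓ hℓ hser₁).symm)
  have hD' : D₂ = SemilinearAut.degZeroSMulHom (omQ w) D₁ := Subtype.ext (Finsupp.ext fun v =>
    mul_left_cancel₀ (Nat.cast_ne_zero.2 (NeZero.ne m) : (m : ℤ) ≠ 0) (by
      rw [← hfD₂ v, hf₂', hω D₁ f₁ hfD₁ v]))
  have hxeq : x = ⟨Pic0.mk D, mk_mem_tors D hf hfD'⟩ := Subtype.ext hD.symm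
  have hyeq : y = ⟨Pic0.mk (SemilinearAut.degZeroSMulHom (omQ w) D),
      mk_mem_tors _ hωf (hω D f hfD')⟩ :=
    Subtype.ext (hy.trans ((congrArg (omQ w • ·) hD.symm).trans
      (SemilinearAut.pic0_smul_mk (omQ w) D)))
  rw [hxeq, hyeq, ← hD₁, ← hD₂, hD']
  exact (SemilinearAut.pic0_smul_mk (omQ w) D₁).symm

end Omega

variable (L : LevelData A π M) (w : ALData q M) (hA : A.LiesOverPrime q)
  (hπ : Function.Surjective π) (hqM : ¬ q ∣ M)

/-- The sheets at level `M q`. -/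
abbrev shQ : Sheets A π q (modularFunctionFieldBar (M * q)) :=
  L.sheets w (Fact.out : q.Prime) hA hπ hqM

/-- A balanced representative with function fixed by inertia. -/
def FixBRep (m : ℕ) (x : JZero (M * q)) (g : Ser2 k) : Prop :=
  ∃ (D : Divisor.degZero (K := ℚbar) (F := modularFunctionFieldBar (M * q)))
    (f : modularFunctionFieldBar (M * q)), f ≠ 0 ∧ Pic0.mk D = x ∧
    (∀ v, v.ord f = (m : ℤ) * (D : Divisor ℚbar (modularFunctionFieldBar (M * q))) v) ∧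
    (∀ τ ∈ A.inertiaSubgroupIn ℚ, galFun (M * q) τ f = f) ∧
    NRed2 A π ((shQ L w hA hπ hqM).ι f, (shQ L w hA hπ hqM).ι ((shQ L w hA hπ hqM).w f)) g

/-- **Balancing.** `(T_ℓ - ℓ - 1) x` has a balanced representative fixed by inertia if `x` is. -/
theorem exists_fixBRep {m : ℕ} [NeZero m] {ℓ : Nat.Primes} (hℓ : ¬ (ℓ : ℕ) ∣ M * q)
    {x : JZero (M * q)} (hx : (m : ℤ) • x = 0)
    (hfix : ∀ τ ∈ A.inertiaSubgroupIn ℚ, τ • x = x) :
    ∃ g : Ser2 k, FixBRep L w hA hπ hqM m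
      (heckeOperatorBar (M * q) ℓ x - ((ℓ : ℕ) + 1) • x) g := by
  have : NeZero (ℓ : ℕ) := ⟨ℓ.2.ne_zero⟩
  have : Fact (ℓ : ℕ).Prime := ⟨ℓ.2⟩
  have := Kummer.isFunctionField_FL (N := M * q) Kummer.ιbar
  obtain ⟨D, rfl, hD⟩ := exists_fixed_div (A.inertiaSubgroupIn ℚ : Set Γℚbar) hfix
  change Pic0.mk ((m : ℤ) • D) = 0 at hx
  have h1 := (QuotientAddGroup.eq_zero_iff _).mp hx
  rw [AddSubgroup.mem_addSubgroupOf, AddSubgroupClass.coe_zsmul] at h1
  obtain ⟨f, hf, hfD⟩ := h1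
  have hfD' : ∀ v, v.ord f =
      (m : ℤ) * (D : Divisor ℚbar (modularFunctionFieldBar (M * q))) v := fun v => by
    rw [← hfD v, Finsupp.smul_apply, smul_eq_mul]
  obtain ⟨D', f', hf', hD', hfD₁, hser⟩ := exists_hecke_div (M * q) ℓ hℓ D hf hfD'
  set S := shQ L w hA hπ hqM
  obtain ⟨g₁, -, hg₁⟩ := exists_nred S hf
  obtain ⟨g₂, -, hg₂⟩ := exists_nred S ((map_ne_zero S.w).mpr hf)
  have hser' := wEquiv_tSer hqM w ℓ hℓ hser
  refine ⟨(tSer k ℓ g₁ / g₁ ^ ((ℓ : ℕ) + 1), tSer k ℓ g₂ / g₂ ^ ((ℓ : ℕ) + 1)),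
    D' - ((ℓ : ℕ) + 1) • D, f' / f ^ ((ℓ : ℕ) + 1), div_ne_zero hf' (pow_ne_zero _ hf),
    ?_, fun v => ?_, fun τ hτ => ?_, ?_⟩
  · rw [← hD']
    rfl
  · rw [FF.ord_div v hf' (pow_ne_zero _ hf), FF.ord_pow, hfD₁, hfD', AddSubgroupClass.coe_sub,
      AddSubgroupClass.coe_nsmul, Finsupp.sub_apply, Finsupp.smul_apply, nsmul_eq_mul]
    push_cast
    ring
  · obtain ⟨c, hc, hcf⟩ := galois_eq_const_mul hf hfD' (hD τ hτ)
    have hτf' : galFun (M * q) τ f' =
        algebraMap ℚbar _ (c ^ ((ℓ : ℕ) + 1)) * f' := by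
      refine Subtype.ext ?_
      rw [coe_arithmeticRingAut_apply, hser, coeffMap_tSer, ← coe_arithmeticRingAut_apply, hcf]
      push_cast
      rw [map_mul, tSer_algebraMap, hser, map_pow]
    rw [map_div₀, map_pow, hτf', hcf, mul_pow, ← map_pow, map_pow,
      mul_div_mul_left _ _ (pow_ne_zero _ ((map_ne_zero _).mpr hc))]
  · have key := NRed2.tSer_div (ℓ : ℕ) hg₁ hg₂
    have e1 : S.ι (f' / f ^ ((ℓ : ℕ) + 1)) = tSer ℚbar ℓ (S.ι f) / S.ι f ^ ((ℓ : ℕ) + 1) := by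
      rw [map_div₀, map_pow]
      exact congrArg (· / _) hser
    have e2 : S.ι (S.w (f' / f ^ ((ℓ : ℕ) + 1))) =
        tSer ℚbar ℓ (S.ι (S.w f)) / S.ι (S.w f) ^ ((ℓ : ℕ) + 1) := by
      rw [map_div₀, map_pow, map_div₀, map_pow]
      exact congrArg (· / _) hser'
    rw [e1, e2]
    exact key

theorem FixBRep.bRep {m : ℕ} {x : JZero (M * q)} {g : Ser2 k}
    (h : FixBRep L w hA hπ hqM m x g) : BRep (shQ L w hA hπ hqM) m x g := by
  obtain ⟨D, f, hf, hD, hord, -, hn⟩ := h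
  exact ⟨D, f, hf, hD, hord, hn⟩

/-- A Frobenius at `q` acting on the sheets. -/
def frobQ {σ : Γℚbar} (hσ : A.IsFrobeniusAt σ q) : FrobOne (shQ L w hA hπ hqM) where
  τ := σ.toRingEquiv
  g := galFun (M * q) σ
  P := galPlace σ (M * q)
  ord_P := Semistable.ord_galPlace σ
  P_inf := galPlace_cuspInf σ (M * q)
  P_zero := Semistable.galPlace_cuspZero σ w Fact.out
  ι_g := fun f => coe_arithmeticRingAut_apply _ σ f
  w_g := fun f => Semistable.wEquiv_arithmeticRingAut w Fact.out σ f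
  mem := fun _ ha => EC.Reduction.apply_mem_of_mem_decomposition hσ.mem_decompositionSubgroup ha
  val := Semistable.valuation_apply_of_mem_decomposition Fact.out hA hσ.mem_decompositionSubgroup
  res := fun a => by
    have := Semistable.isLocalHom_of_surjective' π hπ
    exact (EC.Reduction.res_frobenius hσ (EC.Reduction.Res.of_mem π a.2)).2

/-- **Frobenius is `-q w`.** -/
theorem frob_smul_eq_neg {σ : Γℚbar} (hσ : A.IsFrobeniusAt σ q) {m : ℕ} (hm : 0 < m)
    (hmq : ¬ q ∣ m) {x : JZero (M * q)} {g : Ser2 k}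
    (h : FixBRep L w hA hπ hqM m x g) (h1 : Triv (fracSub (shQ L w hA hπ hqM).C) m g.1)
    (h2 : Triv (fracSub (shQ L w hA hπ hqM).C) m g.2) :
    σ • x + (q : ℤ) • (omQ w • x) = 0 := by
  have := Kummer.isFunctionField_FL (N := M * q) Kummer.ιbar
  rw [galois_smul_pic0_def]
  exact smul_add_omega_eq_zero (frobQ L w hA hπ hqM hσ)
    (arithmeticGalois (modularFunctionFieldFull (M * q)) σ) (fun D => rfl) hm
    (by rwa [Ne, CharP.cast_eq_zero_iff k q]) (h.bRep L w hA hπ hqM) h1 h2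

end Fermat.Agent.MazurPrinciple
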