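import Fermat.Agent.MazurPrinciple.NRed
import Fermat.Agent.FF.Places

/-!
# Reduced Kummer functions

Reduced Kummer functions: `Kum x g` says that a function with divisor `m` times a representative
of `x` has normalised reduction `g`; `g` is then well defined up to `m`-th powers and constants.
-/

set_option autoImplicit false

noncomputable section

namespace Fermat.Agent.MazurPrinciple

open HahnSeries AlgebraicCurve Fermat.Agent.Reduction

variable {K F k : Type*} [Field K] [Field F] [Algebra K F] [Field k] {A : ValuationSubring K}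
  (π : A →+* k) (ι : F →ₐ[K] LaurentSeries K)

/-- `g` is a reduced Kummer function of `x`. -/
def Kum (m : ℕ) (x : Pic0 K F) (g : LaurentSeries k) : Prop :=
  ∃ (D : Divisor.degZero (K := K) (F := F)) (f : F), f ≠ 0 ∧ Pic0.mk D = x ∧
    (∀ v, v.ord f = (m : ℤ) * (D : Divisor K F) v) ∧ NRed A π (ι f) g

/-- Every function reduces into `Q`. -/
structure RedField (Q : IntermediateField k (LaurentSeries k)) : Prop where
  surj : Function.Surjective π
  exists_nred : ∀ f : F, f ≠ 0 → ∃ g ∈ Q, NRed A π (ι f) g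

/-- An `m`-th power in `Q`, up to a constant. -/
def Triv (Q : IntermediateField k (LaurentSeries k)) (m : ℕ) (g : LaurentSeries k) : Prop :=
  ∃ η ∈ Q, η ≠ 0 ∧ ∃ u : k, u ≠ 0 ∧ g = algebraMap k (LaurentSeries k) u * η ^ m

variable {π} {ι} {Q : IntermediateField k (LaurentSeries k)} {m : ℕ}

namespace Triv

variable {g g' : LaurentSeries k}

theorem one : Triv Q m (1 : LaurentSeries k) :=
  ⟨1, one_mem _, one_ne_zero, 1, one_ne_zero, by simp⟩

theorem mul (h : Triv Q m g) (h' : Triv Q m g') : Triv Q m (g * g') := by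
  obtain ⟨η, hη, hη0, u, hu, rfl⟩ := h
  obtain ⟨η', hη', hη0', u', hu', rfl⟩ := h'
  exact ⟨η * η', mul_mem hη hη', mul_ne_zero hη0 hη0', u * u', mul_ne_zero hu hu',
    by rw [map_mul, mul_pow]; ring⟩

theorem inv (h : Triv Q m g) : Triv Q m g⁻¹ := by
  obtain ⟨η, hη, hη0, u, hu, rfl⟩ := h
  exact ⟨η⁻¹, inv_mem hη, inv_ne_zero hη0, u⁻¹, inv_ne_zero hu,
    by rw [map_inv₀, inv_pow, mul_inv]⟩

theorem div (h : Triv Q m g) (h' : Triv Q m g') : Triv Q m (g / g') := by
  simpa [div_eq_mul_inv] using h.mul h'.inv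

theorem pow (h : Triv Q m g) : ∀ n : ℕ, Triv Q m (g ^ n)
  | 0 => by simpa using one
  | n + 1 => by simpa [pow_succ] using (h.pow n).mul h

end Triv

namespace Kum

variable {x y : Pic0 K F} {g g' : LaurentSeries k}

theorem ne_zero (h : Kum π ι m x g) : g ≠ 0 := by
  obtain ⟨D, f, -, -, -, hn⟩ := h
  exact hn.ne_zero

theorem add (h : Kum π ι m x g) (h' : Kum π ι m y g') : Kum π ι m (x + y) (g * g') := by
  obtain ⟨D, f, hf, rfl, hfD, hn⟩ := h
  obtain ⟨D', f', hf', rfl, hfD', hn'⟩ := h'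
  exact ⟨D + D', f * f', mul_ne_zero hf hf', rfl, fun v => by
    rw [v.ord_mul hf hf', hfD, hfD']
    push_cast
    rw [Pi.add_apply]; ring, by rw [map_mul]; exact hn.mul hn'⟩

theorem zero : Kum π ι m (0 : Pic0 K F) (1 : LaurentSeries k) :=
  ⟨0, 1, one_ne_zero, rfl, fun v => by simp, by rw [map_one]; exact NRed.one⟩

theorem neg (h : Kum π ι m x g) : Kum π ι m (-x) g⁻¹ := by
  obtain ⟨D, f, hf, rfl, hfD, hn⟩ := h
  exact ⟨-D, f⁻¹, inv_ne_zero hf, rfl, fun v => by
    rw [v.ord_inv, hfD]; simp, by rw [map_inv₀]; exact hn.inv⟩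

theorem sub (h : Kum π ι m x g) (h' : Kum π ι m y g') : Kum π ι m (x - y) (g / g') := by
  simpa [sub_eq_add_neg, div_eq_mul_inv] using h.add h'.neg

theorem nsmul (h : Kum π ι m x g) : ∀ n : ℕ, Kum π ι m (n • x) (g ^ n)
  | 0 => by simpa using zero
  | n + 1 => by simpa [succ_nsmul, pow_succ] using (h.nsmul n).add h

theorem zsmul (h : Kum π ι m x g) (n : ℤ) : Kum π ι m (n • x) (g ^ n) := by
  rcases Int.eq_nat_or_neg n with ⟨j, rfl | rfl⟩
  · simpa using h.nsmul j
  · simpa using (h.nsmul j).neg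

variable [IsAlgClosed K] [FF.IsFunctionField K F]

/-- **The reduced Kummer function is well defined.** -/
theorem unique (hQ : RedField π ι Q) (h : Kum π ι m x g) (h' : Kum π ι m x g') :
    Triv Q m (g' / g) := by
  obtain ⟨D, f, hf, hDx, hfD, hn⟩ := h
  obtain ⟨D', f', hf', hD'x, hfD', hn'⟩ := h'
  have h1 : Pic0.mk (D' - D) = 0 := by
    rw [show Pic0.mk (D' - D) = Pic0.mk D' - Pic0.mk D from rfl, hD'x, hDx, sub_self]
  have h2 := (QuotientAddGroup.eq_zero_iff _).mp h1
  rw [AddSubgroup.mem_addSubgroupOf, AddSubgroupClass.coe_sub] at h2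
  obtain ⟨h, hh, hhD⟩ := h2
  have hhm : h ^ m ≠ 0 := pow_ne_zero m hh
  have hfh : f * h ^ m ≠ 0 := mul_ne_zero hf hhm
  have h3 : ∀ v : Place K F, v.ord (f' / (f * h ^ m)) = 0 := fun v => by
    rw [FF.ord_div v hf' hfh, v.ord_mul hf hhm, FF.ord_pow, hfD, hfD', ← hhD v, Finsupp.sub_apply]
    ring
  have halg := FF.forall_ord_eq_zero_iff.mp h3
  obtain ⟨c, hc⟩ := minpoly.mem_range_of_degree_eq_one K (f' / (f * h ^ m))
    (IsAlgClosed.degree_eq_one_of_irreducible K (minpoly.irreducible halg.isIntegral))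
  have hc0 : c ≠ 0 := by
    rintro rfl
    rw [map_zero] at hc
    exact div_ne_zero hf' hfh hc.symm
  obtain ⟨η, hη, hnh⟩ := hQ.exists_nred h hh
  have hn2 : NRed A π (ι f') (g * η ^ m) := by
    have := NRed.const_mul (A := A) hc0 (hn.mul (hnh.pow m))
    rwa [← map_pow, ← map_mul, ← ι.commutes, ← map_mul, hc, div_mul_cancel₀ f' hfh] at this
  obtain ⟨u, hu, e⟩ := hn2.unique hQ.surj hn'
  refine ⟨η, hη, hnh.ne_zero, u, hu, ?_⟩
  rw [e]
  field_simp [hn.ne_zero]

theorem triv_iff (hQ : RedField π ι Q) (h : Kum π ι m x g) (h' : Kum π ι m x g') :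
    Triv Q m g ↔ Triv Q m g' := by
  have h1 := unique hQ h h'
  constructor <;> intro ht
  · simpa [div_mul_cancel₀ _ h.ne_zero] using h1.mul ht
  · simpa [div_div_cancel₀ h'.ne_zero] using ht.div h1

theorem triv_zero (hQ : RedField π ι Q) (h : Kum π ι m (0 : Pic0 K F) g) :
    Triv Q m g := by
  simpa using unique hQ zero h

end Kum

end Fermat.Agent.MazurPrinciple
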