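import Fermat.Agent.MazurPrinciple.NRed
import Fermat.Agent.Semistable.Main

/-!
# Normalised reductions on the two sheets

On a two-sheeted reduction every nonzero function has a normalised reduction on each sheet, lying
in the fraction field of the regular functions of level `M`; functions can be made regular by a
balanced power.
-/

set_option autoImplicit false

noncomputable section

namespace Fermat.Agent.MazurPrinciple

open HahnSeries AlgebraicCurve ModularCurve Fermat.Agent.Reduction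
open Fermat.Agent.Semistable

/-- The field of fractions of an algebra of series. -/
def fracSub {k : Type*} [Field k] (C : Subalgebra k (LaurentSeries k)) :
    IntermediateField k (LaurentSeries k) :=
  IntermediateField.adjoin k (C : Set (LaurentSeries k))

theorem mem_fracSub {k : Type*} [Field k] {C : Subalgebra k (LaurentSeries k)}
    {x : LaurentSeries k} : x ∈ fracSub C ↔ ∃ a ∈ C, ∃ b ∈ C, x = a / b := by
  rw [fracSub, IntermediateField.mem_adjoin_iff_div, Algebra.adjoin_eq]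

theorem mem_fracSub_of_mem {k : Type*} [Field k] {C : Subalgebra k (LaurentSeries k)}
    {x : LaurentSeries k} (hx : x ∈ C) : x ∈ fracSub C :=
  mem_fracSub.mpr ⟨x, hx, 1, C.one_mem, (div_one x).symm⟩

theorem mem_fracSub_of_mul {k : Type*} [Field k] {C : Subalgebra k (LaurentSeries k)}
    {x y : LaurentSeries k} (hy : y ∈ C) (hy0 : y ≠ 0) (hxy : x * y ∈ C) : x ∈ fracSub C :=
  mem_fracSub.mpr ⟨_, hxy, y, hy, (mul_div_cancel_right₀ x hy0).symm⟩

/-- An element whose multiple by a regular one is regular and which has a regular power is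
regular. -/
theorem mem_of_pow_mem {k : Type*} [Field k] {C : Subalgebra k (LaurentSeries k)}
    (hnormal : ∀ a y : LaurentSeries k, y ∈ C → y ≠ 0 → a * y ∈ C →
      ∀ m : ℕ, 0 < m → a ^ m ∈ C → a ∈ C)
    {x : LaurentSeries k} (hx : x ∈ fracSub C) {m : ℕ} (hm : 0 < m) (hxm : x ^ m ∈ C) : x ∈ C := by
  obtain ⟨a, ha, b, hb, rfl⟩ := mem_fracSub.mp hx
  rcases eq_or_ne b 0 with rfl | hb0
  · rw [div_zero]; exact C.zero_mem
  · exact hnormal _ b hb hb0 (by rwa [div_mul_cancel₀ a hb0]) m hm hxm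

variable {K F k : Type*} [Field K] [Field F] [Algebra K F] [Field k] {A : ValuationSubring K}
  {π : A →+* k} {q : ℕ} [NeZero q]

theorem exists_nodeIdeal_ne_zero (S : Sheets A π q F) : ∃ z ∈ S.nodeIdeal, z ≠ 0 := by
  obtain ⟨x, hx, hx0, hxo, -⟩ := S.exists_order_eq (n := (S.n₀ : ℤ) + 1) (by omega)
  refine ⟨_, Sheets.sub_frC_frC_mem (⟨x, hx⟩ : S.C), fun h => ?_⟩
  have h' : x - qExpand k q (qExpand k q x) = 0 := congrArg Subtype.val h
  have hne : qExpand k q x ≠ 0 :=
    fun h0 => hx0 (qExpand_injective q (h0.trans (map_zero _).symm))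
  have h2 := congrArg HahnSeries.order (sub_eq_zero.mp h')
  rw [Sheets.order_qExpand q hne, Sheets.order_qExpand q hx0, hxo] at h2
  have h1 : (1 : ℤ) < q := by exact_mod_cast S.one_lt
  nlinarith [mul_pos (show (0 : ℤ) < (q : ℤ) * q - 1 by nlinarith)
    (show (0 : ℤ) < (S.n₀ : ℤ) + 1 by omega)]

/-- **The reduction of a regular function on one sheet is a quotient of regular ones.** -/
theorem mem_fracSub_of_red [IsAlgClosed k] (S : Sheets A π q F) {u : F} (hu : S.Reg u) {c : K}
    {g : LaurentSeries k} (hg : g ≠ 0)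
    (hug : Red A π (algebraMap K (LaurentSeries K) c * S.ι u) g) : g ∈ fracSub S.C := by
  have hu0 : u ≠ 0 := by
    rintro rfl
    rw [map_zero, mul_zero] at hug
    exact hg (hug.unique red_zero)
  have hc : c ≠ 0 := by
    rintro rfl
    rw [map_zero, zero_mul] at hug
    exact hg (hug.unique red_zero)
  obtain ⟨z, hz, hz0⟩ := exists_nodeIdeal_ne_zero S
  obtain ⟨f, hf, hfz⟩ := Sheets.isCbar_nodeIdeal_fst hz
  have hzne : (z : LaurentSeries k) ≠ 0 := fun h => hz0 (Subtype.ext h)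
  have hf0 : f ≠ 0 := by
    rintro rfl
    rw [map_zero] at hfz
    exact hzne (congrArg Prod.fst (hfz.unique red2_zero))
  obtain ⟨c₁, hc₁, x₁, hx₁, hr₁⟩ :=
    S.normalizable _ hf.apply_w ((map_ne_zero S.w).mpr hf0)
  obtain ⟨c₂, hc₂, x₂, hx₂, hr₂⟩ :=
    S.normalizable _ hu.apply_w ((map_ne_zero S.w).mpr hu0)
  rw [smul_eq_algebraMap_mul] at hr₁ hr₂
  obtain ⟨i, hi⟩ : ∃ i, x₁.coeff i ≠ 0 := by
    by_contra hall
    push Not at hall
    exact hx₁ (HahnSeries.ext (funext hall))
  have hv : A.valuation c₁⁻¹ < 1 := by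
    have h1 := hr₁.coeff_valuation_eq_one S.surj hi
    rw [coeff_algebraMap_mul, map_mul] at h1
    obtain ⟨hmem, hπ0⟩ := hfz.2 i
    simp only [HahnSeries.coeff_zero] at hπ0
    have h2 : A.valuation ((S.ι (S.w f)).coeff i) < 1 :=
      lt_of_le_of_ne ((ValuationSubring.valuation_le_one_iff _ _).mpr hmem) fun h =>
        (residue_ne_zero_iff S.surj ⟨_, hmem⟩).mpr h hπ0
    rw [map_inv₀, ← eq_inv_of_mul_eq_one_right h1]
    exact h2
  set e : A := ⟨c₁⁻¹, (ValuationSubring.valuation_le_one_iff _ _).mp hv.le⟩ with he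
  have heπ : π e = 0 := by
    by_contra h
    exact hv.ne ((residue_ne_zero_iff S.surj e).mp h)
  obtain ⟨n, hn⟩ := S.arch e heπ (c₂ / c) (div_ne_zero hc₂ hc)
  set j := n + 1 with hj
  have hsmall : A.valuation (c / c₂ * c₁⁻¹ ^ j) < 1 := by
    have h1 : A.valuation (c / c₂) * A.valuation c₁⁻¹ ^ n ≤ 1 := by
      refine (mul_le_mul_right hn _).trans ?_
      rw [← map_mul, div_mul_div_comm, mul_comm c, div_self (mul_ne_zero hc₂ hc), map_one]
    calc A.valuation (c / c₂ * c₁⁻¹ ^ j)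
        = A.valuation (c / c₂) * A.valuation c₁⁻¹ ^ n * A.valuation c₁⁻¹ := by
          rw [map_mul, map_pow, hj, pow_succ, mul_assoc]
      _ ≤ 1 * A.valuation c₁⁻¹ := mul_le_mul_left h1 _
      _ < 1 := by rw [one_mul]; exact hv
  set e' : A := ⟨c / c₂ * c₁⁻¹ ^ j, (ValuationSubring.valuation_le_one_iff _ _).mp hsmall.le⟩
  have he' : π e' = 0 := by
    by_contra h
    exact hsmall.ne ((residue_ne_zero_iff S.surj e').mp h)
  set P : F := algebraMap K F c * u * f ^ j with hP
  have hPreg : S.Reg P := ((Sheets.reg_algebraMap c).mul hu).mul (hf.pow j)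
  have h1 : Red A π (S.ι P) (g * (z : LaurentSeries k) ^ j) := by
    rw [hP, map_mul, map_mul, map_pow, AlgHom.commutes]
    exact hug.mul (hfz.1.pow j)
  have h2 : Red A π (S.ι (S.w P)) 0 := by
    have h := (red_algebraMap (π := π) e').mul (hr₂.mul (hr₁.pow j))
    rw [he', map_zero, zero_mul] at h
    convert h using 1
    simp only [hP, map_mul, map_pow, AlgEquiv.commutes, AlgHom.commutes]
    rw [mul_pow, show (e' : K) = c / c₂ * c₁⁻¹ ^ j from rfl, map_mul, map_div₀,
      map_pow, map_inv₀]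
    have := (map_ne_zero (algebraMap K (LaurentSeries K))).mpr hc₂
    have := (map_ne_zero (algebraMap K (LaurentSeries K))).mpr hc₁
    rw [inv_pow]
    field_simp
  exact mem_fracSub_of_mul (pow_mem z.2 j) (pow_ne_zero j hzne)
    (S.red_mem P hPreg _ h1 h2.coeff_mem)

variable [IsAlgClosed K] [IsAlgClosed k] [FF.IsFunctionField K F]

omit [IsAlgClosed k] in
/-- Every nonzero function is a quotient of regular ones. -/
theorem exists_reg_div (S : Sheets A π q F) {f : F} (hf : f ≠ 0) :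
    ∃ a b : F, a ≠ 0 ∧ b ≠ 0 ∧ S.Reg a ∧ S.Reg b ∧ f * b = a := by
  classical
  obtain ⟨P, hP⟩ : ∃ P : Divisor K F, ∀ v, P v = max (-(v.ord f)) 0 :=
    ⟨Finsupp.mapRange (fun z : ℤ => max (-z) 0) (by simp) (FF.divOf K f), fun v => by
      rw [Finsupp.mapRange_apply, FF.divOf_apply]⟩
  obtain ⟨b, hb, hneg⟩ := S.exists_neg_rep P
  have key : ∀ v, v ≠ S.inf → v ≠ S.zero → max (-(v.ord f)) 0 ≤ v.ord b := fun v h1 h2 => by
    have := hneg v h1 h2
    rw [Finsupp.sub_apply, hP, FF.divOf_apply] at this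
    omega
  refine ⟨f * b, b, mul_ne_zero hf hb, hb, fun v h1 h2 => ?_, fun v h1 h2 => ?_, rfl⟩
  · refine FF.mem_ordGE_of_le_ord v ?_
    rw [v.ord_mul hf hb]
    have := key v h1 h2
    omega
  · refine FF.mem_ordGE_of_le_ord v ?_
    have := key v h1 h2
    omega

/-- **Every nonzero function has a normalised reduction in the reduced field of level `M`.** -/
theorem exists_nred (S : Sheets A π q F) {f : F} (hf : f ≠ 0) :
    ∃ g ∈ fracSub S.C, NRed A π (S.ι f) g := by
  obtain ⟨a, b, ha0, hb0, ha, hb, hab⟩ := exists_reg_div S hf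
  have key : ∀ u : F, u ≠ 0 → S.Reg u → ∃ g ∈ fracSub S.C, NRed A π (S.ι u) g := by
    intro u hu0 hu
    obtain ⟨c, hc, g, hg, hcg⟩ := S.normalizable u hu hu0
    rw [smul_eq_algebraMap_mul] at hcg
    exact ⟨g, mem_fracSub_of_red S hu hg hcg, NRed.of_red hc hcg hg⟩
  obtain ⟨ga, hga, hna⟩ := key a ha0 ha
  obtain ⟨gb, hgb, hnb⟩ := key b hb0 hb
  refine ⟨ga / gb, div_mem hga hgb, ?_⟩
  have := hna.div hnb
  rwa [← map_div₀, show a / b = f by rw [← hab, mul_div_cancel_right₀ f hb0]] at this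

theorem nred_mem_fracSub (S : Sheets A π q F) {f : F} {g : LaurentSeries k}
    (h : NRed A π (S.ι f) g) : g ∈ fracSub S.C := by
  have hf : f ≠ 0 := fun h0 => h.ne_zero_left (by rw [h0, map_zero])
  obtain ⟨g', hg', hn⟩ := exists_nred S hf
  obtain ⟨u, -, rfl⟩ := hn.unique S.surj h
  exact mul_mem (IntermediateField.algebraMap_mem _ u) hg'

omit [IsAlgClosed K] [IsAlgClosed k] in
/-- **Regularisation.** A balanced power makes a function regular: if `D ≤ 0` bounds below the
order of `G`, multiplying by `h ^ N` with `h` balanced vanishing on `D` gives a regular function. -/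
theorem exists_regularise (S : Sheets A π q F) {G : F} (hG : G ≠ 0) {g : Ser2 k}
    (hGg : NRed2 A π (S.ι G, S.ι (S.w G)) g) {h : F} {x : Ser2 k}
    (hx : Red2 A π (S.T h) x) (hx1 : x.1 ≠ 0) (hx2 : x.2 ≠ 0) (hreg : S.Reg h)
    (hzero : ∀ v, v ≠ S.inf → v ≠ S.zero → v.ord G < 0 → 1 ≤ v.ord h) {m : ℕ} (hm : 0 < m) :
    ∃ (G' : F) (N : ℕ) (c : K) (u : k), G' ≠ 0 ∧ S.Reg G' ∧ c ≠ 0 ∧ u ≠ 0 ∧
      G' = algebraMap K F c * (G * (h ^ N) ^ m) ∧
      Red2 A π (S.T G')
        (algebraMap k (LaurentSeries k) u * (g.1 * (x.1 ^ N) ^ m),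
          algebraMap k (LaurentSeries k) u * (g.2 * (x.2 ^ N) ^ m)) := by
  classical
  have hh0 : h ≠ 0 := by
    rintro rfl
    rw [map_zero] at hx
    exact hx1 (congrArg Prod.fst (hx.unique red2_zero))
  set N : ℕ := (FF.divOf K G).support.sup fun v : Place K F => (v.ord G).natAbs with hN
  set P := G * (h ^ N) ^ m with hP
  have hP0 : P ≠ 0 := mul_ne_zero hG (pow_ne_zero _ (pow_ne_zero _ hh0))
  have hPreg : S.Reg P := fun v h1 h2 => by
    refine FF.mem_ordGE_of_le_ord v ?_
    rw [hP, v.ord_mul hG (pow_ne_zero _ (pow_ne_zero _ hh0)), FF.ord_pow, FF.ord_pow]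
    have hh : 0 ≤ v.ord h := (FF.mem_ordGE_of_ne_zero v hh0).mp (hreg v h1 h2)
    rcases lt_or_ge (v.ord G) 0 with hlt | hge
    · have hle : (v.ord G).natAbs ≤ N :=
        Finset.le_sup (f := fun v : Place K F => (v.ord G).natAbs) (Finsupp.mem_support_iff.mpr (by
          rw [FF.divOf_apply]; omega))
      have h1' := hzero v h1 h2 hlt
      have h3 : (N : ℤ) * 1 ≤ (m : ℤ) * ((N : ℤ) * v.ord h) := by
        refine le_trans ?_ (le_mul_of_one_le_left (by positivity) (by exact_mod_cast hm))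
        exact mul_le_mul_of_nonneg_left h1' (Int.natCast_nonneg N)
      have h4 : -(v.ord G) = ((v.ord G).natAbs : ℤ) := by omega
      have h5 : ((v.ord G).natAbs : ℤ) ≤ (N : ℤ) := by exact_mod_cast hle
      linarith
    · have : (0 : ℤ) ≤ (m : ℤ) * ((N : ℤ) * v.ord h) := by positivity
      omega
  obtain ⟨c, hc, y, hy, hcy⟩ := hPreg.normalizable2 hP0
  have hT : ∀ (a : F), S.ι (algebraMap K F c * a) = algebraMap K (LaurentSeries K) c * S.ι a ∧
      S.ι (S.w (algebraMap K F c * a)) = algebraMap K (LaurentSeries K) c * S.ι (S.w a) :=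
    fun a => ⟨by rw [map_mul, AlgHom.commutes],
      by rw [map_mul, AlgEquiv.commutes, map_mul, AlgHom.commutes]⟩
  have hn : NRed2 A π (S.ι P, S.ι (S.w P)) (g * (x ^ N) ^ m) := by
    have := hGg.mul (((NRed2.of_red2 hx hx1 hx2).pow N).pow m)
    convert this using 1
    simp only [hP, Sheets.T_apply, map_mul, map_pow, Prod.pow_mk, Prod.mk_mul_mk]
  have hred : Red2 A π (algebraMap K (LaurentSeries K) c * S.ι P,
      algebraMap K (LaurentSeries K) c * S.ι (S.w P)) y := by
    convert hcy using 1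
    simp [Sheets.T_apply, smul_eq_algebraMap_mul]
  obtain ⟨u, hu, e1, e2⟩ := hn.exists_red2 S.surj hc hy hred
  refine ⟨algebraMap K F c * P, N, c, u, mul_ne_zero ((map_ne_zero _).mpr hc) hP0,
    (Sheets.reg_algebraMap c).mul hPreg, hc, hu, rfl, ?_⟩
  rw [Sheets.T_apply, (hT P).1, (hT P).2]
  convert hred using 1
  exact Prod.ext (by rw [e1]; rfl) (by rw [e2]; rfl)

end Fermat.Agent.MazurPrinciple
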