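import Fermat.Agent.MazurPrinciple.Toric
import Fermat.Agent.MazurPrinciple.SheetsNRed
import Fermat.Agent.MazurPrinciple.Kum

/-!
# Classes with balanced representatives

Classes with balanced representatives: if both reduced Kummer functions are trivial, Frobenius
acts as `-q w`.
-/

set_option autoImplicit false

noncomputable section

namespace Fermat.Agent.MazurPrinciple

open HahnSeries AlgebraicCurve ModularCurve Fermat.Agent.Reduction Fermat.Agent.Semistable

variable {K F k : Type*} [Field K] [Field F] [Algebra K F] [Field k] {A : ValuationSubring K}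
  {π : A →+* k} {q : ℕ} [NeZero q] (S : Sheets A π q F)

/-- A representative whose function reduces with one scalar on both sheets. -/
def BRep (m : ℕ) (x : Pic0 K F) (g : Ser2 k) : Prop :=
  ∃ (D : Divisor.degZero (K := K) (F := F)) (f : F), f ≠ 0 ∧ Pic0.mk D = x ∧
    (∀ v, v.ord f = (m : ℤ) * (D : Divisor K F) v) ∧ NRed2 A π (S.ι f, S.ι (S.w f)) g

variable {S}

theorem omega_rep {m : ℤ} {D : Divisor.degZero (K := K) (F := F)} {f : F}
    (h : ∀ v, v.ord f = m * (D : Divisor K F) v) (v : Place K F) :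
    v.ord (S.w f) = m * (SemilinearAut.degZeroSMulHom (omega S) D : Divisor K F) v := by
  obtain ⟨v, rfl⟩ := MulAction.surjective (omega S) v
  rw [omega_ord, h, SemilinearAut.coe_degZeroSMulHom, omega_apply]

/-- The function of `w x`. -/
theorem Kum.of_omega {m : ℕ} {D : Divisor.degZero (K := K) (F := F)} {f : F} (hf : f ≠ 0)
    (hord : ∀ v, v.ord f = (m : ℤ) * (D : Divisor K F) v) {g : LaurentSeries k}
    (hg : NRed A π (S.ι (S.w f)) g) : Kum π S.ι m (omega S • Pic0.mk D) g :=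
  ⟨SemilinearAut.degZeroSMulHom (omega S) D, S.w f, (map_ne_zero S.w).mpr hf,
    (SemilinearAut.pic0_smul_mk _ _).symm, omega_rep hord, hg⟩

theorem BRep.kum_fst {m : ℕ} {x : Pic0 K F} {g : Ser2 k} (h : BRep S m x g) :
    Kum π S.ι m x g.1 := by
  obtain ⟨D, f, hf, rfl, hord, hn⟩ := h
  exact ⟨D, f, hf, rfl, hord, hn.fst⟩

theorem BRep.kum_snd {m : ℕ} {x : Pic0 K F} {g : Ser2 k} (h : BRep S m x g) :
    Kum π S.ι m (omega S • x) g.2 := by
  obtain ⟨D, f, hf, rfl, hord, hn⟩ := h
  exact Kum.of_omega hf hord hn.snd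

variable [IsAlgClosed K] [IsAlgClosed k] [FF.IsFunctionField K F]

theorem redField_sheets : RedField π S.ι (fracSub S.C) :=
  ⟨S.surj, fun _ hf => exists_nred S hf⟩

omit [IsAlgClosed k] in
/-- **A balanced class with both reduced Kummer functions trivial gives a class on the sheets.** -/
theorem exists_datum_of_triv {m : ℕ} (hm : 0 < m) {x : Pic0 K F} {g : Ser2 k}
    (h : BRep S m x g) (h1 : Triv (fracSub S.C) m g.1) (h2 : Triv (fracSub S.C) m g.2) :
    ∃ (d : S.Datum m) (hd : Divisor.degree d.E = 0),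
      Pic0.mk ⟨d.E, Divisor.mem_degZero.mpr hd⟩ = -x := by
  classical
  obtain ⟨D, f, hf, rfl, hord, hn⟩ := h
  set P : Divisor K F := Finsupp.mapRange (fun z : ℤ => min z 0) (min_self 0) (D : Divisor K F)
    with hP
  have hPneg : S.Neg P := fun v _ _ => by rw [hP, Finsupp.mapRange_apply]; exact min_le_right _ _
  obtain ⟨n, h₀, hh₀, y, hy, hy1, hy2, hy10, hy20⟩ := S.exists_balanced hPneg
  have hreg := Sheets.reg_of_mem_L hPneg hh₀
  have hh0 : h₀ ≠ 0 := by
    rintro rfl
    rw [map_zero] at hy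
    exact hy10 (congrArg Prod.fst (hy.unique red2_zero))
  obtain ⟨G, N, c, u, hG, hGreg, hc, hu, hGe, hGred⟩ :=
    exists_regularise S hf hn hy hy10 hy20 hreg (fun v e1 e2 hlt => by
      have := S.mem_L.mp hh₀ v
      rw [FF.mem_ordGE_of_ne_zero v hh0, Finsupp.add_apply, S.bd_of_ne n e1 e2, hP,
        Finsupp.mapRange_apply] at this
      rw [hord] at hlt
      have hDv : (D : Divisor K F) v < 0 := neg_of_mul_neg_right hlt (Int.natCast_nonneg m)
      omega) hm
  set E : Divisor K F := -((D : Divisor K F) + (N : ℤ) • FF.divOf K h₀) with hE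
  have hordG : ∀ v, v.ord G = -((m : ℤ) * E v) := fun v => by
    rw [hGe,
      v.ord_mul ((map_ne_zero _).mpr hc) (mul_ne_zero hf (pow_ne_zero _ (pow_ne_zero _ hh0))),
      FF.ord_algebraMap, v.ord_mul hf (pow_ne_zero _ (pow_ne_zero _ hh0)), FF.ord_pow, FF.ord_pow,
      hord, hE, Finsupp.neg_apply, Finsupp.add_apply, Finsupp.smul_apply, FF.divOf_apply,
      smul_eq_mul]
    ring
  have hEdeg : Divisor.degree E = 0 := by
    rw [hE, map_neg, map_add, map_zsmul, FF.degree_divOf, Divisor.mem_degZero.mp D.2, smul_zero,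
      add_zero, neg_zero]
  obtain ⟨e1, he1, he10, u1, hu1, hg1⟩ := h1
  obtain ⟨e2, he2, he20, u2, hu2, hg2⟩ := h2
  have key : ∀ {ui : k} {e yi gi : LaurentSeries k}, ui ≠ 0 → e ∈ fracSub S.C → yi ∈ S.C →
      gi = algebraMap k (LaurentSeries k) ui * e ^ m →
      algebraMap k (LaurentSeries k) u * (gi * (yi ^ N) ^ m) =
          (u * ui) • (e * yi ^ N) ^ m ∧
        (algebraMap k (LaurentSeries k) u * (gi * (yi ^ N) ^ m) ∈ S.C → e * yi ^ N ∈ S.C) := by
    intro ui e yi gi hui he hyi hgi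
    have heq : algebraMap k (LaurentSeries k) u * (gi * (yi ^ N) ^ m) =
        (u * ui) • (e * yi ^ N) ^ m := by
      rw [hgi, smul_eq_algebraMap_mul, map_mul, mul_pow]; ring
    refine ⟨heq, fun hmem => ?_⟩
    refine mem_of_pow_mem S.normal (mul_mem he (pow_mem (mem_fracSub_of_mem hyi) N)) hm ?_
    have h' := Sheets.mem_of_scale (c := (u * ui)⁻¹) (heq ▸ hmem)
    rwa [smul_smul, inv_mul_cancel₀ (mul_ne_zero hu hui), one_smul] at h'
  obtain ⟨k1, k1'⟩ := key hu1 he1 hy1 hg1
  obtain ⟨k2, k2'⟩ := key hu2 he2 hy2 hg2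
  obtain ⟨hm1, hm2⟩ := hGreg.red_mem hGred
  refine ⟨
    { E := E
      G := G
      η := (e1 * y.1 ^ N, e2 * y.2 ^ N)
      ū := (u * u1, u * u2)
      neg := fun v v1 v2 => by
        have h0 := (FF.mem_ordGE_of_ne_zero v hG).mp (hGreg v v1 v2)
        rw [hordG] at h0
        nlinarith [show (0 : ℤ) < m by exact_mod_cast hm]
      deg := hEdeg
      G_ne := hG
      ord_G := hordG
      red_G := by
        convert hGred using 1
        exact Prod.ext k1.symm k2.symm
      η₁_mem := k1' hm1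
      η₂_mem := k2' hm2
      η₁_ne := mul_ne_zero he10 (pow_ne_zero _ hy10)
      η₂_ne := mul_ne_zero he20 (pow_ne_zero _ hy20)
      u₁_ne := mul_ne_zero hu hu1
      u₂_ne := mul_ne_zero hu hu2 }, hEdeg, ?_⟩
  rw [eq_neg_iff_add_eq_zero, ← Pic0.mk_add]
  refine (QuotientAddGroup.eq_zero_iff _).mpr (AddSubgroup.mem_addSubgroupOf.mpr ?_)
  have : E + (D : Divisor K F) = -((N : ℤ) • FF.divOf K h₀) := by rw [hE]; abel
  rw [AddSubgroup.coe_add, this]
  exact neg_mem (AddSubgroup.zsmul_mem _ (Sheets.divOf_mem_principal hh0) _)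

/-- **Frobenius is `-q w` on balanced classes with trivial reduced Kummer functions.** -/
theorem smul_add_omega_eq_zero (σ : FrobOne S) (s : SemilinearAut K F)
    (hs : ∀ D : Divisor K F, σ.act D = s • D) {m : ℕ} (hm : 0 < m) (hmk : (m : k) ≠ 0)
    {x : Pic0 K F} {g : Ser2 k} (h : BRep S m x g) (h1 : Triv (fracSub S.C) m g.1)
    (h2 : Triv (fracSub S.C) m g.2) :
    s • x + (q : ℤ) • (omega S • x) = 0 := by
  obtain ⟨d, hd, hdx⟩ := exists_datum_of_triv hm h h1 h2
  have hp := frob_add_omega_mem_principal σ d hm hmk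
  rw [hs] at hp
  have hx : x = -Pic0.mk ⟨d.E, Divisor.mem_degZero.mpr hd⟩ := by rw [hdx, neg_neg]
  rw [hx, smul_neg, smul_neg, zsmul_neg, ← neg_add, neg_eq_zero, SemilinearAut.pic0_smul_mk,
    SemilinearAut.pic0_smul_mk]
  exact (QuotientAddGroup.eq_zero_iff _).mpr (AddSubgroup.mem_addSubgroupOf.mpr hp)

end Fermat.Agent.MazurPrinciple
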