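import Fermat.Agent.MazurPrinciple.Exponent

/-!
# An eigenvector modulo `pⁿ` from a class of congruent characters

A class of `|ι|` congruent characters of a ring of integral matrices, closed under congruent
conjugation, gives an eigenvector mod `pⁿ` of exponent at least `pⁿ` divided by `2 |ι|`.
-/

set_option autoImplicit false

noncomputable section

namespace Fermat.Agent.MazurPrinciple

open Matrix

local notation "Zbar" => integralClosure ℤ ℂ

variable {T : Type*} [CommRing T] {d : ℕ}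

/-- The common eigenspace of a character. -/
def jointEigen (ρ : T →+* Matrix (Fin d) (Fin d) ℤ) (χ : T → ℂ) : Submodule ℂ (Fin d → ℂ) :=
  ⨅ t : T, Module.End.eigenspace (Matrix.toLin' ((ρ t).map (Int.cast : ℤ → ℂ))) (χ t)

theorem mem_jointEigen {ρ : T →+* Matrix (Fin d) (Fin d) ℤ} {χ : T → ℂ} {v : Fin d → ℂ} :
    v ∈ jointEigen ρ χ ↔ ∀ t, (ρ t).map (Int.cast : ℤ → ℂ) *ᵥ v = χ t • v := by
  simp [jointEigen, Submodule.mem_iInf]

theorem map_castC_mul (A B : Matrix (Fin d) (Fin d) ℤ) :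
    (A * B).map (Int.cast : ℤ → ℂ) = A.map Int.cast * B.map Int.cast :=
  Matrix.map_mul (f := Int.castRingHom ℂ)

theorem map_intCast_mul {R : Type*} [Ring R] {a b c : ℕ} (A : Matrix (Fin a) (Fin b) ℤ)
    (B : Matrix (Fin b) (Fin c) ℤ) :
    (A * B).map (Int.cast : ℤ → R) = A.map (Int.cast : ℤ → R) * B.map (Int.cast : ℤ → R) :=
  Matrix.map_mul (f := Int.castRingHom R)

theorem map_intCast_one {R : Type*} [Ring R] {a b : ℕ} {A : Matrix (Fin a) (Fin b) ℤ}
    {B : Matrix (Fin b) (Fin a) ℤ} (h : A * B = 1) :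
    A.map (Int.cast : ℤ → R) * B.map (Int.cast : ℤ → R) = 1 := by
  rw [← map_intCast_mul, h, Matrix.map_one _ Int.cast_zero Int.cast_one]

theorem map_intCast_comm {R : Type*} [Ring R] {a b : ℕ} {A : Matrix (Fin a) (Fin a) ℤ}
    {B : Matrix (Fin a) (Fin b) ℤ} {D : Matrix (Fin b) (Fin b) ℤ} (h : A * B = B * D) :
    A.map (Int.cast : ℤ → R) * B.map (Int.cast : ℤ → R) =
      B.map (Int.cast : ℤ → R) * D.map (Int.cast : ℤ → R) := by
  rw [← map_intCast_mul, ← map_intCast_mul, h]

/-- A nonzero common eigenspace gives a character with integral values. -/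
theorem exists_character_of_jointEigen [Module.Finite ℤ T]
    (ρ : T →+* Matrix (Fin d) (Fin d) ℤ) {χ : T → ℂ} (h : jointEigen ρ χ ≠ ⊥) :
    ∃ χ' : T →+* Zbar, ∀ t, ((χ' t : Zbar) : ℂ) = χ t := by
  obtain ⟨v, hv, hv0⟩ := Submodule.exists_mem_ne_zero_of_ne_bot h
  rw [mem_jointEigen] at hv
  have inj : ∀ {a b : ℂ}, a • v = b • v → a = b := fun h => smul_left_injective ℂ hv0 h
  let χh : T →+* ℂ :=
    { toFun := χ
      map_one' := inj (by rw [← hv]; simp)
      map_mul' := fun s t => inj (by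
        rw [← hv, map_mul, map_castC_mul, ← mulVec_mulVec, hv t, mulVec_smul, hv s, smul_smul,
          mul_comm])
      map_zero' := inj (by rw [← hv]; simp)
      map_add' := fun s t => inj (by
        rw [← hv, map_add, Matrix.map_add _ Int.cast_add, add_mulVec, hv, hv, add_smul]) }
  refine ⟨χh.codRestrict (integralClosure ℤ ℂ).toSubring fun t => ?_, fun t => rfl⟩
  exact map_isIntegral_int χh (Algebra.IsIntegral.isIntegral t)

/-- A reduced ring of matrices is diagonalisable over `ℂ`. -/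
theorem iSup_jointEigen [IsReduced T] (ρ : T →+* Matrix (Fin d) (Fin d) ℤ)
    (hρ : Function.Injective ρ) : ⨆ χ : T → ℂ, jointEigen ρ χ = ⊤ := by
  classical
  let f : T → Module.End ℂ (Fin d → ℂ) := fun t =>
    Matrix.toLin' ((ρ t).map (Int.cast : ℤ → ℂ))
  have hss : ∀ t, (f t).IsSemisimple := by
    intro t
    set A : Matrix (Fin d) (Fin d) ℚ := (Int.castRingHom ℚ).mapMatrix (ρ t)
    set μ := minpoly ℚ A
    have hμ0 : μ ≠ 0 := minpoly.ne_zero (Algebra.IsIntegral.isIntegral A)
    have hrad : IsRadical μ := by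
      intro m y hy
      rw [minpoly.dvd_iff]
      obtain ⟨b, hb, hby⟩ := IsLocalization.integerNormalization_spec (nonZeroDivisors ℤ) y
      set y' := IsLocalization.integerNormalization (nonZeroDivisors ℤ) y
      have hmap : y'.map (Int.castRingHom ℚ) = Polynomial.C (b : ℚ) * y := by
        rw [← algebraMap_int_eq, hby, zsmul_eq_mul]
        simp
      have hval : (Int.castRingHom ℚ).mapMatrix (ρ (Polynomial.aeval t y')) =
          (b : ℚ) • Polynomial.aeval A y := by
        have e1 : (Int.castRingHom ℚ).mapMatrix (ρ (Polynomial.aeval t y')) =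
            Polynomial.aeval A y' := by
          rw [← RingHom.comp_apply, ← RingHom.toIntAlgHom_apply, ← Polynomial.aeval_algHom_apply]
          rfl
        rw [e1, ← Polynomial.aeval_map_algebraMap ℚ A y', algebraMap_int_eq, hmap, map_mul,
          Polynomial.aeval_C, ← Algebra.smul_def]
      have hnil : Polynomial.aeval t y' ^ m = 0 := by
        apply hρ
        rw [map_zero]
        apply Matrix.map_injective (f := (Int.castRingHom ℚ)) Int.cast_injective
        show (Int.castRingHom ℚ).mapMatrix (ρ (Polynomial.aeval t y' ^ m)) =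
          (Int.castRingHom ℚ).mapMatrix 0
        rw [map_zero, map_pow, map_pow, hval, smul_pow, ← map_pow,
          (minpoly.dvd_iff).mp hy, smul_zero]
      have h0 := IsReduced.eq_zero _ ⟨m, hnil⟩
      rw [h0, map_zero, map_zero] at hval
      exact (smul_eq_zero.mp hval.symm).resolve_left
        (Int.cast_ne_zero.mpr (nonZeroDivisors.ne_zero hb))
    have hsep : μ.Separable :=
      PerfectField.separable_iff_squarefree.mpr (hrad.squarefree hμ0)
    refine Module.End.isSemisimple_of_squarefree_aeval_eq_zero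
      (p := μ.map (algebraMap ℚ ℂ)) hsep.map.squarefree ?_
    rw [Polynomial.aeval_map_algebraMap]
    let Φ : Matrix (Fin d) (Fin d) ℚ →ₐ[ℚ] Module.End ℂ (Fin d → ℂ) :=
      (((Matrix.toLinAlgEquiv' (R := ℂ) (n := Fin d)).toAlgHom.restrictScalars ℚ)).comp
        (Algebra.ofId ℚ ℂ).mapMatrix
    have hΦ : Φ A = f t := by
      show Matrix.toLinAlgEquiv' (((ρ t).map (Int.cast : ℤ → ℚ)).map (algebraMap ℚ ℂ)) = _
      rw [Matrix.map_map]
      simp [f, Function.comp_def]
      rfl
    rw [← hΦ, Polynomial.aeval_algHom_apply, minpoly.aeval, map_zero]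
  have hcomm : Pairwise fun i j => Commute (f i) (f j) := fun i j _ => by
    show f i * f j = f j * f i
    simp only [f, Module.End.mul_eq_comp, ← Matrix.toLin'_mul, ← map_castC_mul, ← map_mul, mul_comm]
  have h := Module.End.iSup_iInf_maxGenEigenspace_eq_top_of_iSup_maxGenEigenspace_eq_top_of_commute
    f hcomm fun t => Module.End.iSup_maxGenEigenspace_eq_top (f t)
  rw [← h]
  refine iSup_congr fun χ => iInf_congr fun t => ?_
  exact ((hss t).isFinitelySemisimple.maxGenEigenspace_eq_eigenspace (χ t)).symm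

/-- An integral matrix killing the rational kernel of others kills their complex kernel. -/
theorem mulVec_eq_zero_of_forall_int {J : Type*} (A : J → Matrix (Fin d) (Fin d) ℤ)
    (B : Matrix (Fin d) (Fin d) ℤ)
    (h : ∀ x : Fin d → ℤ, (∀ j, A j *ᵥ x = 0) → B *ᵥ x = 0) {v : Fin d → ℂ}
    (hv : ∀ j, (A j).map (Int.cast : ℤ → ℂ) *ᵥ v = 0) :
    B.map (Int.cast : ℤ → ℂ) *ᵥ v = 0 := by
  classical
  funext i
  rw [Pi.zero_apply]
  refine (Module.forall_dual_apply_eq_zero_iff ℚ _).mp fun φ => ?_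
  have hφ : ∀ (M : Matrix (Fin d) (Fin d) ℤ) (i : Fin d),
      φ ((M.map (Int.cast : ℤ → ℂ) *ᵥ v) i) = (M.map (Int.cast : ℤ → ℚ) *ᵥ fun j => φ (v j)) i :=
    fun M i => by
      simp only [Matrix.mulVec, dotProduct, map_sum, Matrix.map_apply]
      refine Finset.sum_congr rfl fun j _ => ?_
      rw [← zsmul_eq_mul, map_zsmul, zsmul_eq_mul]
  obtain ⟨⟨b, hb⟩, hint⟩ := IsLocalization.exist_integer_multiples_of_finite (nonZeroDivisors ℤ)
    (S := ℚ) (fun j => φ (v j))
  choose x hx using hint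
  have hcast : ∀ (M : Matrix (Fin d) (Fin d) ℤ) (i : Fin d),
      (((M *ᵥ x) i : ℤ) : ℚ) = (b : ℚ) * (M.map (Int.cast : ℤ → ℚ) *ᵥ fun j => φ (v j)) i :=
    fun M i => by
      simp only [Matrix.mulVec, dotProduct, Matrix.map_apply, Finset.mul_sum]
      push_cast
      refine Finset.sum_congr rfl fun j _ => ?_
      have := hx j
      simp only [algebraMap_int_eq, eq_intCast, zsmul_eq_mul] at this
      rw [this]; ring
  have hx0 : ∀ j, A j *ᵥ x = 0 := fun j => funext fun i => by
    apply Int.cast_injective (α := ℚ)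
    rw [hcast, ← hφ, hv j, Pi.zero_apply, map_zero, mul_zero, Pi.zero_apply, Int.cast_zero]
  have := hcast B i
  rw [h x hx0, Pi.zero_apply, Int.cast_zero, ← hφ] at this
  exact (mul_eq_zero.mp this.symm).resolve_left (Int.cast_ne_zero.mpr (nonZeroDivisors.ne_zero hb))

/-- A matrix congruent to the identity forces the rank. -/
theorem card_le_of_reduction {O k : Type*} [CommRing O] [CommRing k] [Nontrivial k] {m : ℕ}
    (j : O →+* ℂ) (π : O →+* k) (F : Matrix (Fin d) (Fin d) O) (Rm : Matrix (Fin m) (Fin d) O)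
    (Um : Matrix (Fin d) (Fin m) O)
    (hinj : Function.Injective j)
    (hG : ∀ i l, π ((Rm * Fᵀ * Um) i l) = if i = l then 1 else 0) {b : ℕ}
    (hF : Module.finrank ℂ (LinearMap.range (Matrix.toLin' (F.map j))) ≤ b) : m ≤ b := by
  have hdetπ : π (Rm * Fᵀ * Um).det = 1 := by
    rw [RingHom.map_det, show π.mapMatrix (Rm * Fᵀ * Um) = 1 from Matrix.ext fun i l => by
      rw [RingHom.mapMatrix_apply, Matrix.map_apply, hG, Matrix.one_apply], Matrix.det_one]
  have hj : (Rm.map j * (F.map j)ᵀ * Um.map j).det ≠ 0 := by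
    intro h0
    have h1 : j (Rm * Fᵀ * Um).det = 0 := by
      rw [RingHom.map_det, RingHom.mapMatrix_apply, Matrix.map_mul, Matrix.map_mul,
        Matrix.transpose_map]
      exact h0
    rw [map_eq_zero_iff j hinj] at h1
    rw [h1, map_zero] at hdetπ
    exact zero_ne_one hdetπ
  by_contra hlt
  have hrk := Matrix.rank_of_isUnit _ ((Matrix.isUnit_iff_isUnit_det _).mpr (Ne.isUnit hj))
  have h1 := (Matrix.rank_mul_le_left (Rm.map j * (F.map j)ᵀ) (Um.map j)).trans
      (Matrix.rank_mul_le_right _ _)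
  rw [hrk, Matrix.rank_transpose, Fintype.card_fin, Matrix.rank, ← Matrix.toLin'_apply'] at h1
  exact hlt (h1.trans hF)

/-- The number of local generators. -/
theorem exists_gen_of_class [IsReduced T] [Module.Finite ℤ T] {p n : ℕ} (hp : p.Prime) (hn : n ≠ 0)
    (ρ : T →+* Matrix (Fin d) (Fin d) ℤ) (hρ : Function.Injective ρ) (θ : T →+* ZMod (p ^ n))
    {ι : Type*} [Fintype ι] (ev : ι → T →+* Zbar) (𝔪 : Ideal Zbar) [h𝔪 : 𝔪.IsMaximal]
    (hp𝔪 : (p : Zbar) ∈ 𝔪)
    (hmult : ∀ χ : T →+* ℂ, Module.finrank ℂ (jointEigen ρ χ) ≤ 2)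
    (hclosed : ∀ χ : T →+* Zbar, (∀ t, χ t - ((θ t).val : Zbar) ∈ 𝔪) → ∃ i, χ = ev i) :
    ∃ gen : Fin (2 * Fintype.card ι) → Fin d → ℤ,
      letI := rowAct ρ; haveI := isLocalRing_zmod_pow hp hn;
      ⊤ ≤ Submodule.span T (Set.range gen) ⊔
        ((IsLocalRing.maximalIdeal (ZMod (p ^ n))).comap θ) • (⊤ : Submodule T (Fin d → ℤ)) := by
  classical
  let _ := rowAct ρ
  have := isLocalRing_zmod_pow hp hn
  have : Fact p.Prime := ⟨hp⟩
  have : NeZero (p ^ n) := ⟨pow_ne_zero _ hp.ne_zero⟩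
  set P : Ideal T := (IsLocalRing.maximalIdeal (ZMod (p ^ n))).comap θ with hP
  have hPmem : ∀ t, t ∈ P ↔ p ∣ (θ t).val := fun t => by
    rw [hP, Ideal.mem_comap, IsLocalRing.mem_maximalIdeal, mem_nonunits_iff,
      ← ZMod.natCast_zmod_val (θ t), ZMod.isUnit_iff_coprime, ZMod.natCast_zmod_val,
      Nat.coprime_pow_right_iff (Nat.pos_of_ne_zero hn), Nat.coprime_comm,
      hp.coprime_iff_not_dvd, not_not]
  have hpP : (p : T) ∈ P := by
    rw [hPmem, map_natCast, ZMod.val_natCast]
    exact (Nat.dvd_mod_iff (dvd_pow_self p hn)).mpr dvd_rfl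
  have hPmax : P.IsMaximal := by
    let red : T →+* ZMod p := (ZMod.castHom (dvd_pow_self p hn) (ZMod p)).comp θ
    have : P = RingHom.ker red := Ideal.ext fun t => by
      rw [hPmem, RingHom.mem_ker, RingHom.comp_apply, ZMod.castHom_apply, ZMod.cast_eq_val,
        ZMod.natCast_eq_zero_iff]
    rw [this]
    exact RingHom.ker_isMaximal_of_surjective red fun z => ⟨(z.val : T), by simp⟩
  -- an element at which exactly the characters congruent to `θ` are units
  have hfin : {J : Ideal T | J.IsMaximal ∧ (p : T) ∈ J}.Finite := by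
    set I : Ideal T := Ideal.span {(p : T)}
    have : Finite (T ⧸ I) := by
      refine Module.finite_of_fg_torsion (T ⧸ I) ?_
      intro x
      refine ⟨⟨p, mem_nonZeroDivisors_iff_ne_zero.mpr (by exact_mod_cast hp.ne_zero)⟩, ?_⟩
      obtain ⟨y, rfl⟩ := Ideal.Quotient.mk_surjective x
      show ((p : ℕ) : ℤ) • Ideal.Quotient.mk I y = 0
      rw [natCast_zsmul, ← map_nsmul, nsmul_eq_mul, Ideal.Quotient.eq_zero_iff_mem]
      exact I.mul_mem_right _ (Ideal.mem_span_singleton_self _)
    have : Finite (Ideal (T ⧸ I)) := Finite.of_injective _ SetLike.coe_injective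
    refine Set.Finite.subset
      ((Set.finite_range fun J : Ideal (T ⧸ I) => J.comap (Ideal.Quotient.mk I)))
      fun J ⟨_, hpJ⟩ => ⟨J.map (Ideal.Quotient.mk I), ?_⟩
    exact Ideal.comap_map_quotientMk I J |>.trans
      (sup_eq_right.mpr ((Ideal.span_singleton_le_iff_mem _).mpr hpJ))
  obtain ⟨e, heP, he⟩ : ∃ e : T, e ∉ P ∧
      ∀ J : Ideal T, J.IsMaximal → (p : T) ∈ J → J ≠ P → e ∈ J := by
    have hu : ∀ J ∈ hfin.toFinset.erase P, ∃ u, u ∈ J ∧ u ∉ P := fun J hJ => by
      obtain ⟨hne, hJ⟩ := Finset.mem_erase.mp hJ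
      rw [Set.Finite.mem_toFinset] at hJ
      exact SetLike.not_le_iff_exists.mp fun hle => hne (hJ.1.eq_of_le hPmax.ne_top hle)
    choose! u huJ huP using hu
    refine ⟨∏ J ∈ hfin.toFinset.erase P, u J, fun h => ?_, fun J hJ hpJ hne => ?_⟩
    · obtain ⟨J, hJ, hJP⟩ := hPmax.isPrime.prod_mem_iff.mp h
      exact huP J hJ hJP
    · have hm : J ∈ hfin.toFinset.erase P :=
        Finset.mem_erase.mpr ⟨hne, (Set.Finite.mem_toFinset _).mpr ⟨hJ, hpJ⟩⟩
      exact J.mem_of_dvd (Finset.dvd_prod_of_mem u hm) (huJ J hm)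
  -- normalise `e` modulo `P`
  obtain ⟨e, he1, he⟩ : ∃ e : T, e - 1 ∈ P ∧
      ∀ J : Ideal T, J.IsMaximal → (p : T) ∈ J → J ≠ P → e ∈ J := by
    obtain ⟨y, hy⟩ := hPmax.exists_inv heP
    exact ⟨y * e, by obtain ⟨i, hi, hsum⟩ := hy; rw [← hsum]; simpa using P.neg_mem hi,
      fun J h1 h2 h3 => J.mul_mem_left _ (he J h1 h2 h3)⟩
  -- the members' eigenspaces
  let U : Submodule ℂ (Fin d → ℂ) := ⨆ i, jointEigen ρ fun t => ((ev i t : Zbar) : ℂ)
  have hU : Module.finrank ℂ U ≤ 2 * Fintype.card ι := by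
    have key : ∀ s : Finset ι, Module.finrank ℂ
        (s.sup fun i => jointEigen ρ fun t => ((ev i t : Zbar) : ℂ) : Submodule ℂ (Fin d → ℂ)) ≤
          2 * s.card := by
      intro s
      induction s using Finset.induction with
      | empty => simp
      | insert i s hi ih =>
        rw [Finset.sup_insert, Finset.card_insert_of_notMem hi]
        have h1 : Module.finrank ℂ (jointEigen ρ fun t => ((ev i t : Zbar) : ℂ)) ≤ 2 :=
          hmult ((integralClosure ℤ ℂ).toSubring.subtype.comp (ev i))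
        have h2 := Submodule.finrank_add_le_finrank_add_finrank
          (jointEigen ρ fun t => ((ev i t : Zbar) : ℂ))
          (s.sup fun i => jointEigen ρ fun t => ((ev i t : Zbar) : ℂ))
        omega
    have := key Finset.univ
    rw [Finset.sup_univ_eq_iSup, Finset.card_univ] at this
    exact this
  -- the roots in `𝔪`
  set A : Matrix (Fin d) (Fin d) ℤ := ρ e with hA
  let bad : Finset Zbar :=
    ((A.map (Int.cast : ℤ → ℂ)).charpoly.roots.toFinset.preimage Subtype.val
      Subtype.val_injective.injOn).filter fun b => b ∈ 𝔪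
  let h : Polynomial Zbar := ∏ b ∈ bad, (Polynomial.X - Polynomial.C b)
  let F : Matrix (Fin d) (Fin d) Zbar := Polynomial.aeval (A.map (Int.cast : ℤ → Zbar)) h
  let FC : Matrix (Fin d) (Fin d) ℂ := F.map Subtype.val
  have hFC : FC = Polynomial.aeval (A.map (Int.cast : ℤ → ℂ))
      (h.map (algebraMap Zbar ℂ)) := by
    rw [Polynomial.aeval_map_algebraMap]
    have e1 := Polynomial.aeval_algHom_apply ((Algebra.ofId Zbar ℂ).mapMatrix (m := Fin d))
      (A.map (Int.cast : ℤ → Zbar)) h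
    simp only [AlgHom.mapMatrix_apply] at e1
    refine e1.symm.trans ?_
    congr 2
  -- its image lies in `U`
  have hrange : LinearMap.range (Matrix.toLin' FC) ≤ U := by
    rw [LinearMap.range_eq_map, ← iSup_jointEigen ρ hρ, Submodule.map_iSup]
    refine iSup_le fun χ => ?_
    rintro _ ⟨v, hv, rfl⟩
    have hv' := mem_jointEigen.mp hv
    rcases eq_or_ne v 0 with rfl | hv0
    · rw [map_zero]; exact zero_mem _
    obtain ⟨χ', hχ'⟩ := exists_character_of_jointEigen ρ (χ := χ)
      (fun hbot => hv0 ((Submodule.mem_bot ℂ).mp (hbot ▸ hv)))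
    have hval : Matrix.toLin' FC v = (h.map (algebraMap Zbar ℂ)).eval (χ e) • v := by
      rw [hFC]
      show Matrix.toLinAlgEquiv' _ v = _
      rw [← Polynomial.aeval_algHom_apply]
      exact Module.End.aeval_apply_of_hasEigenvector
        ⟨Module.End.mem_eigenspace_iff.mpr (by rw [Matrix.toLinAlgEquiv'_apply]; exact hv' e), hv0⟩
    rw [hval]
    by_cases hm : χ' e ∈ 𝔪
    · have hroot : χ' e ∈ bad := by
        refine Finset.mem_filter.mpr ⟨Finset.mem_preimage.mpr ?_, hm⟩
        rw [Multiset.mem_toFinset, Polynomial.mem_roots (Matrix.charpoly_monic _).ne_zero,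
          hχ', Polynomial.IsRoot, Matrix.eval_charpoly, ← Matrix.exists_mulVec_eq_zero_iff]
        refine ⟨v, hv0, ?_⟩
        rw [sub_mulVec, Matrix.scalar_apply, ← smul_one_eq_diagonal, smul_mulVec, one_mulVec,
          hv' e, sub_self]
      have : (h.map (algebraMap Zbar ℂ)).eval (χ e) = 0 := by
        rw [Polynomial.map_prod, Polynomial.eval_prod]
        refine Finset.prod_eq_zero hroot ?_
        rw [Polynomial.map_sub, Polynomial.map_X, Polynomial.map_C, Polynomial.eval_sub,
          Polynomial.eval_X, Polynomial.eval_C, ← hχ']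
        exact sub_self _
      rw [this, zero_smul]; exact zero_mem _
    · -- the character is congruent to `θ`, hence a member
      set J : Ideal T := 𝔪.comap χ'
      have hJp : J.IsPrime := Ideal.IsPrime.comap χ'
      have hpJ : (p : T) ∈ J := by
        show χ' (p : T) ∈ 𝔪
        rwa [map_natCast]
      have hJmax : J.IsMaximal := by
        have : Algebra.IsIntegral ℤ T := Algebra.IsIntegral.of_finite ℤ T
        refine Ideal.isMaximal_of_isIntegral_of_isMaximal_comap (R := ℤ) J ?_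
        have hpmax : (Ideal.span {(p : ℤ)}).IsMaximal :=
          PrincipalIdealRing.isMaximal_of_irreducible (Nat.prime_iff_prime_int.mp hp).irreducible
        rw [← hpmax.eq_of_le (Ideal.IsPrime.comap _).ne_top]
        · exact hpmax
        · rw [Ideal.span_singleton_le_iff_mem, Ideal.mem_comap, map_natCast]
          exact hpJ
      have hJP : J = P := by
        by_contra hne
        exact hm (he J hJmax hpJ hne)
      obtain ⟨i, hi⟩ := hclosed χ' fun t => by
        have hmem : t - ((θ t).val : T) ∈ P := by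
          rw [hPmem, map_sub, map_natCast, ZMod.natCast_zmod_val, sub_self, ZMod.val_zero]
          exact dvd_zero p
        rw [← hJP] at hmem
        have h2 : χ' (t - ((θ t).val : T)) ∈ 𝔪 := hmem
        rwa [map_sub, map_natCast] at h2
      refine Submodule.smul_mem _ _ (Submodule.mem_iSup_of_mem i ?_)
      rw [mem_jointEigen]
      intro t
      rw [hv' t, ← hχ', hi]
  -- reduction modulo `p`
  let red : (Fin d → ℤ) →ₗ[ℤ] (Fin d → ZMod p) :=
    ((Int.castAddHom (ZMod p)).compLeft (Fin d)).toIntLinearMap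
  let Sp : Submodule (ZMod p) (Fin d → ZMod p) :=
    AddSubgroup.toZModSubmodule p
      ((P • (⊤ : Submodule T (Fin d → ℤ))).toAddSubgroup.map red.toAddMonoidHom)
  let bQ := Module.finBasis (ZMod p) ((Fin d → ZMod p) ⧸ Sp)
  set m := Module.finrank (ZMod p) ((Fin d → ZMod p) ⧸ Sp)
  let R : (Fin d → ℤ) →+ (Fin m → ZMod p) :=
    (bQ.equivFun.toLinearMap.comp Sp.mkQ).toAddMonoidHom.comp red.toAddMonoidHom
  have hR : ∀ x, R x = 0 → x ∈ P • (⊤ : Submodule T (Fin d → ℤ)) := by
    intro x hx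
    have h1 : Sp.mkQ (red x) = 0 := bQ.equivFun.injective (hx.trans (map_zero _).symm)
    obtain ⟨y, hy, hyx⟩ := (Submodule.Quotient.mk_eq_zero Sp).mp h1
    have hd : ∀ j, (p : ℤ) ∣ x j - y j := fun j => by
      rw [← ZMod.intCast_zmod_eq_zero_iff_dvd, Int.cast_sub, sub_eq_zero]
      exact (congrFun hyx j).symm
    choose z hz using hd
    have hxy : x = y + (p : T) • z := funext fun j => by
      rw [Pi.add_apply, Nat.cast_smul_eq_nsmul, Pi.smul_apply, nsmul_eq_mul]
      linear_combination hz j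
    rw [hxy]
    exact add_mem hy (Submodule.smul_mem_smul hpP Submodule.mem_top)
  have hRP : ∀ x ∈ P • (⊤ : Submodule T (Fin d → ℤ)), R x = 0 := fun x hx => by
    have : Sp.mkQ (red x) = 0 := (Submodule.Quotient.mk_eq_zero Sp).mpr ⟨x, hx, rfl⟩
    show bQ.equivFun (Sp.mkQ (red x)) = 0
    rw [this, map_zero]
  have hRsurj : Function.Surjective R := fun y => by
    obtain ⟨w, hw⟩ := Submodule.mkQ_surjective Sp (bQ.equivFun.symm y)
    refine ⟨fun j => (w j).val, ?_⟩
    have e : red (fun j => ((w j).val : ℤ)) = w := funext fun j => by simp [red]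
    show bQ.equivFun (Sp.mkQ (red _)) = y
    rw [e, hw, LinearEquiv.apply_symm_apply]
  choose u hu using fun j : Fin m => hRsurj (Pi.single j 1)
  have hspan : ∀ x, ∃ c : Fin m → ℤ, x - ∑ j, c j • u j ∈ P • (⊤ : Submodule T (Fin d → ℤ)) := by
    intro x
    refine ⟨fun j => (R x j).val, hR _ ?_⟩
    rw [map_sub, map_sum, sub_eq_zero]
    funext i
    rw [Finset.sum_apply, Finset.sum_eq_single i]
    · rw [map_zsmul, hu, Pi.smul_apply, Pi.single_eq_same]; simp
    · intro j _ hj; rw [map_zsmul, hu, Pi.smul_apply, Pi.single_eq_of_ne hj.symm, smul_zero]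
    · exact fun h => absurd (Finset.mem_univ i) h
  have hm : m ≤ 2 * Fintype.card ι := by
    by_contra hlt
    let k := Zbar ⧸ 𝔪
    let π : Zbar →+* k := Ideal.Quotient.mk 𝔪
    have hpk : (p : k) = 0 := by
      rw [← map_natCast π, Ideal.Quotient.eq_zero_iff_mem]; exact hp𝔪
    have : CharP k p := (CharP.charP_iff_prime_eq_zero hp).mpr hpk
    let φ : ZMod p →+* k := ZMod.castHom dvd_rfl k
    -- `R` in coordinates
    let Rm : Matrix (Fin m) (Fin d) Zbar := Matrix.of fun i l => ((R (Pi.single l 1) i).val : Zbar)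
    let Um : Matrix (Fin d) (Fin m) Zbar := Matrix.of fun l j => (u j l : Zbar)
    have hRm : ∀ (x : Fin d → ℤ) i, π ((Rm *ᵥ fun l => (x l : Zbar)) i) = φ (R x i) := by
      intro x i
      conv_rhs => rw [← Finset.univ_sum_single x, map_sum, Finset.sum_apply, map_sum]
      simp only [Matrix.mulVec, dotProduct, map_sum, map_mul, map_intCast]
      refine Finset.sum_congr rfl fun l _ => ?_
      rw [show (Pi.single l (x l) : Fin d → ℤ) = x l • Pi.single l (1 : ℤ) by
          rw [← Pi.single_smul, smul_eq_mul, mul_one],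
        map_zsmul, Pi.smul_apply, map_zsmul, zsmul_eq_mul, mul_comm]
      congr 1
      simp only [Rm, Matrix.of_apply, map_natCast]
      rw [← map_natCast φ, ZMod.natCast_zmod_val]
    -- the transpose of `A ^ N` does not move `R`
    have hfix : ∀ (N : ℕ) (x : Fin d → ℤ), R ((A ^ N)ᵀ *ᵥ x) = R x := by
      intro N
      induction N with
      | zero => simp
      | succ N ih =>
        intro x
        have he' : R (Aᵀ *ᵥ x) = R x := by
          rw [← sub_eq_zero, ← map_sub]
          refine hRP _ ?_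
          have : Aᵀ *ᵥ x - x = (e - 1) • x := by
            show _ = x ᵥ* ρ (e - 1)
            rw [Matrix.mulVec_transpose, map_sub, map_one, Matrix.vecMul_sub, Matrix.vecMul_one]
          rw [this]
          exact Submodule.smul_mem_smul he1 Submodule.mem_top
        rw [pow_succ', Matrix.transpose_mul, ← mulVec_mulVec, ih, he']
    have hF : π.mapMatrix F = (π.mapMatrix (A.map (Int.cast : ℤ → Zbar))) ^ bad.card := by
      show π.mapMatrix (Polynomial.aeval _ h) = _
      rw [Polynomial.aeval_def, Polynomial.hom_eval₂]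
      have hmap : h.map π = Polynomial.X ^ bad.card := by
        rw [Polynomial.map_prod, Finset.prod_congr rfl (g := fun _ => Polynomial.X),
          Finset.prod_const]
        intro b hb
        rw [Polynomial.map_sub, Polynomial.map_X, Polynomial.map_C,
          show π b = 0 from (Ideal.Quotient.eq_zero_iff_mem).mpr (Finset.mem_filter.mp hb).2,
          Polynomial.C_0, sub_zero]
      have hcomp : π.mapMatrix.comp (algebraMap Zbar (Matrix (Fin d) (Fin d) Zbar)) =
          (algebraMap k (Matrix (Fin d) (Fin d) k)).comp π := by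
        refine RingHom.ext fun z => ?_
        ext i j
        simp [Matrix.algebraMap_matrix_apply, apply_ite π]
      rw [hcomp, ← Polynomial.eval₂_map, hmap, Polynomial.eval₂_X_pow]
    have hFe : ∀ l l', π (F l l') = π (((A ^ bad.card) l l' : ℤ) : Zbar) := fun l l' => by
      have e := congrFun (congrFun hF l) l'
      rw [show A.map (Int.cast : ℤ → Zbar) = (Int.castRingHom Zbar).mapMatrix A from rfl,
        ← map_pow, ← map_pow] at e
      exact e
    refine hlt (le_trans (card_le_of_reduction (integralClosure ℤ ℂ).toSubring.subtype π F Rm Um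
      Subtype.val_injective ?_ (Submodule.finrank_mono hrange)) hU)
    intro i j
    have e1 : π ((Rm * Fᵀ * Um) i j) =
        π ((Rm *ᵥ fun l => ((((A ^ bad.card)ᵀ *ᵥ u j) l : ℤ) : Zbar)) i) := by
      rw [Matrix.mul_assoc, Matrix.mul_apply]
      simp only [Matrix.mulVec, dotProduct, map_sum, map_mul, Matrix.mul_apply,
        Matrix.transpose_apply, hFe, Int.cast_sum, Int.cast_mul]
      simp [Um]
    rw [e1, hRm, hfix, hu, Pi.single_apply, apply_ite φ, map_one, map_zero]
  refine ⟨fun l => if h : (l : ℕ) < m then u ⟨l, h⟩ else 0, fun x _ => ?_⟩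
  obtain ⟨c, hc⟩ := hspan x
  rw [← sub_add_cancel x (∑ j, c j • u j), add_comm]
  refine add_mem (Submodule.mem_sup_left (sum_mem fun j _ => ?_)) (Submodule.mem_sup_right hc)
  refine zsmul_mem (Submodule.subset_span ?_) _
  exact ⟨⟨j, lt_of_lt_of_le j.2 hm⟩, dif_pos j.2⟩

/-- **An eigenvector of a closed class.** -/
theorem exists_eigen_vector_of_class [Module.Finite ℤ T] {p n : ℕ} (hp : p.Prime) (hn : n ≠ 0)
    (ρ : T →+* Matrix (Fin d) (Fin d) ℤ) (θ : T →+* ZMod (p ^ n))
    {ι : Type*} [Fintype ι] (ev : ι → T →+* Zbar) (𝔪 : Ideal Zbar) [h𝔪 : 𝔪.IsMaximal]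
    (hp𝔪 : (p : Zbar) ∈ 𝔪)
    (hev : ∀ i, jointEigen ρ (fun t => ((ev i t : Zbar) : ℂ)) ≠ ⊥)
    (hθ : ∀ t, (∀ i, ev i t = 0) → θ t = 0)
    (hmult : ∀ χ : T →+* ℂ, Module.finrank ℂ (jointEigen ρ χ) ≤ 2)
    (hclosed : ∀ χ : T →+* Zbar, (∀ t, (∀ i, ev i t = 0) → χ t = 0) →
      (∀ t, χ t - ((θ t).val : Zbar) ∈ 𝔪) → ∃ i, χ = ev i) :
    ∃ x : Fin d → ZMod (p ^ n), (∀ t, (ρ t).map (Int.cast : ℤ → ZMod (p ^ n)) *ᵥ x = θ t • x) ∧
      ∀ v : ℕ, (p ^ v) • x = 0 → n ≤ v * (2 * Fintype.card ι) := by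
  classical
  let I : Ideal T := ⨅ i, RingHom.ker (ev i)
  have hI : ∀ t, t ∈ I ↔ ∀ i, ev i t = 0 := fun t => by
    simp [I, Submodule.mem_iInf, RingHom.mem_ker]
  let L : Submodule ℤ (Fin d → ℤ) := ⨅ t : I, LinearMap.ker (Matrix.toLin' (ρ t))
  have hL : ∀ x, x ∈ L ↔ ∀ t : I, ρ t *ᵥ x = 0 := fun x => by
    simp [L, Submodule.mem_iInf]
  have : Module.IsTorsionFree ℤ ((Fin d → ℤ) ⧸ L) := by
    constructor
    intro c hc
    rw [isRegular_iff_ne_zero] at hc
    intro a b hab
    obtain ⟨a, rfl⟩ := Submodule.mkQ_surjective L a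
    obtain ⟨b, rfl⟩ := Submodule.mkQ_surjective L b
    have h1 : c • a - c • b ∈ L := (Submodule.Quotient.eq L).mp (by
      simpa only [Submodule.mkQ_apply, Submodule.Quotient.mk_smul] using hab)
    refine (Submodule.Quotient.eq L).mpr ((hL _).mpr fun t => ?_)
    have h2 := (hL _).mp h1 t
    rw [← smul_sub, Matrix.mulVec_smul] at h2
    exact (smul_eq_zero.mp h2).resolve_left hc
  have : Module.Free ℤ ((Fin d → ℤ) ⧸ L) := Module.free_of_finite_type_torsion_free'
  obtain ⟨sec, hsec⟩ := Module.projective_lifting_property L.mkQ LinearMap.id L.mkQ_surjective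
  let ret : (Fin d → ℤ) →ₗ[ℤ] L := (LinearMap.id - sec.comp L.mkQ).codRestrict L fun x => by
    rw [← Submodule.Quotient.mk_eq_zero, ← Submodule.mkQ_apply, LinearMap.sub_apply, map_sub,
      LinearMap.id_apply, LinearMap.comp_apply, ← LinearMap.comp_apply L.mkQ sec, hsec,
      LinearMap.id_apply, sub_self]
  let b := Module.finBasis ℤ L
  set d' := Module.finrank ℤ L
  let B : Matrix (Fin d) (Fin d') ℤ :=
    LinearMap.toMatrix' (L.subtype.comp b.equivFun.symm.toLinearMap)
  let C : Matrix (Fin d') (Fin d) ℤ := LinearMap.toMatrix' (b.equivFun.toLinearMap.comp ret)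
  have hBx : ∀ y, B *ᵥ y = ((b.equivFun.symm y : L) : Fin d → ℤ) := fun y => by
    rw [LinearMap.toMatrix'_mulVec]; rfl
  have hret : ∀ y : L, ret (y : Fin d → ℤ) = y := fun y => Subtype.ext (by
    show (y : Fin d → ℤ) - sec (L.mkQ y) = y
    rw [Submodule.mkQ_apply, (Submodule.Quotient.mk_eq_zero L).mpr y.2, map_zero, sub_zero])
  have hCB : C * B = 1 := Matrix.ext_of_mulVec_single fun i => by
    rw [← mulVec_mulVec, hBx, LinearMap.toMatrix'_mulVec, LinearMap.comp_apply, hret,
      one_mulVec]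
    exact b.equivFun.apply_symm_apply _
  have hstab : ∀ t, ρ t * B = B * (C * ρ t * B) := fun t => Matrix.ext_of_mulVec_single fun i => by
    set y : Fin d' → ℤ := Pi.single i 1
    have hmem : ρ t *ᵥ (B *ᵥ y) ∈ L := (hL _).mpr fun s => by
      rw [mulVec_mulVec, ← map_mul, mul_comm, map_mul, ← mulVec_mulVec,
        (hL _).mp (hBx y ▸ (b.equivFun.symm y).2) s, mulVec_zero]
    have hC : C *ᵥ (ρ t *ᵥ (B *ᵥ y)) = b.equivFun (ret (ρ t *ᵥ (B *ᵥ y))) :=
      LinearMap.toMatrix'_mulVec _ _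
    rw [← mulVec_mulVec, ← mulVec_mulVec, ← mulVec_mulVec, ← mulVec_mulVec, hC, hBx (b.equivFun _),
      LinearEquiv.symm_apply_apply]
    exact (congrArg Subtype.val (hret ⟨_, hmem⟩)).symm
  let ρ₁ : T →+* Matrix (Fin d') (Fin d') ℤ :=
    { toFun := fun t => C * ρ t * B
      map_one' := by rw [map_one, Matrix.mul_one, hCB]
      map_mul' := fun s t => by
        rw [map_mul, Matrix.mul_assoc (C * ρ s) B, ← hstab]
        simp only [Matrix.mul_assoc]
      map_zero' := by rw [map_zero, Matrix.mul_zero, Matrix.zero_mul]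
      map_add' := fun s t => by rw [map_add, Matrix.mul_add, Matrix.add_mul] }
  have hρ₁I : ∀ t ∈ I, ρ₁ t = 0 := fun t ht => Matrix.ext_of_mulVec_single fun i => by
    show (C * ρ t * B) *ᵥ _ = _
    rw [← mulVec_mulVec, ← mulVec_mulVec, hBx, (hL _).mp (b.equivFun.symm _).2 ⟨t, ht⟩,
      mulVec_zero, zero_mulVec]
  let ρ' : T ⧸ I →+* Matrix (Fin d') (Fin d') ℤ := Ideal.Quotient.lift I ρ₁ hρ₁I
  have hρ' : Function.Injective ρ' := (injective_iff_map_eq_zero _).mpr fun q hq => by
    obtain ⟨t, rfl⟩ := Ideal.Quotient.mk_surjective q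
    have hq' : C * ρ t * B = 0 := hq
    rw [Ideal.Quotient.eq_zero_iff_mem, hI]
    intro i
    obtain ⟨v, hv, hv0⟩ := Submodule.exists_mem_ne_zero_of_ne_bot (hev i)
    rw [mem_jointEigen] at hv
    have h := mulVec_eq_zero_of_forall_int (fun s : I => ρ s) (ρ t) (fun x hx => by
      have hxL : x ∈ L := (hL x).mpr hx
      have e : x = B *ᵥ b.equivFun ⟨x, hxL⟩ := by rw [hBx, LinearEquiv.symm_apply_apply]
      rw [e, mulVec_mulVec, hstab, hq', Matrix.mul_zero, zero_mulVec]) (v := v) fun s => by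
      rw [hv, (hI s).mp s.2 i, ZeroMemClass.coe_zero, zero_smul]
    rw [hv t] at h
    exact Subtype.ext ((smul_eq_zero.mp h).resolve_right hv0)
  have : IsReduced (T ⧸ I) := ⟨fun q ⟨k, hk⟩ => by
    obtain ⟨t, rfl⟩ := Ideal.Quotient.mk_surjective q
    rw [← map_pow, Ideal.Quotient.eq_zero_iff_mem, hI] at hk
    rw [Ideal.Quotient.eq_zero_iff_mem, hI]
    exact fun i => eq_zero_of_pow_eq_zero (by rw [← map_pow]; exact hk i)⟩
  let θ' : T ⧸ I →+* ZMod (p ^ n) := Ideal.Quotient.lift I θ fun t ht => hθ t ((hI t).mp ht)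
  let ev' : ι → T ⧸ I →+* Zbar := fun i => Ideal.Quotient.lift I (ev i) fun t ht => (hI t).mp ht i
  have hmult' : ∀ χ : T ⧸ I →+* ℂ, Module.finrank ℂ (jointEigen ρ' χ) ≤ 2 := by
    intro χ
    have hCBc := map_intCast_one (R := ℂ) hCB
    have hinj : Function.Injective (Matrix.toLin' (B.map (Int.cast : ℤ → ℂ))) := fun v w h => by
      have h' := congrArg (C.map (Int.cast : ℤ → ℂ) *ᵥ ·) h
      simpa [mulVec_mulVec, hCBc] using h'
    rw [(Submodule.equivMapOfInjective _ hinj (jointEigen ρ' χ)).finrank_eq]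
    refine (Submodule.finrank_mono ?_).trans (hmult (χ.comp (Ideal.Quotient.mk I)))
    rintro _ ⟨v, hv, rfl⟩
    rw [mem_jointEigen]
    intro t
    have hv' : (C * ρ t * B).map (Int.cast : ℤ → ℂ) *ᵥ v = χ (Ideal.Quotient.mk I t) • v :=
      mem_jointEigen.mp hv (Ideal.Quotient.mk I t)
    rw [Matrix.toLin'_apply, mulVec_mulVec, map_intCast_comm (hstab t), ← mulVec_mulVec, hv',
      mulVec_smul, RingHom.comp_apply]
  obtain ⟨gen, hgen⟩ := exists_gen_of_class hp hn ρ' hρ' θ' ev' 𝔪 hp𝔪 hmult' fun χ hχ => by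
    obtain ⟨i, hi⟩ := hclosed (χ.comp (Ideal.Quotient.mk I))
      (fun t ht => by
        rw [RingHom.comp_apply, Ideal.Quotient.eq_zero_iff_mem.mpr ((hI t).mpr ht), map_zero])
      fun t => hχ (Ideal.Quotient.mk I t)
    exact ⟨i, Ideal.Quotient.ringHom_ext (hi.trans (Ideal.Quotient.lift_comp_mk ..).symm)⟩
  obtain ⟨x, hx, hxv⟩ := exists_eigen_vector hp hn ρ' hρ' θ' gen hgen
  refine ⟨B.map (Int.cast : ℤ → ZMod (p ^ n)) *ᵥ x, fun t => ?_, fun v hv => hxv v ?_⟩
  · have hx' : (C * ρ t * B).map (Int.cast : ℤ → ZMod (p ^ n)) *ᵥ x = θ t • x :=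
      hx (Ideal.Quotient.mk I t)
    rw [mulVec_mulVec, map_intCast_comm (hstab t), ← mulVec_mulVec, hx', mulVec_smul]
  · rw [← one_mulVec x, ← map_intCast_one (R := ZMod (p ^ n)) hCB, ← mulVec_mulVec,
      ← mulVec_smul, hv, mulVec_zero]

end Fermat.Agent.MazurPrinciple
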