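import Fermat.Agent.Semistable.Lifting
import Fermat.Agent.FF.Genus
import Fermat.Agent.FF.Places

/-!
# The reduced level `M` ring as the affine ring of a function field

`CurveModel S Fk` says that the reduced functions of level `M` are the elements of a function
field `Fk` which are regular outside one place, whose order is the order of the expansion. Points of
the ring are then places of `Fk`.
-/

set_option autoImplicit false

noncomputable section

namespace Fermat.Agent.MazurPrinciple

open Fermat.Agent.Semistable Fermat.Agent.Reduction AlgebraicCurve ModularCurve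

variable {K F k : Type*} [Field K] [Field F] [Algebra K F] [Field k] {A : ValuationSubring K}
  {π : A →+* k} {q : ℕ} [NeZero q]

/-- A function field model of the reduced ring of level `M`. -/
structure CurveModel (S : Sheets A π q F) (Fk : Type*) [Field Fk] [Algebra k Fk] where
  κ : Fk →ₐ[k] LaurentSeries k
  pt : Place k Fk
  ord_pt : ∀ f, pt.ord f = (κ f).order
  mem : ∀ x, x ∈ S.C ↔ ∃ f, κ f = x ∧ ∀ v, v ≠ pt → f ∈ FF.ordGE v 0

namespace CurveModel

variable {S : Sheets A π q F} {Fk : Type*} [Field Fk] [Algebra k Fk] (M : CurveModel S Fk)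

theorem κ_injective : Function.Injective M.κ := M.κ.toRingHom.injective

theorem κ_eq_zero {f : Fk} : M.κ f = 0 ↔ f = 0 := map_eq_zero M.κ

/-- An element of the ring as an element of the field. -/
def toFk (x : S.C) : Fk := ((M.mem x).mp x.2).choose

theorem κ_toFk (x : S.C) : M.κ (M.toFk x) = x := ((M.mem x).mp x.2).choose_spec.1

theorem toFk_mem (x : S.C) {v : Place k Fk} (hv : v ≠ M.pt) : M.toFk x ∈ FF.ordGE v 0 :=
  ((M.mem x).mp x.2).choose_spec.2 v hv

theorem toFk_eq {x : S.C} {f : Fk} (h : M.κ f = x) : M.toFk x = f :=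
  M.κ_injective ((M.κ_toFk x).trans h.symm)

theorem toFk_mul (x y : S.C) : M.toFk (x * y) = M.toFk x * M.toFk y :=
  M.toFk_eq (by rw [map_mul, M.κ_toFk, M.κ_toFk]; rfl)

theorem toFk_sub (x y : S.C) : M.toFk (x - y) = M.toFk x - M.toFk y :=
  M.toFk_eq (by rw [map_sub, M.κ_toFk, M.κ_toFk]; rfl)

theorem toFk_algebraMap (c : k) : M.toFk (algebraMap k S.C c) = algebraMap k Fk c :=
  M.toFk_eq (by rw [AlgHom.commutes]; rfl)

theorem toFk_eq_zero {x : S.C} : M.toFk x = 0 ↔ x = 0 := by
  rw [← M.κ_eq_zero, M.κ_toFk]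
  exact ZeroMemClass.coe_eq_zero

theorem mem_ordGE_pt {n : ℤ} {f : Fk} : f ∈ FF.ordGE M.pt (-n) ↔ PoleLE n (M.κ f) :=
  Sheets.mem_ordGE_iff_poleLE (fun _ => M.κ_eq_zero) M.ord_pt

/-- An element of the field regular outside `pt` lies in the ring. -/
theorem κ_mem {f : Fk} (h : ∀ v, v ≠ M.pt → f ∈ FF.ordGE v 0) : M.κ f ∈ S.C :=
  (M.mem _).mpr ⟨f, rfl, h⟩

/-- Sections of `n pt` are the reduced functions of pole order at most `n`. -/
def rrEquiv (n : ℤ) : riemannRochSpace (Finsupp.single M.pt n) ≃ₗ[k] S.Cle n := by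
  let l : riemannRochSpace (Finsupp.single M.pt n) →ₗ[k] S.Cle n :=
    { toFun := fun f => ⟨M.κ f, by
        have hf := FF.mem_riemannRochSpace.mp f.2
        refine ⟨M.mem_ordGE_pt.mp ?_, M.κ_mem fun v hv => ?_⟩
        · have := hf M.pt
          rwa [Finsupp.single_eq_same] at this
        · have := hf v
          rwa [Finsupp.single_eq_of_ne hv, neg_zero] at this⟩
      map_add' := fun a b => Subtype.ext (map_add M.κ _ _)
      map_smul' := fun c a => Subtype.ext (by
        show M.κ (c • (a : Fk)) = c • M.κ a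
        rw [Algebra.smul_def, map_mul, AlgHom.commutes, smul_eq_algebraMap_mul]) }
  refine LinearEquiv.ofBijective l
    ⟨fun a b h => Subtype.ext (M.κ_injective (congrArg Subtype.val h)), fun x => ?_⟩
  refine ⟨⟨M.toFk ⟨x.1, x.2.2⟩, FF.mem_riemannRochSpace.mpr fun v => ?_⟩,
    Subtype.ext (M.κ_toFk ⟨x.1, x.2.2⟩)⟩
  rcases eq_or_ne v M.pt with rfl | hv
  · rw [Finsupp.single_eq_same, M.mem_ordGE_pt, M.κ_toFk]
    exact x.2.1
  · rw [Finsupp.single_eq_of_ne hv, neg_zero]
    exact M.toFk_mem _ hv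

variable [FF.IsFunctionField k Fk] [IsAlgClosed k]

/-- The genus of the model is the genus of level `M`. -/
theorem riemannGenus_eq (M : CurveModel S Fk) : FF.riemannGenus k Fk = S.gM := by
  obtain ⟨N, hN⟩ := FF.exists_ell_eq_of_degree_ge k Fk
  set n : ℤ := max N S.n₀ with hn
  have h1 := hN (Finsupp.single M.pt n) (by
    rw [Divisor.degree_single, FF.deg_eq_one]
    simp [hn])
  rw [Divisor.degree_single, FF.deg_eq_one, FF.ell, (M.rrEquiv n).finrank_eq,
    S.finrank_Cle (le_max_right _ _)] at h1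
  push_cast at h1
  omega

/-- Riemann's formula with the genus of level `M`. -/
theorem exists_ell_eq (M : CurveModel S Fk) : ∃ N : ℤ, ∀ D : Divisor k Fk, N ≤ Divisor.degree D →
    (FF.ell D : ℤ) = Divisor.degree D + 1 - S.gM := by
  rw [← M.riemannGenus_eq]
  exact FF.exists_ell_eq_of_degree_ge k Fk

/-- Prescribed exact order at one place of a finite set and higher order at the others. -/
theorem exists_exact (M : CurveModel S Fk) :
    ∃ N : ℤ, ∀ (D : Divisor k Fk) (T : Finset (Place k Fk)),
    N + T.card ≤ Divisor.degree D → ∀ v ∈ T,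
      ∃ f ∈ riemannRochSpace D, f ≠ 0 ∧ v.ord f = -D v ∧
        ∀ w ∈ T, w ≠ v → f ∈ FF.ordGE w (1 - D w) := by
  classical
  obtain ⟨N, hN⟩ := M.exists_ell_eq
  refine ⟨N, fun D T hT v hv => ?_⟩
  set P : Finset (Place k Fk) → Divisor k Fk := fun s => ∑ w ∈ s, Finsupp.single w 1
  have hdeg : ∀ s, Divisor.degree (P s) = s.card := fun s => by
    simp [P, FF.deg_eq_one]
  have happ : ∀ s w, P s w = if w ∈ s then 1 else 0 := fun s w => by
    simp [P, Finsupp.finsetSum_apply, Finsupp.single_apply]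
  have hcard : (T.erase v).card + 1 = T.card := Finset.card_erase_add_one hv
  have h1 := hN (D - P (T.erase v)) (by rw [map_sub, hdeg]; omega)
  have h2 := hN (D - P T) (by rw [map_sub, hdeg]; omega)
  rw [map_sub, hdeg] at h1 h2
  obtain ⟨f, hf, hf'⟩ : ∃ f ∈ riemannRochSpace (D - P (T.erase v)),
      f ∉ riemannRochSpace (D - P T) := by
    by_contra! hle
    have := Submodule.finrank_mono (fun f hf => hle f hf :
      riemannRochSpace (D - P (T.erase v)) ≤ riemannRochSpace (D - P T))
    unfold FF.ell at h1 h2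
    omega
  have hfv := FF.mem_riemannRochSpace.mp hf v
  rw [Finsupp.sub_apply, happ, if_neg (Finset.notMem_erase v T), sub_zero] at hfv
  have hle : ∀ w, w ≠ v → f ∈ FF.ordGE w (-(D - P T) w) := fun w hw => by
    have := FF.mem_riemannRochSpace.mp hf w
    simpa [Finsupp.sub_apply, happ, Finset.mem_erase, hw] using this
  have hf0 : f ≠ 0 := fun h => hf' (h ▸ Submodule.zero_mem _)
  refine ⟨f, FF.riemannRochSpace_mono (fun w => ?_) hf, hf0, ?_, fun w hw hne => ?_⟩
  · rw [Finsupp.sub_apply, happ]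
    split_ifs <;> omega
  · rw [FF.mem_ordGE_of_ne_zero v hf0] at hfv
    refine le_antisymm ?_ hfv
    by_contra hlt
    refine hf' (FF.mem_riemannRochSpace.mpr fun w => ?_)
    rcases eq_or_ne w v with rfl | hw
    · refine FF.mem_ordGE_of_le_ord w ?_
      rw [Finsupp.sub_apply, happ, if_pos hv]
      omega
    · exact hle w hw
  · have := hle w hne
    rw [Finsupp.sub_apply, happ, if_pos hw, neg_sub] at this
    exact this

omit [IsAlgClosed k] in
/-- Every point of the ring is a place different from `pt`. -/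
theorem exists_center (u : S.C →ₐ[k] k) : ∃ v : Place k Fk, v ≠ M.pt ∧
    ∀ x : S.C, u x = 0 ↔ M.toFk x ∈ FF.ordGE v 1 := by
  let φ : S.C →+* Fk :=
    { toFun := M.toFk
      map_one' := M.toFk_eq (map_one M.κ)
      map_mul' := M.toFk_mul
      map_zero' := M.toFk_eq_zero.mpr rfl
      map_add' := fun x y => M.toFk_eq (by rw [map_add, M.κ_toFk, M.κ_toFk]; rfl) }
  have hφ : Function.Injective φ := fun x y h =>
    Subtype.ext (by rw [← M.κ_toFk x, ← M.κ_toFk y]; exact congrArg M.κ h)
  let e := RingEquiv.ofBijective φ.rangeRestrict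
    ⟨fun x y h => hφ (congrArg Subtype.val h), φ.rangeRestrict_surjective⟩
  let I : Ideal φ.range := (RingHom.ker u.toRingHom).comap e.symm.toRingHom
  have hI : I ≠ ⊤ := fun h => by
    have h1 : (1 : φ.range) ∈ I := h ▸ Submodule.mem_top
    simp [I] at h1
  obtain ⟨V, hV, hVn⟩ := Ideal.image_subset_nonunits_valuationSubring I hI
  have hmem : ∀ x : S.C, M.toFk x ∈ V := fun x => hV ⟨x, rfl⟩
  have hnu : ∀ x : S.C, u x = 0 → M.toFk x ∈ V.nonunits := fun x hx =>
    hVn ⟨e x, by
      show u.toRingHom (e.symm.toRingHom (e x)) = 0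
      simpa using hx, rfl⟩
  -- a nonconstant element
  obtain ⟨y, hyC, hy0, hyo, -⟩ := S.exists_order_eq (n := (S.n₀ : ℤ) + 1) (by omega)
  set y' : S.C := ⟨y, hyC⟩ - algebraMap k S.C (u ⟨y, hyC⟩) with hy'
  have hy'u : u y' = 0 := by
    rw [hy', map_sub, AlgHom.commutes, Algebra.algebraMap_self, RingHom.id_apply, sub_self]
  have hy'0 : M.toFk y' ≠ 0 := fun h => by
    rw [M.toFk_eq_zero, hy', sub_eq_zero] at h
    have := congrArg (fun z : S.C => (z : LaurentSeries k)) h
    change y = algebraMap k (LaurentSeries k) _ at this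
    have ho : (M.pt).ord (algebraMap k Fk (u ⟨y, hyC⟩)) = y.order := by
      rw [M.ord_pt, AlgHom.commutes, ← this]
    rw [FF.ord_algebraMap, hyo] at ho
    omega
  have hne : V ≠ ⊤ := fun h => by
    rcases (ValuationSubring.mem_nonunits_iff_or _).mp (hnu y' hy'u) with h0 | h0
    · exact hy'0 h0
    · exact h0 (h ▸ ValuationSubring.mem_top _)
  obtain ⟨v, rfl⟩ : ∃ v : Place k Fk, v.toValuationSubring = V :=
    ⟨⟨V, fun c => by simpa [M.toFk_algebraMap] using hmem (algebraMap k S.C c), hne,
      FF.isPrincipalIdealRing_valuationSubring_of_ne_top V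
        (fun c => by simpa [M.toFk_algebraMap] using hmem (algebraMap k S.C c))⟩, rfl⟩
  have hpos : ∀ x, u x = 0 → M.toFk x ∈ FF.ordGE v 1 := fun x hx => by
    rcases eq_or_ne (M.toFk x) 0 with h0 | h0
    · rw [h0]; exact Submodule.zero_mem _
    refine FF.mem_ordGE_of_le_ord v ?_
    rcases (ValuationSubring.mem_nonunits_iff_or _).mp (hnu x hx) with h | h
    · exact absurd h h0
    · rw [FF.mem_toValuationSubring_iff_ord v (inv_ne_zero h0), v.ord_inv] at h
      omega
  refine ⟨v, fun h => ?_, fun x => ⟨hpos x, fun hx => ?_⟩⟩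
  · have h1 := FF.ord_nonneg_of_mem v (hmem ⟨y, hyC⟩)
    rw [h, M.ord_pt, M.κ_toFk] at h1
    change 0 ≤ y.order at h1
    omega
  · by_contra hne
    have h1 := hpos (x - algebraMap k S.C (u x))
      (by rw [map_sub, AlgHom.commutes, Algebra.algebraMap_self, RingHom.id_apply, sub_self])
    rw [M.toFk_sub, M.toFk_algebraMap] at h1
    have h2 := sub_mem hx h1
    rw [sub_sub_cancel, FF.mem_ordGE_of_ne_zero v ((_root_.map_ne_zero _).mpr hne),
      FF.ord_algebraMap] at h2
    omega

section Center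

omit [IsAlgClosed k]

/-- The place of a node point. -/
def center (u : S.Pt) : Place k Fk := (M.exists_center u.1).choose

theorem center_ne_pt (u : S.Pt) : M.center u ≠ M.pt := (M.exists_center u.1).choose_spec.1

theorem center_spec (u : S.Pt) (x : S.C) : u x = 0 ↔ M.toFk x ∈ FF.ordGE (M.center u) 1 :=
  (M.exists_center u.1).choose_spec.2 x

theorem center_injective : Function.Injective M.center := fun u u' h => by
  refine DFunLike.ext _ _ fun x => ?_
  have h1 : u (x - algebraMap k S.C (u x)) = 0 := by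
    rw [Sheets.Pt.map_sub, Sheets.Pt.map_algebraMap, sub_self]
  rw [M.center_spec, h, ← M.center_spec, Sheets.Pt.map_sub, Sheets.Pt.map_algebraMap,
    sub_eq_zero] at h1
  exact h1.symm

/-- A function not vanishing at a point has order zero there. -/
theorem ord_center_eq_zero {u : S.Pt} {x : S.C} (hx : u x ≠ 0) :
    M.toFk x ≠ 0 ∧ (M.center u).ord (M.toFk x) = 0 := by
  have h0 : M.toFk x ≠ 0 := fun h => hx (by
    rw [M.center_spec, h]; exact Submodule.zero_mem _)
  refine ⟨h0, ?_⟩
  have h1 := M.toFk_mem x (M.center_ne_pt u)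
  rw [Ne, M.center_spec, FF.mem_ordGE_of_ne_zero _ h0] at hx
  rw [FF.mem_ordGE_of_ne_zero _ h0] at h1
  omega

/-- Conversely. -/
theorem ne_zero_of_ord_center {u : S.Pt} {x : S.C} (h0 : M.toFk x ≠ 0)
    (h : (M.center u).ord (M.toFk x) = 0) : u x ≠ 0 := by
  rw [Ne, M.center_spec, FF.mem_ordGE_of_ne_zero _ h0]
  omega

end Center

end CurveModel

end Fermat.Agent.MazurPrinciple
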