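import Fermat.Agent.FF.Along
import Fermat.Agent.FF.ModularField
import Fermat.Agent.Kummer.Main

/-!
# Descent along the inclusion of level `M` in level `M r` in characteristic prime to `M r`

The inclusion `k(X₀(M)) ⊆ k(X₀(M r))` has degree `r + 1`; a function whose orders on `X₀(M r)` are
divisible by `m` therefore has `(r + 1) ord` divisible by `m` on `X₀(M)`.
-/

set_option autoImplicit false

noncomputable section

namespace Fermat.Agent.MazurPrinciple

open AlgebraicCurve ModularCurve IntermediateField

variable (k : Type*) [Field k] (M r : ℕ) [NeZero M] [NeZero r]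

/-- The inclusion of level `M` into level `M r`. -/
def levelIncl : modularFunctionFieldFullC k M →ₐ[k] modularFunctionFieldFullC k (M * r) :=
  IntermediateField.inclusion (full_degeneracyC_le k (dvd_mul_right M r))

theorem coe_levelIncl (g : modularFunctionFieldFullC k M) :
    ((levelIncl k M r g : modularFunctionFieldFullC k (M * r)) : LaurentSeries k) = g :=
  IntermediateField.coe_inclusion (full_degeneracyC_le k (dvd_mul_right M r)) g

theorem levelIncl_jC : levelIncl k M r (Igusa.jC k M) = Igusa.jC k (M * r) :=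
  Subtype.ext ((coe_levelIncl k M r _).trans (by rw [Igusa.jC, Igusa.jC]))

variable [IsAlgClosed k]

/-- The degree of the inclusion. -/
theorem finrankAlong_levelIncl (hM : ((M * r : ℕ) : k) ≠ 0) :
    (dedekindPsi (M * r) : ℤ) = finrankAlong k (levelIncl k M r) * dedekindPsi M := by
  have hM0 : (M : k) ≠ 0 := fun h => hM (by rw [Nat.cast_mul, h, zero_mul])
  have := FF.isFunctionField_fullC k M hM0
  have := FF.isFunctionField_fullC k (M * r) hM
  have h := FF.degree_poleDiv_along (levelIncl k M r) (FF.transcendental_jC k M)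
  rw [levelIncl_jC, FF.degree_poleDiv (FF.transcendental_jC k M),
    FF.degree_poleDiv (FF.transcendental_jC k (M * r))] at h
  rw [← Igusa.finrank_fullC_eq_dedekindPsi M hM0,
    ← Igusa.finrank_fullC_eq_dedekindPsi (M * r) hM]
  exact h

/-- `[k(X₀(M r)) : k(X₀(M))] = r + 1` for a prime `r ∤ M`. -/
theorem finrankAlong_levelIncl_eq (hr : r.Prime) (hrM : ¬ r ∣ M) (hM : ((M * r : ℕ) : k) ≠ 0) :
    finrankAlong k (levelIncl k M r) = r + 1 := by
  have h := finrankAlong_levelIncl k M r hM
  rw [Kummer.dedekindPsi_mul_prime_of_not_dvd hr hrM] at h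
  have hM0 : (M : k) ≠ 0 := fun h => hM (by rw [Nat.cast_mul, h, zero_mul])
  have hpos : dedekindPsi M ≠ 0 := by
    have := Igusa.finiteDimensional_fullC (k := k) M hM0
    rw [← Igusa.finrank_fullC_eq_dedekindPsi (k := k) M hM0]
    exact Module.finrank_pos.ne'
  have h' : ((r + 1) * dedekindPsi M : ℕ) = finrankAlong k (levelIncl k M r) * dedekindPsi M := by
    exact_mod_cast h
  exact (Nat.eq_of_mul_eq_mul_right (Nat.pos_of_ne_zero hpos) h').symm

/-- **Descent.** If all orders of `g` at level `M r` are divisible by `m`, then so is `(r + 1) ord`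
at level `M`. -/
theorem dvd_mul_ord_of_levelIncl (hr : r.Prime) (hrM : ¬ r ∣ M) (hM : ((M * r : ℕ) : k) ≠ 0)
    (m : ℤ) (g : modularFunctionFieldFullC k M)
    (hg : ∀ w : Place k (modularFunctionFieldFullC k (M * r)), m ∣ w.ord (levelIncl k M r g))
    (v : Place k (modularFunctionFieldFullC k M)) : m ∣ ((r : ℤ) + 1) * v.ord g := by
  classical
  have hM0 : (M : k) ≠ 0 := fun h => hM (by rw [Nat.cast_mul, h, zero_mul])
  have := FF.isFunctionField_fullC k M hM0
  have := FF.isFunctionField_fullC k (M * r) hM
  set φ := levelIncl k M r with hφdef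
  have hφ := FF.isIntegralAlong φ
  have hFI := FF.fundamentalIdentityAlong φ hφ
  have hdeg := Divisor.degree_pullbackAlong φ hφ hFI (Finsupp.single v (v.ord g))
  rw [finrankAlong_levelIncl_eq k M r hr hrM hM, Divisor.degree_single, FF.deg_eq_one, Nat.cast_one,
    mul_one] at hdeg
  push_cast at hdeg
  rw [← hdeg]
  generalize hP : Divisor.pullbackAlong φ hφ (Finsupp.single v (v.ord g)) = P
  have hdvd : ∀ w, m ∣ P w := fun w => by
    rw [← hP, Divisor.pullbackAlong_apply, Finsupp.single_apply]
    split_ifs with hw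
    · rw [hw, ← Place.ord_restrictAlong]
      exact hg w
    · rw [mul_zero]; exact dvd_zero _
  rw [Divisor.degree, Finsupp.liftAddHom_apply]
  exact Finset.dvd_sum fun w _ => Dvd.dvd.mul_right (hdvd w) _

end Fermat.Agent.MazurPrinciple
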