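import Mathlib

/-!
# A rational common zero vector from zero vectors modulo powers of `p`

Integral matrices with common zero vectors modulo unbounded powers of a prime have a common
rational zero vector.
-/

set_option autoImplicit false

noncomputable section

namespace Fermat.Agent.MazurPrinciple

open Matrix

variable {I : Type*} {d : ℕ} {p : ℕ}

/-- A finite subfamily already cuts out the common rational kernel. -/
theorem exists_finset_ker_eq_bot (g : I → Matrix (Fin d) (Fin d) ℤ)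
    (h : ∀ v : Fin d → ℚ, (∀ i, (g i).map (Int.cast : ℤ → ℚ) *ᵥ v = 0) → v = 0) :
    ∃ s : Finset I, ∀ v : Fin d → ℚ, (∀ i ∈ s, (g i).map (Int.cast : ℤ → ℚ) *ᵥ v = 0) → v = 0 := by
  classical
  let K : Finset I → Submodule ℚ (Fin d → ℚ) := fun s =>
    ⨅ i ∈ s, LinearMap.ker ((g i).map (Int.cast : ℤ → ℚ)).mulVecLin
  obtain ⟨-, ⟨s, rfl⟩, hmin⟩ := WellFounded.has_min
    (wellFounded_lt (α := Submodule ℚ (Fin d → ℚ))) (Set.range K) ⟨_, ⟨∅, rfl⟩⟩
  refine ⟨s, fun v hv => h v fun i => ?_⟩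
  have hv' : v ∈ K s := by simpa [K] using hv
  by_contra hne
  refine hmin (K (insert i s)) ⟨_, rfl⟩ (lt_of_le_of_ne ?_ fun he => hne ?_)
  · exact le_iInf₂ fun j hj => iInf₂_le_of_le j (Finset.mem_insert_of_mem hj) le_rfl
  · rw [← he] at hv'
    simpa using (Submodule.mem_iInf _).mp ((Submodule.mem_iInf _).mp hv' i)
      (Finset.mem_insert_self i s)

/-- **Common zero vectors to all orders give a rational one.** -/
theorem exists_rat_ker (hp : p.Prime) (g : I → Matrix (Fin d) (Fin d) ℤ)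
    (h : ∀ (s : Finset I) (a : ℕ), ∃ (N : ℕ) (x : Fin d → ZMod (p ^ N)),
      (∀ i ∈ s, (g i).map (Int.cast : ℤ → ZMod (p ^ N)) *ᵥ x = 0) ∧ (p ^ a) • x ≠ 0) :
    ∃ v : Fin d → ℚ, v ≠ 0 ∧ ∀ i, (g i).map (Int.cast : ℤ → ℚ) *ᵥ v = 0 := by
  classical
  by_contra hne
  push Not at hne
  obtain ⟨s, hs⟩ := exists_finset_ker_eq_bot g fun v hv => by
    by_contra hv0
    obtain ⟨i, hi⟩ := hne v hv0
    exact hi (hv i)
  let L : (Fin d → ℚ) →ₗ[ℚ] (s → Fin d → ℚ) :=
    LinearMap.pi fun i => ((g i).map (Int.cast : ℤ → ℚ)).mulVecLin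
  obtain ⟨L', hL'⟩ := L.exists_leftInverse_of_injective (LinearMap.ker_eq_bot'.mpr fun v hv =>
    hs v fun i hi => congrFun hv ⟨i, hi⟩)
  let C : s → Matrix (Fin d) (Fin d) ℚ := fun i => LinearMap.toMatrix'
    (L' ∘ₗ LinearMap.single ℚ (fun _ : s => Fin d → ℚ) i)
  obtain ⟨⟨M, hM⟩, hint⟩ := IsLocalization.exist_integer_multiples_of_finite (nonZeroDivisors ℤ)
    (S := ℚ) (fun x : s × Fin d × Fin d => C x.1 x.2.1 x.2.2)
  choose D hD using hint
  have hsum : ∑ i : s, (Matrix.of fun a b => D (i, a, b)) * g i =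
      M • (1 : Matrix (Fin d) (Fin d) ℤ) := by
    apply Matrix.map_injective (f := (Int.cast : ℤ → ℚ)) Int.cast_injective
    have e1 : ∀ i : s, (Matrix.of fun a b => D (i, a, b)).map (Int.cast : ℤ → ℚ) = (M : ℚ) • C i :=
      fun i => by
        ext a b
        have := hD (i, a, b)
        simpa [zsmul_eq_mul] using this
    have e2 : ∑ i : s, C i * (g i).map (Int.cast : ℤ → ℚ) = 1 := by
      apply Matrix.toLin'.injective
      refine LinearMap.ext fun v => ?_
      rw [map_sum, Matrix.toLin'_one, LinearMap.sum_apply, LinearMap.id_apply]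
      conv_rhs => rw [← LinearMap.id_apply (R := ℚ) v, ← hL', LinearMap.comp_apply]
      rw [← LinearMap.sum_single_apply (fun _ : s => Fin d → ℚ) (L v), map_sum]
      refine Finset.sum_congr rfl fun i _ => ?_
      rw [Matrix.toLin'_mul, LinearMap.comp_apply, Matrix.toLin'_toMatrix', LinearMap.comp_apply]
      rfl
    show (Int.castRingHom ℚ).mapMatrix _ = (Int.castRingHom ℚ).mapMatrix _
    rw [map_sum, map_zsmul, map_one]
    simp only [map_mul, RingHom.mapMatrix_apply, Int.coe_castRingHom, e1, smul_mul_assoc,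
      ← Finset.smul_sum, e2]
    exact Int.cast_smul_eq_zsmul ℚ M _
  have hM0 : M.natAbs ≠ 0 := Int.natAbs_ne_zero.mpr (nonZeroDivisors.ne_zero hM)
  obtain ⟨a, u, hu, hMu⟩ := Nat.exists_eq_pow_mul_and_not_dvd hM0 p hp.ne_one
  obtain ⟨N, x, hx, hxa⟩ := h s a
  have hMx : M • x = 0 := by
    have := congrArg (fun A : Matrix (Fin d) (Fin d) ℤ =>
      (Int.castRingHom (ZMod (p ^ N))).mapMatrix A *ᵥ x) hsum
    simp only [map_sum, map_mul, map_zsmul, map_one, sum_mulVec, smul_mulVec, one_mulVec] at this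
    rw [← this]
    exact Finset.sum_eq_zero fun i _ => by
      rw [← mulVec_mulVec, RingHom.mapMatrix_apply (M := g i), Int.coe_castRingHom, hx i i.2,
        mulVec_zero]
  apply hxa
  have h1 : M.natAbs • x = 0 := by
    rcases Int.natAbs_eq M with e | e <;> rw [e] at hMx <;>
      simpa [neg_smul] using hMx
  have hun : IsUnit (u : ZMod (p ^ N)) :=
    (ZMod.isUnit_iff_coprime _ _).mpr ((hp.coprime_iff_not_dvd.mpr hu).symm.pow_right N)
  have h2 : (u : ZMod (p ^ N)) • ((p ^ a) • x) = 0 := by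
    rw [Nat.cast_smul_eq_nsmul, smul_smul, mul_comm, ← hMu]
    exact h1
  exact hun.smul_eq_zero.mp h2

end Fermat.Agent.MazurPrinciple
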