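import Mathlib

/-!
# An eigenvector modulo `pⁿ` from local generators

A ring map `θ : T → ℤ/pⁿ` of a ring of integral matrices gives a vector mod `pⁿ` on which `T` acts
through `θ`, of exponent at least `pⁿ` divided by the number of local generators.
-/

set_option autoImplicit false

noncomputable section

namespace Fermat.Agent.MazurPrinciple

open Matrix

/-- Vectors outside a subgroup of `(ℤ/N)^d` are detected by an orthogonal vector. -/
theorem exists_dot_ne_zero {ι : Type*} [Fintype ι] {N : ℕ} [NeZero N]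
    (S : AddSubgroup (ι → ZMod N)) {v : ι → ZMod N} (hv : v ∉ S) :
    ∃ x : ι → ZMod N, (∀ s ∈ S, s ⬝ᵥ x = 0) ∧ v ⬝ᵥ x ≠ 0 := by
  classical
  have hN : 0 < N := Nat.pos_of_ne_zero (NeZero.ne N)
  obtain ⟨c, hc⟩ := CharacterModule.exists_character_apply_ne_zero_of_ne_zero
    (a := (QuotientAddGroup.mk v : (ι → ZMod N) ⧸ S))
    (by rwa [Ne, QuotientAddGroup.eq_zero_iff])
  let f : (ι → ZMod N) →+ AddCircle (1 : ℚ) :=
    AddMonoidHom.comp (show _ →+ AddCircle (1 : ℚ) from c) (QuotientAddGroup.mk' S)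
  have htor : ∀ i : ι, ∃ m : ℕ, ((m : ℚ) / N * 1 : ℚ) = f (Pi.single i (1 : ZMod N)) := by
    intro i
    have h : N • f (Pi.single i (1 : ZMod N)) = 0 := by
      rw [← map_nsmul, ← Pi.single_smul, nsmul_eq_mul, ZMod.natCast_self, zero_mul, Pi.single_zero,
        map_zero]
    obtain ⟨m, -, hm⟩ := (AddCircle.nsmul_eq_zero_iff hN).mp h
    exact ⟨m, hm⟩
  choose m hm using htor
  refine ⟨fun i => (m i : ZMod N), ?_⟩
  have hval : ∀ y : ι → ZMod N, f y = ((((∑ i, (y i).val * m i : ℕ) : ℚ) / N : ℚ) :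
      AddCircle (1 : ℚ)) := by
    intro y
    conv_lhs => rw [← Finset.univ_sum_single y, map_sum]
    rw [Nat.cast_sum, Finset.sum_div, ← QuotientAddGroup.mk'_apply, map_sum]
    refine Finset.sum_congr rfl fun i _ => ?_
    have e : (Pi.single i (y i) : ι → ZMod N) = (y i).val • Pi.single i (1 : ZMod N) := by
      rw [← Pi.single_smul, nsmul_eq_mul, mul_one, ZMod.natCast_zmod_val]
    rw [e, map_nsmul, ← hm i, ← AddCircle.coe_nsmul, QuotientAddGroup.mk'_apply]
    congr 1
    rw [nsmul_eq_mul, mul_one, Nat.cast_mul, mul_div_assoc]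
  have hdot : ∀ y : ι → ZMod N, y ⬝ᵥ (fun i => (m i : ZMod N)) = 0 ↔ f y = 0 := by
    intro y
    have e : y ⬝ᵥ (fun i => (m i : ZMod N)) = ((∑ i, (y i).val * m i : ℕ) : ZMod N) := by
      simp [dotProduct]
    rw [e, hval, ZMod.natCast_eq_zero_iff, AddCircle.coe_eq_zero_iff]
    constructor
    · rintro ⟨k, hk⟩
      refine ⟨k, ?_⟩
      rw [hk]
      push_cast
      field_simp
      norm_num
    · rintro ⟨k, hk⟩
      rw [zsmul_eq_mul, mul_one, eq_div_iff (by exact_mod_cast hN.ne')] at hk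
      have : ((∑ i, (y i).val * m i : ℕ) : ℤ) = k * N := by exact_mod_cast hk.symm
      exact Int.natCast_dvd_natCast.mp (Dvd.intro_left k this.symm)
  refine ⟨fun s hs => (hdot s).mpr ?_, fun h => hc ((hdot v).mp h)⟩
  show c (QuotientAddGroup.mk s) = 0
  rw [(QuotientAddGroup.eq_zero_iff s).mpr hs, map_zero]

variable {T : Type*} [CommRing T]

/-- Determinant trick at the maximal ideal of `θ`: if `c` maps a faithful module into `ker θ` times
itself and `k` elements generate modulo the maximal ideal, then `θ c ^ k = 0`. -/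
theorem pow_eq_zero_of_smul_mem {M : Type*} [AddCommGroup M] [Module T M] [Module.Finite T M]
    (hfaith : ∀ t : T, (∀ x : M, t • x = 0) → t = 0) {R : Type*} [CommRing R] [IsLocalRing R]
    (θ : T →+* R) {k : ℕ} (gen : Fin k → M)
    (hgen : ⊤ ≤ Submodule.span T (Set.range gen) ⊔
      ((IsLocalRing.maximalIdeal R).comap θ) • (⊤ : Submodule T M))
    (c : T) (hc : ∀ x : M, c • x ∈ RingHom.ker θ • (⊤ : Submodule T M)) : θ c ^ k = 0 := by
  classical
  set J : Ideal T := (IsLocalRing.maximalIdeal R).comap θ with hJ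
  set N' : Submodule T M := Submodule.span T (Set.range gen) with hN'
  obtain ⟨r, hr1, hr⟩ := Submodule.exists_sub_one_mem_and_smul_eq_zero_of_fg_of_le_smul J
    (⊤ : Submodule T (M ⧸ N')) Module.Finite.fg_top (by
      intro y _
      obtain ⟨x, rfl⟩ := Submodule.mkQ_surjective N' y
      obtain ⟨a, ha, b, hb, rfl⟩ := Submodule.mem_sup.mp (hgen (Submodule.mem_top (x := x)))
      rw [map_add, show N'.mkQ a = 0 from (Submodule.Quotient.mk_eq_zero _).mpr ha, zero_add]
      have := Submodule.mem_map_of_mem (f := N'.mkQ) hb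
      rw [Submodule.map_smul'', Submodule.map_top, Submodule.range_mkQ] at this
      exact this)
  have hrθ : IsUnit (θ r) := by
    by_contra hn
    have h1 : θ (r - 1) ∈ IsLocalRing.maximalIdeal R := hr1
    have h2 := Ideal.sub_mem _ ((IsLocalRing.mem_maximalIdeal _).mpr hn) h1
    rw [map_sub, map_one, sub_sub_cancel] at h2
    exact (IsLocalRing.mem_maximalIdeal _).mp h2 isUnit_one
  have hrmem : ∀ x : M, r • x ∈ N' := fun x =>
    (Submodule.Quotient.mk_eq_zero N').mp
      ((Submodule.Quotient.mk_smul N' r x).trans (hr _ Submodule.mem_top))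
  -- `r * c` maps every element into `ker θ • N'`
  have hrc : ∀ x : M, (r * c) • x ∈ RingHom.ker θ • N' := by
    intro x
    rw [mul_smul]
    refine Submodule.smul_induction_on (hc x) (fun t ht y _ => ?_) (fun a b ha hb => ?_)
    · rw [smul_comm]
      exact Submodule.smul_mem_smul ht (hrmem y)
    · rw [smul_add]; exact add_mem ha hb
  have hco : ∀ i, ∃ a : Fin k → T, (∀ j, a j ∈ RingHom.ker θ) ∧
      ∑ j, a j • gen j = (r * c) • gen i := fun i => by
    obtain ⟨a, ha⟩ := Submodule.mem_ideal_smul_span_iff_exists_sum (RingHom.ker θ) gen _ |>.mp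
      (hrc (gen i))
    obtain ⟨hI, hsum⟩ := ha
    refine ⟨a, hI, ?_⟩
    exact ((a.sum_fintype (fun j c => c • gen j) fun j => zero_smul T _).symm).trans hsum
  choose a ha hsum using hco
  set A : Matrix (Fin k) (Fin k) T := (r * c) • (1 : Matrix (Fin k) (Fin k) T) - Matrix.of a with hA
  have hAgen : ∀ i, ∑ j, A i j • gen j = 0 := by
    intro i
    simp only [hA, Matrix.sub_apply, Matrix.smul_apply, Matrix.of_apply, sub_smul,
      Finset.sum_sub_distrib, hsum, Matrix.one_apply, smul_eq_mul, mul_ite, mul_one, mul_zero,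
      ite_smul, zero_smul, Finset.sum_ite_eq, Finset.mem_univ, if_true, sub_self]
  have hdet : ∀ l, A.det • gen l = 0 := by
    intro l
    have h : ∀ j, (A.adjugate * A) l j = A.det * (1 : Matrix (Fin k) (Fin k) T) l j := fun j => by
      rw [Matrix.adjugate_mul, Matrix.smul_apply, smul_eq_mul]
    calc A.det • gen l = ∑ j, (A.adjugate * A) l j • gen j := by
          simp [h, Matrix.one_apply]
      _ = ∑ i, A.adjugate l i • ∑ j, A i j • gen j := by
          simp only [Matrix.mul_apply, Finset.sum_smul, Finset.smul_sum, smul_smul]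
          exact Finset.sum_comm
      _ = 0 := by simp [hAgen]
  have hzero : A.det * r = 0 := by
    refine hfaith _ fun x => ?_
    rw [mul_smul]
    refine Submodule.span_induction ?_ ?_ ?_ ?_ (hrmem x)
    · rintro _ ⟨l, rfl⟩; exact hdet l
    · exact smul_zero _
    · exact fun y z _ _ hy hz => by rw [smul_add, hy, hz, add_zero]
    · exact fun t y _ hy => by rw [smul_comm, hy, smul_zero]
  have hθA : θ.mapMatrix A = (θ r * θ c) • (1 : Matrix (Fin k) (Fin k) R) := by
    ext i j
    have := ha i j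
    rw [RingHom.mem_ker] at this
    simp [hA, this, Matrix.one_apply, apply_ite θ]
  have := congrArg θ hzero
  rw [map_mul, RingHom.map_det, hθA, Matrix.det_smul, Matrix.det_one, mul_one, map_zero,
    Fintype.card_fin, mul_pow, mul_right_comm] at this
  exact (((hrθ.pow k).mul hrθ).mul_right_eq_zero).mp this

theorem isLocalRing_zmod_pow {p n : ℕ} (hp : p.Prime) (hn : n ≠ 0) :
    IsLocalRing (ZMod (p ^ n)) := by
  have : Fact (1 < p ^ n) := ⟨Nat.one_lt_pow hn hp.one_lt⟩
  refine IsLocalRing.of_nonunits_add fun a b ha hb => ?_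
  have key : ∀ x : ZMod (p ^ n), x ∈ nonunits (ZMod (p ^ n)) ↔ p ∣ x.val := fun x => by
    rw [mem_nonunits_iff, ← ZMod.natCast_zmod_val x, ZMod.isUnit_iff_coprime, ZMod.natCast_zmod_val,
      Nat.coprime_pow_right_iff (Nat.pos_of_ne_zero hn), Nat.coprime_comm,
      hp.coprime_iff_not_dvd, not_not]
  rw [key] at ha hb ⊢
  rw [ZMod.val_add]
  exact (Nat.dvd_mod_iff (dvd_pow_self p hn)).mpr (dvd_add ha hb)

/-- The transposed action of a ring of matrices on row vectors. -/
@[instance_reducible]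
def rowAct {d : ℕ} (ρ : T →+* Matrix (Fin d) (Fin d) ℤ) : Module T (Fin d → ℤ) where
  smul t x := x ᵥ* ρ t
  one_smul x := show x ᵥ* ρ 1 = x by simp
  mul_smul s t x := show x ᵥ* ρ (s * t) = (x ᵥ* ρ t) ᵥ* ρ s by
    rw [mul_comm, map_mul, Matrix.vecMul_vecMul]
  smul_zero t := zero_vecMul _
  smul_add t x y := add_vecMul _ _ _
  add_smul s t x := show x ᵥ* ρ (s + t) = _ by rw [map_add, vecMul_add]; rfl
  zero_smul x := show x ᵥ* ρ 0 = 0 by simp

theorem rowAct_faithful {d : ℕ} (ρ : T →+* Matrix (Fin d) (Fin d) ℤ)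
    (hρ : Function.Injective ρ) :
    letI := rowAct ρ; ∀ t : T, (∀ x : Fin d → ℤ, t • x = 0) → t = 0 := by
  intro t ht
  refine hρ ?_
  rw [map_zero]
  ext i j
  have h : ((Pi.single i 1 : Fin d → ℤ) ᵥ* ρ t) j = 0 := congrFun (ht (Pi.single i 1)) j
  simpa [single_vecMul] using h

/-- A vector mod `pⁿ` on which `T` acts through `θ`, of exponent at least `pⁿ` divided by the
number of local generators. -/
theorem exists_eigen_vector {d p n k : ℕ} (hp : p.Prime) (hn : n ≠ 0)
    (ρ : T →+* Matrix (Fin d) (Fin d) ℤ) (hρ : Function.Injective ρ) [Module.Finite ℤ T]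
    (θ : T →+* ZMod (p ^ n)) (gen : Fin k → Fin d → ℤ)
    (hgen : letI := rowAct ρ; haveI := isLocalRing_zmod_pow hp hn;
      ⊤ ≤ Submodule.span T (Set.range gen) ⊔
        ((IsLocalRing.maximalIdeal (ZMod (p ^ n))).comap θ) • (⊤ : Submodule T (Fin d → ℤ))) :
    ∃ x : Fin d → ZMod (p ^ n), (∀ t, (ρ t).map (Int.cast : ℤ → ZMod (p ^ n)) *ᵥ x = θ t • x) ∧
      ∀ v : ℕ, (p ^ v) • x = 0 → n ≤ v * k := by
  classical
  let _ := rowAct ρ
  have := isLocalRing_zmod_pow hp hn
  have : NeZero (p ^ n) := ⟨pow_ne_zero _ hp.ne_zero⟩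
  have : Fact (1 < p ^ n) := ⟨Nat.one_lt_pow hn hp.one_lt⟩
  have : IsScalarTower ℤ T (Fin d → ℤ) := ⟨fun a t x => by
    show x ᵥ* ρ (a • t) = a • (x ᵥ* ρ t)
    rw [map_zsmul, vecMul_smul]⟩
  have : Module.Finite T (Fin d → ℤ) := Module.Finite.of_restrictScalars_finite ℤ T _
  let red : (Fin d → ℤ) →+ (Fin d → ZMod (p ^ n)) :=
    (Int.castAddHom (ZMod (p ^ n))).compLeft (Fin d)
  have hred : ∀ y i, red y i = (y i : ZMod (p ^ n)) := fun _ _ => rfl
  have hredmul : ∀ y (t : T), red (t • y) = red y ᵥ* (ρ t).map (Int.cast : ℤ → ZMod (p ^ n)) := by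
    intro y t
    funext i
    exact (RingHom.map_vecMul (Int.castRingHom (ZMod (p ^ n))) _ _ i)
  let S : AddSubgroup (Fin d → ZMod (p ^ n)) :=
    (RingHom.ker θ • (⊤ : Submodule T (Fin d → ℤ))).toAddSubgroup.map red
  by_contra hne
  push Not at hne
  -- every eigenvector is killed by `p ^ v`
  set v := if k = 0 then n else (n - 1) / k with hv
  have hvk : v * k < n := by
    rw [hv]
    split_ifs with hk
    · rw [hk, mul_zero]; omega
    · have := Nat.div_mul_le_self (n - 1) k; omega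
  have hkill : ∀ x : Fin d → ZMod (p ^ n),
      (∀ t, (ρ t).map (Int.cast : ℤ → ZMod (p ^ n)) *ᵥ x = θ t • x) → (p ^ v) • x = 0 := by
    intro x hx
    rw [hv]
    split_ifs with hk
    · funext i; rw [Pi.smul_apply, nsmul_eq_mul, ZMod.natCast_self, zero_mul]; rfl
    obtain ⟨w, hw, hwn⟩ := hne x hx
    have hle : w ≤ (n - 1) / k := (Nat.le_div_iff_mul_le (Nat.pos_of_ne_zero hk)).mpr (by omega)
    rw [← Nat.add_sub_cancel' hle, pow_add, mul_nsmul, hw, nsmul_zero]
  have hmem : ∀ i : Fin d,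
      ((p ^ v : ℕ) : ZMod (p ^ n)) • (Pi.single i 1 : Fin d → ZMod (p ^ n)) ∈ S := by
    intro i
    by_contra hni
    obtain ⟨x, hxS, hxne⟩ := exists_dot_ne_zero S hni
    refine hxne ?_
    have hker : ∀ t ∈ RingHom.ker θ, (ρ t).map (Int.cast : ℤ → ZMod (p ^ n)) *ᵥ x = 0 := by
      intro t ht
      funext l
      have h := hxS (red (t • (Pi.single l 1 : Fin d → ℤ)))
        ⟨_, Submodule.smul_mem_smul ht Submodule.mem_top, rfl⟩
      rw [hredmul, ← Matrix.dotProduct_mulVec] at h
      have e : red (Pi.single l 1) = (Pi.single l 1 : Fin d → ZMod (p ^ n)) := by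
        funext j; rw [hred, Pi.single_apply, Pi.single_apply]; split_ifs <;> simp
      rw [e, single_dotProduct, one_mul] at h
      exact h
    have heig : ∀ t, (ρ t).map (Int.cast : ℤ → ZMod (p ^ n)) *ᵥ x = θ t • x := by
      intro t
      have hk' := hker (t - ((θ t).val : T)) (by
        rw [RingHom.mem_ker, map_sub, map_natCast, ZMod.natCast_zmod_val, sub_self])
      change (Int.castRingHom (ZMod (p ^ n))).mapMatrix (ρ (t - ((θ t).val : T))) *ᵥ x = 0 at hk'
      rw [map_sub, map_natCast, map_sub, map_natCast, sub_mulVec, sub_eq_zero,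
        Matrix.natCast_mulVec,
        ZMod.natCast_zmod_val] at hk'
      exact hk'
    have := congrFun (hkill x heig) i
    simpa [smul_dotProduct, single_dotProduct, nsmul_eq_mul] using this
  -- hence `p ^ v` maps the lattice into `ker θ` times it
  have hmul : ∀ y : Fin d → ℤ,
      ((p ^ v : ℕ) : T) • y ∈ RingHom.ker θ • (⊤ : Submodule T (Fin d → ℤ)) := by
    intro y
    rw [← Finset.univ_sum_single y, Finset.smul_sum]
    refine Submodule.sum_mem _ fun i _ => ?_
    have e : (Pi.single i (y i) : Fin d → ℤ) = (y i : T) • (Pi.single i 1 : Fin d → ℤ) := by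
      rw [Int.cast_smul_eq_zsmul, ← Pi.single_smul, smul_eq_mul, mul_one]
    rw [e, smul_comm]
    refine Submodule.smul_mem _ _ ?_
    obtain ⟨w, hw, hwe⟩ := hmem i
    have hd : ∀ j, ((p ^ n : ℕ) : ℤ) ∣
        ((((p ^ v : ℕ) : T) • (Pi.single i 1 : Fin d → ℤ)) - w) j := by
      intro j
      have e1 : red (((p ^ v : ℕ) : T) • (Pi.single i 1 : Fin d → ℤ) - w) j = 0 := by
        rw [map_sub, hwe, Nat.cast_smul_eq_nsmul, map_nsmul, Pi.sub_apply, Pi.smul_apply,
          Pi.smul_apply, hred, Pi.single_apply, Pi.single_apply, nsmul_eq_mul, smul_eq_mul]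
        split_ifs <;> simp
      rw [hred] at e1
      exact (ZMod.intCast_zmod_eq_zero_iff_dvd _ _).mp e1
    choose z hz using hd
    have : ((p ^ v : ℕ) : T) • (Pi.single i 1 : Fin d → ℤ) = w + ((p ^ n : ℕ) : T) • z := by
      funext j
      rw [Pi.add_apply, Nat.cast_smul_eq_nsmul T (p ^ n) z, Pi.smul_apply, nsmul_eq_mul, ← hz j,
        Pi.sub_apply]
      ring
    rw [this]
    exact add_mem hw (Submodule.smul_mem_smul
      (by rw [RingHom.mem_ker, map_natCast, ZMod.natCast_self]) Submodule.mem_top)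
  have h0 := pow_eq_zero_of_smul_mem (rowAct_faithful ρ hρ) θ gen hgen ((p ^ v : ℕ) : T) hmul
  rw [map_natCast, ← Nat.cast_pow, ← pow_mul, ZMod.natCast_eq_zero_iff,
    Nat.pow_dvd_pow_iff_le_right hp.one_lt] at h0
  omega

end Fermat.Agent.MazurPrinciple
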