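import Fermat.Agent.MazurPrinciple.ModularOfPoints
import Fermat.Agent.Root.GenusResidualProps
import Fermat.Agent.Root.Selmer.Cocycle
import Fermat.Agent.Reduction.Specialisation

/-!
# Removing the auxiliary primes of a genus curve

`E[2ᵐ]` is representation data for one step of Mazur's principle at every auxiliary prime; every
step costs `2²`, with auxiliary prime `11`.
-/

set_option autoImplicit false

noncomputable section

namespace Fermat.Agent.MazurPrinciple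

open ModularCurve AlgebraicCurve
open Fermat.Agent.Root (GenusCurve AuxPrime ResidualMatrix IsRot rotMat)

local notation "ℚbar" => AlgebraicClosure ℚ
local notation "Γℚbar" => AlgebraicClosure ℚ ≃ₐ[ℚ] AlgebraicClosure ℚ

variable {W : WeierstrassCurve ℤ}

theorem mem_badPrimes (hW : GenusCurve W) {l : ℕ} (hl : l.Prime) :
    l ∈ W.Δ.natAbs.primeFactors ↔ (l : ℤ) ∣ W.Δ := by
  rw [Nat.mem_primeFactors, and_iff_right hl,
    and_iff_left (Int.natAbs_ne_zero.mpr hW.neg.ne), Int.natCast_dvd]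

theorem isRot_of_scalar : ∀ a : ZMod 2, ∀ M : Matrix (Fin 2) (Fin 2) (ZMod 2),
    (∀ i j, M i j = if i = j then a else 0) → M.det = 1 → IsRot M := by
  intro a M hM hdet
  refine Or.inl (Matrix.ext fun i j => ?_)
  rcases (show ∀ b : ZMod 2, b = 0 ∨ b = 1 by decide) a with rfl | rfl
  · exfalso
    rw [show M = 0 from Matrix.ext fun i j => by rw [hM]; split_ifs <;> rfl] at hdet
    simp at hdet
  · rw [hM, Matrix.one_apply]

theorem isUnit_of_cast_ne_zero {m : ℕ} (hm : m ≠ 0) {z : ZMod (2 ^ m)}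
    (h : ZMod.castHom (dvd_pow_self 2 hm) (ZMod 2) z ≠ 0) : IsUnit z := by
  obtain ⟨k, rfl⟩ := ZMod.natCast_zmod_surjective z
  rw [map_natCast, Ne, ZMod.natCast_eq_zero_iff] at h
  rw [ZMod.isUnit_iff_coprime]
  exact ((Nat.prime_two.coprime_iff_not_dvd.mpr h).symm).pow_right m

/-- `E[2ᵐ]` as representation data. -/
theorem exists_repData_two (hW : GenusCurve W) {m : ℕ} (hm : m ≠ 0) (S : Finset ℕ)
    (hS : W.Δ.natAbs.primeFactors ⊆ S) :
    ∃ R : RepData 2 m (fun l => W.apOfModel l) S,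
      ∀ q n : ℕ, AuxPrime W n q → R.GoodAt q := by
  classical
  obtain ⟨D⟩ := hW.nonempty_residualMatrix
  obtain ⟨X, hX, hXD⟩ := Root.exists_torsionMatrix_lift W hW.neg.ne D.M D.torsion m
    (Nat.one_le_iff_ne_zero.mpr hm)
  let c := ZMod.castHom (dvd_pow_self 2 hm) (ZMod 2)
  have hXD' : ∀ σ, (X σ).map c = D.M σ := hXD
  have htr : ∀ σ, c (X σ).trace = (D.M σ).trace := fun σ => by
    rw [← hXD']; exact AddMonoidHom.map_trace c.toAddMonoidHom (X σ)
  have hdet : ∀ σ, c (X σ).det = (D.M σ).det := fun σ => by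
    rw [← hXD']; exact c.map_det (X σ)
  obtain ⟨γ, hγ⟩ := D.exists_rot
  obtain ⟨u, hu⟩ := D.exists_upper
  obtain ⟨L, hL, hL1⟩ := hX.finiteLevel hW.neg.ne (pow_ne_zero m two_ne_zero)
  have hcomm : ∀ a b : Γℚbar, D.M a = !![1, 1; 0, 1] → D.M b = rotMat →
      D.M (a * b * a⁻¹ * b⁻¹) = rotMat * rotMat ∨ D.M (a * b * a⁻¹ * b⁻¹) = rotMat := by
    intro a b ha hb
    have hai : D.M a⁻¹ = !![1, 1; 0, 1] := by
      calc D.M a⁻¹ = D.M a⁻¹ * (D.M a * D.M a) := by
            rw [ha, show (!![1, 1; 0, 1] * !![1, 1; 0, 1] : Matrix (Fin 2) (Fin 2) (ZMod 2)) = 1 by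
              decide, mul_one]
        _ = D.M a := by rw [← mul_assoc, ← map_mul, inv_mul_cancel, map_one, one_mul]
        _ = _ := ha
    have hbi : D.M b⁻¹ = rotMat * rotMat := by
      calc D.M b⁻¹ = D.M b⁻¹ * (D.M b * (D.M b * D.M b)) := by
            rw [hb, show rotMat * (rotMat * rotMat) = 1 by unfold Root.rotMat; decide, mul_one]
        _ = D.M b * D.M b := by rw [← mul_assoc, ← map_mul, inv_mul_cancel, map_one, one_mul]
        _ = _ := by rw [hb]
    rw [map_mul, map_mul, map_mul, ha, hb, hai, hbi]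
    unfold Root.rotMat
    decide
  refine ⟨⟨X, ⟨L, hL, hL1⟩, ⟨u, γ, isUnit_of_cast_ne_zero hm ?_⟩,
    ⟨γ, isUnit_of_cast_ne_zero hm ?_⟩, fun l hl hlS A hA σ hσ => ?_⟩, fun q n hq => ⟨?_, ?_⟩⟩
  · rw [map_sub, map_ofNat, htr]
    rcases hcomm u γ hu hγ with h | h <;> rw [h] <;> unfold Root.rotMat <;> decide
  · rw [map_sub, map_sub, map_one, htr, hdet, hγ]
    unfold Root.rotMat
    decide
  · have hlΔ : ¬ (l : ℤ) ∣ W.Δ := fun h => hlS (hS ((mem_badPrimes hW hl).mpr h))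
    refine (Root.torsionMatrix_good W m X hX hl hlΔ ?_ hA).2 σ hσ
    rintro rfl
    exact hlΔ hW.two_dvd
  · intro A hA τ hτ
    have hqΔ : ¬ (q : ℤ) ∣ W.Δ := fun h => hq.good (dvd_mul_of_dvd_right h 2)
    refine (Root.torsionMatrix_good W m X hX hq.prime hqΔ ?_ hA).1 τ hτ
    rintro rfl
    exact hqΔ hW.two_dvd
  · refine Or.inr fun A hA σ hσ => ?_
    rintro ⟨z, hz⟩
    refine (hq.frob A hA σ hσ).1
      ((D.disc_iff σ).mpr (isRot_of_scalar (z : ZMod 2) _ ?_ (D.det_eq σ)))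
    intro i j
    have h1 : c (X σ i j - if i = j then (z : ZMod (2 ^ m)) else 0) = 0 := by
      rw [← ZMod.natCast_zmod_val (X σ i j - if i = j then (z : ZMod (2 ^ m)) else 0), map_natCast,
        ZMod.natCast_eq_zero_iff]
      exact hz i j
    rw [map_sub, sub_eq_zero] at h1
    rw [← hXD', Matrix.map_apply, h1]
    split_ifs <;> simp

variable {N p : ℕ} [NeZero N] {a : ℕ → ℤ} {S₀ : Finset ℕ}

theorem EigenPt.nsmul {m : ℕ} {x : JZero N} (hx : EigenPt N p m a S₀ x) (c : ℕ) :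
    EigenPt N p m a S₀ (c • x) :=
  ⟨by rw [smul_comm, hx.1, smul_zero], fun l hl => by rw [map_nsmul, hx.2 l hl, smul_comm]⟩

theorem EigenPt.exists_exact {m k j : ℕ} {x : JZero N} (hx : EigenPt N p m a S₀ x)
    (hk : p ^ k • x ≠ 0) (hj : j ≤ k + 1) (hj0 : j ≠ 0) :
    ∃ y, EigenPt N p j a S₀ y ∧ p ^ (j - 1) • y ≠ 0 := by
  classical
  have hex : ∃ e, p ^ e • x = 0 := ⟨m, hx.1⟩
  have hke : k < Nat.find hex := by
    by_contra hle
    push Not at hle
    refine hk ?_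
    rw [show k = (k - Nat.find hex) + Nat.find hex by omega, pow_add, mul_smul,
      Nat.find_spec hex, smul_zero]
  refine ⟨p ^ (Nat.find hex - j) • x, ⟨?_, (hx.nsmul _).2⟩, ?_⟩
  · rw [← mul_smul, ← pow_add, show j + (Nat.find hex - j) = Nat.find hex by omega]
    exact Nat.find_spec hex
  · rw [← mul_smul, ← pow_add]
    exact Nat.find_min hex (by omega)

/-- Removing the auxiliary primes one by one. -/
theorem exists_point_descend (hstep : StepProp) (hW : GenusCurve W) (M₀ : ℕ) [NeZero M₀]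
    {n : ℕ} (hn : 3 ≤ n) (Q₀ : Finset ℕ) (hQ : ∀ q ∈ Q₀, AuxPrime W n q)
    (hM₀ : ∀ q ∈ Q₀, ¬ q ∣ M₀) :
    ∀ Q : Finset ℕ, Q ⊆ Q₀ → ∀ M : ℕ, [NeZero M] → M = M₀ * ∏ q ∈ Q, q → ∀ (m : ℕ) (x : JZero M),
      2 * Q.card < m →
      EigenPt M 2 m (fun l => W.apOfModel l) (W.Δ.natAbs.primeFactors ∪ Q₀) x →
      2 ^ (m - 1) • x ≠ 0 →
      ∃ y : JZero M₀, EigenPt M₀ 2 (m - 2 * Q.card) (fun l => W.apOfModel l)
          (W.Δ.natAbs.primeFactors ∪ Q₀) y ∧
        2 ^ (m - 2 * Q.card - 1) • y ≠ 0 := by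
  classical
  intro Q
  induction Q using Finset.induction_on with
  | empty =>
    intro _ M _ hM m x _ hx hx0
    rw [Finset.prod_empty, mul_one] at hM
    subst hM
    exact ⟨x, by simpa using hx, by simpa using hx0⟩
  | @insert q Q hqQ ih =>
    intro hsub M _ hM m x hm hx hx0
    rw [Finset.prod_insert hqQ, mul_comm q, ← mul_assoc] at hM
    subst hM
    rw [Finset.card_insert_of_notMem hqQ] at hm ⊢
    have hq₀ := hsub (Finset.mem_insert_self q Q)
    have haux := hQ q hq₀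
    have hQsub : Q ⊆ Q₀ := (Finset.subset_insert q Q).trans hsub
    have : NeZero (M₀ * ∏ r ∈ Q, r) := ⟨left_ne_zero_of_mul (NeZero.ne (M₀ * (∏ r ∈ Q, r) * q))⟩
    have hqM : ¬ q ∣ M₀ * ∏ r ∈ Q, r := fun h => by
      rcases haux.prime.dvd_mul.mp h with h' | h'
      · exact hM₀ q hq₀ h'
      · obtain ⟨r, hr, hqr⟩ := (haux.prime.prime.dvd_finsetProd_iff _).mp h'
        exact hqQ ((Nat.prime_dvd_prime_iff_eq haux.prime (hQ r (hQsub hr)).prime).mp hqr ▸ hr)
    have h8 : 8 ∣ q + 1 := (Nat.pow_dvd_pow 2 hn).trans haux.dvd_succ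
    obtain ⟨R, hR⟩ := exists_repData_two hW (m := m) (by omega)
      (W.Δ.natAbs.primeFactors ∪ Q₀) Finset.subset_union_left
    obtain ⟨y, hy, hy0⟩ := hstep 2 m _ _ _ R (M₀ * ∏ r ∈ Q, r) q 11 2 subset_rfl Nat.prime_two
      haux.prime (by omega) hqM (by norm_num) (by norm_num) (Or.inl (by norm_num)) (by omega)
      (by norm_num) (Or.inr (by norm_num)) (by omega) (Reduction.torsionReduction _ _) (hR q n haux)
      x hx hx0
    rw [Finset.insert_eq_of_mem (Finset.mem_union_right _ hq₀)] at hy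
    obtain ⟨z, hz, hz0⟩ := hy.exists_exact hy0 (j := m - 2) (by omega) (by omega)
    obtain ⟨w, hw, hw0⟩ := ih hQsub (M₀ * ∏ r ∈ Q, r) rfl (m - 2) z (by omega) hz hz0
    rw [show m - 2 * (Q.card + 1) = m - 2 - 2 * Q.card by omega]
    exact ⟨w, hw, hw0⟩

/-- **Genus curves.** Points of unbounded order at the levels `N ∏ Q` make `W` modular. -/
theorem isModularModel_of_aux_points (hstep : StepProp) (hW : GenusCurve W) (r : ℕ)
    (h : ∀ b : ℕ, ∃ (n m : ℕ) (Q : Finset ℕ), 3 ≤ n ∧ b ≤ n ∧ b ≤ m ∧ Q.card ≤ r ∧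
      (∀ q ∈ Q, AuxPrime W n q) ∧ ∀ [NeZero (W.conductorLevel * ∏ q ∈ Q, q)],
        ∃ x : JZero (W.conductorLevel * ∏ q ∈ Q, q),
          EigenPt _ 2 m (fun l => W.apOfModel l) (W.Δ.natAbs.primeFactors ∪ Q) x ∧
          2 ^ (m - 1) • x ≠ 0) :
    W.IsModularModelOfLevel W.conductorLevel := by
  have : Fact (Nat.Prime 2) := ⟨Nat.prime_two⟩
  refine isModularModel_of_eigenPts W (p := 2) W.Δ.natAbs.primeFactors (fun l hl => Or.inr
    fun hg => hg ((mem_badPrimes hW (Nat.prime_of_mem_primeFactors hl)).mp hl)) fun b => ?_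
  obtain ⟨n, m, Q, hn, hbn, hbm, hQc, hQ, hx⟩ := h (b + 2 * r + 1)
  have hndvd : ∀ q ∈ Q, ¬ q ∣ W.conductorLevel := fun q hq h => (hQ q hq).good
    (dvd_mul_of_dvd_right
      ((W.prime_dvd_conductorLevel_iff hW.neg.ne (hQ q hq).prime).mp h) 2)
  have : NeZero (W.conductorLevel * ∏ q ∈ Q, q) := ⟨mul_ne_zero (NeZero.ne _)
    (Finset.prod_ne_zero_iff.mpr fun q hq => (hQ q hq).prime.ne_zero)⟩
  obtain ⟨x, hxe, hx0⟩ := hx
  obtain ⟨y, hy, hy0⟩ := exists_point_descend hstep hW W.conductorLevel hn Q hQ hndvd Q subset_rfl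
    (W.conductorLevel * ∏ q ∈ Q, q) rfl m x (by omega) hxe hx0
  refine ⟨_, m - 2 * Q.card - 1, _, y, by omega, fun l hl => ?_, hy, hy0⟩
  refine (Finset.mem_union.mp hl).imp id fun hlQ => ?_
  have h1 := Nat.le_of_dvd (Nat.succ_pos l) (hQ l hlQ).dvd_succ
  have h2 := n.lt_two_pow_self
  omega

end Fermat.Agent.MazurPrinciple
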