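import Fermat.Agent.MazurPrinciple.ClassRank
import Fermat.Agent.MazurPrinciple.GenusIterate
import Fermat.Agent.Root.GenusTrace

/-!
# Genus curves: a point from the class at the auxiliary level

The class congruent to `W` gives a point of large order on which the Hecke operators act through
`a_ℓ(W)`, hence modularity after removing the auxiliary primes.
-/

set_option autoImplicit false

noncomputable section

namespace Fermat.Agent.MazurPrinciple

open Matrix CuspForm CongruenceSubgroup ModularCurve AlgebraicCurve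
open Fermat.Agent.Cosets (homRank)
open Fermat.Agent.Kummer (Tors)
open Fermat.Agent.GalRep (heckeMat heckeOp latticeMat latticeMat_heckeOp latticeMatC_mulVec
  map_latticeMat periodEquiv torsCoord torsHecke torsCoord_torsHecke eigenCharacterInt
  eigenCharacterInt_heckeOp)
open Fermat.Agent.Root (GenusCurve AuxPrime EigenFamily)

local notation "Zbar" => integralClosure ℤ ℂ

variable {M : ℕ} [NeZero M]

/-- The coordinates of a point of exponent larger than `pᵏ`. -/
theorem exists_eigenPt_of_vec {p n : ℕ} [Fact p.Prime] {a : ℕ → ℤ} {S₀ : Finset ℕ}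
    {x : Fin (homRank M) → ZMod (p ^ n)}
    (hx : ∀ l : Nat.Primes, (l : ℕ) ∉ S₀ →
      (heckeMat M l).map (Int.cast : ℤ → ZMod (p ^ n)) *ᵥ x = (a l : ZMod (p ^ n)) • x)
    {k : ℕ} (hk : p ^ k • x ≠ 0) :
    ∃ y : JZero M, EigenPt M p n a S₀ y ∧ p ^ k • y ≠ 0 := by
  have : NeZero (p ^ n) := ⟨pow_ne_zero _ (Fact.out : p.Prime).ne_zero⟩
  obtain ⟨y, rfl⟩ := (torsCoord M (p ^ n)).surjective x
  refine ⟨y, ⟨?_, fun l hl => ?_⟩, fun h => hk ?_⟩
  · have := y.2
    rwa [Pic0.mem_torsion, natCast_zsmul] at this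
  · have h := hx l hl
    rw [← torsCoord_torsHecke, Int.cast_smul_eq_zsmul, ← map_zsmul] at h
    exact congrArg Subtype.val ((torsCoord M (p ^ n)).injective h)
  · rw [← map_nsmul, show p ^ k • y = 0 from Subtype.ext h, map_zero]

/-- The Hecke algebra maps to the ring of a family. -/
theorem eigenCharacterInt_pi_mem {ι : Type} (F : EigenFamily M ι)
    (t : heckeAlgebra M 2 ∅) : (fun i => eigenCharacterInt (F.eigen i) t) ∈ F.ring := by
  induction t using GalRep.heckeAlgebra_induction with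
  | op q =>
    convert (F.coeff q q.2).2 using 1
    exact funext fun i => Subtype.ext ((eigenCharacterInt_heckeOp _ q).trans (F.coe_a i q).symm)
  | int r => simp only [map_intCast]; exact intCast_mem _ r
  | add x y hx hy => simp only [map_add]; exact add_mem hx hy
  | mul x y hx hy => simp only [map_mul]; exact mul_mem hx hy

/-- The residual character of a member. -/
theorem sub_mem_of_primes {R : Type*} [CommRing R] (𝔪 : Ideal R) {n : ℕ} (hn : n ≠ 0)
    (h2 : (2 : R) ∈ 𝔪) (e : heckeAlgebra M 2 ∅ →+* R) (θ : heckeAlgebra M 2 ∅ →+* ZMod (2 ^ n))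
    (h : ∀ q : Nat.Primes, e (heckeOp M q) - ((θ (heckeOp M q)).val : R) ∈ 𝔪)
    (t : heckeAlgebra M 2 ∅) : e t - ((θ t).val : R) ∈ 𝔪 := by
  have h20 : ((2 : ℕ) : R ⧸ 𝔪) = 0 := by
    rw [← map_natCast (Ideal.Quotient.mk 𝔪), Ideal.Quotient.eq_zero_iff_mem]
    exact_mod_cast h2
  rcases subsingleton_or_nontrivial (R ⧸ 𝔪) with hs | hn'
  · exact Ideal.Quotient.eq_zero_iff_mem.mp (Subsingleton.elim _ _)
  have : CharP (R ⧸ 𝔪) 2 :=
    CharTwo.of_one_ne_zero_of_two_eq_zero one_ne_zero (by exact_mod_cast h20)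
  let c : ZMod (2 ^ n) →+* R ⧸ 𝔪 := ZMod.castHom (dvd_pow_self 2 hn) (R ⧸ 𝔪)
  have hc : ∀ z : ZMod (2 ^ n), Ideal.Quotient.mk 𝔪 ((z.val : ℕ) : R) = c z := fun z => by
    conv_rhs => rw [← ZMod.natCast_zmod_val z]
    rw [map_natCast, map_natCast]
  rw [← Ideal.Quotient.eq_zero_iff_mem, map_sub, sub_eq_zero, hc]
  induction t using GalRep.heckeAlgebra_induction with
  | op q => rw [← hc, ← sub_eq_zero, ← map_sub, Ideal.Quotient.eq_zero_iff_mem]; exact h q
  | int r => rw [map_intCast, map_intCast, map_intCast, map_intCast]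
  | add x y hx hy => rw [map_add, map_add, hx, hy, map_add, map_add]
  | mul x y hx hy => rw [map_mul, map_mul, hx, hy, map_mul, map_mul]

theorem zmodTwo_eq_one_of_sq : ∀ w : ZMod 2, w ^ 2 = 1 → w = 1 := by decide

/-- A square root of one is odd. -/
theorem sub_one_mem_of_sq {R : Type*} [CommRing R] (𝔪 : Ideal R) [𝔪.IsPrime] (h2 : (2 : R) ∈ 𝔪)
    {x : R} (hx : x ^ 2 = 1) : x - 1 ∈ 𝔪 := by
  have e : (x - 1) ^ 2 = 2 * (1 - x) := by linear_combination hx
  exact Ideal.IsPrime.mem_of_pow_mem ‹_› 2 (e ▸ 𝔪.mul_mem_right _ h2)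

variable {W : WeierstrassCurve ℤ}

/-- **A point from the class.** -/
theorem exists_point_of_class (hW : GenusCurve W) {n : ℕ} (hn : n ≠ 0) (Q : Finset ℕ)
    {ι : Type} [Fintype ι] (F : EigenFamily M ι) {𝔪 : Ideal Zbar} (hF : F.IsClass W Q 𝔪)
    (hsq : ∀ i, ∀ q : ℕ, q.Prime → (q ∈ Q ∨ (q : ℤ) ∣ W.Δ) →
      ModularFormClass.qCoeff (F.g i) q ^ 2 = 1)
    (θ : F.ring →+* ZMod (2 ^ n))
    (hθ : ∀ (ℓ : ℕ) (hℓ : ℓ.Prime), W.IsGoodPrimeFor ℓ → ℓ ∉ Q → ℓ ≠ 2 →
      θ (F.coeff ℓ hℓ) = (W.apOfModel ℓ : ZMod (2 ^ n)))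
    {k : ℕ} (hk : k * (2 * Fintype.card ι) < n) :
    ∃ x : JZero M, EigenPt M 2 (k + 1) (fun l => W.apOfModel l)
      (W.Δ.natAbs.primeFactors ∪ Q) x ∧ 2 ^ k • x ≠ 0 := by
  classical
  have := Fermat.Agent.S22.result M 2 (∅ : Set ℕ)
  have : Fact (Nat.Prime 2) := ⟨Nat.prime_two⟩
  have := hF.maximal
  let ev : ι → heckeAlgebra M 2 ∅ →+* Zbar := fun i => eigenCharacterInt (F.eigen i)
  let π : heckeAlgebra M 2 ∅ →+* F.ring :=
    (RingHom.pi ev).codRestrict F.ring (eigenCharacterInt_pi_mem F)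
  let θT := θ.comp π
  have hπ : ∀ q : Nat.Primes, π (heckeOp M q) = F.coeff q q.2 := fun q =>
    Subtype.ext (funext fun i =>
      Subtype.ext ((eigenCharacterInt_heckeOp _ q).trans (F.coe_a i q).symm))
  have hgood : ∀ q : Nat.Primes, (q : ℕ) ∉ W.Δ.natAbs.primeFactors ∪ Q →
      W.IsGoodPrimeFor q ∧ (q : ℕ) ∉ Q ∧ (q : ℕ) ≠ 2 := fun q hq => by
    rw [Finset.mem_union, mem_badPrimes hW q.2, not_or] at hq
    exact ⟨hq.1, hq.2, fun h2 => hq.1 (h2 ▸ hW.two_dvd)⟩
  have hcongr : ∀ (i : ι) (q : Nat.Primes),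
      ev i (heckeOp M q) - ((θT (heckeOp M q)).val : Zbar) ∈ 𝔪 := by
    intro i q
    have hev : ev i (heckeOp M q) = F.a i q :=
      Subtype.ext ((eigenCharacterInt_heckeOp _ q).trans (F.coe_a i q).symm)
    rw [hev, show θT (heckeOp M q) = θ (π (heckeOp M q)) from rfl, hπ]
    by_cases hq : (q : ℕ) ∈ W.Δ.natAbs.primeFactors ∪ Q
    · have hcase : (q : ℕ) ∈ Q ∨ ((q : ℕ) : ℤ) ∣ W.Δ := by
        rw [Finset.mem_union, mem_badPrimes hW q.2] at hq
        exact hq.symm
      have ha : F.a i q ^ 2 = 1 := Subtype.ext (by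
        rw [SubmonoidClass.coe_pow, F.coe_a, hsq i q q.2 hcase]; rfl)
      have hc : F.coeff q q.2 ^ 2 = 1 := Subtype.ext (funext fun j => Subtype.ext (by
        show ((F.a j q ^ 2 : Zbar) : ℂ) = 1
        rw [SubmonoidClass.coe_pow, F.coe_a, hsq j q q.2 hcase]))
      have ht : θ (F.coeff q q.2) ^ 2 = 1 := by rw [← map_pow, hc, map_one]
      have hodd : ((θ (F.coeff q q.2)).val : Zbar) - 1 ∈ 𝔪 := by
        set z := θ (F.coeff q q.2)
        have h1 : ZMod.castHom (dvd_pow_self 2 hn) (ZMod 2) z = 1 := by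
          have := congrArg (ZMod.castHom (dvd_pow_self 2 hn) (ZMod 2)) ht
          rw [map_pow, map_one] at this
          exact zmodTwo_eq_one_of_sq _ this
        rw [← ZMod.natCast_zmod_val z, map_natCast] at h1
        have h1' : (z.val : ZMod 2) = (1 : ℕ) := by rw [h1, Nat.cast_one]
        rw [ZMod.natCast_eq_natCast_iff'] at h1'
        obtain ⟨j, hj⟩ : ∃ j, z.val = 2 * j + 1 := ⟨z.val / 2, by omega⟩
        rw [hj]
        push_cast
        rw [add_sub_cancel_right]
        exact 𝔪.mul_mem_right _ hF.two_mem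
      have := sub_mem (sub_one_mem_of_sq 𝔪 hF.two_mem ha) hodd
      rwa [sub_sub_sub_cancel_right] at this
    · obtain ⟨h1, h2, h3⟩ := hgood q hq
      rw [hθ q q.2 h1 h2 h3]
      refine Ideal.Quotient.eq.mp ?_
      rw [Ideal.Quotient.eq.mpr (hF.congr i q q.2 h1 h2 h3)]
      set z := W.apOfModel q
      have hz : ((2 ^ n : ℕ) : ℤ) ∣ z - ((z : ZMod (2 ^ n)).val : ℤ) := by
        rw [← ZMod.intCast_eq_intCast_iff_dvd_sub]
        push_cast
        rw [ZMod.natCast_zmod_val]
      obtain ⟨c, hc⟩ := hz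
      refine Ideal.Quotient.eq.mpr ?_
      rw [show ((((z : ZMod (2 ^ n)).val : ℕ)) : Zbar) =
          ((((z : ZMod (2 ^ n)).val : ℤ)) : Zbar) from
        (Int.cast_natCast _).symm, ← Int.cast_sub, hc]
      push_cast
      exact 𝔪.mul_mem_right _ (𝔪.pow_mem_of_mem hF.two_mem n (Nat.pos_of_ne_zero hn))
  have hres : ∀ i t, ev i t - ((θT t).val : Zbar) ∈ 𝔪 := fun i =>
    sub_mem_of_primes 𝔪 hn hF.two_mem (ev i) θT (hcongr i)
  have hev : ∀ i, jointEigen (latticeMat M) (fun t => ((ev i t : Zbar) : ℂ)) ≠ ⊥ := fun i => by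
    intro hbot
    have hmem : periodEquiv M (F.g i, 0) ∈
        jointEigen (latticeMat M) fun t => ((ev i t : Zbar) : ℂ) := mem_jointEigen.mpr fun t => by
      rw [map_latticeMat, latticeMatC_mulVec, map_zero,
        Hecke.eigenCharacter_isEigenvector (F.eigen i) ∅ t, ← map_smul, Prod.smul_mk, smul_zero]
      rfl
    rw [hbot, Submodule.mem_bot, ← map_zero (periodEquiv M)] at hmem
    have h0 : F.g i = 0 := congrArg Prod.fst ((periodEquiv M).injective hmem)
    have h1 := (F.eigen i).qCoeff_one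
    rw [h0, ← zero_smul ℂ (0 : CuspForm (Gamma0 M) 2), Hecke.qCoeff_smul, zero_mul] at h1
    exact zero_ne_one h1
  have hθT : ∀ t, (∀ i, ev i t = 0) → θT t = 0 := fun t ht => by
    show θ (π t) = 0
    rw [show π t = 0 from Subtype.ext (funext ht), map_zero]
  have hmult : ∀ χ : heckeAlgebra M 2 ∅ →+* ℂ,
      Module.finrank ℂ (jointEigen (latticeMat M) χ) ≤ 2 := fun χ => by
    refine le_trans (Submodule.finrank_mono ?_) (GalRep.heckeMat_eigen_le M χ)
    intro v hv
    rw [GalRep.mem_eigenspace]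
    intro q
    rw [← latticeMat_heckeOp]
    exact mem_jointEigen.mp hv (heckeOp M q)
  have hclosed : ∀ χ : heckeAlgebra M 2 ∅ →+* Zbar, (∀ t, (∀ i, ev i t = 0) → χ t = 0) →
      (∀ t, χ t - ((θT t).val : Zbar) ∈ 𝔪) → ∃ i, χ = ev i := fun χ hker hχ => by
    -- the class is closed
    let χc : heckeAlgebra M 2 ∅ →+* ℂ := (integralClosure ℤ ℂ).toSubring.subtype.comp χ
    have hinf : (Finset.univ : Finset ι).inf (fun i => RingHom.ker (ev i)) ≤ RingHom.ker χ :=
      fun t ht => hker t fun i => by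
        have := (Submodule.mem_finsetInf).mp ht i (Finset.mem_univ i)
        exact this
    have : (RingHom.ker χ).IsPrime := RingHom.ker_isPrime χ
    obtain ⟨i₀, -, hi₀⟩ := (Ideal.IsPrime.inf_le' ‹_›).mp hinf
    set P := RingHom.ker (ev i₀)
    have : P.IsPrime := RingHom.ker_isPrime _
    have heq : P = RingHom.ker χ := by
      refine le_antisymm hi₀ fun t ht => ?_
      by_contra htP
      let R := heckeAlgebra M 2 ∅ ⧸ P
      have : IsDomain R := Ideal.Quotient.isDomain P
      have : Module.Finite ℤ R :=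
        Module.Finite.of_surjective ((Ideal.Quotient.mk P).toIntAlgHom.toLinearMap)
          Ideal.Quotient.mk_surjective
      have hb : (RingHom.ker χ).map (Ideal.Quotient.mk P) = ⊥ := by
        have : ((RingHom.ker χ).map (Ideal.Quotient.mk P)).IsPrime :=
          Ideal.map_isPrime_of_surjective Ideal.Quotient.mk_surjective (by rwa [Ideal.mk_ker])
        refine Ideal.eq_bot_of_comap_eq_bot (R := ℤ) ((eq_bot_iff).mpr fun z hz => ?_)
        rw [Ideal.mem_comap, eq_intCast, ← map_intCast (Ideal.Quotient.mk P)] at hz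
        obtain ⟨s, hs, hsz⟩ :=
          (Ideal.mem_map_iff_of_surjective _ Ideal.Quotient.mk_surjective).mp hz
        have h0 : χ (z : heckeAlgebra M 2 ∅) = 0 := by
          have hsub : s - (z : heckeAlgebra M 2 ∅) ∈ RingHom.ker χ :=
            hi₀ (Ideal.Quotient.eq.mp hsz)
          rw [RingHom.mem_ker, map_sub, RingHom.mem_ker.mp hs, zero_sub, neg_eq_zero] at hsub
          exact hsub
        rw [map_intCast] at h0
        exact Int.cast_eq_zero.mp h0
      have hmem := Ideal.mem_map_of_mem (Ideal.Quotient.mk P) ht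
      rw [hb, Ideal.mem_bot, Ideal.Quotient.eq_zero_iff_mem] at hmem
      exact htP hmem
    let R := heckeAlgebra M 2 ∅ ⧸ P
    have : IsDomain R := Ideal.Quotient.isDomain P
    have : Module.Finite ℤ R :=
      Module.Finite.of_surjective ((Ideal.Quotient.mk P).toIntAlgHom.toLinearMap)
        Ideal.Quotient.mk_surjective
    have : Countable R := by
      obtain ⟨d, b, hb⟩ := Module.Finite.exists_fin (R := ℤ) (M := R)
      have hs : Function.Surjective (Fintype.linearCombination ℤ b) := by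
        rw [← LinearMap.range_eq_top, Fintype.range_linearCombination]
        exact hb
      exact hs.countable
    have : Countable (FractionRing R) :=
      (IsLocalization.mk'_surjective (M := nonZeroDivisors R) (S := FractionRing R)).countable
    let ιR : R →+* ℂ := Ideal.Quotient.lift P
      ((integralClosure ℤ ℂ).toSubring.subtype.comp (ev i₀)) fun a ha => by
        rw [RingHom.comp_apply, RingHom.mem_ker.mp ha, map_zero]
    let φR : R →+* ℂ := Ideal.Quotient.lift P χc fun a ha => by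
        rw [RingHom.comp_apply, RingHom.mem_ker.mp (hi₀ ha), map_zero]
    have hιR : Function.Injective ιR := RingHom.lift_injective_of_ker_le_ideal P _ fun a ha => by
      exact RingHom.mem_ker.mpr (Subtype.val_injective (RingHom.mem_ker.mp ha))
    have hφR : Function.Injective φR := RingHom.lift_injective_of_ker_le_ideal P _ fun a ha => by
      rw [heq]
      exact RingHom.mem_ker.mpr (Subtype.val_injective (RingHom.mem_ker.mp ha))
    obtain ⟨σ, hσ⟩ := LevelOne.exists_ringEquiv_complex_extending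
      (IsFractionRing.lift hιR : FractionRing R →+* ℂ) (IsFractionRing.lift hφR)
    have hσ' : ∀ t, σ ((ev i₀ t : Zbar) : ℂ) = ((χ t : Zbar) : ℂ) := fun t => by
      have h := hσ (algebraMap R (FractionRing R) (Ideal.Quotient.mk P t))
      rw [IsFractionRing.lift_algebraMap, IsFractionRing.lift_algebraMap] at h
      exact h
    have han : ∀ (i : ι) (m : ℕ), ev i (Hecke.heckeTn M m) = F.a i m := fun i m =>
      Subtype.ext ((Hecke.eigenCharacter_heckeTn (F.eigen i) m).trans (F.coe_a i m).symm)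
    obtain ⟨j, hj⟩ := hF.closed i₀ σ fun m b hb => by
      rw [← han, hσ'] at hb
      rw [show b = χ (Hecke.heckeTn M m) from Subtype.ext hb, ← han]
      have := 𝔪.sub_mem (hχ (Hecke.heckeTn M m)) (hres i₀ (Hecke.heckeTn M m))
      rwa [sub_sub_sub_cancel_right] at this
    refine ⟨j, RingHom.ext fun t => ?_⟩
    induction t using GalRep.heckeAlgebra_induction with
    | op q =>
      refine Subtype.ext ?_
      have hq : ∀ i, ((ev i (heckeOp M q) : Zbar) : ℂ) = (F.a i q : ℂ) := fun i =>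
        (eigenCharacterInt_heckeOp _ q).trans (F.coe_a i q).symm
      rw [← hσ', hq, hq, hj]
    | int r => rw [map_intCast, map_intCast]
    | add a b ha hb => rw [map_add, map_add, ha, hb]
    | mul a b ha hb => rw [map_mul, map_mul, ha, hb]
  obtain ⟨x, hx, hxv⟩ :=
    exists_eigen_vector_of_class (p := 2) Nat.prime_two hn (latticeMat M) θT ev 𝔪
    (by exact_mod_cast hF.two_mem) hev hθT hmult hclosed
  have hk' : 2 ^ k • x ≠ 0 := fun h0 => (Nat.lt_irrefl n) (lt_of_le_of_lt (hxv k h0) hk)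
  obtain ⟨y, hy, hy0⟩ := exists_eigenPt_of_vec (a := fun l => W.apOfModel l)
    (S₀ := W.Δ.natAbs.primeFactors ∪ Q) (fun l hl => by
      obtain ⟨h1, h2, h3⟩ := hgood l hl
      rw [← latticeMat_heckeOp, hx, show θT (heckeOp M l) = θ (π (heckeOp M l)) from rfl, hπ,
        hθ l l.2 h1 h2 h3]) hk'
  obtain ⟨z, hz, hz0⟩ := hy.exists_exact hy0 (j := k + 1) le_rfl (Nat.succ_ne_zero k)
  exact ⟨z, hz, by simpa using hz0⟩

/-- **Genus curves are modular**, given one step of Mazur's principle. -/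
theorem genus_modular_of_step (hstep : StepProp) (hW : GenusCurve W) :
    W.IsModularModelOfLevel W.conductorLevel := by
  obtain ⟨r, B, hex⟩ := Root.exists_genus_hom W hW
  refine isModularModel_of_aux_points hstep hW r fun b => ?_
  obtain ⟨Q, hQc, hQ, ι, _, F, hB, ⟨𝔪, hcl⟩, hU, θ, hθ⟩ :=
    hex ((2 * B + 1) * b + 3) (by omega)
  refine ⟨(2 * B + 1) * b + 3, b + 1, Q, by omega, ?_, by omega, hQc.le, hQ, ?_⟩
  · calc b = 1 * b := (one_mul b).symm
      _ ≤ (2 * B + 1) * b := Nat.mul_le_mul_right _ (by omega)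
      _ ≤ _ := Nat.le_add_right _ _
  intro hne
  obtain ⟨x, hx, hx0⟩ := exists_point_of_class hW (n := (2 * B + 1) * b + 3) (by omega) Q
    F hcl hU θ hθ (k := b) (by
      have h1 : b * (2 * Fintype.card ι) ≤ b * (2 * B + 1) := Nat.mul_le_mul_left _ (by omega)
      rw [mul_comm (2 * B + 1)]
      omega)
  exact ⟨x, hx, by simpa using hx0⟩

end Fermat.Agent.MazurPrinciple
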