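import Fermat.Agent.MazurPrinciple.Lower
import Fermat.Agent.MazurPrinciple.SheetsNRed

/-!
# Reduced Kummer functions at good reduction determine the class

A prime-to-`q` torsion class of a curve with good reduction whose reduced Kummer function is trivial
vanishes; `eq_zero_of_kum_triv_bar` is the case of `X₀(M)`.
-/

set_option autoImplicit false

noncomputable section

namespace Fermat.Agent.MazurPrinciple

open HahnSeries AlgebraicCurve ModularCurve Fermat.Agent.Reduction Fermat.Agent.Reduction.CurveRed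

section Curve

variable {K k : Type*} [Field K] [Field k] {A : ValuationSubring K} {π : A →+* k}
variable {S : CurveRed A π} {n₀ : ℕ}

/-- A nonzero function regular outside `q = 0` has a normalised reduction in the reduced field. -/
theorem exists_nred_of_reg {h : S.F} (hh : h ≠ 0)
    (hreg : ∀ v : Place K S.F, v ≠ S.pt → 0 ≤ v.ord h) :
    ∃ t ∈ S.Fbar, NRed A π (S.F.val h) t := by
  obtain ⟨c, hc, t, ht, hct⟩ := S.normalizable h hreg hh
  rw [smul_eq_algebraMap_mul] at hct
  refine ⟨t, S.red_mem (algebraMap K S.F c * h) (fun v hv => ?_) t (by push_cast; exact hct),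
    NRed.of_red hc hct ht⟩
  rw [v.ord_mul ((map_ne_zero _).mpr hc) hh, FF.ord_algebraMap, zero_add]
  exact hreg v hv

/-- Every nonzero function reduces into the reduced field. -/
theorem redField_curve : RedField π S.F.val S.Fbar where
  surj := S.surj
  exists_nred f hf := by
    obtain ⟨D, hD, -⟩ := S.exists_div hf
    obtain ⟨b, P, Q, M, hb, hP, hQ, hDPQ, hdiv⟩ := exists_eff_equiv (S := S) D
    have h1 : ∀ v : Place K S.F, v ≠ S.pt → 0 ≤ v.ord (f * b) := fun v hv => by
      rw [v.ord_mul hf hb, ← hD v, hDPQ, hdiv, S.atPt_of_ne _ hv, Finsupp.sub_apply]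
      have := hP v
      omega
    have h2 : ∀ v : Place K S.F, v ≠ S.pt → 0 ≤ v.ord b := fun v hv => by
      rw [hdiv, S.atPt_of_ne _ hv, sub_zero]; exact hQ v
    obtain ⟨ta, hta, hna⟩ := exists_nred_of_reg (mul_ne_zero hf hb) h1
    obtain ⟨tb, htb, hnb⟩ := exists_nred_of_reg hb h2
    refine ⟨ta / tb, div_mem hta htb, ?_⟩
    have := hna.div hnb
    rwa [← map_div₀, mul_div_cancel_right₀ f hb] at this

/-- **Trivial reduced Kummer function, trivial class.** -/
theorem eq_zero_of_kum_triv [IsAlgClosed K] (hgap : S.GapBound n₀) {m : ℕ} (hm : (m : k) ≠ 0)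
    {z : Pic0 K S.F} {G : LaurentSeries k} (h : Kum π S.F.val m z G) (ht : Triv S.Fbar m G) :
    z = 0 := by
  obtain ⟨⟨D, hD⟩, f, hf, rfl, hord, hn⟩ := h
  obtain ⟨η, hη, hη0, u, hu, rfl⟩ := ht
  obtain ⟨b, P, Q, M, hb, hP, hQ, hDPQ, hdiv⟩ := exists_eff_equiv (S := S) D
  have hordh : ∀ v, v.ord (f * b ^ m) = ((m : ℤ) • P) v - S.atPt ((m : ℤ) * M) v := fun v => by
    rw [v.ord_mul hf (pow_ne_zero m hb), FF.ord_pow, hord, hdiv v]
    change (m : ℤ) * D v + _ = _
    rw [hDPQ, atPt_apply_eq ((m : ℤ) * M), atPt_apply_eq M]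
    simp only [Finsupp.smul_apply, Finsupp.sub_apply, smul_eq_mul]
    ring
  have hh0 : f * b ^ m ≠ 0 := mul_ne_zero hf (pow_ne_zero m hb)
  have hreg : ∀ v : Place K S.F, v ≠ S.pt → 0 ≤ v.ord (f * b ^ m) := fun v hv => by
    rw [hordh, S.atPt_of_ne _ hv, sub_zero, Finsupp.smul_apply]
    exact smul_nonneg (Int.natCast_nonneg m) (hP v)
  obtain ⟨c, hc, t, htne, hct⟩ := S.normalizable _ hreg hh0
  rw [smul_eq_algebraMap_mul] at hct
  obtain ⟨tb, htb, hnb⟩ := exists_nred_of_reg hb fun v hv => by
    rw [hdiv, S.atPt_of_ne _ hv, sub_zero]; exact hQ v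
  have hn1 : NRed A π (S.F.val (f * b ^ m)) t := NRed.of_red hc hct htne
  have hn2 : NRed A π (S.F.val (f * b ^ m))
      (algebraMap k (LaurentSeries k) u * η ^ m * tb ^ m) := by
    rw [map_mul, map_pow]; exact hn.mul (hnb.pow m)
  obtain ⟨e, he, het⟩ := hn2.unique S.surj hn1
  obtain ⟨r, hr⟩ := S.surj ((e * u)⁻¹)
  have hr0 : (r : K) ≠ 0 := fun h0 => inv_ne_zero (mul_ne_zero he hu)
    (by rw [← hr, show r = 0 from Subtype.ext h0, map_zero])
  set h₁ : S.F := algebraMap K S.F ((r : K) * c) * (f * b ^ m) with hh₁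
  have hred : Red A π (h₁ : LaurentSeries K) ((η * tb) ^ m) := by
    have := (red_algebraMap (π := π) r).mul hct
    rw [hr, het, ← mul_assoc, ← map_mul] at this
    convert this using 1
    · rw [hh₁]; push_cast; rfl
    · rw [mul_assoc (algebraMap k (LaurentSeries k) u), ← mul_pow, ← mul_assoc, ← map_mul,
        ← mul_assoc (algebraMap k (LaurentSeries k) _), ← map_mul]
      rw [show (e * u)⁻¹ * e * u = 1 by field_simp, map_one, one_mul]
  have hdegP : Divisor.degree P = M := by
    obtain ⟨Eb, hEb, hEbdeg⟩ := S.exists_div hb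
    have hQd : Eb = Q - S.atPt M := Finsupp.ext fun v => by
      rw [hEb v, hdiv v, Finsupp.sub_apply]
    rw [hQd, map_sub, S.degree_atPt] at hEbdeg
    have := Divisor.mem_degZero.mp hD
    rw [hDPQ, map_sub] at this
    omega
  obtain ⟨g, hg, hgdiv⟩ := hgap.isPrincipal_of_nsmul hm (D := S.atPt M - P)
    (by rw [map_sub, S.degree_atPt, hdegP, sub_self])
    (fun v hv => by
      rw [Finsupp.sub_apply, S.atPt_of_ne _ hv]
      have := hP v
      omega)
    (h := h₁) (mul_ne_zero ((map_ne_zero _).mpr (mul_ne_zero hr0 hc)) hh0)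
    (fun v => by
      rw [hh₁, v.ord_mul ((map_ne_zero _).mpr (mul_ne_zero hr0 hc)) hh0, FF.ord_algebraMap,
        zero_add, hordh v, Finsupp.sub_apply, Finsupp.smul_apply, atPt_apply_eq ((m : ℤ) * M),
        atPt_apply_eq M]
      simp only [smul_eq_mul]
      ring)
    (mul_mem hη htb) (mul_ne_zero hη0 hnb.ne_zero) hred
  refine (QuotientAddGroup.eq_zero_iff _).mpr (AddSubgroup.mem_addSubgroupOf.mpr ?_)
  refine ⟨(g * b)⁻¹, inv_ne_zero (mul_ne_zero hg hb), fun v => ?_⟩
  rw [v.ord_inv, v.ord_mul hg hb, ← hgdiv v, hdiv v, Finsupp.sub_apply]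
  show D v = _
  rw [hDPQ, Finsupp.sub_apply]
  ring

/-- The fractions of the regular reduced functions are the reduced field. -/
theorem fracSub_Cbar (hgap : S.GapBound n₀) [FF.IsFunctionField k S.Fbar] :
    fracSub S.Cbar = S.Fbar := by
  refine le_antisymm (IntermediateField.adjoin_le_iff.mpr fun x hx => S.Cbar_le_Fbar hx)
    fun f hf => ?_
  obtain ⟨b, hb, hfb⟩ := exists_mul_mem_Cbar hgap hf
  exact mem_fracSub_of_mul b.2 (fun h => hb (Subtype.ext h)) hfb

end Curve

section Level

local notation "ℚbar" => AlgebraicClosure ℚ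

variable {q : ℕ} [Fact q.Prime] {A : ValuationSubring ℚbar} (hA : A.LiesOverPrime q) {M : ℕ}
  [NeZero M] (hqM : ¬ q ∣ M)

theorem redField_transport {k : Type*} [Field k] {π : A →+* k}
    {E F : IntermediateField ℚbar (LaurentSeries ℚbar)} (h : E = F)
    {Q : IntermediateField k (LaurentSeries k)} (hQ : RedField π F.val Q) :
    RedField π E.val Q := by
  subst h; exact hQ

theorem kum_triv_transport {k : Type*} [Field k] {π : A →+* k}
    {E F : IntermediateField ℚbar (LaurentSeries ℚbar)} (h : E = F) {m : ℕ} {g : LaurentSeries k}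
    (hF : ∀ z : Pic0 ℚbar F, Kum π F.val m z g → z = 0) {z : Pic0 ℚbar E}
    (hz : Kum π E.val m z g) : z = 0 := by
  subst h; exact hF z hz

include hA hqM

/-- The reduced field of level `M`. -/
theorem redField_bar : RedField (IsLocalRing.residue A) (expN M)
    (modularFunctionFieldFullC (IsLocalRing.ResidueField A) M) :=
  redField_transport (Reduction.Level.modularFunctionFieldBar_eq_fullC M)
    (redField_curve (S := Reduction.Level.qbarCurve A hA M hqM))

/-- **Torsion points of level `M` with trivial reduced Kummer function vanish.** -/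
theorem eq_zero_of_kum_triv_bar {m : ℕ} (hqm : ¬ q ∣ m) {z : JZero M}
    {g : LaurentSeries (IsLocalRing.ResidueField A)}
    (h : Kum (IsLocalRing.residue A) (expN M) m z g)
    (ht : Triv (modularFunctionFieldFullC (IsLocalRing.ResidueField A) M) m g) : z = 0 := by
  obtain ⟨n₀, hgap⟩ := Reduction.Level.exists_gapBound_qbar A hA M hqM
  exact kum_triv_transport (Reduction.Level.modularFunctionFieldBar_eq_fullC M)
    (fun z' hz' => eq_zero_of_kum_triv hgap
      (Reduction.Level.natCast_residueField_ne_zero A hA hqm) hz' ht) h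

/-- Reduction data whose fractions are all of the reduced function field. -/
theorem exists_levelData : ∃ L : Semistable.LevelData A (IsLocalRing.residue A) M,
    fracSub L.C = modularFunctionFieldFullC (IsLocalRing.ResidueField A) M := by
  obtain ⟨n₀, hgap⟩ := Reduction.Level.exists_gapBound_qbar A hA M hqM
  have := Gal.isAlgClosed_residueField A
  have : FF.IsFunctionField (IsLocalRing.ResidueField A)
      (Reduction.Level.qbarCurve A hA M hqM).Fbar :=
    FF.isFunctionField_fullC _ M (Reduction.Level.natCast_residueField_ne_zero A hA hqM)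
  exact ⟨Semistable.LevelData.ofCurveRed (Reduction.Level.qbarCurve A hA M hqM)
    (Reduction.Level.modularFunctionFieldBar_eq_fullC M) hgap, fracSub_Cbar hgap⟩

end Level

end Fermat.Agent.MazurPrinciple
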