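import Fermat.Agent.MazurPrinciple.LiftCofactor

/-!
# Approximate lifts of a torsion class of the reduced curve to any precision

Let `I ^ m = (s)`. There are an effective divisor `Q` with ideal `I`, a section `b` vanishing on
`m Q` and a function `f` with pole order equal to that of `s` which agree to any precision: a
Newton step squares the error.
-/

set_option autoImplicit false

noncomputable section

namespace Fermat.Agent.MazurPrinciple

open HahnSeries AlgebraicCurve Fermat.Agent.Reduction Fermat.Agent.Reduction.CurveRed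

variable {K k : Type*} [Field K] [Field k] {A : ValuationSubring K} {π : A →+* k}
variable {S : CurveRed A π} {n₀ : ℕ}

/-- The first order expansion of a power with an integral second term. -/
theorem exists_pow_expansion (π : A →+* k) {y z : LaurentSeries K} {x w : LaurentSeries k}
    (hy : Red A π y x) (hz : Red A π z w) (ε : A) (m : ℕ) :
    ∃ (P : LaurentSeries K) (v : LaurentSeries k), Red A π P v ∧
      (y + (ε : K) • z) ^ m = y ^ m + (m : LaurentSeries K) * y ^ (m - 1) * ((ε : K) • z) +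
        P * ((ε : K) • z) ^ 2 := by
  obtain ⟨y', rfl, rfl⟩ := red_iff_exists.mp hy
  obtain ⟨z', hz', -⟩ := red_iff_exists.mp (hz.smul ε)
  rw [← hz']
  obtain ⟨P, hP⟩ := Polynomial.powAddExpansion y' z' m
  refine ⟨_, _, red_iff_exists.mpr ⟨P, rfl, rfl⟩, ?_⟩
  simpa using congrArg (ModularCurve.coeffMap A.subtype) hP

theorem sum_smul_mem_space {ι : Type*} [Fintype ι] {D : Divisor K S.F} (a : ι → K)
    {w : ι → LaurentSeries K} (hw : ∀ i, w i ∈ S.space D) :
    ∑ i, a i • w i ∈ S.space D :=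
  Submodule.sum_mem _ fun i _ => Submodule.smul_mem _ _ (hw i)

variable (S) in
/-- An approximate lift of `(I, s)` to precision `γ`. -/
def Approx (m : ℕ) (I : Ideal S.Cbar) (s : S.Cbar) (M₀ : ℤ) (γ : A.ValueGroup) : Prop :=
  ∃ (Q : Divisor K S.F) (N : ℤ) (b f : LaurentSeries K), S.IsEff Q ∧
    b ∈ S.space (S.atPt N - (m : ℤ) • Q) ∧ Red A π b (s : LaurentSeries k) ∧
    S.effIdeal' Q = I ∧ f ∈ S.space (S.atPt M₀) ∧ Red A π f (s : LaurentSeries k) ∧
    SmallLE A γ (b - f)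

/-- Splitting of a section of bounded pole into a part of pole `≤ M₀` and a part vanishing
approximately on `D`. -/
theorem exists_split (hgap : S.GapBound n₀) {D : Divisor K S.F} (hD : S.IsEff D) {M₀ : ℤ}
    (hM₀ : (n₀ : ℤ) ≤ M₀) (hsurj : ∀ c : S.Cbar, ∃ p ∈ S.polePart M₀, c - p ∈ S.effIdeal' D)
    {f : LaurentSeries K} {t : LaurentSeries k} (hf : f ∈ S.space (S.atPt M₀))
    (hft : Red A π f t) (ht : t.coeff (-M₀) ≠ 0) {b : LaurentSeries K} {N : ℤ}
    {xb : LaurentSeries k} (hb : b ∈ S.space (S.atPt N - D)) (hbx : Red A π b xb)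
    {γ : A.ValueGroup} (hbf : SmallLE A γ (b - f)) {j : ℤ} {e : LaurentSeries K}
    (he : e ∈ S.space (S.atPt j)) {xe : LaurentSeries k} (hex : Red A π e xe) :
    ∃ (δ : LaurentSeries K) (xδ : LaurentSeries k), δ ∈ S.space (S.atPt M₀) ∧ Red A π δ xδ ∧
      NearIdeal S D γ (e - δ) := by
  classical
  set n₁ : ℤ := (n₀ : ℤ) + M₀
  obtain ⟨y, z, xy, wz, jz, hy, hz, heq, hyx, hzw, -⟩ :=
    exists_div hgap hf hft ht le_rfl he hex
  have := hgap.finite M₀
  have := hgap.finite n₁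
  have : FiniteDimensional k (effPole S D n₁) :=
    Submodule.finiteDimensional_of_le (S₂ := S.regularSub n₁) fun x hx =>
      ⟨hgap.mem_Cbar_iff.mp (mem_Cbar_of_mem_effIdeal hD hx.1), hx.2⟩
  let B₁ := Module.finBasis k (S.regularSub M₀)
  let B₂ := Module.finBasis k (effPole S D n₁)
  choose w₁ hw₁ hw₁x using fun i =>
    exists_lift hgap hM₀ (hgap.mem_Cbar_iff.mpr (B₁ i).2.1) (B₁ i).2.2
  choose w₂ hw₂ hw₂x hw₂D using fun i =>
    NearIdeal.exists_lift' hgap hD hf hft ht hb hbx hbf (le_refl n₁) (B₂ i).2.1 (B₂ i).2.2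
  have := S.finiteDimensional_space (S.atPt n₁)
  obtain ⟨a, ha⟩ := exists_integral_coords S.surj (S.normalizable_space (S.offNonpos_atPt n₁))
    (w := Sum.elim w₁ w₂) (x := Sum.elim (fun i => (B₁ i : LaurentSeries k))
      (fun i => (B₂ i : LaurentSeries k)))
    (fun i => i.rec (fun i => S.space_atPt_mono (by omega) (hw₁ i)) hw₂)
    (fun i => i.rec hw₁x hw₂x) (fun x hx => by
      have hx' := S.redSub_le_regularSub (n := n₁) (by omega) hx
      obtain ⟨p, hp, hcp⟩ := hsurj ⟨x, hgap.mem_Cbar_iff.mpr hx'.1⟩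
      have h1 : (p : LaurentSeries k) ∈ S.regularSub M₀ := ⟨hgap.mem_Cbar_iff.mp p.2, hp⟩
      have h2 : x - (p : LaurentSeries k) ∈ effPole S D n₁ :=
        ⟨hcp, (poleLESubmodule k n₁).sub_mem hx'.2
          ((mem_polePart.mp hp).mono (by omega))⟩
      rw [show x = (p : LaurentSeries k) + (x - (p : LaurentSeries k)) from
        (add_sub_cancel _ _).symm]
      refine Submodule.add_mem _ ?_ ?_
      · have := congrArg Subtype.val (B₁.sum_repr ⟨_, h1⟩)
        simp only [Submodule.coe_sum, SetLike.val_smul] at this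
        rw [← this]
        exact Submodule.sum_mem _ fun i _ => Submodule.smul_mem _ _
          (Submodule.subset_span ⟨Sum.inl i, rfl⟩)
      · have := congrArg Subtype.val (B₂.sum_repr ⟨_, h2⟩)
        simp only [Submodule.coe_sum, SetLike.val_smul] at this
        rw [← this]
        exact Submodule.sum_mem _ fun i _ => Submodule.smul_mem _ _
          (Submodule.subset_span ⟨Sum.inr i, rfl⟩))
    hy hyx.coeff_mem
  rw [Fintype.sum_sum_type] at ha
  simp only [Sum.elim_inl, Sum.elim_inr] at ha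
  refine ⟨∑ i, (a (Sum.inl i) : K) • w₁ i, _, sum_smul_mem_space _ hw₁,
    Red.sum Finset.univ fun i _ => (hw₁x i).smul _, ?_⟩
  rw [heq, ha, add_assoc, add_sub_cancel_left]
  exact (NearIdeal.sum _ fun i _ => (hw₂D i).smul _).add (NearIdeal.of_mul hb hbx hbf hz hzw)

/-- Scaling of a small element of a space. -/
theorem exists_small_scalar {N : ℤ} {y : LaurentSeries K} (hy : y ∈ S.space (S.atPt N))
    {γ : A.ValueGroup} (h : SmallLE A γ y) :
    ∃ (c : K) (y₀ : LaurentSeries K) (x₀ : LaurentSeries k), A.valuation c ≤ γ ∧ y = c • y₀ ∧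
      y₀ ∈ S.space (S.atPt N) ∧ Red A π y₀ x₀ := by
  rcases normalizable_or_zero hy with rfl | hn
  · exact ⟨0, 0, 0, by simp, by simp, Submodule.zero_mem _, red_zero⟩
  obtain ⟨c, y₀, x₀, hc, -, heq, hred, hiff⟩ := exists_scaled S.surj hn
  refine ⟨c, y₀, x₀, (hiff γ).mp h, heq, ?_, hred⟩
  rw [← inv_smul_smul₀ hc y₀, ← heq]
  exact Submodule.smul_mem _ _ hy

variable {m : ℕ} {I : Ideal S.Cbar} {s : S.Cbar} {M₀ : ℤ}

/-- **The Newton step**: the precision is squared. -/
theorem Approx.step (hgap : S.GapBound n₀) (hm : (m : k) ≠ 0) (hIs : I ^ m = Ideal.span {s})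
    (hs : (s : LaurentSeries k).coeff (-M₀) ≠ 0) (hM₀ : (n₀ : ℤ) ≤ M₀)
    (hsurj : ∀ c : S.Cbar, ∃ p ∈ S.polePart M₀, c - p ∈ I ^ (m - 1))
    {γ : A.ValueGroup} (hγ : γ < 1) (h : Approx S m I s M₀ γ) : Approx S m I s M₀ (γ ^ 2) := by
  obtain ⟨Q, N, b, f, hQ, hb, hbx, hQI, hf, hfx, hbf⟩ := h
  have hm0 : 0 < m := Nat.pos_of_ne_zero fun h0 => hm (by simp [h0])
  have hs0 : s ≠ 0 := fun h0 => hs (by rw [h0]; rfl)
  have hsL : (s : LaurentSeries k) ≠ 0 := fun h0 => hs0 (Subtype.ext h0)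
  have hmQ : S.IsEff ((m : ℤ) • Q) := fun v => by
    rw [Finsupp.smul_apply]
    exact smul_nonneg (Int.natCast_nonneg m) (hQ v)
  have := hgap.isDedekindDomain
  have hI0 : I ≠ ⊥ := hQI ▸ hgap.effIdeal'_ne_bot hQ
  obtain ⟨ub, R, hub, hub0, hR, hdivb, -, hmulb⟩ := exists_zeros hgap hmQ hb hbx hs0
  set D : Divisor K S.F := ((m - 1 : ℕ) : ℤ) • Q + R with hDdef
  have hD : S.IsEff D := IsEff.add (fun v => by
    rw [Finsupp.smul_apply]; exact smul_nonneg (Int.natCast_nonneg _) (hQ v)) hR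
  have hR1 : S.effIdeal' R = ⊤ := by
    rw [effIdeal'_smul hgap hQ, hQI, hIs] at hmulb
    rw [← mul_right_inj' (show Ideal.span {s} ≠ ⊥ by simpa using hs0), hmulb, Ideal.mul_top]
  have hDI : S.effIdeal' D = I ^ (m - 1) := by
    rw [hDdef, hgap.effIdeal'_add (fun v => by
      rw [Finsupp.smul_apply]; exact smul_nonneg (Int.natCast_nonneg _) (hQ v)) hR,
      effIdeal'_smul hgap hQ, hQI, hR1, Ideal.mul_top]
  have hDb : b ∈ S.space (S.atPt N - D) := by
    rw [← hub]
    refine S.coe_mem_space.mpr fun v => Or.inr ?_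
    rw [hdivb v, hDdef]
    simp only [Finsupp.sub_apply, Finsupp.add_apply, Finsupp.smul_apply, smul_eq_mul]
    have := hQ v
    have : ((m - 1 : ℕ) : ℤ) = (m : ℤ) - 1 := by omega
    rw [this]
    linarith
  obtain ⟨c, e, xe, hc, hce, he, hex⟩ := exists_small_scalar
    (Submodule.sub_mem _ (S.space_atPt_mono (le_max_left N M₀) (space_sub_le N hmQ hb))
      (S.space_atPt_mono (le_max_right N M₀) hf)) hbf
  obtain ⟨δ, xδ, hδ, hδx, Na, a, xa, ha, hax, hea⟩ := exists_split hgap hD hM₀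
    (fun x => by rw [hDI]; exact hsurj x) hf hfx hs hDb hbx hbf he hex
  have hc1 : A.valuation c < 1 := hc.trans_lt hγ
  have hmA : A.valuation (m : K) = 1 := by
    have h1 := (residue_ne_zero_iff S.surj (m : A)).mp (by rwa [map_natCast])
    simpa using h1
  have hmK : (m : K) ≠ 0 := fun h0 => by rw [h0, map_zero] at hmA; exact zero_ne_one hmA
  set ε : A := ⟨-(c / m), (ValuationSubring.valuation_le_one_iff _ _).mp (by
    rw [Valuation.map_neg, map_div₀, hmA, div_one]; exact hc1.le)⟩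
  have hεv : A.valuation (ε : K) ≤ γ := by
    show A.valuation (-(c / m)) ≤ γ
    rwa [Valuation.map_neg, map_div₀, hmA, div_one]
  obtain ⟨P, vP, hP, hpow⟩ := exists_pow_expansion π hbx hax ε m
  set Y : LaurentSeries K := b + (ε : K) • a with hYdef
  set NY : ℤ := max N Na
  have hYmem : Y ∈ S.space (S.atPt NY - D) := Submodule.add_mem _
    (space_sub_mono (le_max_left _ _) D hDb)
    (Submodule.smul_mem _ _ (space_sub_mono (le_max_right _ _) D ha))
  have hYb : SmallLE A γ (Y - b) := by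
    rw [hYdef, add_sub_cancel_left]
    exact (smallLE_smul_red hax _).mono hεv
  have hYx : Red A π Y (s : LaurentSeries k) := red_of_smallLE_sub S.surj hγ hbx hYb
  obtain ⟨uY, Q', huY, huY0, hQ', hdivY, -, hmulY⟩ := exists_zeros hgap hD hYmem hYx hs0
  have hQ'I : S.effIdeal' Q' = I := by
    refine mul_left_cancel₀ (pow_ne_zero (m - 1) hI0) ?_
    rw [hDI] at hmulY
    rw [hmulY, ← hIs, ← pow_succ, Nat.sub_add_cancel hm0]
  obtain ⟨m', rfl⟩ : ∃ m', m = m' + 1 := ⟨m - 1, by omega⟩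
  simp only [Nat.add_sub_cancel] at hpow hDdef hDI
  set N₂ : ℤ := ((m' : ℤ) + 1) * NY - (m' : ℤ) * N
  set u : S.F := uY ^ (m' + 1) / ub ^ m'
  have hu0 : u ≠ 0 := div_ne_zero (pow_ne_zero _ huY0) (pow_ne_zero _ hub0)
  set b' : LaurentSeries K := (u : LaurentSeries K)
  have hatPt : ∀ (n : ℤ) (v : Place K S.F), S.atPt n v = n * S.atPt 1 v := fun n v => by
    rcases eq_or_ne v S.pt with rfl | hv
    · simp [S.atPt_self]
    · simp [S.atPt_of_ne _ hv]
  have hb' : b' ∈ S.space (S.atPt N₂ - ((m' + 1 : ℕ) : ℤ) • Q') := by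
    refine S.coe_mem_space.mpr fun v => Or.inr ?_
    rw [FF.ord_div v (pow_ne_zero _ huY0) (pow_ne_zero _ hub0), FF.ord_pow, FF.ord_pow,
      hdivY v, hdivb v, hDdef, hatPt NY, hatPt N]
    simp only [Finsupp.sub_apply, Finsupp.add_apply, Finsupp.smul_apply, smul_eq_mul]
    rw [hatPt N₂]
    have hRv := hR v
    simp only [N₂]
    push_cast
    ring_nf
    linarith
  have hub' : b' * b ^ m' = Y ^ (m' + 1) := by
    rw [← hub, ← huY]
    simp only [b', u]
    push_cast
    exact div_mul_cancel₀ _ (pow_ne_zero _ fun h0 => hub0 (Subtype.ext h0))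
  have hmQ' : S.IsEff (((m' + 1 : ℕ) : ℤ) • Q') := fun v => by
    rw [Finsupp.smul_apply]; exact smul_nonneg (Int.natCast_nonneg _) (hQ' v)
  have hb'x : Red A π b' (s : LaurentSeries k) := by
    obtain ⟨c', hc', x', hx', hred'⟩ := S.normalizable_space (hmQ'.offNonpos N₂) b' hb'
      (fun h0 => hu0 (Subtype.ext h0))
    obtain ⟨x'', hx'', heq⟩ := red_of_mul S.surj hc' hx' hred' (hbx.pow m') (pow_ne_zero _ hsL)
      (by rw [hub']; exact hYx.pow (m' + 1))
    rw [pow_succ'] at heq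
    rwa [← mul_right_cancel₀ (pow_ne_zero m' hsL) heq]
  set f' : LaurentSeries K := f + c • δ
  have hf'x : Red A π f' (s : LaurentSeries k) := by
    refine red_of_smallLE_sub S.surj hc1 hfx ?_
    rw [show f' - f = c • δ from add_sub_cancel_left _ _]
    exact smallLE_smul_red hδx c
  refine ⟨Q', N₂, b', f', hQ', hb', hb'x, hQ'I,
    Submodule.add_mem _ hf (Submodule.smul_mem _ _ hδ), hf'x, ?_⟩
  have hsplit : b' - f' = (b' - b + c • a) + c • (e - δ - a) := by
    simp only [f', smul_sub, ← hce]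
    abel
  rw [hsplit]
  refine SmallLE.add ?_ ((hea.smul c).mono (by rw [pow_two]; exact mul_le_mul' hc le_rfl))
  have hmain : b ^ m' * (b' - b + c • a) = P * ((ε : K) • a) ^ 2 := by
    have hεm : ((m' + 1 : ℕ) : LaurentSeries K) * ((ε : K) • a) = -(c • a) := by
      rw [← map_natCast (algebraMap K (LaurentSeries K)), ← smul_eq_algebraMap_mul, smul_smul,
        ← neg_smul]
      congr 1
      show ((m' + 1 : ℕ) : K) * -(c / ((m' + 1 : ℕ) : K)) = -c
      field_simp
    linear_combination hub' + hpow + b ^ m' * hεm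
  refine SmallLE.of_mul S.surj (hbx.pow m') (pow_ne_zero _ hsL)
    (normalizable_or_zero (S := S) (N := max (max N₂ N) Na) ?_) ?_
  · exact Submodule.add_mem _ (Submodule.sub_mem _
      (S.space_atPt_mono (le_trans (le_max_left N₂ N) (le_max_left _ _))
        (space_sub_le N₂ hmQ' hb'))
      (S.space_atPt_mono (le_trans (le_max_right N₂ N) (le_max_left _ _)) (space_sub_le N hD hDb)))
      (Submodule.smul_mem _ _ (S.space_atPt_mono (le_max_right _ _) (space_sub_le Na hD ha)))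
  · rw [hmain, pow_two ((ε : K) • a), pow_two γ]
    exact SmallLE.red_mul hP
      (((smallLE_smul_red hax _).mono hεv).mul ((smallLE_smul_red hax _).mono hεv))

/-- **Approximate lifts exist to every precision.** -/
theorem exists_approx (hgap : S.GapBound n₀) (hm : (m : k) ≠ 0) (hI : I ≠ ⊥)
    (hIs : I ^ m = Ideal.span {s}) (hs : (s : LaurentSeries k).coeff (-M₀) ≠ 0)
    (hsM : PoleLE M₀ (s : LaurentSeries k)) (hM₀ : (n₀ : ℤ) ≤ M₀)
    (hsurj : ∀ c : S.Cbar, ∃ p ∈ S.polePart M₀, c - p ∈ I ^ (m - 1))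
    {g : K} (hg : g ≠ 0) : Approx S m I s M₀ (A.valuation g) := by
  obtain ⟨E, hE, hEI⟩ := exists_effIdeal'_eq hgap hI
  have hmE : S.IsEff ((m : ℤ) • E) := fun v => by
    rw [Finsupp.smul_apply]
    exact smul_nonneg (Int.natCast_nonneg m) (hE v)
  have hsE : s ∈ S.effIdeal' ((m : ℤ) • E) := by
    rw [effIdeal'_smul hgap hE, hEI, hIs]
    exact Ideal.mem_span_singleton_self s
  obtain ⟨N, b, hb, hbx⟩ := mem_effIdeal.mp hsE
  obtain ⟨f, hf, hfx⟩ := exists_lift hgap hM₀ s.2 hsM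
  have hred : Red A π (b - f) 0 := by simpa using hbx.sub hfx
  obtain ⟨γ, hγ, hsmall⟩ : ∃ γ : K, A.valuation γ < 1 ∧ SmallLE A (A.valuation γ) (b - f) := by
    rcases normalizable_or_zero (S := S) (N := max (N : ℤ) M₀) (y := b - f)
      (Submodule.sub_mem _ (S.space_atPt_mono (le_max_left _ _) (space_sub_le _ hmE hb))
        (S.space_atPt_mono (le_max_right _ _) hf)) with h0 | hn
    · exact ⟨0, by simp, by rw [h0]; exact smallLE_zero _⟩
    obtain ⟨c, y₀, x₀, -, hx₀, heq, hy₀, hiff⟩ := exists_scaled S.surj hn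
    refine ⟨c, ?_, (hiff _).mpr le_rfl⟩
    obtain ⟨i, hi⟩ : ∃ i, x₀.coeff i ≠ 0 := by
      by_contra hall
      push Not at hall
      exact hx₀ (HahnSeries.ext (funext hall))
    have h1 := ((hred.eq_zero_iff S.surj).mp rfl) i
    rwa [heq, coeff_smulC, map_mul, hy₀.coeff_valuation_eq_one S.surj hi, mul_one] at h1
  have hiter : ∀ j : ℕ, Approx S m I s M₀ (A.valuation γ ^ 2 ^ j) := by
    intro j
    induction j with
    | zero => exact ⟨E, N, b, f, hE, hb, hbx, hEI, hf, hfx, by simpa using hsmall⟩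
    | succ j ih =>
      rw [pow_succ 2 j, pow_mul]
      exact ih.step hgap hm hIs hs hM₀ hsurj (pow_lt_one₀ zero_le hγ (by positivity))
  obtain ⟨j, hj⟩ := exists_pow_le S hγ hg
  obtain ⟨Q, N', b', f', h1, h2, h3, h4, h5, h6, h7⟩ := hiter j
  exact ⟨Q, N', b', f', h1, h2, h3, h4, h5, h6,
    h7.mono ((pow_le_pow_of_le_one zero_le hγ.le Nat.lt_two_pow_self.le).trans hj)⟩

/-- **Approximate solutions of `yᵢ ^ m = f cᵢ`** with prescribed reductions. -/
theorem exists_approx_eq (hgap : S.GapBound n₀) (hm : (m : k) ≠ 0) (hI : I ≠ ⊥)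
    (hIs : I ^ m = Ideal.span {s}) (hs : (s : LaurentSeries k).coeff (-M₀) ≠ 0)
    (hsM : PoleLE M₀ (s : LaurentSeries k)) (hM₀ : (n₀ : ℤ) ≤ M₀)
    (hsurj : ∀ c : S.Cbar, ∃ p ∈ S.polePart M₀, c - p ∈ I ^ (m - 1))
    {n : ℤ} (hn : (n₀ : ℤ) + M₀ ≤ n) {ι : Type*} (x : ι → S.Cbar) (hxI : ∀ i, x i ∈ I)
    (hxn : ∀ i, x i ∈ S.polePart n) {g : K} (hg : g ≠ 0) (hg1 : A.valuation g < 1) :
    ∃ (f : LaurentSeries K) (y c : ι → LaurentSeries K),
      f ∈ S.space (S.atPt M₀) ∧ Red A π f (s : LaurentSeries k) ∧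
      (∀ i, y i ∈ S.space (S.atPt n) ∧ Red A π (y i) (x i : LaurentSeries k)) ∧
      (∀ i, c i ∈ S.space (S.atPt ((m : ℤ) * n - M₀)) ∧ (∀ j, (c i).coeff j ∈ A)) ∧
      ∀ i, SmallLE A (A.valuation g) (y i ^ m - f * c i) := by
  obtain ⟨Q, N, b, f, hQ, hb, hbx, hQI, hf, hfx, hbf⟩ :=
    exists_approx hgap hm hI hIs hs hsM hM₀ hsurj hg
  have hm0 : 0 < m := Nat.pos_of_ne_zero fun h0 => hm (by simp [h0])
  have hmQ : S.IsEff ((m : ℤ) • Q) := fun v => by
    rw [Finsupp.smul_apply]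
    exact smul_nonneg (Int.natCast_nonneg m) (hQ v)
  have hQb : b ∈ S.space (S.atPt N - Q) := S.space_mono (fun v => by
    rw [Finsupp.sub_apply, Finsupp.sub_apply, Finsupp.smul_apply, smul_eq_mul]
    have := hQ v
    nlinarith) hb
  have hone : ∀ i, ∃ (y c : LaurentSeries K) (xc : LaurentSeries k),
      y ∈ S.space (S.atPt n) ∧ Red A π y (x i : LaurentSeries k) ∧
      c ∈ S.space (S.atPt ((m : ℤ) * n - M₀)) ∧ Red A π c xc ∧
      SmallLE A (A.valuation g) (y ^ m - f * c) := by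
    intro i
    obtain ⟨y, hy, hyx, Na, a, xa, ha, hax, hya⟩ := NearIdeal.exists_lift' hgap hQ hf hfx hs
      hQb hbx hbf hn (x := (x i : LaurentSeries k))
      (by rw [← mem_effIdeal', hQI]; exact hxI i) (hxn i)
    have ham : a ^ m ∈ S.space (S.atPt ((m : ℤ) * Na) - (m : ℤ) • Q) := by
      have := S.pow_mem_space ha m
      rwa [smul_sub, show (m : ℤ) • S.atPt Na = S.atPt ((m : ℤ) * Na) by
        simp [CurveRed.atPt, Finsupp.smul_single]] at this
    obtain ⟨N', c, xc, hc, hcx, hsmall⟩ := exists_mul_quot hgap hmQ hb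
      (s := s) hbx
      (by rw [effIdeal'_smul hgap hQ, hQI, hIs]) hg hbf ham (hax.pow m)
    have hyam : SmallLE A (A.valuation g) (y ^ m - a ^ m) := by
      rw [← geom_sum₂_mul]
      exact SmallLE.red_mul (Red.sum (A := A) (π := π) _ fun j _ =>
        (hyx.pow j).mul (hax.pow (m - 1 - j))) hya
    have hym : SmallLE A (A.valuation g) (y ^ m - f * c) := by
      rw [show y ^ m - f * c = (y ^ m - a ^ m) + (a ^ m - f * c) by ring]
      exact hyam.add hsmall
    obtain ⟨c', xc', hc', hc'x, hfin⟩ := exists_small_quot hgap hf hfx hs hg1.le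
      (P := (m : ℤ) * n - M₀) (by
        have : (n : ℤ) ≤ (m : ℤ) * n := le_mul_of_one_le_left (by omega) (by omega)
        omega)
      (by rw [show M₀ + ((m : ℤ) * n - M₀) = (m : ℤ) * n by ring]
          exact S.pow_mem_space_atPt hy) hc hcx hym
    exact ⟨y, c', xc', hy, hyx, hc', hc'x, hfin⟩
  choose y c xc h1 h2 h3 h4 h5 using hone
  exact ⟨f, y, c, hf, hfx, fun i => ⟨h1 i, h2 i⟩, fun i => ⟨h3 i, (h4 i).coeff_mem⟩, h5⟩

end Fermat.Agent.MazurPrinciple
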