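import Fermat.Agent.MazurPrinciple.LiftGood

/-!
# Classes of points, test divisors, and the divisor of a solution of `yᵢ ^ m = f cᵢ`
-/

set_option autoImplicit false

noncomputable section

namespace Fermat.Agent.MazurPrinciple

open HahnSeries AlgebraicCurve Fermat.Agent.Reduction Fermat.Agent.Reduction.CurveRed

variable {K k : Type*} [Field K] [Field k] {A : ValuationSubring K} {π : A →+* k}
variable {S : CurveRed A π} {n₀ : ℕ}

variable (S) in
/-- The class of `E - deg E ∞`. -/
def ptClass (E : Divisor K S.F) : Pic0 K S.F :=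
  Pic0.mk ⟨E - S.atPt (Divisor.degree E), Divisor.mem_degZero.mpr (by
    rw [map_sub, S.degree_atPt, sub_self])⟩

theorem sp_ptClass (hgap : S.GapBound n₀) (E : Divisor K S.F) :
    hgap.sp (ptClass S E) = hgap.classHom E := by
  rw [ptClass, hgap.sp_mk]
  change hgap.classHom (E - S.atPt (Divisor.degree E)) = _
  rw [map_sub, hgap.classHom_atPt, sub_zero]

theorem mk_eq_zero_of_div {D : Divisor.degZero (K := K) (F := S.F)} {u : S.F} (hu : u ≠ 0)
    (h : ∀ v, (D : Divisor K S.F) v = v.ord u) : Pic0.mk D = 0 :=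
  (QuotientAddGroup.eq_zero_iff _).mpr (AddSubgroup.mem_addSubgroupOf.mpr ⟨u, hu, h⟩)

theorem exists_div_of_mk_eq_zero {D : Divisor.degZero (K := K) (F := S.F)}
    (h : Pic0.mk D = 0) : ∃ u : S.F, u ≠ 0 ∧ ∀ v, (D : Divisor K S.F) v = v.ord u :=
  AddSubgroup.mem_addSubgroupOf.mp ((QuotientAddGroup.eq_zero_iff _).mp h)

theorem atPt_apply_eq (n : ℤ) (v : Place K S.F) : S.atPt n v = n * S.atPt 1 v := by
  rcases eq_or_ne v S.pt with rfl | hv
  · simp [S.atPt_self]
  · simp [S.atPt_of_ne _ hv]

/-- **A test divisor**: every class is minus the class of a divisor with ideal prime to `I`. -/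
theorem exists_test (hgap : S.GapBound n₀) {I : Ideal S.Cbar} (hI : I ≠ ⊥) (z : Pic0 K S.F) :
    ∃ R : Divisor K S.F, S.IsEff R ∧ (codim S R : ℤ) = Divisor.degree R ∧
      S.effIdeal' R ⊔ I = ⊤ ∧ ptClass S R = -z := by
  classical
  have := hgap.isDedekindDomain
  obtain ⟨⟨D, hD⟩, rfl⟩ := Pic0.mk_surjective z
  obtain ⟨b, P, Q, M, hb, hP, hQ, hDPQ, hdivb⟩ := exists_eff_equiv (S := S) D
  set a := S.effIdeal' P
  have ha : a ≠ ⊥ := hgap.effIdeal'_ne_bot hP
  obtain ⟨α, hα⟩ := IsDedekindDomain.exists_sup_span_eq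
    (Ideal.mul_le.mpr fun r hr s _ => Ideal.mul_mem_right s a hr : a * I ≤ a)
    (mul_ne_zero ha hI)
  obtain ⟨e, heI, he⟩ := Submodule.exists_mem_ne_zero_of_ne_bot (mul_ne_zero ha hI : a * I ≠ ⊥)
  have hes : (e : LaurentSeries k) ≠ 0 := fun h => he (Subtype.ext h)
  set P₁ : ℤ := max (max (-(α : LaurentSeries k).order + 1)
    (-(e : LaurentSeries k).order + n₀ + 1)) (2 * n₀ + S.g + codim S P + 1)
  obtain ⟨x, hx, hx0, hxo⟩ :=
    hgap.exists_order_eq (n := P₁ + (e : LaurentSeries k).order) (by omega)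
  set x' : S.Cbar := ⟨x, hgap.mem_Cbar_iff.mpr hx.1⟩
  set α' : S.Cbar := α + e * x'
  have heo : ((e * x' : S.Cbar) : LaurentSeries k).order = -P₁ := by
    rw [Subalgebra.coe_mul, HahnSeries.order_mul hes hx0, hxo]
    ring
  have hex0 : ((e * x' : S.Cbar) : LaurentSeries k) ≠ 0 := mul_ne_zero hes hx0
  have hαtop : (α' : LaurentSeries k).coeff (-P₁) ≠ 0 := by
    rw [Subalgebra.coe_add, HahnSeries.coeff_add,
      poleLE_neg_order (α : LaurentSeries k) _ (by omega), zero_add, ← heo]
    exact fun h => hex0 (HahnSeries.coeff_order_eq_zero.mp h)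
  have hαpole : PoleLE P₁ (α' : LaurentSeries k) := by
    rw [Subalgebra.coe_add]
    exact (poleLESubmodule k P₁).add_mem ((poleLE_neg_order _).mono (by omega))
      ((poleLE_iff_order hex0).mpr (by omega))
  have hα0 : α' ≠ 0 := fun h => hαtop (by rw [h]; rfl)
  have hsup : a * I ⊔ Ideal.span {α'} = a := by
    refine le_antisymm ?_ ?_
    · conv_rhs => rw [← hα]
      refine sup_le le_sup_left (Ideal.span_le.mpr (Set.singleton_subset_iff.mpr ?_))
      exact add_mem (Ideal.mem_sup_right (Ideal.mem_span_singleton_self α))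
        (Ideal.mem_sup_left (Ideal.mul_mem_right _ _ heI))
    · conv_lhs => rw [← hα]
      refine sup_le le_sup_left (Ideal.span_le.mpr (Set.singleton_subset_iff.mpr ?_))
      rw [show α = α' - e * x' by simp only [α', add_sub_cancel_right]]
      exact sub_mem (Ideal.mem_sup_right (Ideal.mem_span_singleton_self α'))
        (Ideal.mem_sup_left (Ideal.mul_mem_right _ _ heI))
  set N : ℤ := P₁ + Divisor.degree P - codim S P
  have hred : (α' : LaurentSeries k) ∈ redSub S.surj (S.space (S.atPt N - P)) := by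
    rw [redSub_eq_effPole hgap hP (by omega)]
    refine ⟨?_, hαpole.mono (by omega)⟩
    rw [← mem_effIdeal']
    exact hsup.le (Ideal.mem_sup_right (Ideal.mem_span_singleton_self α'))
  obtain ⟨y, hy, hyx⟩ := hred
  obtain ⟨u, R, -, hu0, hR, hdiv, hdegR, hmul⟩ := exists_zeros hgap hP hy hyx hα0
  refine ⟨R, hR, ?_, ?_, ?_⟩
  · have h1 := hgap.finrank_quotient_mul ha (hgap.effIdeal'_ne_bot hR)
    have h2 : (Module.finrank k (S.Cbar ⧸ Ideal.span {α'}) : ℤ) = P₁ := by
      rw [hgap.finrank_quotient_span hα0]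
      have h3 := HahnSeries.order_le_of_coeff_ne_zero hαtop
      have h4 := (poleLE_iff_order fun h => hα0 (Subtype.ext h)).mp hαpole
      omega
    rw [hmul] at h1
    simp only [codim, N, a] at *
    omega
  · refine mul_left_cancel₀ ha ?_
    rw [Ideal.mul_sup, hmul, Ideal.mul_top, sup_comm, hsup]
  · have hdegP : Divisor.degree P = M := by
      obtain ⟨Eb, hEb, hEbdeg⟩ := S.exists_div hb
      rw [show Eb = Q - S.atPt M from Finsupp.ext fun v => by
        rw [hEb v, hdivb v, Finsupp.sub_apply], map_sub, S.degree_atPt] at hEbdeg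
      have := Divisor.mem_degZero.mp hD
      rw [hDPQ, map_sub] at this
      omega
    rw [eq_neg_iff_add_eq_zero, ptClass, ← Pic0.mk_add]
    refine mk_eq_zero_of_div (u := u / b) (div_ne_zero hu0 hb) fun v => ?_
    rw [FF.ord_div v hu0 hb, hdiv v, hdivb v]
    change (R - S.atPt (Divisor.degree R) + D) v = _
    rw [hdegR, hdegP, hDPQ, atPt_apply_eq N, atPt_apply_eq M]
    simp only [Finsupp.add_apply, Finsupp.sub_apply]
    rw [atPt_apply_eq (N - M)]
    ring

/-- An effective divisor has sub-divisors of every smaller degree. -/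
theorem exists_subdivisor {E : Divisor K S.F} (hE : S.IsEff E) {j : ℕ}
    (hj : (j : ℤ) ≤ Divisor.degree E) :
    ∃ E' : Divisor K S.F, S.IsEff E' ∧ (∀ v, E' v ≤ E v) ∧ Divisor.degree E' = j := by
  classical
  induction j with
  | zero => exact ⟨0, fun v => le_rfl, hE, map_zero _⟩
  | succ j ih =>
    obtain ⟨E', hE', hle, hdeg⟩ := ih (by omega)
    obtain ⟨v, hv⟩ : ∃ v, E' v < E v := by
      by_contra hall
      push Not at hall
      rw [show E = E' from Finsupp.ext fun v => le_antisymm (hall v) (hle v), hdeg] at hj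
      omega
    refine ⟨E' + Finsupp.single v 1, hE'.add (isEff_single v zero_le_one), fun w => ?_, ?_⟩
    · rw [Finsupp.add_apply, Finsupp.single_apply]
      split_ifs with h
      · subst h; omega
      · have := hle w; omega
    · rw [map_add, hdeg, Divisor.degree_single, S.deg_one]
      push_cast
      ring

/-- **The divisor of a solution.** -/
theorem exists_divisor_of_solution (hgap : S.GapBound n₀) {m d : ℕ} (hm : 0 < m) {n : ℤ}
    (hn : (2 * n₀ + S.g + (d + 1) : ℤ) ≤ n) {r : ℕ} (hr : (r : ℤ) = n - d + 1 - S.g)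
    {f : LaurentSeries K} (hf : f ∈ S.space (S.atPt ((m : ℤ) * d)))
    {y c : Fin r → LaurentSeries K} (hy : ∀ i, y i ∈ S.space (S.atPt n))
    (hc : ∀ i, c i ∈ S.space (S.atPt ((m : ℤ) * n - (m : ℤ) * d)))
    (heq : ∀ i, y i ^ m = f * c i) (hli : LinearIndependent K y) :
    ∃ E : Divisor K S.F, S.IsEff E ∧ Divisor.degree E = d ∧ (m : ℤ) • ptClass S E = 0 ∧
      Submodule.span K (Set.range y) = S.space (S.atPt n - E) := by
  classical
  have hrpos : 0 < r := by omega
  have : Nonempty (Fin r) := ⟨⟨0, hrpos⟩⟩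
  choose u hu hu' using fun i => S.exists_of_mem_space (hy i)
  have hu0 : ∀ i, u i ≠ 0 := fun i h => hli.ne_zero i (by rw [← hu i, h]; rfl)
  choose Eu hEu hEudeg using fun i => S.exists_div (hu0 i)
  set Z : Fin r → Divisor K S.F := fun i => Eu i + S.atPt n
  have hZ : ∀ i, S.IsEff (Z i) := fun i v => by
    have := (hu' i v).resolve_left (hu0 i)
    simp only [Z, Finsupp.add_apply, hEu i v]
    omega
  set i₀ : Fin r := ⟨0, hrpos⟩
  set E : Divisor K S.F := Finsupp.onFinset (Z i₀).support
    (fun v => Finset.univ.inf' Finset.univ_nonempty fun i => Z i v) (fun v hv => by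
      rw [Finsupp.mem_support_iff]
      intro h0
      refine hv (le_antisymm ?_ (Finset.le_inf' _ _ fun i _ => hZ i v))
      exact (Finset.inf'_le _ (Finset.mem_univ i₀)).trans h0.le)
  have hEap : ∀ v, E v = Finset.univ.inf' Finset.univ_nonempty fun i => Z i v := fun v => rfl
  have hE : S.IsEff E := fun v => by rw [hEap]; exact Finset.le_inf' _ _ fun i _ => hZ i v
  have hyE : ∀ i, y i ∈ S.space (S.atPt n - E) := fun i => by
    rw [← hu i]
    refine S.coe_mem_space.mpr fun v => Or.inr ?_
    have h1 : E v ≤ Z i v := hEap v ▸ Finset.inf'_le _ (Finset.mem_univ i)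
    simp only [Z, Finsupp.add_apply, hEu i v] at h1
    rw [Finsupp.sub_apply]
    omega
  have hdim : ∀ E' : Divisor K S.F, (∀ v, E' v ≤ E v) →
      r ≤ Module.finrank K (S.space (S.atPt n - E')) := fun E' hle => by
    have := S.finiteDimensional_space (S.atPt n - E')
    have hspan : Submodule.span K (Set.range y) ≤ S.space (S.atPt n - E') :=
      Submodule.span_le.mpr (Set.range_subset_iff.mpr fun i => S.space_mono (fun v => by
        simp only [Finsupp.sub_apply]; have := hle v; omega) (hyE i))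
    have := Submodule.finrank_mono hspan
    rwa [finrank_span_eq_card hli, Fintype.card_fin] at this
  have hdeg_le : Divisor.degree E ≤ d := by
    by_contra hlt
    obtain ⟨E', hE', hle, hdeg⟩ := exists_subdivisor hE (j := d + 1) (by omega)
    have h1 := hdim E' hle
    have h2 := finrank_space_eq hgap hE' (N := n) (by omega)
    omega
  obtain ⟨uf, huf, huf'⟩ := S.exists_of_mem_space hf
  have huf0 : uf ≠ 0 := fun h => hli.ne_zero i₀ (pow_eq_zero_iff hm.ne' |>.mp
    (by rw [heq, ← huf, h, ZeroMemClass.coe_zero, zero_mul]))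
  obtain ⟨Ef, hEf, hEfdeg⟩ := S.exists_div huf0
  set Zf : Divisor K S.F := Ef + S.atPt ((m : ℤ) * d)
  have hle : ∀ v, Zf v ≤ (m : ℤ) * E v := by
    intro v
    obtain ⟨i, -, hi⟩ := Finset.exists_mem_eq_inf' Finset.univ_nonempty fun i => Z i v
    rw [hEap, hi]
    obtain ⟨uc, huc, huc'⟩ := S.exists_of_mem_space (hc i)
    have heq' : u i ^ m = uf * uc := Subtype.ext (by push_cast; rw [hu, huf, huc, heq])
    have huc0 : uc ≠ 0 := fun h => pow_ne_zero m (hu0 i) (by rw [heq', h, mul_zero])
    have h1 := congrArg v.ord heq'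
    rw [FF.ord_pow, v.ord_mul huf0 huc0] at h1
    have h2 := (huc' v).resolve_left huc0
    simp only [Z, Zf, Finsupp.add_apply, hEu i v, hEf v]
    rw [atPt_apply_eq ((m : ℤ) * d), atPt_apply_eq n]
    rw [atPt_apply_eq ((m : ℤ) * n - (m : ℤ) * d)] at h2
    linarith
  have hdiff : S.IsEff ((m : ℤ) • E - Zf) := fun v => by
    rw [Finsupp.sub_apply, Finsupp.smul_apply, smul_eq_mul]
    have := hle v
    omega
  have hmd : Divisor.degree ((m : ℤ) • E - Zf) = (m : ℤ) * Divisor.degree E - (m : ℤ) * d := by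
    simp only [Zf, map_sub, map_zsmul, map_add, hEfdeg, S.degree_atPt, smul_eq_mul, zero_add]
  have hnn := degree_nonneg_of_isEff hdiff
  have hdeg : Divisor.degree E = d := by
    have : (m : ℤ) * d ≤ (m : ℤ) * Divisor.degree E := by omega
    have := le_of_mul_le_mul_left this (by omega)
    omega
  have hzero := S.eq_zero_of_effective hdiff (by rw [hmd, hdeg, sub_self])
  refine ⟨E, hE, hdeg, ?_, ?_⟩
  · refine mk_eq_zero_of_div (D := (m : ℤ) • _) huf0 fun v => ?_
    rw [AddSubgroupClass.coe_zsmul]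
    have h1 : ((m : ℤ) • E - Zf) v = 0 := by rw [hzero]; rfl
    rw [← hEf v]
    simp only [Zf, Finsupp.sub_apply, Finsupp.add_apply, Finsupp.smul_apply, smul_eq_mul] at h1
    change ((m : ℤ) • (E - S.atPt (Divisor.degree E))) v = _
    rw [hdeg]
    simp only [Finsupp.smul_apply, Finsupp.sub_apply, smul_eq_mul]
    rw [atPt_apply_eq ((m : ℤ) * d)] at h1
    rw [atPt_apply_eq (d : ℤ)]
    linarith
  · have := S.finiteDimensional_space (S.atPt n - E)
    refine Submodule.eq_of_le_of_finrank_le
      (Submodule.span_le.mpr (Set.range_subset_iff.mpr hyE)) ?_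
    rw [finrank_span_eq_card hli, Fintype.card_fin]
    have := finrank_space_eq hgap hE (N := n) (by omega)
    omega

/-- Opposite classes give a common section. -/
theorem exists_common_section {E R : Divisor K S.F} (hE : S.IsEff E) (hR : S.IsEff R) {n : ℤ}
    (hn : Divisor.degree E + Divisor.degree R ≤ n) (h : ptClass S E + ptClass S R = 0) :
    ∃ y : LaurentSeries K, y ≠ 0 ∧ y ∈ S.space (S.atPt n - E) ∧
      y ∈ S.space (S.atPt (Divisor.degree E + Divisor.degree R) - R) := by
  rw [ptClass, ptClass, ← Pic0.mk_add] at h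
  obtain ⟨u, hu, hdiv⟩ := exists_div_of_mk_eq_zero h
  have hv : ∀ v, v.ord u = E v + R v - S.atPt (Divisor.degree E + Divisor.degree R) v := fun v => by
    rw [← hdiv v]
    change (E - S.atPt (Divisor.degree E) + (R - S.atPt (Divisor.degree R))) v = _
    rw [S.atPt_add]
    simp only [Finsupp.add_apply, Finsupp.sub_apply]
    ring
  refine ⟨u, fun h0 => hu (Subtype.ext h0), S.coe_mem_space.mpr fun v => Or.inr ?_,
    S.coe_mem_space.mpr fun v => Or.inr ?_⟩
  · rw [hv v, Finsupp.sub_apply]
    have := hR v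
    have hmono : S.atPt (Divisor.degree E + Divisor.degree R) v ≤ S.atPt n v := by
      rcases eq_or_ne v S.pt with rfl | hv
      · simpa [S.atPt_self] using hn
      · simp [S.atPt_of_ne _ hv]
    omega
  · rw [hv v, Finsupp.sub_apply]
    have := hE v
    omega

end Fermat.Agent.MazurPrinciple
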