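import Fermat.Agent.MazurPrinciple.LiftDivide

/-!
# A divisor whose reduced ideal is principal is principal to any precision
-/

set_option autoImplicit false

noncomputable section

namespace Fermat.Agent.MazurPrinciple

open HahnSeries AlgebraicCurve Fermat.Agent.Reduction Fermat.Agent.Reduction.CurveRed

variable {K k : Type*} [Field K] [Field k] {A : ValuationSubring K} {π : A →+* k}
variable {S : CurveRed A π} {n₀ : ℕ}

/-- Exact integral quotient by a normalised function whose zeros are bounded by `E`. -/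
theorem exists_quot {E : Divisor K S.F} {M : ℤ} {h : S.F} (hh : h ≠ 0)
    (hdiv : ∀ v, v.ord h = E v - S.atPt M v) {t : LaurentSeries k} (ht : t ≠ 0)
    (hht : Red A π (h : LaurentSeries K) t) {n : ℤ} {y : LaurentSeries K}
    (hy : y ∈ S.space (S.atPt n - E)) {x : LaurentSeries k} (hyx : Red A π y x) :
    ∃ (q : LaurentSeries K) (w : LaurentSeries k), q ∈ S.space (S.atPt (n - M)) ∧
      (h : LaurentSeries K) * q = y ∧ Red A π q w ∧ x = t * w := by
  obtain ⟨u, rfl, hu⟩ := S.exists_of_mem_space hy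
  have hhs : (h : LaurentSeries K) ≠ 0 := fun h0 => hh (Subtype.ext h0)
  rcases eq_or_ne u 0 with rfl | hu0
  · exact ⟨0, 0, Submodule.zero_mem _, by simp, red_zero, by
      rw [mul_zero]; exact hyx.unique red_zero⟩
  have hq : ((u / h : S.F) : LaurentSeries K) ∈ S.space (S.atPt (n - M)) := by
    refine S.coe_mem_space.mpr fun v => Or.inr ?_
    have h1 := (hu v).resolve_left hu0
    rw [FF.ord_div v hu0 hh, hdiv v]
    rw [Finsupp.sub_apply] at h1
    rcases eq_or_ne v S.pt with rfl | hv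
    · rw [S.atPt_self] at h1 ⊢; rw [S.atPt_self]; omega
    · rw [S.atPt_of_ne _ hv] at h1 ⊢; rw [S.atPt_of_ne _ hv]; omega
  have hmul : ((u / h : S.F) : LaurentSeries K) * (h : LaurentSeries K) =
      (u : LaurentSeries K) := by
    push_cast
    exact div_mul_cancel₀ _ hhs
  have hus : ((u / h : S.F) : LaurentSeries K) ≠ 0 := by
    push_cast
    exact div_ne_zero (fun h0 => hu0 (Subtype.ext h0)) hhs
  obtain ⟨c, hc, z, hz, hcz⟩ := S.normalizable_space (S.offNonpos_atPt _) _ hq hus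
  obtain ⟨w, hw, hwe⟩ := red_of_mul S.surj hc hz hcz hht ht (by rw [hmul]; exact hyx)
  exact ⟨_, w, hq, by rw [mul_comm, hmul], hw, by rw [mul_comm, hwe]⟩

theorem exists_pow_le (S : CurveRed A π) {c g : K} (hc : A.valuation c < 1) (hg : g ≠ 0) :
    ∃ j : ℕ, A.valuation c ^ j ≤ A.valuation g := by
  obtain ⟨j, hj⟩ := S.arch ⟨c, (ValuationSubring.valuation_le_one_iff _ _).mp hc.le⟩
    ((residue_eq_zero_iff S.surj _).mpr hc) g hg
  exact ⟨j, hj⟩

theorem exists_geom_sum {N : ℤ} {e : LaurentSeries K} (he : e ∈ S.space (S.atPt N)) {γ : K}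
    (hγ : A.valuation γ < 1) (hle : SmallLE A (A.valuation γ) e) (j : ℕ) :
    ∃ (N' : ℤ) (s : LaurentSeries K) (x : LaurentSeries k), s ∈ S.space (S.atPt N') ∧
      Red A π s x ∧ SmallLE A (A.valuation γ ^ j) ((1 + e) * s - 1) := by
  induction j with
  | zero =>
    refine ⟨0, 0, 0, Submodule.zero_mem _, red_zero, ?_⟩
    rw [mul_zero, zero_sub, pow_zero]
    exact (smallLE_one_of_red (π := π) red_one).neg
  | succ j ih =>
    obtain ⟨N', s, x, hs, hsx, hj⟩ := ih
    have he0 := red_zero_of_smallLE (π := π) S.surj hγ hle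
    refine ⟨max 0 (N + N'), 1 - e * s, 1 - 0 * x, ?_, red_one.sub (he0.mul hsx), ?_⟩
    · refine Submodule.sub_mem _ (S.one_mem_space fun v => S.atPt_nonneg (le_max_left _ _) v) ?_
      refine S.space_atPt_mono (le_max_right _ _) ?_
      rw [S.atPt_add]
      exact S.mul_mem_space he hs
    · rw [show (1 + e) * (1 - e * s) - 1 = -(e * ((1 + e) * s - 1)) by ring, pow_succ']
      exact (hle.mul hj).neg

/-- If the ideal of `Q` is generated by the reduction of `b ∈ L(N∞ - Q)`, which is congruent to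
`f` modulo `g`, then sections vanishing on `Q` are multiples of `f` modulo `g`. -/
theorem exists_mul_quot (hgap : S.GapBound n₀) {Q : Divisor K S.F} (hQ : S.IsEff Q) {N : ℤ}
    {b : LaurentSeries K} (hb : b ∈ S.space (S.atPt N - Q)) {s : S.Cbar}
    (hbs : Red A π b (s : LaurentSeries k)) (hQs : S.effIdeal' Q = Ideal.span {s})
    {f : LaurentSeries K} {g : K} (hg : g ≠ 0) (hbf : SmallLE A (A.valuation g) (b - f))
    {N' : ℤ} {a : LaurentSeries K} (ha : a ∈ S.space (S.atPt N' - Q)) {x : LaurentSeries k}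
    (hax : Red A π a x) :
    ∃ (N'' : ℤ) (c : LaurentSeries K) (y : LaurentSeries k), c ∈ S.space (S.atPt N'') ∧
      Red A π c y ∧ SmallLE A (A.valuation g) (a - f * c) := by
  obtain ⟨R, M, h, t, hR, hh, ht, hht, -, hdiv⟩ := exists_cofactor hQ
  have hsum := effIdeal_eq_span (hQ.add hR) hh hdiv ht hht
  have htC : t ∈ S.Cbar := mem_Cbar_of_mem_effIdeal (hQ.add hR)
    (hsum.symm ▸ Submodule.mem_span_singleton_self t)
  have hmul : S.effIdeal' Q * S.effIdeal' R = Ideal.span {(⟨t, htC⟩ : S.Cbar)} := by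
    rw [← hgap.effIdeal'_add hQ hR]
    exact effIdeal'_eq_span hsum
  have ht' : (⟨t, htC⟩ : S.Cbar) ∈ Ideal.span {s} * S.effIdeal' R := by
    rw [← hQs, hmul]
    exact Ideal.mem_span_singleton_self _
  obtain ⟨r, hr, hrt⟩ := Ideal.mem_span_singleton_mul.mp ht'
  obtain ⟨N₃, yr, hyr, hyrx⟩ := mem_effIdeal.mp hr
  have hprod : ∀ {N₁ : ℤ} {u : LaurentSeries K}, u ∈ S.space (S.atPt N₁ - Q) →
      u * yr ∈ S.space (S.atPt (N₁ + N₃) - (Q + R)) := fun hu => by
    rw [S.atPt_add, show ∀ p p' : Divisor K S.F, p + p' - (Q + R) = p - Q + (p' - R) from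
      fun p p' => by abel]
    exact S.mul_mem_space hu hyr
  obtain ⟨e₀, w₀, he₀, heq₀, he₀x, hw₀⟩ :=
    exists_quot hh hdiv ht hht (hprod hb) (hbs.mul hyrx)
  obtain ⟨e₁, w₁, he₁, heq₁, he₁x, -⟩ := exists_quot hh hdiv ht hht (hprod ha) (hax.mul hyrx)
  have hw1 : w₀ = 1 := by
    refine mul_left_cancel₀ ht ?_
    rw [← hw₀, mul_one]
    exact congrArg Subtype.val hrt
  rw [hw1] at he₀x
  have hhs : (h : LaurentSeries K) ≠ 0 := fun h0 => hh (Subtype.ext h0)
  have hkey : a * e₀ = b * e₁ := by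
    refine mul_left_cancel₀ hhs ?_
    rw [mul_left_comm, heq₀, mul_left_comm (h : LaurentSeries K) b, heq₁]
    ring
  set N₁ : ℤ := max 0 (N + N₃ - M)
  have hεmem : e₀ - 1 ∈ S.space (S.atPt N₁) := Submodule.sub_mem _
    (S.space_atPt_mono (le_max_right _ _) he₀)
    (S.one_mem_space fun v => S.atPt_nonneg (le_max_left _ _) v)
  have hεred : Red A π (e₀ - 1) 0 := by simpa using he₀x.sub red_one
  obtain ⟨γ, hγ, hle⟩ : ∃ γ : K, A.valuation γ < 1 ∧ SmallLE A (A.valuation γ) (e₀ - 1) := by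
    rcases normalizable_or_zero hεmem with h0 | hn
    · exact ⟨0, by simp, by rw [h0]; exact smallLE_zero _⟩
    obtain ⟨c, y₀, x₀, -, hx₀, heq, hy₀, hiff⟩ := exists_scaled S.surj hn
    refine ⟨c, ?_, (hiff _).mpr le_rfl⟩
    obtain ⟨i, hi⟩ : ∃ i, x₀.coeff i ≠ 0 := by
      by_contra hall
      push Not at hall
      exact hx₀ (HahnSeries.ext (funext hall))
    have h1 := ((hεred.eq_zero_iff S.surj).mp rfl) i
    rwa [heq, coeff_smulC, map_mul, hy₀.coeff_valuation_eq_one S.surj hi, mul_one] at h1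
  obtain ⟨j, hj⟩ := exists_pow_le S hγ hg
  obtain ⟨N₄, e₂, w₂, he₂, he₂x, hsmall⟩ := exists_geom_sum hεmem hγ hle j
  refine ⟨N' + N₃ - M + N₄, e₁ * e₂, _, ?_, he₁x.mul he₂x, ?_⟩
  · rw [S.atPt_add]
    exact S.mul_mem_space he₁ he₂
  rw [add_sub_cancel] at hsmall
  have : a - f * (e₁ * e₂) = -(a * (e₀ * e₂ - 1)) + (b - f) * (e₁ * e₂) := by
    linear_combination e₂ * hkey
  rw [this]
  exact ((hsmall.mono hj).red_mul hax).neg.add (hbf.mul_red (he₁x.mul he₂x))

end Fermat.Agent.MazurPrinciple
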