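import Fermat.Agent.Reduction.Valued

/-!
# Coefficientwise small series

`SmallLE A γ y` says that all coefficients of `y` have valuation at most `γ`. Series with a
nonzero reduction are multiplicatively cancellable for this relation.
-/

set_option autoImplicit false

noncomputable section

namespace Fermat.Agent.MazurPrinciple

open HahnSeries Fermat.Agent.Reduction

variable {K k : Type*} [Field K] [Field k] {A : ValuationSubring K} {π : A →+* k}

variable (A) in
/-- All coefficients have valuation at most `γ`. -/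
def SmallLE (γ : A.ValueGroup) (y : LaurentSeries K) : Prop :=
  ∀ i : ℤ, A.valuation (y.coeff i) ≤ γ

theorem smallLE_zero (γ : A.ValueGroup) : SmallLE A γ 0 := fun i => by simp

theorem SmallLE.mono {γ δ : A.ValueGroup} (h : γ ≤ δ) {y : LaurentSeries K}
    (hy : SmallLE A γ y) : SmallLE A δ y := fun i => (hy i).trans h

theorem SmallLE.add {γ : A.ValueGroup} {y z : LaurentSeries K} (hy : SmallLE A γ y)
    (hz : SmallLE A γ z) : SmallLE A γ (y + z) := fun i => by
  rw [HahnSeries.coeff_add]
  exact Valuation.map_add_le _ (hy i) (hz i)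

theorem SmallLE.neg {γ : A.ValueGroup} {y : LaurentSeries K} (hy : SmallLE A γ y) :
    SmallLE A γ (-y) := fun i => by
  rw [HahnSeries.coeff_neg, Valuation.map_neg]
  exact hy i

theorem smallLE_sub_comm {γ : A.ValueGroup} {y z : LaurentSeries K}
    (h : SmallLE A γ (y - z)) : SmallLE A γ (z - y) := by
  rw [← neg_sub]
  exact h.neg

theorem SmallLE.mul {γ δ : A.ValueGroup} {y z : LaurentSeries K} (hy : SmallLE A γ y)
    (hz : SmallLE A δ z) : SmallLE A (γ * δ) (y * z) := fun i => by
  rw [HahnSeries.coeff_mul]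
  exact Valuation.map_sum_le _ fun ij _ => by
    rw [map_mul]
    exact mul_le_mul' (hy _) (hz _)

theorem smallLE_one_of_red {y : LaurentSeries K} {x : LaurentSeries k} (h : Red A π y x) :
    SmallLE A 1 y := fun i => (ValuationSubring.valuation_le_one_iff _ _).mpr (h.coeff_mem i)

theorem SmallLE.mul_red {γ : A.ValueGroup} {y z : LaurentSeries K} {x : LaurentSeries k}
    (hy : SmallLE A γ y) (hz : Red A π z x) : SmallLE A γ (y * z) := by
  simpa using hy.mul (smallLE_one_of_red hz)

theorem SmallLE.red_mul {γ : A.ValueGroup} {y z : LaurentSeries K} {x : LaurentSeries k}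
    (hz : Red A π z x) (hy : SmallLE A γ y) : SmallLE A γ (z * y) := by
  rw [mul_comm]
  exact hy.mul_red hz

theorem SmallLE.smul {γ : A.ValueGroup} {y : LaurentSeries K} (hy : SmallLE A γ y) (c : K) :
    SmallLE A (A.valuation c * γ) (c • y) := fun i => by
  rw [coeff_smulC, map_mul]
  exact mul_le_mul' le_rfl (hy i)

theorem smallLE_smul_red {y : LaurentSeries K} {x : LaurentSeries k} (h : Red A π y x) (c : K) :
    SmallLE A (A.valuation c) (c • y) := by
  simpa using (smallLE_one_of_red h).smul c

/-- A small perturbation has the same reduction. -/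
theorem red_of_smallLE_sub (hπ : Function.Surjective π) {γ : A.ValueGroup} (hγ : γ < 1)
    {y y' : LaurentSeries K} {x : LaurentSeries k} (hy : Red A π y x)
    (h : SmallLE A γ (y' - y)) : Red A π y' x := by
  obtain ⟨x', hx'⟩ := exists_red_of_coeff_mem π (y := y' - y)
    fun i => (ValuationSubring.valuation_le_one_iff _ _).mp ((h i).trans hγ.le)
  have hx'0 : x' = 0 := (hx'.eq_zero_iff hπ).mpr fun i => (h i).trans_lt hγ
  subst hx'0
  simpa using hy.add hx'

theorem red_zero_of_smallLE (hπ : Function.Surjective π) {γ : A.ValueGroup} (hγ : γ < 1)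
    {y : LaurentSeries K} (h : SmallLE A γ y) : Red A π y 0 :=
  red_of_smallLE_sub hπ hγ red_zero (by simpa using h)

/-- A normalisable series is a scalar times a series with nonzero reduction; the scalar measures
its size. -/
theorem exists_scaled (hπ : Function.Surjective π) {y : LaurentSeries K}
    (hy : Normalizable A π y) :
    ∃ (c : K) (y₀ : LaurentSeries K) (x₀ : LaurentSeries k), c ≠ 0 ∧ x₀ ≠ 0 ∧ y = c • y₀ ∧
      Red A π y₀ x₀ ∧ ∀ γ : A.ValueGroup, SmallLE A γ y ↔ A.valuation c ≤ γ := by
  obtain ⟨c, hc, x, hx, hred⟩ := hy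
  have hy' : y = c⁻¹ • (c • y) := (inv_smul_smul₀ hc y).symm
  refine ⟨c⁻¹, c • y, x, inv_ne_zero hc, hx, hy', hred, fun γ => ⟨fun h => ?_, fun h => ?_⟩⟩
  · obtain ⟨i, hi⟩ : ∃ i, x.coeff i ≠ 0 := by
      by_contra hall
      push Not at hall
      exact hx (HahnSeries.ext (funext hall))
    have h1 := hred.coeff_valuation_eq_one hπ hi
    have h2 := h i
    rwa [hy', coeff_smulC, map_mul, h1, mul_one] at h2
  · rw [hy']
    exact (smallLE_smul_red hred _).mono h

/-- Cancellation of a factor with nonzero reduction. -/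
theorem SmallLE.of_mul (hπ : Function.Surjective π) {f z : LaurentSeries K}
    {t : LaurentSeries k} (hf : Red A π f t) (ht : t ≠ 0) (hz : z = 0 ∨ Normalizable A π z)
    {γ : A.ValueGroup} (h : SmallLE A γ (f * z)) : SmallLE A γ z := by
  rcases hz with rfl | hz
  · exact smallLE_zero γ
  obtain ⟨c, z₀, x₀, hc, hx₀, rfl, hred, hiff⟩ := exists_scaled hπ hz
  refine (hiff γ).mpr ?_
  obtain ⟨i, hi⟩ : ∃ i, (t * x₀).coeff i ≠ 0 := by
    by_contra hall
    push Not at hall
    exact mul_ne_zero ht hx₀ (HahnSeries.ext (funext hall))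
  have h1 := (hf.mul hred).coeff_valuation_eq_one hπ hi
  have h2 := h i
  rwa [smul_eq_algebraMap_mul, mul_left_comm, coeff_algebraMap_mul, map_mul, h1, mul_one] at h2

/-- Integral coordinates with respect to lifts of a spanning family of reductions. -/
theorem exists_integral_coords (hπ : Function.Surjective π)
    {V : Submodule K (LaurentSeries K)} [FiniteDimensional K V] (hV : NormalizableSub A π V)
    {ι : Type*} [Fintype ι] {w : ι → LaurentSeries K} {x : ι → LaurentSeries k}
    (hw : ∀ i, w i ∈ V) (hwx : ∀ i, Red A π (w i) (x i))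
    (hspan : redSub hπ V ≤ Submodule.span k (Set.range x))
    {y : LaurentSeries K} (hy : y ∈ V) (hyA : ∀ i, y.coeff i ∈ A) :
    ∃ a : ι → A, y = ∑ i, (a i : K) • w i := by
  classical
  obtain ⟨κ, a, ha, hsp, hli⟩ := exists_linearIndependent' k x
  have : Fintype κ := Fintype.ofInjective a ha
  have hle : redSub hπ V ≤ Submodule.span k (Set.range (x ∘ a)) := hsp ▸ hspan
  have hge : Submodule.span k (Set.range (x ∘ a)) ≤ redSub hπ V :=
    Submodule.span_le.mpr (Set.range_subset_iff.mpr fun j => ⟨_, hw (a j), hwx (a j)⟩)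
  have hcard : Fintype.card κ = Module.finrank K V := by
    rw [← finrank_redSub hπ V hV, le_antisymm hle hge]
    exact (finrank_span_eq_card hli).symm
  let b : κ → V := fun j => ⟨w (a j), hw (a j)⟩
  have hbli : LinearIndependent K b :=
    LinearIndependent.of_comp V.subtype (linearIndependent_of_red hπ (fun j => hwx (a j)) hli)
  have htop : (⊤ : Submodule K V) ≤ Submodule.span K (Set.range b) :=
    (hbli.span_eq_top_of_card_eq_finrank' hcard).ge
  obtain ⟨g, hg⟩ := (Submodule.mem_span_range_iff_exists_fun K).mp (htop (x := ⟨y, hy⟩) trivial)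
  have hg' : ∑ j, g j • w (a j) = y := by
    have := congrArg (Subtype.val : V → LaurentSeries K) hg
    simpa [b] using this
  obtain ⟨xy, hxy⟩ := exists_red_of_coeff_mem π hyA
  have hgA : ∀ j, g j ∈ A := by
    intro j
    by_contra hj
    have : Nonempty κ := ⟨j⟩
    obtain ⟨i, hi⟩ := exists_max_valuation (A := A) g
    have hgt : 1 < A.valuation (g i) := lt_of_lt_of_le
      (not_le.mp fun h => hj ((ValuationSubring.valuation_le_one_iff _ _).mp h)) (hi j)
    have hgi0 : g i ≠ 0 := fun h0 => by simp [h0] at hgt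
    have hmem : ∀ l, g l / g i ∈ A := fun l => by
      rw [← ValuationSubring.valuation_le_one_iff, map_div₀]
      exact (div_le_one₀ (zero_lt_one.trans hgt)).mpr (hi l)
    have hsum : Red A π (∑ l, ((⟨_, hmem l⟩ : A) : K) • w (a l))
        (∑ l, π ⟨_, hmem l⟩ • x (a l)) :=
      Red.sum Finset.univ fun l _ => (hwx (a l)).smul _
    have heq : (∑ l, ((⟨_, hmem l⟩ : A) : K) • w (a l)) = (g i)⁻¹ • y := by
      rw [← hg', Finset.smul_sum]
      exact Finset.sum_congr rfl fun l _ => by rw [smul_smul, ← div_eq_inv_mul]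
    have hinv : A.valuation (g i)⁻¹ < 1 := by
      rw [map_inv₀]
      exact inv_lt_one_of_one_lt₀ hgt
    rw [heq] at hsum
    have h0 := hsum.unique (red_zero_of_smallLE hπ hinv (smallLE_smul_red hxy _))
    have h1 := (Fintype.linearIndependent_iff.mp hli) _ h0 i
    rw [show (⟨g i / g i, hmem i⟩ : A) = 1 from Subtype.ext (div_self hgi0), map_one] at h1
    exact one_ne_zero h1
  refine ⟨fun i => ∑ j ∈ Finset.univ.filter (fun j => a j = i), ⟨g j, hgA j⟩, ?_⟩
  rw [← hg', ← Finset.sum_fiberwise Finset.univ a]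
  refine Finset.sum_congr rfl fun i _ => ?_
  rw [AddSubmonoidClass.coe_finsetSum, Finset.sum_smul]
  refine Finset.sum_congr rfl fun j hj => ?_
  rw [(Finset.mem_filter.mp hj).2]

end Fermat.Agent.MazurPrinciple
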