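import Fermat.Agent.Reduction.Ideals
import Fermat.Agent.MazurPrinciple.LiftSeries

/-!
# Reduced ideals of effective divisors: bounded poles, dimensions, lifting of ideals

For an effective divisor `E` the reductions of the sections of `N∞ - E` have pole order at most
`N - deg E + codim`, and fill that part of the ideal when `N` is large. Every nonzero ideal of
`Cbar` is the reduction of an effective divisor.
-/

set_option autoImplicit false

noncomputable section

namespace Fermat.Agent.MazurPrinciple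

open HahnSeries AlgebraicCurve Fermat.Agent.Reduction Fermat.Agent.Reduction.CurveRed

variable {K k : Type*} [Field K] [Field k] {A : ValuationSubring K} {π : A →+* k}
variable {S : CurveRed A π} {n₀ : ℕ}

variable (S) in
/-- The codimension of the reduced ideal of a divisor. -/
def codim (E : Divisor K S.F) : ℕ := Module.finrank k (S.Cbar ⧸ S.effIdeal' E)

theorem effIdeal'_smul (hgap : S.GapBound n₀) {E : Divisor K S.F} (hE : S.IsEff E) (m : ℕ) :
    S.effIdeal' ((m : ℤ) • E) = S.effIdeal' E ^ m := by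
  induction m with
  | zero => simpa using effIdeal'_zero (S := S)
  | succ m ih =>
    have hmE : S.IsEff ((m : ℤ) • E) := fun v => by
      rw [Finsupp.smul_apply]
      exact smul_nonneg (Int.natCast_nonneg m) (hE v)
    rw [Nat.cast_succ, add_smul, one_smul, hgap.effIdeal'_add hmE hE, ih, pow_succ]

/-- The divisor of zeros of a section with nonzero reduction. -/
theorem exists_zeros (hgap : S.GapBound n₀) {E : Divisor K S.F} (hE : S.IsEff E) {N : ℤ}
    {y : LaurentSeries K} (hy : y ∈ S.space (S.atPt N - E)) {x : S.Cbar}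
    (hyx : Red A π y (x : LaurentSeries k)) (hx : x ≠ 0) :
    ∃ (u : S.F) (R : Divisor K S.F), (u : LaurentSeries K) = y ∧ u ≠ 0 ∧ S.IsEff R ∧
      (∀ v, v.ord u = (E + R) v - S.atPt N v) ∧
      Divisor.degree R = N - Divisor.degree E ∧
      S.effIdeal' E * S.effIdeal' R = Ideal.span {x} := by
  obtain ⟨u, hu, hv⟩ := S.exists_of_mem_space hy
  have hxs : (x : LaurentSeries k) ≠ 0 := fun h => hx (Subtype.ext h)
  have hu0 : u ≠ 0 := by
    rintro rfl
    exact hxs ((hu.symm ▸ hyx : Red A π ((0 : S.F) : LaurentSeries K) _).unique red_zero)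
  obtain ⟨Eu, hEu, hdeg⟩ := S.exists_div hu0
  set R : Divisor K S.F := Eu + S.atPt N - E with hR
  have hdiv : ∀ v, v.ord u = (E + R) v - S.atPt N v := fun v => by
    rw [hR, add_sub_cancel, Finsupp.add_apply, hEu v]
    ring
  have hReff : S.IsEff R := fun v => by
    have h1 := (hv v).resolve_left hu0
    rw [Finsupp.sub_apply] at h1
    rw [hR, Finsupp.sub_apply, Finsupp.add_apply, hEu v]
    omega
  refine ⟨u, R, hu, hu0, hReff, hdiv, ?_, ?_⟩
  · rw [hR, map_sub, map_add, hdeg, S.degree_atPt, zero_add]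
  · rw [← hgap.effIdeal'_add hE hReff]
    exact effIdeal'_eq_span (effIdeal_eq_span (hE.add hReff) hu0 hdiv hxs (hu.symm ▸ hyx))

theorem finrank_quotient_mono (hgap : S.GapBound n₀) {a b : Ideal S.Cbar} (ha : a ≠ ⊥)
    (h : a ≤ b) : Module.finrank k (S.Cbar ⧸ b) ≤ Module.finrank k (S.Cbar ⧸ a) := by
  have := hgap.finite_quotient ha
  exact LinearMap.finrank_le_finrank_of_surjective
    (f := (Ideal.Quotient.factorₐ k h).toLinearMap) (Ideal.Quotient.factor_surjective h)

/-- A reduced section has pole order at most `N - deg E + codim E`. -/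
theorem poleLE_of_red (hgap : S.GapBound n₀) {E : Divisor K S.F} (hE : S.IsEff E) {N : ℤ}
    {y : LaurentSeries K} (hy : y ∈ S.space (S.atPt N - E)) {x : LaurentSeries k}
    (hyx : Red A π y x) : PoleLE (N - Divisor.degree E + codim S E) x := by
  rcases eq_or_ne x 0 with rfl | hx
  · exact fun _ _ => rfl
  have hxC : x ∈ S.Cbar :=
    mem_Cbar_of_mem_effIdeal hE ⟨N.toNat, y, S.space_mono (fun v => sub_le_sub_right (by
      rcases eq_or_ne v S.pt with rfl | hv
      · simp [S.atPt_self]
      · simp [S.atPt_of_ne, hv]) (E v)) hy, hyx⟩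
  obtain ⟨u, R, -, -, hR, -, hdeg, hmul⟩ :=
    exists_zeros hgap hE hy (x := ⟨x, hxC⟩) hyx (fun h => hx (congrArg Subtype.val h))
  have hx' : (⟨x, hxC⟩ : S.Cbar) ≠ 0 := fun h => hx (congrArg Subtype.val h)
  have h1 := hgap.finrank_quotient_span hx'
  have h2 := hgap.finrank_quotient_mul (hgap.effIdeal'_ne_bot hE) (hgap.effIdeal'_ne_bot hR)
  rw [hmul] at h2
  have h3 := hgap.finrank_quotient_effIdeal'_le hR
  rw [poleLE_iff_order hx]
  simp only [codim]
  change (Module.finrank k (S.Cbar ⧸ Ideal.span {(⟨x, hxC⟩ : S.Cbar)}) : ℤ) = -x.order at h1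
  omega

variable (S) in
/-- The part of pole order at most `P` of a reduced ideal. -/
def effPole (E : Divisor K S.F) (P : ℤ) : Submodule k (LaurentSeries k) where
  carrier := {x | x ∈ S.effIdeal E ∧ PoleLE P x}
  zero_mem' := ⟨Submodule.zero_mem _, fun _ _ => rfl⟩
  add_mem' := fun {a b} ha hb => ⟨Submodule.add_mem _ ha.1 hb.1,
    (poleLESubmodule k P).add_mem ha.2 hb.2⟩
  smul_mem' := fun c x hx => ⟨by
    rw [smul_eq_algebraMap_mul]
    exact (S.effIdeal E).smul_mem (⟨_, S.Cbar.algebraMap_mem c⟩ : S.Cbar) hx.1,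
    (poleLESubmodule k P).smul_mem c hx.2⟩

/-- The nonzero ideal of `E` has an element of small pole order. -/
theorem exists_small_mem (hgap : S.GapBound n₀) {E : Divisor K S.F} (hE : S.IsEff E) :
    ∃ x : S.Cbar, x ≠ 0 ∧ x ∈ S.effIdeal' E ∧
      x ∈ S.polePart (n₀ + codim S E + S.g : ℤ) := by
  set P : ℤ := (n₀ + codim S E + S.g : ℤ)
  have := hgap.finite_polePart P
  have := hgap.finite_quotient (hgap.effIdeal'_ne_bot hE)
  let q : S.polePart P →ₗ[k] S.Cbar ⧸ S.effIdeal' E :=
    (Ideal.Quotient.mkₐ k _).toLinearMap.comp (S.polePart P).subtype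
  have h1 := LinearMap.finrank_range_add_finrank_ker (K := k) (V := S.polePart P)
    (V₂ := S.Cbar ⧸ S.effIdeal' E) q
  have h2 := Submodule.finrank_le (LinearMap.range q)
  have h3 := hgap.finrank_polePart (n := P) (by omega)
  have h4 : (codim S E : ℤ) = Module.finrank k (S.Cbar ⧸ S.effIdeal' E) := rfl
  obtain ⟨c, hc, hc0⟩ := Submodule.exists_mem_ne_zero_of_ne_bot
    (p := LinearMap.ker q) (fun h => by rw [h, finrank_bot] at h1; omega)
  exact ⟨c, fun h => hc0 (Subtype.ext h),
    Ideal.Quotient.eq_zero_iff_mem.mp (LinearMap.mem_ker.mp hc), c.2⟩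

/-- Elements of bounded pole order reach every class modulo the ideal. -/
theorem exists_sub_mem_effIdeal (hgap : S.GapBound n₀) {E : Divisor K S.F} (hE : S.IsEff E)
    {P : ℤ} (hP : (2 * n₀ + S.g + codim S E : ℤ) ≤ P) (c : S.Cbar) :
    ∃ p ∈ S.polePart P, c - p ∈ S.effIdeal' E := by
  obtain ⟨x, hx, hxE, hxP⟩ := exists_small_mem hgap hE
  obtain ⟨p, hp, hcp⟩ := hgap.exists_sub_mem_span hx c
  have hxo := (poleLE_iff_order (fun h => hx (Subtype.ext h))).mp (mem_polePart.mp hxP)
  exact ⟨p, mem_polePart.mpr ((mem_polePart.mp hp).mono (by omega)),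
    (Ideal.span_le.mpr (Set.singleton_subset_iff.mpr hxE)) hcp⟩

theorem finrank_effPole (hgap : S.GapBound n₀) {E : Divisor K S.F} (hE : S.IsEff E) {P : ℤ}
    (hP : (2 * n₀ + S.g + codim S E : ℤ) ≤ P) :
    FiniteDimensional k (effPole S E P) ∧
      (Module.finrank k (effPole S E P) : ℤ) = P + 1 - S.g - codim S E := by
  have := hgap.finite_polePart P
  have := hgap.finite_quotient (hgap.effIdeal'_ne_bot hE)
  let q : S.polePart P →ₗ[k] S.Cbar ⧸ S.effIdeal' E :=
    (Ideal.Quotient.mkₐ k _).toLinearMap.comp (S.polePart P).subtype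
  have hsurj : Function.Surjective q := fun e => by
    obtain ⟨c, rfl⟩ := Ideal.Quotient.mk_surjective e
    obtain ⟨p, hp, hcp⟩ := exists_sub_mem_effIdeal hgap hE hP c
    exact ⟨⟨p, hp⟩, (Ideal.Quotient.eq.mpr hcp).symm⟩
  let f : LinearMap.ker q →ₗ[k] effPole S E P :=
    { toFun := fun c => ⟨((c : S.polePart P) : S.Cbar),
        Ideal.Quotient.eq_zero_iff_mem.mp (LinearMap.mem_ker.mp c.2), (c : S.polePart P).2⟩
      map_add' := fun a b => rfl
      map_smul' := fun a b => Subtype.ext (by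
        simp only [RingHom.id_apply, SetLike.val_smul, Algebra.smul_def, Subalgebra.coe_mul,
          Subalgebra.coe_algebraMap]
        exact (smul_eq_algebraMap_mul a _).symm) }
  have hinj : Function.Injective f := fun a b h =>
    Subtype.ext (Subtype.ext (Subtype.ext
      (congrArg (fun z : effPole S E P => (z : LaurentSeries k)) h)))
  have hsur : Function.Surjective f := fun x =>
    ⟨⟨⟨⟨x, mem_Cbar_of_mem_effIdeal hE x.2.1⟩, x.2.2⟩,
      LinearMap.mem_ker.mpr (Ideal.Quotient.eq_zero_iff_mem.mpr x.2.1)⟩, rfl⟩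
  have e := LinearEquiv.ofBijective f ⟨hinj, hsur⟩
  have h1 := LinearMap.finrank_range_add_finrank_ker (K := k) (V := S.polePart P)
    (V₂ := S.Cbar ⧸ S.effIdeal' E) q
  rw [LinearMap.range_eq_top.mpr hsurj, finrank_top, e.finrank_eq] at h1
  have h3 := hgap.finrank_polePart (n := P) (by omega)
  have := hgap.finite P
  refine ⟨Submodule.finiteDimensional_of_le (S₂ := S.regularSub P) fun x hx =>
    ⟨hgap.mem_Cbar_iff.mp (mem_Cbar_of_mem_effIdeal hE hx.1), hx.2⟩, ?_⟩
  simp only [codim] at hP ⊢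
  omega

/-- **Reductions of sections vanishing on `E`.** -/
theorem redSub_eq_effPole (hgap : S.GapBound n₀) {E : Divisor K S.F} (hE : S.IsEff E) {N : ℤ}
    (hN : (2 * n₀ + S.g + Divisor.degree E : ℤ) ≤ N) :
    redSub S.surj (S.space (S.atPt N - E)) =
      effPole S E (N - Divisor.degree E + codim S E) := by
  have := S.finiteDimensional_space (S.atPt N - E)
  obtain ⟨hfin, hdim⟩ := finrank_effPole hgap hE
    (P := N - Divisor.degree E + codim S E) (by omega)
  refine Submodule.eq_of_le_of_finrank_le ?_ ?_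
  · rintro x ⟨y, hy, hyx⟩
    exact ⟨⟨N.toNat, y, S.space_mono (fun v => sub_le_sub_right (by
      rcases eq_or_ne v S.pt with rfl | hv
      · simp [S.atPt_self]
      · simp [S.atPt_of_ne, hv]) (E v)) hy, hyx⟩, poleLE_of_red hgap hE hy hyx⟩
  · rw [finrank_redSub S.surj _ (S.normalizable_space (hE.offNonpos N))]
    have := S.finrank_space_ge (S.atPt N - E)
    rw [map_sub, S.degree_atPt] at this
    omega

theorem finrank_space_eq (hgap : S.GapBound n₀) {E : Divisor K S.F} (hE : S.IsEff E) {N : ℤ}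
    (hN : (2 * n₀ + S.g + Divisor.degree E : ℤ) ≤ N) :
    (Module.finrank K (S.space (S.atPt N - E)) : ℤ) = N - Divisor.degree E + 1 - S.g := by
  have := S.finiteDimensional_space (S.atPt N - E)
  obtain ⟨-, hdim⟩ := finrank_effPole hgap hE
    (P := N - Divisor.degree E + codim S E) (by omega)
  rw [← finrank_redSub S.surj _ (S.normalizable_space (hE.offNonpos N)),
    redSub_eq_effPole hgap hE hN, hdim]
  ring

/-- **Every nonzero ideal of `Cbar` is the ideal of an effective divisor.** -/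
theorem exists_effIdeal'_eq (hgap : S.GapBound n₀) {I : Ideal S.Cbar} (hI : I ≠ ⊥) :
    ∃ E : Divisor K S.F, S.IsEff E ∧ S.effIdeal' E = I := by
  classical
  have := hgap.isDedekindDomain
  suffices key : ∀ (j : ℕ) (Z : Divisor K S.F), S.IsEff Z → Divisor.degree Z = j →
      ∀ J : Ideal S.Cbar, S.effIdeal' Z ≤ J →
        ∃ E : Divisor K S.F, S.IsEff E ∧ S.effIdeal' E = J by
    obtain ⟨x, hxI, hx⟩ := Submodule.exists_mem_ne_zero_of_ne_bot hI
    obtain ⟨n, y, hy, hyx⟩ := S.mem_Cbar.mp x.2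
    obtain ⟨u, R, -, -, hR, -, -, hmul⟩ := exists_zeros hgap (E := 0) (fun v => le_rfl)
      (N := (n : ℤ)) (by rwa [sub_zero]) hyx hx
    rw [effIdeal'_zero, Ideal.top_mul] at hmul
    exact key _ R hR (Int.toNat_of_nonneg (degree_nonneg_of_isEff hR)).symm I
      (hmul.le.trans (Ideal.span_le.mpr (Set.singleton_subset_iff.mpr hxI)))
  intro j
  induction j with
  | zero =>
    intro Z hZ hdeg J hJ
    rw [S.eq_zero_of_effective hZ (by simpa using hdeg), effIdeal'_zero, top_le_iff] at hJ
    exact ⟨0, fun v => le_rfl, by rw [effIdeal'_zero, hJ]⟩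
  | succ j ih =>
    intro Z hZ hdeg J hJ
    obtain ⟨v, Z', hsplit, -, hZ', hdeg'⟩ := hZ.exists_eq_single_add hdeg
    have hs := isEff_single (S := S) v zero_le_one
    rw [hsplit, hgap.effIdeal'_add hs hZ'] at hJ
    rcases eq_or_ne (S.effIdeal' (Finsupp.single v 1)) ⊤ with htop | htop
    · rw [htop, Ideal.top_mul] at hJ
      exact ih Z' hZ' hdeg' J hJ
    have hmax := (hgap.effIdeal'_single_isMaximal htop).1
    rcases em (J ≤ S.effIdeal' (Finsupp.single v 1)) with hle | hle
    · obtain ⟨J', rfl⟩ := Ideal.dvd_iff_le.mpr hle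
      have hdvd : J' ∣ S.effIdeal' Z' :=
        (mul_dvd_mul_iff_left (hgap.effIdeal'_ne_bot hs)).mp (Ideal.dvd_iff_le.mpr hJ)
      obtain ⟨E, hE, rfl⟩ := ih Z' hZ' hdeg' J' (Ideal.le_of_dvd hdvd)
      exact ⟨Finsupp.single v 1 + E, hs.add hE, hgap.effIdeal'_add hs hE⟩
    · refine ih Z' hZ' hdeg' J fun z hz => ?_
      obtain ⟨a, haJ, haP⟩ := SetLike.not_le_iff_exists.mp hle
      obtain ⟨b, p, hp, hb⟩ := hmax.exists_inv haP
      have hz' : z = b * a * z + p * z := by rw [← add_mul, hb, one_mul]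
      rw [hz']
      exact add_mem (J.mul_mem_right _ (J.mul_mem_left _ haJ)) (hJ (Ideal.mul_mem_mul hp hz))

end Fermat.Agent.MazurPrinciple
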