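import Fermat.Agent.MazurPrinciple.LiftCurve

/-!
# Division by a normalised function and approximate membership in the ideal of a divisor
-/

set_option autoImplicit false

noncomputable section

namespace Fermat.Agent.MazurPrinciple

open HahnSeries AlgebraicCurve Fermat.Agent.Reduction Fermat.Agent.Reduction.CurveRed

variable {K k : Type*} [Field K] [Field k] {A : ValuationSubring K} {π : A →+* k}
variable {S : CurveRed A π} {n₀ : ℕ}

theorem mem_space_of_poleLE {N M : ℤ} {y : LaurentSeries K} (hy : y ∈ S.space (S.atPt N))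
    (h : PoleLE M y) : y ∈ S.space (S.atPt M) := by
  obtain ⟨u, rfl, hu⟩ := S.exists_of_mem_space hy
  refine S.coe_mem_space.mpr fun v => ?_
  rcases eq_or_ne u 0 with hu0 | hu0
  · exact Or.inl hu0
  refine Or.inr ?_
  rcases eq_or_ne v S.pt with rfl | hv
  · rw [S.ord_pt, S.atPt_self]
    exact (poleLE_iff_order fun h0 => hu0 (Subtype.ext h0)).mp h
  · have := (hu v).resolve_left hu0
    rw [S.atPt_of_ne _ hv] at this ⊢
    exact this

theorem poleLE_of_mem_space {N : ℤ} {y : LaurentSeries K} (hy : y ∈ S.space (S.atPt N)) :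
    PoleLE N y := by
  simpa [S.atPt_self] using S.poleLE_space hy

theorem space_sub_le (N : ℤ) {E : Divisor K S.F} (hE : S.IsEff E) :
    S.space (S.atPt N - E) ≤ S.space (S.atPt N) :=
  S.space_mono fun v => by
    rw [Finsupp.sub_apply]
    have := hE v
    omega

theorem mul_mem_space_sub {N j : ℤ} {E : Divisor K S.F} {y z : LaurentSeries K}
    (hy : y ∈ S.space (S.atPt N - E)) (hz : z ∈ S.space (S.atPt j)) :
    y * z ∈ S.space (S.atPt (N + j) - E) := by
  rw [S.atPt_add, show S.atPt N + S.atPt j - E = S.atPt N - E + S.atPt j by abel]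
  exact S.mul_mem_space hy hz

theorem space_sub_mono {M N : ℤ} (h : M ≤ N) (E : Divisor K S.F) :
    S.space (S.atPt M - E) ≤ S.space (S.atPt N - E) :=
  S.space_mono fun v => sub_le_sub_right (by
    rcases eq_or_ne v S.pt with rfl | hv
    · simpa [S.atPt_self] using h
    · simp [S.atPt_of_ne, hv]) (E v)

theorem normalizable_or_zero {N : ℤ} {y : LaurentSeries K} (hy : y ∈ S.space (S.atPt N)) :
    y = 0 ∨ Normalizable A π y :=
  or_iff_not_imp_left.mpr (S.normalizable_space (S.offNonpos_atPt N) y hy)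

/-- The top coefficient of a product. -/
theorem coeff_mul_top {R : Type*} [Field R] {n m : ℤ} {y z : LaurentSeries R} (hy : PoleLE n y)
    (hz : PoleLE m z) : (y * z).coeff (-(n + m)) = y.coeff (-n) * z.coeff (-m) := by
  have hlow : ∀ {a : ℤ} {u : LaurentSeries R}, PoleLE a u → u.coeff (-a) = 0 →
      PoleLE (a - 1) u := fun {a u} hu h0 i hi => by
    rcases eq_or_lt_of_le (show i ≤ -a by omega) with rfl | hlt
    · exact h0
    · exact hu i hlt
  rcases eq_or_ne (y.coeff (-n)) 0 with hyn | hyn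
  · rw [hyn, zero_mul]
    exact (hlow hy hyn).mul hz _ (by omega)
  rcases eq_or_ne (z.coeff (-m)) 0 with hzm | hzm
  · rw [hzm, mul_zero]
    exact hy.mul (hlow hz hzm) _ (by omega)
  have hy0 : y ≠ 0 := fun h => hyn (by rw [h]; rfl)
  have hz0 : z ≠ 0 := fun h => hzm (by rw [h]; rfl)
  have hyo : y.order = -n :=
    le_antisymm (HahnSeries.order_le_of_coeff_ne_zero hyn) ((poleLE_iff_order hy0).mp hy)
  have hzo : z.order = -m :=
    le_antisymm (HahnSeries.order_le_of_coeff_ne_zero hzm) ((poleLE_iff_order hz0).mp hz)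
  have h := HahnSeries.coeff_mul_order_add_order y z
  rw [HahnSeries.leadingCoeff_eq, HahnSeries.leadingCoeff_eq, hyo, hzo] at h
  rwa [neg_add]

/-- An integral lift with the same bound on the pole order. -/
theorem exists_lift (hgap : S.GapBound n₀) {n : ℤ} (hn : (n₀ : ℤ) ≤ n) {x : LaurentSeries k}
    (hx : x ∈ S.Cbar) (hxn : PoleLE n x) : ∃ y ∈ S.space (S.atPt n), Red A π y x := by
  have : x ∈ S.regularSub n := ⟨hgap.mem_Cbar_iff.mp hx, hxn⟩
  rwa [← hgap.redSub_eq hn] at this

/-- A section with exact pole order and unit top coefficient. -/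
theorem exists_top (hgap : S.GapBound n₀) {o : ℤ} (ho : (n₀ : ℤ) < o) :
    ∃ (w : LaurentSeries K) (x : LaurentSeries k), w ∈ S.space (S.atPt o) ∧ Red A π w x ∧
      x.coeff (-o) ≠ 0 := by
  obtain ⟨x, hx, hx0, hxo⟩ := hgap.exists_order_eq ho
  obtain ⟨w, hw, hwx⟩ := exists_lift hgap ho.le (hgap.mem_Cbar_iff.mpr hx.1) hx.2
  exact ⟨w, x, hw, hwx, fun h => hx0 (HahnSeries.coeff_order_eq_zero.mp (by rwa [hxo]))⟩

variable {M₀ : ℤ} {f : LaurentSeries K} {t : LaurentSeries k}

/-- Division by `f` with remainder of pole order at most `n`. -/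
theorem exists_div (hgap : S.GapBound n₀) (hf : f ∈ S.space (S.atPt M₀)) (hft : Red A π f t)
    (ht : t.coeff (-M₀) ≠ 0) {n : ℤ} (hn : (n₀ : ℤ) + M₀ ≤ n) {N : ℤ} {a : LaurentSeries K}
    (ha : a ∈ S.space (S.atPt N)) {x : LaurentSeries k} (hax : Red A π a x) :
    ∃ (y z : LaurentSeries K) (x' w : LaurentSeries k) (N' : ℤ), y ∈ S.space (S.atPt n) ∧
      z ∈ S.space (S.atPt N') ∧ a = y + f * z ∧ Red A π y x' ∧ Red A π z w ∧
      (PoleLE n x → w = 0 ∧ x' = x) := by
  induction hj : (N - n).toNat generalizing N a x with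
  | zero =>
    exact ⟨a, 0, x, 0, 0, S.space_atPt_mono (by omega) ha, Submodule.zero_mem _, by simp, hax,
      red_zero, fun _ => ⟨rfl, rfl⟩⟩
  | succ j ih =>
    obtain ⟨w, xw, hw, hwx, hxw⟩ := exists_top hgap (o := N - M₀) (by omega)
    have hfw : f * w ∈ S.space (S.atPt N) := by
      rw [show N = M₀ + (N - M₀) by ring, S.atPt_add]
      exact S.mul_mem_space hf hw
    set u := (f * w).coeff (-N) with hu
    have htu : (t * xw).coeff (-N) ≠ 0 := by
      rw [show -N = -(M₀ + (N - M₀)) by ring,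
        coeff_mul_top (hft.poleLE (poleLE_of_mem_space hf))
          (hwx.poleLE (poleLE_of_mem_space hw))]
      exact mul_ne_zero ht hxw
    have hu1 : A.valuation u = 1 := (hft.mul hwx).coeff_valuation_eq_one S.surj htu
    have hu0 : u ≠ 0 := fun h => by simp [h] at hu1
    have hβA : a.coeff (-N) / u ∈ A := by
      rw [← ValuationSubring.valuation_le_one_iff, map_div₀, hu1, div_one,
        ValuationSubring.valuation_le_one_iff]
      exact hax.coeff_mem _
    set β : A := ⟨_, hβA⟩
    have ha' : a - (β : K) • (f * w) ∈ S.space (S.atPt (N - 1)) := by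
      refine mem_space_of_poleLE (Submodule.sub_mem _ ha (Submodule.smul_mem _ _ hfw)) ?_
      intro i hi
      rw [HahnSeries.coeff_sub, coeff_smulC]
      rcases eq_or_lt_of_le (show i ≤ -N by omega) with rfl | hlt
      · rw [div_mul_cancel₀ _ hu0, sub_self]
      · rw [poleLE_of_mem_space ha i hlt, poleLE_of_mem_space hfw i hlt, mul_zero, sub_zero]
    obtain ⟨y, z, x', wz, N', hy, hz, heq, hyx, hzw, himp⟩ :=
      ih ha' (hax.sub ((hft.mul hwx).smul β)) (by omega)
    refine ⟨y, (β : K) • w + z, x', π β • xw + wz, max (N - M₀) N', hy,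
      Submodule.add_mem _ (Submodule.smul_mem _ _ (S.space_atPt_mono (le_max_left _ _) hw))
        (S.space_atPt_mono (le_max_right _ _) hz), ?_, hyx, (hwx.smul β).add hzw, fun hx => ?_⟩
    · rw [mul_add, ← add_assoc, add_right_comm, ← heq, smul_eq_algebraMap_mul,
        smul_eq_algebraMap_mul, mul_left_comm, sub_add_cancel]
    · have hβ0 : π β = 0 := by
        obtain ⟨hm, he⟩ := hax (-N)
        rw [hx _ (by omega)] at he
        have h1 := (residue_eq_zero_iff S.surj _).mp he
        refine (residue_eq_zero_iff S.surj β).mpr ?_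
        show A.valuation (a.coeff (-N) / u) < 1
        rwa [map_div₀, hu1, div_one]
      rw [hβ0, zero_smul, zero_add]
      rw [hβ0, zero_smul, sub_zero] at himp
      exact himp hx

/-- A small remainder bounds the pole order of the cofactor. -/
theorem exists_small_quot (hgap : S.GapBound n₀) (hf : f ∈ S.space (S.atPt M₀))
    (hft : Red A π f t) (ht : t.coeff (-M₀) ≠ 0) {γ : A.ValueGroup} (hγ : γ ≤ 1) {P : ℤ}
    (hP : (n₀ : ℤ) ≤ P) {Y : LaurentSeries K} (hY : Y ∈ S.space (S.atPt (M₀ + P))) {N : ℤ}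
    {c : LaurentSeries K} (hc : c ∈ S.space (S.atPt N)) {x : LaurentSeries k}
    (hcx : Red A π c x) (h : SmallLE A γ (Y - f * c)) :
    ∃ (c' : LaurentSeries K) (x' : LaurentSeries k), c' ∈ S.space (S.atPt P) ∧ Red A π c' x' ∧
      SmallLE A γ (Y - f * c') := by
  induction hj : (N - P).toNat generalizing N c x with
  | zero => exact ⟨c, x, S.space_atPt_mono (by omega) hc, hcx, h⟩
  | succ j ih =>
    obtain ⟨w, xw, hw, hwx, hxw⟩ := exists_top hgap (o := N) (by omega)
    have hu1 : A.valuation (w.coeff (-N)) = 1 := hwx.coeff_valuation_eq_one S.surj hxw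
    have hu0 : w.coeff (-N) ≠ 0 := fun h0 => by simp [h0] at hu1
    have hval : A.valuation (c.coeff (-N) / w.coeff (-N)) ≤ γ := by
      have h1 := h (-(M₀ + N))
      rw [HahnSeries.coeff_sub, coeff_mul_top (poleLE_of_mem_space hf) (poleLE_of_mem_space hc),
        poleLE_of_mem_space hY _ (by omega), zero_sub, Valuation.map_neg, map_mul,
        hft.coeff_valuation_eq_one S.surj ht, one_mul] at h1
      rwa [map_div₀, hu1, div_one]
    set β : A := ⟨_, (ValuationSubring.valuation_le_one_iff _ _).mp (hval.trans hγ)⟩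
    have hc' : c - (β : K) • w ∈ S.space (S.atPt (N - 1)) := by
      refine mem_space_of_poleLE (Submodule.sub_mem _ hc (Submodule.smul_mem _ _ hw)) ?_
      intro i hi
      rw [HahnSeries.coeff_sub, coeff_smulC]
      rcases eq_or_lt_of_le (show i ≤ -N by omega) with rfl | hlt
      · rw [div_mul_cancel₀ _ hu0, sub_self]
      · rw [poleLE_of_mem_space hc i hlt, poleLE_of_mem_space hw i hlt, mul_zero, sub_zero]
    refine ih hc' (hcx.sub (hwx.smul β)) ?_ (by omega)
    rw [mul_sub, sub_sub_eq_add_sub, add_sub_right_comm]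
    exact h.add (SmallLE.red_mul hft ((smallLE_smul_red hwx _).mono hval))

variable (S) in
/-- `y` is congruent modulo `γ` to an integral section vanishing on `D`. -/
def NearIdeal (D : Divisor K S.F) (γ : A.ValueGroup) (y : LaurentSeries K) : Prop :=
  ∃ (N : ℤ) (a : LaurentSeries K) (x : LaurentSeries k),
    a ∈ S.space (S.atPt N - D) ∧ Red A π a x ∧ SmallLE A γ (y - a)

namespace NearIdeal

variable {D : Divisor K S.F} {γ : A.ValueGroup}

theorem zero : NearIdeal S D γ 0 :=
  ⟨0, 0, 0, Submodule.zero_mem _, red_zero, by simpa using smallLE_zero γ⟩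

theorem add {y z : LaurentSeries K} (hy : NearIdeal S D γ y) (hz : NearIdeal S D γ z) :
    NearIdeal S D γ (y + z) := by
  obtain ⟨N, a, x, ha, hax, hya⟩ := hy
  obtain ⟨N', b, x', hb, hbx, hzb⟩ := hz
  refine ⟨max N N', a + b, x + x', Submodule.add_mem _ (space_sub_mono (le_max_left _ _) D ha)
    (space_sub_mono (le_max_right _ _) D hb), hax.add hbx, ?_⟩
  rw [add_sub_add_comm]
  exact hya.add hzb

theorem smul {y : LaurentSeries K} (hy : NearIdeal S D γ y) (β : A) :
    NearIdeal S D γ ((β : K) • y) := by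
  obtain ⟨N, a, x, ha, hax, hya⟩ := hy
  refine ⟨N, (β : K) • a, _, Submodule.smul_mem _ _ ha, hax.smul β, ?_⟩
  rw [← smul_sub]
  exact (hya.smul (β : K)).mono (mul_le_of_le_one_left' (A.valuation_le_one β))

theorem sum {ι : Type*} (s : Finset ι) {y : ι → LaurentSeries K}
    (h : ∀ i ∈ s, NearIdeal S D γ (y i)) : NearIdeal S D γ (∑ i ∈ s, y i) :=
  Finset.sum_induction y (NearIdeal S D γ) (fun _ _ => add) zero h

theorem of_mul {b z : LaurentSeries K} {N j : ℤ} {xb xz : LaurentSeries k}
    (hb : b ∈ S.space (S.atPt N - D)) (hbx : Red A π b xb) (hbf : SmallLE A γ (b - f))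
    (hz : z ∈ S.space (S.atPt j)) (hzx : Red A π z xz) : NearIdeal S D γ (f * z) := by
  refine ⟨N + j, b * z, _, mul_mem_space_sub hb hz, hbx.mul hzx, ?_⟩
  rw [← sub_mul]
  exact (smallLE_sub_comm hbf).mul_red hzx

/-- Lifts with bounded pole order inside the approximate ideal. -/
theorem exists_lift' (hgap : S.GapBound n₀) (hD : S.IsEff D) (hf : f ∈ S.space (S.atPt M₀))
    (hft : Red A π f t) (ht : t.coeff (-M₀) ≠ 0) {b : LaurentSeries K} {N : ℤ}
    {xb : LaurentSeries k} (hb : b ∈ S.space (S.atPt N - D)) (hbx : Red A π b xb)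
    (hbf : SmallLE A γ (b - f)) {n : ℤ} (hn : (n₀ : ℤ) + M₀ ≤ n) {x : LaurentSeries k}
    (hx : x ∈ S.effIdeal D) (hxn : PoleLE n x) :
    ∃ y ∈ S.space (S.atPt n), Red A π y x ∧ NearIdeal S D γ y := by
  obtain ⟨j, a, ha, hax⟩ := mem_effIdeal.mp hx
  obtain ⟨y, z, x', w, N', hy, hz, heq, hyx, hzw, himp⟩ :=
    exists_div hgap hf hft ht hn (space_sub_le _ hD ha) hax
  obtain ⟨-, rfl⟩ := himp hxn
  refine ⟨y, hy, hyx, ?_⟩
  have hya : y = a + f * ((-1 : K) • z) := by
    rw [heq, neg_one_smul, mul_neg]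
    abel
  rw [hya]
  refine add ⟨j, a, x', ha, hax, by simpa using smallLE_zero γ⟩
    (of_mul hb hbx hbf (Submodule.smul_mem _ _ hz) (xz := -w) ?_)
  rw [neg_one_smul]
  exact hzw.neg

end NearIdeal

end Fermat.Agent.MazurPrinciple
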