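import Fermat.Agent.MazurPrinciple.LiftDivide

/-!
# Comparing reduced ideals: equal codimensions, principal ideals

An inclusion of nonzero ideals of equal codimension is an equality, and a divisor with principal
reduced ideal has trivial class.
-/

set_option autoImplicit false

noncomputable section

namespace Fermat.Agent.MazurPrinciple

open HahnSeries AlgebraicCurve Fermat.Agent.Reduction Fermat.Agent.Reduction.CurveRed

variable {K k : Type*} [Field K] [Field k] {A : ValuationSubring K} {π : A →+* k}
variable {S : CurveRed A π} {n₀ : ℕ}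

theorem eq_of_le_of_finrank_quotient_le (hgap : S.GapBound n₀) {a b : Ideal S.Cbar} (ha : a ≠ ⊥)
    (h : a ≤ b) (hd : Module.finrank k (S.Cbar ⧸ a) ≤ Module.finrank k (S.Cbar ⧸ b)) : a = b :=
  h.eq_or_lt.resolve_right fun hlt => (hgap.finrank_quotient_lt ha hlt).not_ge hd

/-- A principal reduced ideal makes the class trivial. -/
theorem classHom_eq_zero_of_span (hgap : S.GapBound n₀) {E : Divisor K S.F} (hE : S.IsEff E)
    {x : S.Cbar} (h : S.effIdeal' E = Ideal.span {x}) : hgap.classHom E = 0 := by
  have hx : x ≠ 0 := fun h0 => hgap.effIdeal'_ne_bot hE (by rw [h, h0, Ideal.span_singleton_zero])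
  obtain ⟨u, hu⟩ := hgap.exists_effUnit hE
  rw [hgap.classHom_eff hE u hu, picClass_eq_zero_iff]
  refine ⟨x, S.Cbar_le_Fbar x.2, fun h0 => hx (Subtype.ext h0), hu.trans ?_⟩
  refine le_antisymm (fun z hz => ?_) ((Submodule.span_singleton_le_iff_mem _ _).mpr
    (show x ∈ S.effIdeal' E from h ▸ Ideal.mem_span_singleton_self x))
  have : (⟨z, mem_Cbar_of_mem_effIdeal hE hz⟩ : S.Cbar) ∈ Ideal.span {x} := h ▸ hz
  obtain ⟨a, ha⟩ := Ideal.mem_span_singleton'.mp this
  exact Submodule.mem_span_singleton.mpr ⟨a, congrArg Subtype.val ha⟩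

end Fermat.Agent.MazurPrinciple
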