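import Mathlib
import Fermat.Agent.Reduction.Series

/-!
# Exact solutions from integral approximate solutions

If integral points make a family of polynomials arbitrarily small and keep a further polynomial a
unit, then the latter does not vanish identically on the common zero locus.
-/

set_option autoImplicit false

noncomputable section

namespace Fermat.Agent.MazurPrinciple

open HahnSeries MvPolynomial Fermat.Agent.Reduction

variable {K k : Type*} [Field K] [Field k] {A : ValuationSubring K} {π : A →+* k}

theorem valuation_eval_le {σ : Type*} (p : MvPolynomial σ K) (x : σ → A) {B : A.ValueGroup}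
    (hB : ∀ d ∈ p.support, A.valuation (coeff d p) ≤ B) :
    A.valuation (eval (fun i => (x i : K)) p) ≤ B := by
  rw [eval_eq]
  refine Valuation.map_sum_le _ fun d hd => ?_
  rw [map_mul, map_prod]
  exact (mul_le_of_le_one_right' (Finset.prod_le_one' fun i _ => by
    rw [map_pow]
    exact pow_le_one₀ zero_le (A.valuation_le_one _))).trans (hB d hd)

/-- **Nullstellensatz and approximation.** -/
theorem exists_zero_of_approx [IsAlgClosed K] {σ ε : Type*} [Finite σ] [Finite ε]
    (e : ε → MvPolynomial σ K) (G : MvPolynomial σ K) {c : K} (hc : c ≠ 0)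
    (hc1 : A.valuation c < 1)
    (h : ∀ g : K, g ≠ 0 → A.valuation g < 1 → ∃ x : σ → A,
      (∀ i, A.valuation (eval (fun j => (x j : K)) (e i)) ≤ A.valuation g) ∧
      A.valuation (eval (fun j => (x j : K)) G) = 1) :
    ∃ x : σ → K, (∀ i, eval x (e i) = 0) ∧ eval x G ≠ 0 := by
  classical
  cases nonempty_fintype ε
  by_contra hall
  push Not at hall
  have hG : G ∈ (Ideal.span (Set.range e)).radical := by
    rw [← vanishingIdeal_zeroLocus_eq_radical (K := K), mem_vanishingIdeal_iff]
    intro x hx
    rw [aeval_eq_eval]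
    refine hall x fun i => ?_
    simpa [aeval_eq_eval] using hx (e i) (Ideal.subset_span (Set.mem_range_self i))
  obtain ⟨q, hq⟩ := hG
  obtain ⟨a, ha⟩ := Ideal.mem_span_range_iff_exists_fun.mp hq
  set T : Finset K := insert 1 (Finset.univ.biUnion fun i =>
    (a i).support.image fun d => coeff d (a i)) with hT
  obtain ⟨b, hbT, hmax⟩ := T.exists_max_image (fun z => A.valuation z) ⟨1, by simp [hT]⟩
  have hb1 : 1 ≤ A.valuation b := by simpa using hmax 1 (by simp [hT])
  have hb0 : b ≠ 0 := fun h0 => by simp [h0] at hb1
  have hg1 : A.valuation (c / b) < 1 := by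
    rw [map_div₀, div_lt_one₀ (zero_lt_one.trans_le hb1)]
    exact hc1.trans_le hb1
  obtain ⟨x, hx, hxG⟩ := h (c / b) (div_ne_zero hc hb0) hg1
  have hle : A.valuation (eval (fun j => (x j : K)) (G ^ q)) ≤ A.valuation c := by
    rw [← ha, map_sum]
    refine Valuation.map_sum_le _ fun i _ => ?_
    rw [map_mul, map_mul]
    refine (mul_le_mul' (valuation_eval_le (a i) x fun d hd => hmax _ ?_) (hx i)).trans ?_
    · simp only [hT, Finset.mem_insert, Finset.mem_biUnion, Finset.mem_image, Finset.mem_univ,
        true_and]
      exact Or.inr ⟨i, d, hd, rfl⟩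
    · rw [map_div₀, mul_div_cancel₀ _ ((A.valuation.ne_zero_iff).mpr hb0)]
  rw [map_pow, map_pow, hxG, one_pow] at hle
  exact absurd (lt_of_le_of_lt hle hc1) (lt_irrefl 1)

/-- Independent series have a nonsingular square array of coefficients. -/
theorem exists_det_coeff_ne_zero {ι : Type*} [Fintype ι] [DecidableEq ι]
    {x : ι → LaurentSeries k} (hx : LinearIndependent k x) :
    ∃ idx : ι → ℤ, (Matrix.of fun i l => (x i).coeff (idx l)).det ≠ 0 := by
  classical
  set vec : ℤ → (ι → k) := fun j i => (x i).coeff j
  have hspan : Submodule.span k (Set.range vec) = ⊤ := by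
    by_contra hne
    obtain ⟨φ, hφ, hle⟩ := Submodule.exists_le_ker_of_lt_top _ (lt_top_iff_ne_top.mpr hne)
    set a : ι → k := fun i => φ (Pi.single i 1)
    have hexp : ∀ v : ι → k, φ v = ∑ i, v i * a i := fun v => by
      conv_lhs => rw [pi_eq_sum_univ' v]
      simp [a, map_sum]
    have hzero : ∑ i, a i • x i = 0 := by
      ext j
      rw [HahnSeries.coeff_sum, HahnSeries.coeff_zero]
      have h0 : φ (vec j) = 0 := LinearMap.mem_ker.mp (hle (Submodule.subset_span ⟨j, rfl⟩))
      rw [hexp] at h0
      rw [← h0]
      exact Finset.sum_congr rfl fun i _ => by rw [coeff_smulC, mul_comm]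
    refine hφ (LinearMap.ext fun v => ?_)
    rw [hexp, LinearMap.zero_apply]
    exact Finset.sum_eq_zero fun i _ => by
      rw [(Fintype.linearIndependent_iff.mp hx) a hzero i, mul_zero]
  obtain ⟨κ, a, -, hsp, hli⟩ := exists_linearIndependent' k vec
  have : Finite κ := hli.finite
  have := Fintype.ofFinite κ
  have hcard : Fintype.card κ = Fintype.card ι := by
    rw [← finrank_span_eq_card hli, hsp, hspan, finrank_top, Module.finrank_fintype_fun_eq_card]
  let e : ι ≃ κ := Fintype.equivOfCardEq hcard.symm
  refine ⟨fun l => a (e l), fun hdet => ?_⟩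
  obtain ⟨v, hv, hv0⟩ := Matrix.exists_mulVec_eq_zero_iff.mpr hdet
  refine hv (funext fun l => ?_)
  have := Fintype.linearIndependent_iff.mp (hli.comp e e.injective) v
  refine this (funext fun i => ?_) l
  have h1 := congrFun hv0 i
  simp only [Matrix.mulVec, dotProduct, Matrix.of_apply, Pi.zero_apply] at h1
  simpa [Finset.sum_apply, vec, mul_comm] using h1

/-- Dependent series have singular arrays of coefficients. -/
theorem det_coeff_eq_zero {ι : Type*} [Fintype ι] [DecidableEq ι] {x : ι → LaurentSeries K}
    (hx : ¬ LinearIndependent K x) (idx : ι → ℤ) :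
    (Matrix.of fun i l => (x i).coeff (idx l)).det = 0 := by
  rw [Fintype.linearIndependent_iff] at hx
  push Not at hx
  obtain ⟨a, ha, i, hi⟩ := hx
  refine Matrix.exists_vecMul_eq_zero_iff.mp ⟨a, fun h => hi (congrFun h i), funext fun l => ?_⟩
  have := congrArg (fun y : LaurentSeries K => y.coeff (idx l)) ha
  simp only [HahnSeries.coeff_sum, HahnSeries.coeff_zero, coeff_smulC] at this
  simpa [Matrix.vecMul, dotProduct] using this

end Fermat.Agent.MazurPrinciple
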