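import Fermat.Agent.MazurPrinciple.LiftApprox
import Fermat.Agent.MazurPrinciple.LiftClass
import Fermat.Agent.MazurPrinciple.LiftNull

/-!
# Torsion classes of the reduced curve lift to torsion classes

`exists_torsion_lift_eff`: if the `m`-torsion of the divisor class group of the curve is finite and
`m` is invertible in the residue field, an effective divisor whose reduced ideal has principal
`m`-th power has the reduced class of an `m`-torsion class.
-/

set_option autoImplicit false

noncomputable section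

namespace Fermat.Agent.MazurPrinciple

open HahnSeries AlgebraicCurve Fermat.Agent.Reduction Fermat.Agent.Reduction.CurveRed

variable {K k : Type*} [Field K] [Field k] {A : ValuationSubring K} {π : A →+* k}
variable {S : CurveRed A π} {n₀ : ℕ}

theorem eq_zero_of_poleLE_neg {N : ℤ} {y : LaurentSeries K} (hy : y ∈ S.space (S.atPt N))
    (h : PoleLE (-1) y) : y = 0 := by
  obtain ⟨u, rfl, hu⟩ := S.exists_of_mem_space (mem_space_of_poleLE hy h)
  by_contra hne
  have hu0 : u ≠ 0 := fun h0 => hne (by rw [h0]; rfl)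
  obtain ⟨Eu, hEu, hdeg⟩ := S.exists_div hu0
  have heff : S.IsEff (Eu + S.atPt (-1)) := fun v => by
    have := (hu v).resolve_left hu0
    rw [Finsupp.add_apply, hEu v]
    omega
  have := degree_nonneg_of_isEff heff
  rw [map_add, hdeg, S.degree_atPt] at this
  omega

/-- Lifts of a basis of reductions give integral coordinates. -/
theorem exists_frame (S : CurveRed A π) (D : Divisor K S.F) (hD : S.OffNonpos D) :
    ∃ (b : ℕ) (w : Fin b → LaurentSeries K), (∀ j, w j ∈ S.space D) ∧
      ∀ y ∈ S.space D, (∀ i, y.coeff i ∈ A) → ∃ a : Fin b → A, y = ∑ j, (a j : K) • w j := by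
  have := S.finiteDimensional_space D
  have := (finiteDimensional_redSub S.surj (S.space D)).1
  let B := Module.finBasis k (redSub S.surj (S.space D))
  choose w hw hwx using fun j => (B j).2
  refine ⟨_, w, hw, fun y hy hyA => exists_integral_coords S.surj (S.normalizable_space hD) hw hwx
    (fun x hx => ?_) hy hyA⟩
  have h := congrArg Subtype.val (B.sum_repr ⟨x, hx⟩)
  simp only [Submodule.coe_sum, SetLike.val_smul] at h
  rw [← h]
  exact Submodule.sum_mem _ fun j _ => Submodule.smul_mem _ _ (Submodule.subset_span ⟨j, rfl⟩)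

/-- The generic linear combination. -/
def genSeries {σ : Type*} {b : ℕ} (w : Fin b → LaurentSeries K) (v : Fin b → σ) :
    LaurentSeries (MvPolynomial σ K) :=
  ∑ j, HahnSeries.single 0 (MvPolynomial.X (v j)) *
    ModularCurve.coeffMap (MvPolynomial.C) (w j)

theorem coeffMap_eval_genSeries {σ : Type*} {b : ℕ} (w : Fin b → LaurentSeries K) (v : Fin b → σ)
    (x : σ → K) :
    ModularCurve.coeffMap (MvPolynomial.eval x) (genSeries w v) = ∑ j, x (v j) • w j := by
  rw [genSeries, map_sum]
  refine Finset.sum_congr rfl fun j _ => ?_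
  rw [map_mul, ModularCurve.coeffMap_single, MvPolynomial.eval_X, ModularCurve.coeffMap_coeffMap,
    smul_eq_algebraMap_mul, ModularCurve.algebraMap_laurentSeries_eq_single]
  congr 1
  rw [show (MvPolynomial.eval x).comp MvPolynomial.C = RingHom.id K from
    RingHom.ext fun c => MvPolynomial.eval_C c, ModularCurve.coeffMap_id]

theorem finrank_quotient_pow (hgap : S.GapBound n₀) {a : Ideal S.Cbar} (ha : a ≠ ⊥) (j : ℕ) :
    Module.finrank k (S.Cbar ⧸ a ^ j) = j * Module.finrank k (S.Cbar ⧸ a) := by
  induction j with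
  | zero =>
    rw [pow_zero, Ideal.one_eq_top, Nat.zero_mul]
    have : Subsingleton (S.Cbar ⧸ (⊤ : Ideal S.Cbar)) := Ideal.Quotient.subsingleton_iff.mpr rfl
    exact Module.finrank_zero_of_subsingleton
  | succ j ih =>
    have := hgap.isDedekindDomain
    rw [pow_succ, hgap.finrank_quotient_mul (pow_ne_zero j ha) ha, ih, Nat.succ_mul]

/-- The joint reductions are independent unless the classes are opposite. -/
theorem linearIndependent_joint (hgap : S.GapBound n₀) {E R : Divisor K S.F} (hE : S.IsEff E)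
    (hR : S.IsEff R) (hcop : S.effIdeal' R ⊔ S.effIdeal' E = ⊤) {n : ℤ}
    (hne : hgap.classHom E + hgap.classHom R ≠ 0) {ι κ : Type*}
    {x : ι → LaurentSeries k} {x' : κ → LaurentSeries k} (hx : LinearIndependent k x)
    (hx' : LinearIndependent k x') (hxE : ∀ i, x i ∈ effPole S E n)
    (hxR : ∀ i, x' i ∈ effPole S R ((codim S E : ℤ) + codim S R)) :
    LinearIndependent k (Sum.elim x x') := by
  refine LinearIndependent.sum_type hx hx' ?_
  rw [Submodule.disjoint_def]
  intro z hz hz'
  have hzE : z ∈ effPole S E n := Submodule.span_le.mpr (Set.range_subset_iff.mpr hxE) hz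
  have hzR : z ∈ effPole S R ((codim S E : ℤ) + codim S R) :=
    Submodule.span_le.mpr (Set.range_subset_iff.mpr hxR) hz'
  by_contra hz0
  have hzC : z ∈ S.Cbar := mem_Cbar_of_mem_effIdeal hE hzE.1
  have hz0' : (⟨z, hzC⟩ : S.Cbar) ≠ 0 := fun h => hz0 (congrArg Subtype.val h)
  have hmem : (⟨z, hzC⟩ : S.Cbar) ∈ S.effIdeal' (E + R) := by
    rw [hgap.effIdeal'_add hE hR, Ideal.mul_eq_inf_of_coprime (by rw [sup_comm]; exact hcop)]
    exact ⟨hzE.1, hzR.1⟩
  refine hne ?_
  rw [← map_add]
  refine classHom_eq_zero_of_span hgap (hE.add hR) (x := ⟨z, hzC⟩) ?_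
  refine (eq_of_le_of_finrank_quotient_le hgap (by simpa using hz0')
    (Ideal.span_le.mpr (Set.singleton_subset_iff.mpr hmem)) ?_).symm
  have h1 := hgap.finrank_quotient_span hz0'
  have h2 := (poleLE_iff_order hz0).mp hzR.2
  have h3 := hgap.finrank_quotient_mul (hgap.effIdeal'_ne_bot hE) (hgap.effIdeal'_ne_bot hR)
  rw [← hgap.effIdeal'_add hE hR] at h3
  change (Module.finrank k (S.Cbar ⧸ Ideal.span {(⟨z, hzC⟩ : S.Cbar)}) : ℤ) = -z.order at h1
  simp only [codim] at h2
  omega

/-- **Lifting of torsion classes.** -/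
theorem exists_torsion_lift_eff [IsAlgClosed K] (hgap : S.GapBound n₀) {m : ℕ} (hm : (m : k) ≠ 0)
    (hfin : {z : Pic0 K S.F | (m : ℤ) • z = 0}.Finite)
    (hA : ∃ c : K, c ≠ 0 ∧ A.valuation c < 1) {E₀ : Divisor K S.F} (hE₀ : S.IsEff E₀)
    {s₀ : S.Cbar} (hs₀ : S.effIdeal' E₀ ^ m = Ideal.span {s₀}) :
    ∃ z : Pic0 K S.F, (m : ℤ) • z = 0 ∧ hgap.sp z = hgap.classHom E₀ := by
  classical
  have := hgap.isDedekindDomain
  have hm0 : 0 < m := Nat.pos_of_ne_zero fun h0 => hm (by simp [h0])
  -- enlarge the degree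
  obtain ⟨xe, hxe, hxe0, hxeo⟩ := hgap.exists_order_eq (n := (3 * n₀ + S.g + 1 : ℕ)) (by
    push_cast; omega)
  set x₁ : S.Cbar := ⟨xe, hgap.mem_Cbar_iff.mpr hxe.1⟩
  have hx₁ : x₁ ≠ 0 := fun h => hxe0 (congrArg Subtype.val h)
  obtain ⟨Ex, hEx, hExI⟩ := exists_effIdeal'_eq hgap (I := Ideal.span {x₁}) (by simpa using hx₁)
  set E : Divisor K S.F := E₀ + Ex
  have hE : S.IsEff E := hE₀.add hEx
  have hclass : hgap.classHom E = hgap.classHom E₀ := by
    rw [map_add, classHom_eq_zero_of_span hgap hEx hExI, add_zero]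
  set I := S.effIdeal' E
  have hI : I ≠ ⊥ := hgap.effIdeal'_ne_bot hE
  set s : S.Cbar := s₀ * x₁ ^ m
  have hIs : I ^ m = Ideal.span {s} := by
    simp only [I, E, s]
    rw [hgap.effIdeal'_add hE₀ hEx, hExI, mul_pow, hs₀, Ideal.span_singleton_pow,
      Ideal.span_singleton_mul_span_singleton]
  have hs0 : s ≠ 0 := fun h => pow_ne_zero m hI
    (hIs.trans (Ideal.span_singleton_eq_bot.mpr h))
  set d : ℕ := codim S E
  have hd : 2 * n₀ + S.g ≤ d ∧ 0 < d ∧ n₀ ≤ d := by
    have h1 := finrank_quotient_mono hgap (a := I) hI (b := Ideal.span {x₁}) (by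
      simp only [I, E]
      rw [hgap.effIdeal'_add hE₀ hEx, hExI]
      exact Ideal.mul_le.mpr fun a _ b hb => Ideal.mul_mem_left _ a hb)
    have h2 := hgap.finrank_quotient_span hx₁
    have h3 : (x₁ : LaurentSeries k).order = -((3 * n₀ + S.g + 1 : ℕ) : ℤ) := hxeo
    simp only [d, codim, I] at h1 ⊢
    omega
  set M₀ : ℤ := (m : ℤ) * d
  have hdM : (d : ℤ) ≤ M₀ := le_mul_of_one_le_left (Int.natCast_nonneg d) (by omega)
  have hso : (s : LaurentSeries k).order = -M₀ := by
    have h1 := hgap.finrank_quotient_span hs0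
    rw [← hIs, finrank_quotient_pow hgap hI] at h1
    simp only [M₀, d, codim, I] at h1 ⊢
    push_cast at h1 ⊢
    linarith
  have hsM : PoleLE M₀ (s : LaurentSeries k) :=
    (poleLE_iff_order fun h => hs0 (Subtype.ext h)).mpr (by omega)
  have hstop : (s : LaurentSeries k).coeff (-M₀) ≠ 0 := by
    rw [← hso]
    exact fun h => hs0 (Subtype.ext (HahnSeries.coeff_order_eq_zero.mp h))
  have hsurj : ∀ c : S.Cbar, ∃ p ∈ S.polePart M₀, c - p ∈ I ^ (m - 1) := fun c => by
    have hmE : S.IsEff (((m - 1 : ℕ) : ℤ) • E) := fun v => by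
      rw [Finsupp.smul_apply]; exact smul_nonneg (Int.natCast_nonneg _) (hE v)
    obtain ⟨p, hp, hcp⟩ := exists_sub_mem_effIdeal hgap hmE (P := M₀) (by
      simp only [codim]
      rw [effIdeal'_smul hgap hE, finrank_quotient_pow hgap hI]
      simp only [M₀, d, codim, I]
      push_cast [Nat.cast_sub (show 1 ≤ m by omega)]
      have := hd.1
      simp only [d, codim] at this
      nlinarith) c
    exact ⟨p, hp, by rwa [effIdeal'_smul hgap hE] at hcp⟩
  -- the finitely many torsion classes
  have := hfin.to_subtype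
  have : Fintype {z : Pic0 K S.F | (m : ℤ) • z = 0} := Fintype.ofFinite _
  by_contra hnone
  push Not at hnone
  choose R hR hRd hRcop hRz using fun z : {z : Pic0 K S.F | (m : ℤ) • z = 0} =>
    exists_test hgap hI (z : Pic0 K S.F)
  set sup : ℕ := Finset.univ.sup fun z => codim S (R z)
  set n : ℤ := (2 * n₀ + S.g + (d + 1) : ℤ) + M₀ + sup with hn_def
  have hsup : ∀ z, (codim S (R z) : ℤ) ≤ sup := fun z => by
    exact_mod_cast Finset.le_sup (f := fun z => codim S (R z)) (Finset.mem_univ z)
  -- the sections of `n ∞ - E`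
  obtain ⟨hfinE, hdimE⟩ := finrank_effPole hgap hE (P := n) (by simp only [n, d]; omega)
  have := hfinE
  set r : ℕ := Module.finrank k (effPole S E n) with hr_def
  let B := Module.finBasis k (effPole S E n)
  set x : Fin r → S.Cbar :=
    fun i => ⟨(B i : LaurentSeries k), mem_Cbar_of_mem_effIdeal hE (B i).2.1⟩
  have hr : (r : ℤ) = n - d + 1 - S.g := by simp only [d]; omega
  -- frames
  obtain ⟨bf, wf, hwf, hframef⟩ := exists_frame S (S.atPt M₀) (S.offNonpos_atPt _)
  obtain ⟨by', wy, hwy, hframey⟩ := exists_frame S (S.atPt n) (S.offNonpos_atPt _)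
  obtain ⟨bc, wc, hwc, hframec⟩ :=
    exists_frame S (S.atPt ((m : ℤ) * n - M₀)) (S.offNonpos_atPt _)
  -- test sections
  have hU : ∀ z, ∃ (a : ℕ) (U : Fin a → LaurentSeries K) (Ub : Fin a → LaurentSeries k),
      (∀ l, Red A π (U l) (Ub l)) ∧ LinearIndependent k Ub ∧
      (∀ l, Ub l ∈ effPole S (R z) ((codim S E : ℤ) + codim S (R z))) ∧
      S.space (S.atPt ((d : ℤ) + Divisor.degree (R z)) - R z) ≤
        Submodule.span K (Set.range U) := fun z => by
    have heq := redSub_eq_effPole hgap (hR z) (N := (d : ℤ) + Divisor.degree (R z)) (by omega)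
    have := S.finiteDimensional_space (S.atPt ((d : ℤ) + Divisor.degree (R z)) - R z)
    have := (finiteDimensional_redSub S.surj
      (S.space (S.atPt ((d : ℤ) + Divisor.degree (R z)) - R z))).1
    let BU := Module.finBasis k
      (redSub S.surj (S.space (S.atPt ((d : ℤ) + Divisor.degree (R z)) - R z)))
    choose U hUm hUx using fun l => (BU l).2
    have hli : LinearIndependent k (fun l => (BU l : LaurentSeries k)) := by
      have h := BU.linearIndependent.map'
        (redSub S.surj (S.space (S.atPt ((d : ℤ) + Divisor.degree (R z)) - R z))).subtype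
        (Submodule.ker_subtype _)
      exact h
    refine ⟨_, U, fun l => (BU l : LaurentSeries k), hUx, hli, fun l => ?_, fun y hy => ?_⟩
    · have := heq.le (BU l).2
      rwa [add_sub_cancel_right] at this
    · have hUli := linearIndependent_of_red S.surj hUx hli
      have htop : Submodule.span K (Set.range U) =
          S.space (S.atPt ((d : ℤ) + Divisor.degree (R z)) - R z) := by
        refine Submodule.eq_of_le_of_finrank_le
          (Submodule.span_le.mpr (Set.range_subset_iff.mpr hUm)) ?_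
        rw [finrank_span_eq_card hUli, Fintype.card_fin,
          finrank_redSub S.surj _ (S.normalizable_space ((hR z).offNonpos _))]
      rw [htop]
      exact hy
  choose au U Ub hUx hUli hUeff hUspan using hU
  have hBli : LinearIndependent k (fun i => (B i : LaurentSeries k)) :=
    B.linearIndependent.map' (effPole S E n).subtype (Submodule.ker_subtype _)
  have hjoint : ∀ z, LinearIndependent k (Sum.elim (fun i => (x i : LaurentSeries k)) (Ub z)) := by
    intro z
    refine linearIndependent_joint (x := fun i => (x i : LaurentSeries k)) hgap hE (hR z) (hRcop z)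
      (n := n) ?_ hBli (hUli z) (fun i => (B i).2) (hUeff z)
    intro h0
    refine hnone z.1 z.2 ?_
    rw [← hclass, eq_neg_of_add_eq_zero_left h0, ← sp_ptClass hgap, hRz z, map_neg, neg_neg]
  choose idx hidx using fun z => exists_det_coeff_ne_zero (hjoint z)
  -- the polynomial system
  let σ := Fin bf ⊕ (Fin r × Fin by') ⊕ (Fin r × Fin bc)
  let F : LaurentSeries (MvPolynomial σ K) := genSeries wf fun j => Sum.inl j
  let Y : Fin r → LaurentSeries (MvPolynomial σ K) := fun i =>
    genSeries wy fun j => Sum.inr (Sum.inl (i, j))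
  let Cc : Fin r → LaurentSeries (MvPolynomial σ K) := fun i =>
    genSeries wc fun j => Sum.inr (Sum.inr (i, j))
  let eqs : Fin r × Fin ((m : ℤ) * n + 1).toNat → MvPolynomial σ K := fun p =>
    (Y p.1 ^ m - F * Cc p.1).coeff (-((m : ℤ) * n) + (p.2 : ℕ))
  let mat : ∀ z, Matrix (Fin r ⊕ Fin (au z)) (Fin r ⊕ Fin (au z)) (MvPolynomial σ K) := fun z =>
    Matrix.of fun i l => Sum.elim (fun i => (Y i).coeff (idx z l))
      (fun i => MvPolynomial.C ((U z i).coeff (idx z l))) i
  have hmat : ∀ (z) (v : σ → K), MvPolynomial.eval v (mat z).det =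
      (Matrix.of fun i l => (Sum.elim
        (fun i => ∑ j, v (Sum.inr (Sum.inl (i, j))) • wy j) (U z) i).coeff (idx z l)).det := by
    intro z v
    rw [RingHom.map_det]
    refine congrArg Matrix.det (Matrix.ext fun i l => ?_)
    rcases i with i | i
    · simp only [mat, RingHom.mapMatrix_apply, Matrix.map_apply, Matrix.of_apply, Sum.elim_inl]
      rw [← ModularCurve.coeffMap_coeff, coeffMap_eval_genSeries]
    · simp only [mat, RingHom.mapMatrix_apply, Matrix.map_apply, Matrix.of_apply, Sum.elim_inr,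
        MvPolynomial.eval_C]
  obtain ⟨c, hc0, hc1⟩ := hA
  obtain ⟨v, hv, hvG⟩ := exists_zero_of_approx (A := A) eqs (∏ z, (mat z).det) hc0 hc1 (by
    intro g hg hg1
    obtain ⟨f, y, cc, hf, hfx, hy, hcc, hsmall⟩ := exists_approx_eq hgap hm hI hIs hstop hsM
      (by omega) hsurj (n := n) (by simp only [n]; omega) x (fun i => (B i).2.1)
      (fun i => (B i).2.2) hg hg1
    obtain ⟨af, haf⟩ := hframef f hf hfx.coeff_mem
    choose ay hay using fun i => hframey (y i) (hy i).1 (hy i).2.coeff_mem
    choose ac hac using fun i => hframec (cc i) (hcc i).1 (hcc i).2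
    refine ⟨Sum.elim af (Sum.elim (fun p => ay p.1 p.2) fun p => ac p.1 p.2), fun p => ?_, ?_⟩
    · simp only [eqs]
      rw [← ModularCurve.coeffMap_coeff, map_sub, map_mul, map_pow]
      simp only [Y, F, Cc, coeffMap_eval_genSeries, Sum.elim_inl, Sum.elim_inr]
      rw [← hay, ← hac, ← haf]
      exact hsmall p.1 _
    · rw [map_prod, map_prod]
      refine Finset.prod_eq_one fun z _ => ?_
      rw [hmat z]
      simp only [Sum.elim_inl, Sum.elim_inr, ← hay]
      set M : Matrix (Fin r ⊕ Fin (au z)) (Fin r ⊕ Fin (au z)) K :=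
        Matrix.of fun i l => (Sum.elim y (U z) i).coeff (idx z l)
      have hred : ∀ i, Red A π (Sum.elim y (U z) i)
          (Sum.elim (fun i => (x i : LaurentSeries k)) (Ub z) i) := fun i =>
        i.rec (fun i => (hy i).2) (hUx z)
      let MA : Matrix (Fin r ⊕ Fin (au z)) (Fin r ⊕ Fin (au z)) A :=
        Matrix.of fun i l => ⟨_, (hred i).coeff_mem (idx z l)⟩
      have h1 : A.subtype MA.det = M.det := by
        rw [RingHom.map_det]
        rfl
      rw [← h1]
      refine (residue_ne_zero_iff S.surj MA.det).mp ?_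
      rw [RingHom.map_det]
      convert hidx z using 2
      ext i l
      exact (hred i (idx z l)).2)
  -- an exact solution gives a torsion class, contradiction
  set f : LaurentSeries K := ∑ j, v (Sum.inl j) • wf j
  set y : Fin r → LaurentSeries K := fun i => ∑ j, v (Sum.inr (Sum.inl (i, j))) • wy j
  set cc : Fin r → LaurentSeries K := fun i => ∑ j, v (Sum.inr (Sum.inr (i, j))) • wc j
  have hf : f ∈ S.space (S.atPt ((m : ℤ) * d)) :=
    Submodule.sum_mem _ fun j _ => Submodule.smul_mem _ _ (hwf j)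
  have hy : ∀ i, y i ∈ S.space (S.atPt n) := fun i =>
    Submodule.sum_mem _ fun j _ => Submodule.smul_mem _ _ (hwy j)
  have hcc : ∀ i, cc i ∈ S.space (S.atPt ((m : ℤ) * n - (m : ℤ) * d)) := fun i =>
    Submodule.sum_mem _ fun j _ => Submodule.smul_mem _ _ (hwc j)
  have heq : ∀ i, y i ^ m = f * cc i := by
    intro i
    refine sub_eq_zero.mp (eq_zero_of_poleLE_neg (S := S) (N := (m : ℤ) * n) ?_ ?_)
    · refine Submodule.sub_mem _ (S.pow_mem_space_atPt (hy i)) ?_
      rw [show (m : ℤ) * n = (m : ℤ) * d + ((m : ℤ) * n - (m : ℤ) * d) by ring, S.atPt_add]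
      exact S.mul_mem_space hf (hcc i)
    · intro l hl
      rcases lt_or_ge l (-((m : ℤ) * n)) with hlt | hge
      · rw [HahnSeries.coeff_sub, (PoleLE.pow (poleLE_of_mem_space (hy i)) m) l hlt,
          (PoleLE.mul (poleLE_of_mem_space hf) (poleLE_of_mem_space (hcc i))) l (by linarith),
          sub_zero]
      · have h1 := hv (i, ⟨(l + (m : ℤ) * n).toNat, by omega⟩)
        simp only [eqs] at h1
        rw [← ModularCurve.coeffMap_coeff, map_sub, map_mul, map_pow] at h1
        simp only [Y, F, Cc, coeffMap_eval_genSeries] at h1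
        rwa [show -((m : ℤ) * n) + ((l + (m : ℤ) * n).toNat : ℤ) = l by omega] at h1
  have hGz : ∀ z, ¬ (Matrix.of fun i l =>
      (Sum.elim y (U z) i).coeff (idx z l)).det = 0 := fun z h0 => hvG (by
    rw [map_prod]
    exact Finset.prod_eq_zero (Finset.mem_univ z) ((hmat z v).trans h0))
  by_cases hli : LinearIndependent K y
  · obtain ⟨ES, hES, hdegS, htors, hspan⟩ := exists_divisor_of_solution hgap hm0
      (by simp only [n]; omega) hr hf hy hcc heq hli
    set z : {z : Pic0 K S.F | (m : ℤ) • z = 0} := ⟨ptClass S ES, htors⟩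
    obtain ⟨y₀, hy₀0, hy₀E, hy₀R⟩ := exists_common_section hES (hR z) (n := n)
      (by rw [hdegS]; have := hsup z; have := hRd z; simp only [n]; omega)
      (by rw [hRz z]; exact add_neg_cancel _)
    rw [hdegS] at hy₀R
    refine hGz z (det_coeff_eq_zero (fun hall => hy₀0 ?_) (idx z))
    rw [linearIndependent_sum] at hall
    refine Submodule.disjoint_def.mp hall.2.2 y₀ ?_ ?_
    · change y₀ ∈ Submodule.span K (Set.range y)
      rw [hspan]
      exact hy₀E
    · exact hUspan z hy₀R
  · have hz0 : (0 : Pic0 K S.F) ∈ {z : Pic0 K S.F | (m : ℤ) • z = 0} := smul_zero _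
    refine hGz ⟨0, hz0⟩ (det_coeff_eq_zero (fun hall => hli ?_) (idx _))
    rw [linearIndependent_sum] at hall
    exact hall.1

end Fermat.Agent.MazurPrinciple
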