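import Fermat.Agent.MazurPrinciple.Kum
import Fermat.Agent.MazurPrinciple.Hecke
import Fermat.Agent.MazurPrinciple.LiftMain
import Fermat.Agent.Semistable.Level
import Fermat.Agent.FlatModel.JZero
import Fermat.Agent.FF.ModularField

/-!
# Reduced functions with divisor divisible by `m` come from `m`-torsion

A function on the reduced curve whose divisor is divisible by `m` is the reduced Kummer function of
an `m`-torsion class; `exists_kum_lower` is the case of `X₀(M)` at a prime `q ∤ M m`.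
-/

set_option autoImplicit false

noncomputable section

namespace Fermat.Agent.MazurPrinciple

open HahnSeries AlgebraicCurve ModularCurve Fermat.Agent.Reduction Fermat.Agent.Reduction.CurveRed
open IsDedekindDomain UniqueFactorizationMonoid

section Dedekind

variable {R k F : Type*} [CommRing R] [IsDedekindDomain R] [Field k] [Field F] [Algebra k F]
  [FF.IsFunctionField k F] [Algebra R F] [IsFractionRing R F]

/-- The place of a maximal ideal of a Dedekind model. -/
theorem exists_place_of_prime (hk : ∀ a : k, ∃ r : R, algebraMap R F r = algebraMap k F a)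
    (v : HeightOneSpectrum R) :
    ∃ w : Place k F, ∀ g : F, g ≠ 0 → v.valuation F g = WithZero.exp (-(w.ord g)) := by
  set V := (v.valuation F).valuationSubring with hV
  have hKV : ∀ a : k, algebraMap k F a ∈ V := fun a => by
    obtain ⟨r, hr⟩ := hk a
    rw [hV, Valuation.mem_valuationSubring_iff, ← hr]
    exact v.valuation_le_one r
  obtain ⟨t, ht⟩ := v.valuation_exists_uniformizer F
  have ht0 : t ≠ 0 := fun h => WithZero.exp_ne_zero
    (by rw [← ht, h, map_zero] : _ = (0 : WithZero (Multiplicative ℤ)))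
  have htop : V ≠ ⊤ := fun h => by
    have h1 : t⁻¹ ∈ V := h ▸ ValuationSubring.mem_top _
    rw [hV, Valuation.mem_valuationSubring_iff, map_inv₀, ht, ← WithZero.exp_neg,
      ← WithZero.exp_zero, WithZero.exp_le_exp] at h1
    omega
  let w : Place k F :=
    ⟨V, hKV, htop, FF.isPrincipalIdealRing_valuationSubring_of_ne_top V hKV⟩
  have hle : ∀ g : F, g ≠ 0 → (0 ≤ w.ord g ↔ v.valuation F g ≤ 1) := fun g hg =>
    (FF.mem_toValuationSubring_iff_ord w hg).symm.trans
      (Valuation.mem_valuationSubring_iff (v.valuation F) g)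
  have hunit : ∀ g : F, g ≠ 0 → v.valuation F g = 1 → w.ord g = 0 := fun g hg h1 => by
    have ha := (hle g hg).mpr h1.le
    have hb := (hle g⁻¹ (inv_ne_zero hg)).mpr (by rw [map_inv₀, h1, inv_one])
    rw [w.ord_inv] at hb
    omega
  have hform : ∀ g : F, g ≠ 0 → ∃ n : ℤ, v.valuation F g = WithZero.exp (-n) ∧
      w.ord g = n * w.ord t := fun g hg => by
    refine ⟨-WithZero.log (v.valuation F g), by
      rw [neg_neg, WithZero.exp_log ((Valuation.ne_zero_iff _).mpr hg)], ?_⟩
    set n := -WithZero.log (v.valuation F g) with hn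
    have hgn : g * t ^ (-n) ≠ 0 := mul_ne_zero hg (zpow_ne_zero _ ht0)
    have hgv : v.valuation F g = WithZero.exp (-n) := by
      rw [hn, neg_neg, WithZero.exp_log ((Valuation.ne_zero_iff _).mpr hg)]
    have h1 := hunit _ hgn (by
      rw [map_mul, map_zpow₀, ht, ← WithZero.exp_zsmul, hgv, ← WithZero.exp_add, smul_eq_mul,
        neg_mul_neg, mul_one, neg_add_cancel, WithZero.exp_zero])
    rw [w.ord_mul hg (zpow_ne_zero _ ht0), w.ord_zpow] at h1
    linarith
  have ht1 : w.ord t = 1 := by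
    obtain ⟨g, hg, hg1⟩ := FF.exists_ne_zero_ord_eq w 1
    obtain ⟨n, -, hn⟩ := hform g hg
    have htpos : 0 ≤ w.ord t := (hle t ht0).mpr (by
      rw [ht, ← WithZero.exp_zero, WithZero.exp_le_exp]; omega)
    rw [hg1] at hn
    exact Int.eq_one_of_mul_eq_one_left htpos hn.symm
  refine ⟨w, fun g hg => ?_⟩
  obtain ⟨n, h1, h2⟩ := hform g hg
  rw [h1, h2, ht1, mul_one]

omit [FF.IsFunctionField k F] in
theorem count_normalizedFactors_span {v : HeightOneSpectrum R} {s : R} (hs : s ≠ 0) {n : ℤ}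
    (h : v.valuation F (algebraMap R F s) = WithZero.exp (-n)) :
    ((normalizedFactors (Ideal.span {s})).count v.asIdeal : ℤ) = n := by
  classical
  rw [v.valuation_of_algebraMap, v.intValuation_if_neg hs,
    Ideal.count_associates_factors_eq (by simpa using hs) v.isPrime v.ne_bot,
    WithZero.exp_inj, neg_inj] at h
  exact h

/-- An element all of whose orders are divisible by `m` generates an `m`-th power. -/
theorem exists_pow_eq_span (hk : ∀ a : k, ∃ r : R, algebraMap R F r = algebraMap k F a) {m : ℕ}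
    (hm : 0 < m) {s : R} (hs : s ≠ 0)
    (hord : ∀ w : Place k F, (m : ℤ) ∣ w.ord (algebraMap R F s)) :
    ∃ I : Ideal R, I ≠ ⊥ ∧ I ^ m = Ideal.span {s} := by
  classical
  have hsI : Ideal.span {s} ≠ (0 : Ideal R) := by simpa using hs
  have hsF : algebraMap R F s ≠ 0 := by
    simpa using (IsFractionRing.injective R F).ne hs
  obtain ⟨u, hu⟩ := Multiset.exists_smul_of_dvd_count (normalizedFactors (Ideal.span {s})) (k := m)
    fun P hP => by
      have hP' := prime_of_normalized_factor P hP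
      obtain ⟨w, hw⟩ := exists_place_of_prime hk
        (⟨P, Ideal.isPrime_of_prime hP', hP'.ne_zero⟩ : HeightOneSpectrum R)
      have h1 := count_normalizedFactors_span hs (hw _ hsF)
      exact Int.natCast_dvd_natCast.mp (h1 ▸ hord w)
  have he : u.prod ^ m = Ideal.span {s} := by
    rw [← Multiset.prod_nsmul, ← hu]
    exact associated_iff_eq.mp (prod_normalizedFactors hsI)
  exact ⟨u.prod, fun h => hsI (by rw [← he, h, ← Ideal.zero_eq_bot, zero_pow hm.ne']), he⟩

end Dedekind

section Curve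

variable {K k : Type*} [Field K] [Field k] {A : ValuationSubring K} {π : A →+* k}
variable {S : CurveRed A π} {n₀ : ℕ}

/-- Every reduced function is a quotient of regular ones. -/
theorem exists_mul_mem_Cbar (hgap : S.GapBound n₀) [FF.IsFunctionField k S.Fbar]
    {f : LaurentSeries k} (hf : f ∈ S.Fbar) :
    ∃ b : S.Cbar, b ≠ 0 ∧ f * b ∈ S.Cbar := by
  obtain ⟨x, hx, hx0, hxo⟩ := hgap.exists_order_eq (n := (n₀ : ℤ) + 1) (by omega)
  have hxC : x ∈ S.Cbar := hgap.mem_Cbar_iff.mpr hx.1
  set xb : S.Fbar := ⟨x, hx.1.1⟩ with hxb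
  have htr : Transcendental k xb := fun halg => by
    obtain ⟨p, hp0, hp⟩ := halg
    have hp' : Polynomial.aeval x p = 0 := by
      rw [show x = S.Fbar.val xb from rfl, Polynomial.aeval_algHom_apply, hp, map_zero]
    have hsep := congrArg (fun y : LaurentSeries k => y.coeff ((p.natDegree : ℤ) * x.order)) hp'
    simp only [Polynomial.aeval_eq_sum_range, HahnSeries.coeff_sum, HahnSeries.coeff_zero] at hsep
    rw [Finset.sum_eq_single p.natDegree] at hsep
    · rw [← order_pow' hx0, Algebra.smul_def, algebraMap_laurentSeries_eq_single,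
        HahnSeries.coeff_single_zero_mul, mul_eq_zero] at hsep
      rcases hsep with h | h
      · exact hp0 (Polynomial.leadingCoeff_eq_zero.mp h)
      · exact pow_ne_zero p.natDegree hx0 (HahnSeries.coeff_order_eq_zero.mp h)
    · intro i hi hne
      rw [Algebra.smul_def, algebraMap_laurentSeries_eq_single, HahnSeries.coeff_single_zero_mul,
        HahnSeries.coeff_eq_zero_of_lt_order, mul_zero]
      rw [order_pow' hx0, hxo]
      have : i < p.natDegree := by
        have := Finset.mem_range.mp hi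
        omega
      have : (i : ℤ) < p.natDegree := by exact_mod_cast this
      nlinarith
    · exact fun h => absurd (Finset.self_mem_range_succ p.natDegree) h
  have := FF.finite_adjoin_simple htr
  have halg : IsAlgebraic (Algebra.adjoin k ({xb} : Set S.Fbar)) (⟨f, hf⟩ : S.Fbar) :=
    IntermediateField.isAlgebraic_adjoin_iff.mp (Algebra.IsAlgebraic.isAlgebraic _)
  have hle : ∀ y ∈ Algebra.adjoin k ({xb} : Set S.Fbar), (y : LaurentSeries k) ∈ S.Cbar := by
    intro y hy
    have : Algebra.adjoin k ({xb} : Set S.Fbar) ≤ S.Cbar.comap S.Fbar.val :=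
      Algebra.adjoin_le (Set.singleton_subset_iff.mpr hxC)
    exact this hy
  let g : Algebra.adjoin k ({xb} : Set S.Fbar) →+* S.Cbar :=
    (S.Fbar.val.toRingHom.comp (Algebra.adjoin k ({xb} : Set S.Fbar)).val.toRingHom).codRestrict
      S.Cbar fun y => hle y y.2
  have halgC : IsAlgebraic S.Cbar f := by
    obtain ⟨p, hp0, hp⟩ := halg
    have hg : Function.Injective g := fun a b h =>
      Subtype.ext (Subtype.ext (congrArg (fun c : S.Cbar => (c : LaurentSeries k)) h))
    refine ⟨p.map g, (Polynomial.map_ne_zero_iff hg).mpr hp0, ?_⟩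
    have h2 := congrArg S.Fbar.val hp
    rw [map_zero, Polynomial.aeval_def] at h2
    rw [Polynomial.aeval_def, Polynomial.eval₂_map]
    refine Eq.trans ?_ h2
    exact (Polynomial.hom_eval₂ p
      (algebraMap (Algebra.adjoin k ({xb} : Set S.Fbar)) S.Fbar) S.Fbar.val.toRingHom
      (⟨f, hf⟩ : S.Fbar)).symm
  obtain ⟨b, hb, hint⟩ := halgC.exists_integral_multiple
  refine ⟨b, hb, hgap.mem_Cbar_iff.mpr ⟨S.Fbar.mul_mem hf (S.Cbar_le_Fbar b.2), ?_⟩⟩
  rw [mul_comm]
  rwa [Algebra.smul_def] at hint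

/-- A regular reduced function lifts. -/
theorem exists_lift_Cbar {a : S.Cbar} (ha : a ≠ 0) :
    ∃ u : S.F, u ≠ 0 ∧ Red A π (u : LaurentSeries K) (a : LaurentSeries k) := by
  obtain ⟨n, y, hy, hyx⟩ := S.mem_Cbar.mp a.2
  obtain ⟨u, rfl, -⟩ := S.exists_of_mem_space hy
  refine ⟨u, fun h => ?_, hyx⟩
  subst h
  exact ha (Subtype.ext (hyx.unique red_zero))

/-- **A reduced function with divisor divisible by `m` is a reduced Kummer function.** -/
theorem exists_kum_of_dvd [IsAlgClosed K] (hgap : S.GapBound n₀) [FF.IsFunctionField k S.Fbar]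
    {m : ℕ} (hm : (m : k) ≠ 0) (hfin : {z : Pic0 K S.F | (m : ℤ) • z = 0}.Finite)
    (hA : ∃ c : K, c ≠ 0 ∧ A.valuation c < 1) {f : S.Fbar} (hf : f ≠ 0)
    (hord : ∀ v : Place k S.Fbar, (m : ℤ) ∣ v.ord f) :
    ∃ z : Pic0 K S.F, (m : ℤ) • z = 0 ∧ Kum π S.F.val m z (f : LaurentSeries k) := by
  classical
  have := hgap.isDedekindDomain
  have hm0 : 0 < m := Nat.pos_of_ne_zero fun h0 => hm (by simp [h0])
  let i : S.Cbar →+* S.Fbar :=
    S.Cbar.val.toRingHom.codRestrict S.Fbar fun c => S.Cbar_le_Fbar c.2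
  let : Algebra S.Cbar S.Fbar := i.toAlgebra
  have hi : Function.Injective i := fun a b h =>
    Subtype.ext (congrArg (fun y : S.Fbar => (y : LaurentSeries k)) h)
  have : FaithfulSMul S.Cbar S.Fbar := (faithfulSMul_iff_algebraMap_injective _ _).mpr hi
  have : IsFractionRing S.Cbar S.Fbar := IsFractionRing.of_field _ _ fun z => by
    obtain ⟨b, hb, hzb⟩ := exists_mul_mem_Cbar hgap z.2
    refine ⟨⟨_, hzb⟩, b, ?_⟩
    exact (eq_div_iff ((map_ne_zero_iff _ hi).mpr hb)).mpr rfl
  -- an `m`-th power multiple of `f` is regular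
  obtain ⟨b, hb, hfb⟩ := exists_mul_mem_Cbar hgap f.2
  set s : S.Cbar := ⟨(f : LaurentSeries k) * b, hfb⟩ * b ^ (m - 1) with hsdef
  have hsF : (s : LaurentSeries k) = (f : LaurentSeries k) * (b : LaurentSeries k) ^ m := by
    rw [hsdef]
    push_cast
    rw [mul_assoc, ← pow_succ', show m - 1 + 1 = m by omega]
  have hfs : (f : LaurentSeries k) ≠ 0 := fun h => hf (Subtype.ext h)
  have hbs : (b : LaurentSeries k) ≠ 0 := fun h => hb (Subtype.ext h)
  have hs : s ≠ 0 := fun h => mul_ne_zero hfs (pow_ne_zero m hbs) (by rw [← hsF, h]; rfl)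
  have hsi : algebraMap S.Cbar S.Fbar s = f * (i b) ^ m := Subtype.ext hsF
  obtain ⟨I, hI, hIs⟩ := exists_pow_eq_span (R := S.Cbar) (k := k) (F := S.Fbar)
    (fun a => ⟨algebraMap k S.Cbar a, rfl⟩) hm0 hs fun w => by
      rw [hsi, w.ord_mul hf (pow_ne_zero m ((map_ne_zero_iff _ hi).mpr hb)), FF.ord_pow]
      exact dvd_add (hord w) (dvd_mul_right _ _)
  obtain ⟨E₀, hE₀, rfl⟩ := exists_effIdeal'_eq hgap hI
  -- lift the class
  obtain ⟨z, hz, hsp⟩ := exists_torsion_lift_eff hgap hm hfin hA hE₀ hIs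
  refine ⟨z, hz, ?_⟩
  obtain ⟨⟨D, hD⟩, rfl⟩ := Pic0.mk_surjective z
  obtain ⟨fz, hfz, hfzD⟩ := exists_div_of_mk_eq_zero
    (D := (m : ℤ) • (⟨D, hD⟩ : Divisor.degZero (K := K) (F := S.F))) hz
  obtain ⟨c, P, Q, M, hc, hP, hQ, hDPQ, hdivc⟩ := exists_eff_equiv (S := S) D
  -- comparing the classes
  rw [hgap.sp_mk] at hsp
  change hgap.classHom D = _ at hsp
  rw [hDPQ, map_sub, hgap.classHom_eq_zero_of_div hQ hc hdivc, sub_zero] at hsp
  obtain ⟨uP, huP⟩ := hgap.exists_effUnit hP
  obtain ⟨uE, huE⟩ := hgap.exists_effUnit hE₀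
  rw [hgap.classHom_eff hP uP huP, hgap.classHom_eff hE₀ uE huE] at hsp
  have hsp' : S.picClass (uP * uE⁻¹) = 0 := by
    have h1 : S.picClass (uP * uE⁻¹) + S.picClass uE = S.picClass uP := by
      rw [← picClass_mul, inv_mul_cancel_right]
    rw [hsp] at h1
    exact add_eq_right.mp h1
  obtain ⟨y, hy, hy0, hye⟩ := (picClass_eq_zero_iff _).mp hsp'
  have hPE : S.effIdeal P = Submodule.span S.Cbar {y} * S.effIdeal E₀ := by
    rw [← hye, ← huP, ← huE, ← Units.val_mul, inv_mul_cancel_right]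
  -- normalised regular functions
  have hreg : ∀ v, v ≠ S.pt → 0 ≤ v.ord c := fun v hv => by
    rw [hdivc v, S.atPt_of_ne _ hv, sub_zero]
    exact hQ v
  obtain ⟨e, he, xc, hxc, hec⟩ := S.normalizable c hreg hc
  set U : S.F := fz * c ^ m with hU
  have hU0 : U ≠ 0 := mul_ne_zero hfz (pow_ne_zero m hc)
  have hUdiv : ∀ v, v.ord U = ((m : ℤ) • P) v - S.atPt ((m : ℤ) * M) v := fun v => by
    have h1 := hfzD v
    change (m : ℤ) * D v = v.ord fz at h1
    rw [hU, v.ord_mul hfz (pow_ne_zero m hc), FF.ord_pow, ← h1, hdivc v, hDPQ,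
      atPt_apply_eq ((m : ℤ) * M), atPt_apply_eq M]
    simp only [Finsupp.smul_apply, Finsupp.sub_apply, smul_eq_mul]
    ring
  have hmP : S.IsEff ((m : ℤ) • P) := fun v => by
    rw [Finsupp.smul_apply]; exact smul_nonneg (Int.natCast_nonneg m) (hP v)
  obtain ⟨eU, heU, xU, hxU, hUr⟩ := S.normalizable U (fun v hv => by
    rw [hUdiv v, S.atPt_of_ne _ hv, sub_zero]; exact hmP v) hU0
  rw [smul_eq_algebraMap_mul] at hec hUr
  -- the ideal of `xU`
  have hspanU : S.effIdeal ((m : ℤ) • P) = Submodule.span S.Cbar {xU} := by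
    refine effIdeal_eq_span hmP (h := algebraMap K S.F eU * U) (M := (m : ℤ) * M)
      (mul_ne_zero ((map_ne_zero _).mpr heU) hU0) (fun v => ?_) hxU hUr
    rw [v.ord_mul ((map_ne_zero _).mpr heU) hU0, FF.ord_algebraMap, zero_add, hUdiv v]
  have hIm : S.effIdeal E₀ ^ m = Submodule.span S.Cbar {(s : LaurentSeries k)} := by
    rw [← hgap.effIdeal_nsmul hE₀]
    refine le_antisymm (fun w hw => ?_) ((Submodule.span_singleton_le_iff_mem _ _).mpr ?_)
    · have hmE : S.IsEff ((m : ℤ) • E₀) := fun v => by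
        rw [Finsupp.smul_apply]; exact smul_nonneg (Int.natCast_nonneg m) (hE₀ v)
      have : (⟨w, mem_Cbar_of_mem_effIdeal hmE hw⟩ : S.Cbar) ∈ Ideal.span {s} := by
        rw [← hIs, ← effIdeal'_smul hgap hE₀]; exact hw
      obtain ⟨a, ha⟩ := Ideal.mem_span_singleton'.mp this
      exact Submodule.mem_span_singleton.mpr ⟨a, congrArg Subtype.val ha⟩
    · show s ∈ S.effIdeal' ((m : ℤ) • E₀)
      rw [effIdeal'_smul hgap hE₀, hIs]
      exact Ideal.mem_span_singleton_self s
  have hgen : Submodule.span S.Cbar {xU} =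
      Submodule.span S.Cbar {y ^ m * (s : LaurentSeries k)} := by
    rw [← hspanU, hgap.effIdeal_nsmul hP, hPE, mul_pow, hIm, Submodule.span_pow,
      Set.singleton_pow, Submodule.span_mul_span, Set.singleton_mul_singleton]
  set X := y ^ m * (s : LaurentSeries k) with hX
  have hX0 : X ≠ 0 := mul_ne_zero (pow_ne_zero m hy0) fun h => hs (Subtype.ext h)
  obtain ⟨a₁, ha₁⟩ := Submodule.mem_span_singleton.mp
    (hgen ▸ Submodule.mem_span_singleton_self xU :
      xU ∈ Submodule.span S.Cbar {y ^ m * (s : LaurentSeries k)})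
  obtain ⟨a₂, ha₂⟩ := Submodule.mem_span_singleton.mp
    (hgen.symm ▸ Submodule.mem_span_singleton_self _ :
      y ^ m * (s : LaurentSeries k) ∈ Submodule.span S.Cbar {xU})
  rw [Algebra.smul_def] at ha₁ ha₂
  change (a₁ : LaurentSeries k) * X = xU at ha₁
  change (a₂ : LaurentSeries k) * xU = X at ha₂
  obtain ⟨u₀, hu₀, hu₀e⟩ := hgap.const_of_mul_eq_one a₁.2 a₂.2 (mul_right_cancel₀ hX0 (by
    rw [one_mul, mul_comm (a₁ : LaurentSeries k), mul_assoc, ha₁, ha₂]))
  -- the correcting function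
  obtain ⟨by', hby, hybC⟩ := exists_mul_mem_Cbar hgap hy
  have hxcC : xc ∈ S.Cbar := by
    refine S.mem_Cbar.mpr
      ⟨(-(c : LaurentSeries K).order).toNat, algebraMap K (LaurentSeries K) e * c, ?_, hec⟩
    refine (S.coe_mem_space (u := algebraMap K S.F e * c)).mpr fun v => Or.inr ?_
    rw [v.ord_mul ((map_ne_zero _).mpr he) hc, FF.ord_algebraMap, zero_add]
    rcases eq_or_ne v S.pt with rfl | hv
    · rw [S.atPt_self, S.ord_pt]; omega
    · rw [S.atPt_of_ne _ hv, neg_zero]; exact hreg v hv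
  set α : S.Cbar := ⟨y * by', hybC⟩ * b with hαdef
  set β : S.Cbar := by' * ⟨xc, hxcC⟩ with hβdef
  have hbys : (by' : LaurentSeries k) ≠ 0 := fun h => hby (Subtype.ext h)
  have hα : α ≠ 0 := fun h => mul_ne_zero (mul_ne_zero hy0 hbys) hbs (by
    have := congrArg Subtype.val h; simpa [hαdef] using this)
  have hβ : β ≠ 0 := fun h => mul_ne_zero hbys hxc (by
    have := congrArg Subtype.val h; simpa [hβdef] using this)
  obtain ⟨lα, hlα, hαr⟩ := exists_lift_Cbar hα
  obtain ⟨lβ, hlβ, hβr⟩ := exists_lift_Cbar hβ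
  set h : S.F := lα / lβ with hh
  have hh0 : h ≠ 0 := div_ne_zero hlα hlβ
  obtain ⟨Eh, hEh, hEhdeg⟩ := S.exists_div hh0
  refine ⟨⟨D - Eh, Divisor.mem_degZero.mpr (by
      rw [map_sub, Divisor.mem_degZero.mp hD, hEhdeg, sub_zero])⟩, fz / h ^ m,
    div_ne_zero hfz (pow_ne_zero m hh0), ?_, fun v => ?_, ?_⟩
  · rw [← sub_eq_zero, show ∀ a b : Divisor.degZero (K := K) (F := S.F),
      Pic0.mk a - Pic0.mk b = Pic0.mk (a - b) from fun a b => rfl]
    refine mk_eq_zero_of_div (u := h⁻¹) (inv_ne_zero hh0) fun v => ?_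
    rw [AddSubgroupClass.coe_sub, v.ord_inv, ← hEh v]
    change (D - Eh - D) v = _
    rw [sub_sub_cancel_left, Finsupp.neg_apply]
  · have h1 := hfzD v
    change (m : ℤ) * D v = v.ord fz at h1
    rw [FF.ord_div v hfz (pow_ne_zero m hh0), FF.ord_pow, ← h1, ← hEh v]
    change _ = (m : ℤ) * (D - Eh) v
    rw [Finsupp.sub_apply]; ring
  · have hnU : NRed A π (S.F.val U) xU := NRed.of_red heU hUr hxU
    have hnc : NRed A π (S.F.val c) xc := NRed.of_red he hec hxc
    have hnl : ∀ {l : S.F} {a : S.Cbar}, a ≠ 0 →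
        Red A π (l : LaurentSeries K) (a : LaurentSeries k) →
        NRed A π (S.F.val l) (a : LaurentSeries k) := fun {l a} ha hr =>
      NRed.of_red one_ne_zero (by rw [map_one, one_mul]; exact hr) fun h => ha (Subtype.ext h)
    have hnh : NRed A π (S.F.val h) ((α : LaurentSeries k) / β) := by
      rw [hh, map_div₀]; exact (hnl hα hαr).div (hnl hβ hβr)
    have hnfz : NRed A π (S.F.val fz) (xU / xc ^ m) := by
      have := hnU.div (hnc.pow m)
      rw [← map_pow, ← map_div₀, hU, mul_div_cancel_right₀ _ (pow_ne_zero m hc)] at this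
      exact this
    have hn := (hnfz.div (hnh.pow m)).mul_const S.surj (inv_ne_zero hu₀)
    rw [← map_pow, ← map_div₀] at hn
    convert hn using 1
    rw [← ha₁, hu₀e, hX, hsF, hαdef, hβdef, map_inv₀]
    push_cast
    have := (map_ne_zero (algebraMap k (LaurentSeries k))).mpr hu₀
    field_simp
    rw [div_pow, mul_div_cancel₀ _ (pow_ne_zero m hxc), mul_pow]

end Curve

section Level

local notation "ℚbar" => AlgebraicClosure ℚ

theorem kum_transport {k : Type*} [Field k] {A : ValuationSubring ℚbar} {π : A →+* k}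
    {E F : IntermediateField ℚbar (LaurentSeries ℚbar)} (h : E = F) {m : ℕ} {g : LaurentSeries k}
    (hg : ∃ z : Pic0 ℚbar F, (m : ℤ) • z = 0 ∧ Kum π F.val m z g) :
    ∃ z : Pic0 ℚbar E, (m : ℤ) • z = 0 ∧ Kum π E.val m z g := by
  subst h; exact hg

theorem finite_setOf_smul_eq_zero {E F : IntermediateField ℚbar (LaurentSeries ℚbar)} (h : E = F)
    {m : ℕ} (hF : {z : Pic0 ℚbar E | (m : ℤ) • z = 0}.Finite) :
    {z : Pic0 ℚbar F | (m : ℤ) • z = 0}.Finite := by
  subst h; exact hF

theorem finite_setOf_smul_jZero (M m : ℕ) [NeZero M] [NeZero m] :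
    {z : Pic0 ℚbar (modularFunctionFieldBar M) | (m : ℤ) • z = 0}.Finite := by
  have := FlatModel.finite_torsion M m
  exact Set.Finite.subset (Set.toFinite (Pic0.torsion ℚbar (modularFunctionFieldBar M) m : Set _))
    fun z hz => hz

/-- **A function on the reduction of `X₀(M)` at `q ∤ M m` with orders divisible by `m` is the
reduced Kummer function of an `m`-torsion point.** -/
theorem exists_kum_lower {q : ℕ} [Fact q.Prime] (A : ValuationSubring ℚbar)
    (hA : A.LiesOverPrime q) (M : ℕ) [NeZero M] (hqM : ¬ q ∣ M) {m : ℕ} (hqm : ¬ q ∣ m)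
    (f : modularFunctionFieldFullC (IsLocalRing.ResidueField A) M) (hf : f ≠ 0)
    (hord : ∀ v : Place (IsLocalRing.ResidueField A)
      (modularFunctionFieldFullC (IsLocalRing.ResidueField A) M), (m : ℤ) ∣ v.ord f) :
    ∃ z : JZero M, (m : ℤ) • z = 0 ∧
      Kum (IsLocalRing.residue A) (expN M) m z
        (f : LaurentSeries (IsLocalRing.ResidueField A)) := by
  have hq : q.Prime := Fact.out
  have := Gal.isAlgClosed_residueField A
  have hm0 : NeZero m := ⟨fun h => hqm (h ▸ dvd_zero q)⟩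
  obtain ⟨n₀, hgap⟩ := Reduction.Level.exists_gapBound_qbar A hA M hqM
  have : FF.IsFunctionField (IsLocalRing.ResidueField A)
      (Reduction.Level.qbarCurve A hA M hqM).Fbar :=
    FF.isFunctionField_fullC _ M (Reduction.Level.natCast_residueField_ne_zero A hA hqM)
  have hF : modularFunctionFieldBar M = (Reduction.Level.qbarCurve A hA M hqM).F :=
    Reduction.Level.modularFunctionFieldBar_eq_fullC M
  refine kum_transport hF (exists_kum_of_dvd hgap
    (Reduction.Level.natCast_residueField_ne_zero A hA hqm)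
    (finite_setOf_smul_eq_zero hF (finite_setOf_smul_jZero M m))
    ⟨q, Nat.cast_ne_zero.mpr hq.ne_zero, A.mem_nonunits_iff.mp hA⟩ (f := f) hf hord)

end Level

end Fermat.Agent.MazurPrinciple
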