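import Fermat.Agent.Root.Attached
import Fermat.Agent.RootResidual.Compare
import Fermat.Agent.GalRep.CoeffRing
import Fermat.Agent.Newform.BadCoeff

/-!
# A residual newform is not new at the auxiliary prime

A residual newform is not new at a good prime whose trace is not `± (r + 1)` modulo `p`.
-/

set_option autoImplicit false

noncomputable section

namespace Fermat.Agent.MazurPrinciple

open WeierstrassCurve Polynomial IsLocalRing ModularFormClass
open scoped WeierstrassCurve.Affine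

local notation "ℚbar" => AlgebraicClosure ℚ
local notation "Γℚbar" => AlgebraicClosure ℚ ≃ₐ[ℚ] AlgebraicClosure ℚ

theorem eq_of_quad_two {O : Type*} [CommRing O] {m : Matrix (Fin 2) (Fin 2) O}
    (hm : IsUnit m.det) {s : O} (hs : s * s = 1)
    (h : (m - (m.det * s) • 1) * (m - s • 1) = 0) : m.trace = s * (m.det + 1) := by
  have hch : m * m = m.trace • m - m.det • (1 : Matrix (Fin 2) (Fin 2) O) := by
    ext i j
    fin_cases i <;> fin_cases j <;>
      simp [Matrix.mul_apply, Fin.sum_univ_two, Matrix.det_fin_two, Matrix.trace_fin_two,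
        Matrix.smul_apply] <;> ring
  have h1 : (m.trace - s * (m.det + 1)) • m = 0 := by
    rw [mul_sub, sub_mul, sub_mul, hch, mul_smul_comm, mul_one, smul_mul_assoc, one_mul,
      smul_mul_smul_comm, one_mul, mul_assoc, hs, mul_one] at h
    rw [← h]
    module
  have h4 : (m.trace - s * (m.det + 1)) • (m.adjugate * m) = 0 := by
    rw [← mul_smul_comm, h1, mul_zero]
  rw [Matrix.adjugate_mul, smul_smul] at h4
  have h5 := congrFun (congrFun h4 0) 0
  simp at h5
  exact sub_eq_zero.1 ((hm.mul_left_eq_zero).1 h5)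

/-- **Not new at an auxiliary prime.** -/
theorem not_dvd_of_resNewform (W : WeierstrassCurve ℤ) (hΔ : W.Δ ≠ 0) (p : ℕ) [Fact p.Prime]
    {M r : ℕ} [NeZero M] (hr : r.Prime) (hrp : r ≠ p) (hgood : W.IsGoodPrimeFor r)
    (hr2 : ¬ r ^ 2 ∣ M) (h : Root.ResNewform p W M)
    (htr : ∀ e : ℤ, e = 1 ∨ e = -1 → ¬ (p : ℤ) ∣ W.apOfModel r - e * (r + 1)) : ¬ r ∣ M := by
  intro hrM
  have hp : p.Prime := Fact.out
  obtain ⟨g, 𝔪, hg, h𝔪, hp𝔪, hgW, -⟩ := h
  have := Fermat.Agent.S22.result M 2 ∅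
  let κ := GalRep.eigenCharacterInt hg.1
  let a : ℕ → integralClosure ℤ ℂ := fun n => κ (Hecke.heckeTn M n)
  have ha : ∀ n, (a n : ℂ) = qCoeff ⇑g n := fun n => Hecke.eigenCharacter_heckeTn hg.1 n
  have hκ : Module.Finite ℤ κ.range :=
    Module.Finite.of_surjective κ.rangeRestrict.toIntAlgHom.toLinearMap κ.rangeRestrict_surjective
  let R := Subring.closure (Set.range a)
  have hR : R ≤ κ.range := Subring.closure_le.mpr (by rintro _ ⟨n, rfl⟩; exact ⟨_, rfl⟩)
  have : IsNoetherian ℤ κ.range := isNoetherian_of_isNoetherianRing_of_finite ℤ κ.range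
  have : Module.Finite ℤ R :=
    Module.Finite.of_injective (Subring.inclusion hR).toIntAlgHom.toLinearMap
      (Subring.inclusion_injective hR)
  let P : Ideal R := 𝔪.comap R.subtype
  have : P.IsPrime := Ideal.IsPrime.comap _
  have hpP : (p : R) ∈ P := by
    show R.subtype (p : R) ∈ 𝔪
    rwa [map_natCast]
  obtain ⟨O₀, _, _, _, _, _, _, ι, hpO₀, hι⟩ := GalRep.exists_coeff_ring p R P hpP
  obtain ⟨O, _, _, _, _, _, _, j, -, hj, ρ, -, hρ, hloc⟩ :=
    Root.exists_attached M g hg.1 a ha p O₀ hpO₀ ι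
  have := hj
  have hmem : ∀ x : O₀, x ∈ maximalIdeal O₀ → j x ∈ maximalIdeal O := fun x hx => map_nonunit j x hx
  have hpO : (p : O) ∈ maximalIdeal O := by simpa using hmem _ hpO₀
  have : CharP (ResidueField O) p := (CharP.charP_iff_prime_eq_zero hp).mpr (by
    rw [← map_natCast (residue O), residue_eq_zero_iff]; exact hpO)
  let : Algebra (ZMod p) (ResidueField O) := (ZMod.castHom (dvd_refl p) (ResidueField O)).toAlgebra
  have := EC.Frobenius.isElliptic_map_rat hΔ
  set E := W.map (Int.castRingHom ℚ)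
  have hcard := Isogeny.card_torsionBy_baseChange (K := ℚbar) E (n := p)
    (Nat.cast_ne_zero.mpr hp.ne_zero)
  have hker := EC.Frobenius.galoisFactorsThroughFiniteLevel_torsion E hp.ne_zero
  set RE := E.residualGaloisRepOf p hcard hker
  set R' := RE.baseChangeAlong (ZMod.castHom (dvd_refl p) (ResidueField O))
  have hcp : ∀ ℓ : ℕ, ℓ.Prime → W.IsGoodPrimeFor ℓ → ℓ ≠ p → ∀ A : ValuationSubring ℚbar,
      A.LiesOverPrime ℓ → ∀ τ : Γℚbar, A.IsFrobeniusAt τ ℓ → LinearMap.charpoly (R'.ρ τ) =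
        X ^ 2 - C (W.apOfModel ℓ : (ResidueField O)) * X + C (ℓ : (ResidueField O)) := by
    intro ℓ hℓ hgd hℓp A hA τ hτ
    have hR : LinearMap.charpoly (RE.ρ τ) =
        X ^ 2 - C (W.apOfModel ℓ : ZMod p) * X + C (ℓ : ZMod p) := by
      have := EC.Frobenius.moduleFinite_torsion E p
      exact (EC.Frobenius.trace_det_charpoly_of_isIntegralModelOf
        (EC.Frobenius.isIntegralModelOf_map W) hℓ hgd (Ne.symm hℓp) hA hτ).2.2
    change LinearMap.charpoly ((RE.ρ τ).baseChange (ResidueField O)) = _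
    rw [LinearMap.charpoly_baseChange, hR]
    simp [Polynomial.map_sub, Polynomial.map_add, Polynomial.map_mul, Polynomial.map_pow]
  set S : Set ℕ := ↑(insert p (M.primeFactors ∪ W.Δ.natAbs.primeFactors))
  obtain ⟨A, hA⟩ := Gal.exists_liesOverPrime (L := ℚbar) hr
  obtain ⟨σ, hσ⟩ := Gal.exists_isFrobeniusAt hr hA
  have hres : LinearMap.charpoly (R'.ρ σ) = LinearMap.charpoly (ρ.residual.ρ σ) := by
    refine Density.residual_charpoly_eq_of_forall_frobenius R' ρ.residual S
      (Finset.finite_toSet _) (fun ℓ hℓ hℓS B hB τ hτ => ?_) σ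
    simp only [S, Finset.coe_insert, Finset.coe_union, Set.mem_insert_iff, Set.mem_union,
      Finset.mem_coe, Nat.mem_primeFactors, not_or] at hℓS
    have hℓM : ¬ ℓ ∣ M := fun hd => hℓS.2.1 ⟨hℓ, hd, NeZero.ne M⟩
    have hgd : W.IsGoodPrimeFor ℓ := fun hd =>
      hℓS.2.2 ⟨hℓ, Int.natCast_dvd.mp hd, Int.natAbs_ne_zero.mpr hΔ⟩
    obtain ⟨b, hb, hbW⟩ := hgW ℓ hℓ hgd hℓM hℓS.1
    obtain rfl : b = a ℓ := Subtype.ext (hb.trans (ha ℓ).symm)
    set x : R := ⟨a ℓ, Subring.subset_closure ⟨ℓ, rfl⟩⟩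
    have hx : x - (W.apOfModel ℓ : R) ∈ P := by
      show R.subtype (x - (W.apOfModel ℓ : R)) ∈ 𝔪
      rw [map_sub, map_intCast]
      exact hbW
    have h1 := hmem _ ((hι _).mpr hx)
    rw [map_sub, map_sub, map_intCast, map_intCast] at h1
    have h2 : residue O (j (ι x)) = (W.apOfModel ℓ : (ResidueField O)) := by
      rw [← map_intCast (residue O), ← sub_eq_zero, ← map_sub]
      exact (residue_eq_zero_iff _).mpr h1
    rw [hcp ℓ hℓ hgd hℓS.1 B hB τ hτ]
    change _ = LinearMap.charpoly ((ρ.ρ τ).baseChange (ResidueField O))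
    rw [LinearMap.charpoly_baseChange, (hρ ℓ hℓ (fun hd => (hℓ.dvd_mul.mp hd).elim hℓM fun hd' =>
      hℓS.1 ((Nat.prime_dvd_prime_iff_eq hℓ hp).mp hd')) B hB).2 τ hτ]
    simp [Polynomial.map_sub, Polynomial.map_add, Polynomial.map_mul, Polynomial.map_pow,
      ResidueField.algebraMap_eq, h2, x]
  have har : a r ^ 2 = 1 := Subtype.ext (by
    push_cast
    rw [ha]
    exact ((Newform.newformBadPrimeCoeff M) g hg r hr hrM).1 hr2)
  obtain ⟨s, hs, -, -, hquad⟩ := hloc r hr hrM hr2 har A hA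
  set φ : A.decompositionSubgroup ℚ := ⟨σ, ((Gal.isFrobeniusAt_iff A σ r).mp hσ).1⟩
  let b := Module.finBasisOfFinrankEq O ρ.V ρ.finrank_eq
  let e := LinearMap.toMatrixAlgEquiv b
  set m := e (ρ.ρ σ) with hm
  have hdet : LinearMap.det (ρ.ρ σ) = m.det := (LinearMap.det_toMatrix b (ρ.ρ σ)).symm
  have hunit : IsUnit m.det := by
    refine IsUnit.of_mul_eq_one (e (ρ.ρ σ⁻¹)).det ?_
    rw [hm, ← Matrix.det_mul, ← map_mul, ← map_mul, mul_inv_cancel, map_one, map_one,
      Matrix.det_one]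
  have hsum : m.trace = s φ * (m.det + 1) := by
    refine eq_of_quad_two hunit (hs φ) ?_
    have h1 := congrArg e (hquad φ φ)
    simp only [map_mul, map_sub, map_smul, map_one, map_zero] at h1
    rw [show LinearMap.det (ρ.ρ ↑φ) = m.det from hdet] at h1
    exact h1
  have hρchar : LinearMap.charpoly (ρ.residual.ρ σ) =
      X ^ 2 - C (residue O m.trace) * X + C (residue O m.det) := by
    change LinearMap.charpoly ((ρ.ρ σ).baseChange (ResidueField O)) = _
    rw [LinearMap.charpoly_baseChange, ← LinearMap.charpoly_toMatrix _ b,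
      show LinearMap.toMatrix b b (ρ.ρ σ) = m from rfl, Matrix.charpoly_fin_two]
    simp [Polynomial.map_sub, Polynomial.map_add, Polynomial.map_mul, Polynomial.map_pow,
      ResidueField.algebraMap_eq]
  rw [hcp r hr hgood hrp A hA σ hσ, hρchar] at hres
  have e0 : (r : (ResidueField O)) = residue O m.det := by
    simpa [Polynomial.coeff_X_pow] using congrArg (fun q : (ResidueField O)[X] => q.coeff 0) hres
  have e1 : (W.apOfModel r : (ResidueField O)) = residue O m.trace := by
    simpa [Polynomial.coeff_X_pow, neg_inj] using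
      congrArg (fun q : (ResidueField O)[X] => q.coeff 1) hres
  rw [hsum, map_mul, map_add, ← e0, map_one] at e1
  have hs' : residue O (s φ) * residue O (s φ) = 1 := by rw [← map_mul, hs φ, map_one]
  rcases mul_self_eq_one_iff.mp hs' with h1 | h1
  all_goals rw [h1] at e1
  · exact htr 1 (Or.inl rfl)
      ((CharP.intCast_eq_zero_iff (ResidueField O) p _).mp (by push_cast; rw [e1]; ring))
  · exact htr (-1) (Or.inr rfl)
      ((CharP.intCast_eq_zero_iff (ResidueField O) p _).mp (by push_cast; rw [e1]; ring))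

end Fermat.Agent.MazurPrinciple
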