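import Fermat.Agent.Newform.Degeneracy
import Fermat.Prelude.Def_FLTPrelim_Modularity
import Mathlib.Analysis.Complex.Polynomial.Basic

/-!
# Raising the level of an eigenform at a prime `r ∤ N`

An eigenform of level `N` as an eigenform of level `N r`, with `U_r` a root of `X² - a_r X + r`.
-/

set_option autoImplicit false

noncomputable section

namespace Fermat.Agent.MazurPrinciple

open ModularFormClass CongruenceSubgroup

/-- **Stabilisation at `r ∤ N`.** -/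
theorem exists_eigenform_raise {N r : ℕ} [NeZero N] [NeZero (N * r)] (hr : r.Prime) (hrN : ¬ r ∣ N)
    {f : CuspForm (Gamma0 N) 2} (hf : f.IsNormalizedEigenform) :
    ∃ g : CuspForm (Gamma0 (N * r)) 2, g.IsNormalizedEigenform ∧
      ∀ l : ℕ, l.Prime → l ≠ r → qCoeff ⇑g l = qCoeff ⇑f l := by
  obtain ⟨β, hβ⟩ : ∃ β : ℂ, β ^ 2 - qCoeff ⇑f r * β + r = 0 := by
    obtain ⟨z, hz⟩ := IsAlgClosed.exists_eq_mul_self (qCoeff ⇑f r ^ 2 / 4 - r)
    exact ⟨qCoeff ⇑f r / 2 + z, by linear_combination -hz⟩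
  have h1 : N * 1 ∣ N * r := by simp
  set g := Newform.degen (N * r) N 1 2 h1 f - β • Newform.degen (N * r) N r 2 dvd_rfl f with hg
  have hcoe : ∀ n, qCoeff ⇑g n =
      qCoeff ⇑f n - β * (if r ∣ n then qCoeff ⇑f (n / r) else 0) := by
    intro n
    rw [hg, Hecke.qCoeff_sub, Hecke.qCoeff_smul, Newform.qCoeff_degen_one, Newform.qCoeff_degen]
  have hnd : ∀ n, ¬ r ∣ n → qCoeff ⇑g n = qCoeff ⇑f n := fun n h => by
    rw [hcoe, if_neg h, mul_zero, sub_zero]
  have hmul : ∀ n, qCoeff ⇑g (r * n) = qCoeff ⇑f (r * n) - β * qCoeff ⇑f n := fun n => by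
    rw [hcoe, if_pos (dvd_mul_right r n), Nat.mul_div_cancel_left _ hr.pos]
  have hsplit : ∀ m n : ℕ, m.Coprime n → r ∣ m →
      qCoeff ⇑g (m * n) = qCoeff ⇑g m * qCoeff ⇑g n := by
    rintro m n hmn ⟨m', rfl⟩
    have hrn : ¬ r ∣ n := fun h => hr.not_isUnit (Nat.isUnit_iff.mpr
      (Nat.eq_one_of_dvd_coprimes hmn (dvd_mul_right r m') h))
    have hm'n : m'.Coprime n := hmn.coprime_dvd_left (dvd_mul_left m' r)
    rw [hmul m', mul_assoc, hmul, hnd n hrn, ← mul_assoc, hf.qCoeff_mul_of_coprime _ _ hmn,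
      hf.qCoeff_mul_of_coprime _ _ hm'n]
    ring
  refine ⟨g, ⟨?_, fun m n hmn => ?_, fun q k hq hqN => ?_, fun q k hq hqN => ?_⟩,
    fun l hl hlr => ?_⟩
  · rw [hnd 1 (fun h => hr.one_lt.ne' (Nat.dvd_one.mp h)), hf.qCoeff_one]
  · by_cases hm : r ∣ m
    · exact hsplit m n hmn hm
    by_cases hn : r ∣ n
    · rw [Nat.mul_comm m n, hsplit n m hmn.symm hn, mul_comm (qCoeff ⇑g n)]
    · rw [hnd m hm, hnd n hn, hnd (m * n) (fun h => (hr.dvd_mul.mp h).elim hm hn),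
        hf.qCoeff_mul_of_coprime _ _ hmn]
  · have hqr : ∀ i, ¬ r ∣ q ^ i := fun i h => hqN (dvd_mul_of_dvd_right
      ((Nat.prime_dvd_prime_iff_eq hr hq).mp (hr.dvd_of_dvd_pow h) ▸ dvd_rfl) N)
    have hqr1 : ¬ r ∣ q := by simpa using hqr 1
    rw [hnd _ (hqr _), hnd _ (hqr _), hnd _ (hqr _), hnd _ hqr1]
    exact hf.qCoeff_prime_pow_of_not_dvd q k hq fun h => hqN (dvd_mul_of_dvd_left h r)
  · by_cases hqr : q = r
    · subst hqr
      have h2 := hf.qCoeff_prime_pow_of_not_dvd q k hq hrN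
      rw [show q ^ (k + 2) = q * q ^ (k + 1) by ring, hmul,
        show qCoeff ⇑g q = qCoeff ⇑f q - β by
          have := hmul 1
          rwa [mul_one, hf.qCoeff_one, mul_one] at this,
        show qCoeff ⇑g (q ^ (k + 1)) = qCoeff ⇑f (q ^ (k + 1)) - β * qCoeff ⇑f (q ^ k) by
          rw [pow_succ', hmul],
        show q * q ^ (k + 1) = q ^ (k + 2) by ring, h2]
      linear_combination (-qCoeff ⇑f (q ^ k)) * hβ
    · have hqri : ∀ i, ¬ r ∣ q ^ i := fun i h =>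
        hqr ((Nat.prime_dvd_prime_iff_eq hr hq).mp (hr.dvd_of_dvd_pow h)).symm
      have hqr1 : ¬ r ∣ q := by simpa using hqri 1
      rw [hnd _ (hqri _), hnd _ (hqri _), hnd _ hqr1]
      exact hf.qCoeff_prime_pow_of_dvd q k hq ((hq.dvd_mul.mp hqN).resolve_right fun h =>
        hqr ((Nat.prime_dvd_prime_iff_eq hq hr).mp h))
  · exact hnd l fun h => hlr ((Nat.prime_dvd_prime_iff_eq hr hl).mp h).symm

end Fermat.Agent.MazurPrinciple
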