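import Fermat.Agent.GalRep.DatumJZero

/-!
# The statement of one step of Mazur's principle

`RepData` is a representation modulo `pⁿ` with prescribed Frobenius traces, `EigenPt` a torsion
point of `J₀(N)` with prescribed Hecke eigenvalues, and `StepProp` the statement of one step of
Mazur's principle modulo `pⁿ`.
-/

set_option autoImplicit false

noncomputable section

namespace Fermat.Agent.MazurPrinciple

open ModularCurve AlgebraicCurve

local notation "ℚbar" => AlgebraicClosure ℚ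
local notation "Γℚbar" => AlgebraicClosure ℚ ≃ₐ[ℚ] AlgebraicClosure ℚ

/-- A representation modulo `pⁿ` with Frobenius traces `a` away from `S`, with a non-scalar
commutator and not Eisenstein. -/
structure RepData (p n : ℕ) (a : ℕ → ℤ) (S : Finset ℕ) where
  /-- the representation -/
  ρ : Γℚbar →* Matrix (Fin 2) (Fin 2) (ZMod (p ^ n))
  finite : GaloisFactorsThroughFiniteLevel ρ
  commutator : ∃ h k : Γℚbar, IsUnit ((ρ (h * k * h⁻¹ * k⁻¹)).trace - 2)
  nonEis : ∃ σ : Γℚbar, IsUnit ((ρ σ).trace - 1 - (ρ σ).det)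
  frob : ∀ l : ℕ, l.Prime → l ∉ S → ∀ A : ValuationSubring ℚbar, A.LiesOverPrime l →
    ∀ σ : Γℚbar, A.IsFrobeniusAt σ l →
      (ρ σ).trace = (a l : ZMod (p ^ n)) ∧ (ρ σ).det = (l : ZMod (p ^ n))

/-- `q` can be removed: unramified, and `q ≢ 1` or residually non-scalar Frobenius. -/
structure RepData.GoodAt {p n : ℕ} {a : ℕ → ℤ} {S : Finset ℕ} (R : RepData p n a S) (q : ℕ) :
    Prop where
  unram : ∀ A : ValuationSubring ℚbar, A.LiesOverPrime q → ∀ τ ∈ A.inertiaSubgroupIn ℚ, R.ρ τ = 1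
  frob : q % p ≠ 1 ∨ ∀ A : ValuationSubring ℚbar, A.LiesOverPrime q →
    ∀ σ : Γℚbar, A.IsFrobeniusAt σ q →
      ¬ ∃ c : ℤ, ∀ i j, p ∣ (R.ρ σ i j - if i = j then (c : ZMod (p ^ n)) else 0).val

/-- A point killed by `pⁿ` on which `T_l` (`U_l` for `l ∣ N`) is `a l` for `l ∉ S₀`. -/
def EigenPt (N : ℕ) [NeZero N] (p n : ℕ) (a : ℕ → ℤ) (S₀ : Finset ℕ) (x : JZero N) : Prop :=
  p ^ n • x = 0 ∧ ∀ l : Nat.Primes, (l : ℕ) ∉ S₀ → heckeOperatorBar N l x = a l • x

/-- **Mazur's principle modulo `pⁿ`, one step.** A point of order `pⁿ` at level `M q` gives one of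
order at least `p ^ (n - δ)` at level `M`; `r` is an auxiliary prime removing elliptic points, free
of charge when it divides `M`. -/
def StepProp : Prop :=
  ∀ (p n : ℕ) (a : ℕ → ℤ) (S S₀ : Finset ℕ) (R : RepData p n a S) (M q r δ : ℕ) [NeZero M]
    [NeZero (M * q)], S₀ ⊆ S → p.Prime → q.Prime → q ≠ p → ¬ q ∣ M → r.Prime → r % 4 = 3 →
    (r % 3 = 2 ∨ 2 ∣ M) → r ≠ q → r ≠ p → (r ∣ M ∨ ¬ p ^ (δ + 1) ∣ r + 1) → δ < n →
    GalRep.TorsionReduction (M * q) p → R.GoodAt q →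
    ∀ x : JZero (M * q), EigenPt (M * q) p n a S₀ x → p ^ (n - 1) • x ≠ 0 →
      ∃ y : JZero M, EigenPt M p n a (insert q S₀) y ∧ p ^ (n - 1 - δ) • y ≠ 0

end Fermat.Agent.MazurPrinciple
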