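import Fermat.Agent.MazurPrinciple.Algebra
import Fermat.Agent.MazurPrinciple.StepDef
import Fermat.Agent.MazurPrinciple.Exponent
import Fermat.Agent.Density.Places

/-!
# The eigen points as a Galois module

The eigen points of `J₀(N)[pⁿ]` as a Galois module: Frobenius density gives the quadratic
relations, the cyclotomic determinant, and a prime where the eigenvalue is not Eisenstein.
-/

set_option autoImplicit false

noncomputable section

namespace Fermat.Agent.MazurPrinciple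

open AlgebraicCurve ModularCurve
open Fermat.Agent.GalRep (TorsionReduction galois_zero galois_nsmul)
open Fermat.Agent.Kummer (Tors)

local notation "ℚbar" => AlgebraicClosure ℚ
local notation "Γℚbar" => AlgebraicClosure ℚ ≃ₐ[ℚ] AlgebraicClosure ℚ

/-! ### Powers -/

theorem sq_matrix_fin_two {R : Type*} [CommRing R] (A : Matrix (Fin 2) (Fin 2) R) :
    A * A = A.trace • A - A.det • (1 : Matrix (Fin 2) (Fin 2) R) := by
  ext i j
  fin_cases i <;> fin_cases j <;>
    simp [Matrix.mul_apply, Fin.sum_univ_two, Matrix.det_fin_two, Matrix.trace_fin_two] <;> ring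

theorem trace_pow_add_two {R : Type*} [CommRing R] (A : Matrix (Fin 2) (Fin 2) R) (j : ℕ) :
    (A ^ (j + 2)).trace = A.trace * (A ^ (j + 1)).trace - A.det * (A ^ j).trace := by
  rw [pow_add, pow_two, sq_matrix_fin_two, mul_sub, mul_smul_comm, mul_smul_comm, mul_one,
    ← pow_succ, Matrix.trace_sub, Matrix.trace_smul, Matrix.trace_smul, smul_eq_mul, smul_eq_mul]

/-- An invertible element killed by a characteristic polynomial: so are its powers. -/
theorem quad_pow {R E : Type*} [CommRing R] [Ring E] [Algebra R E]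
    (A : Matrix (Fin 2) (Fin 2) R) {x xi : E} (h1 : x * xi = 1) (h2 : xi * x = 1)
    (h : x * x - A.trace • x + A.det • (1 : E) = 0) (j : ℕ) :
    x ^ j * x ^ j - (A ^ j).trace • x ^ j + (A ^ j).det • (1 : E) = 0 := by
  set y : E := A.det • xi with hy
  have hxy : x * y = A.det • (1 : E) := by rw [hy, mul_smul_comm, h1]
  have hcomm : Commute x y := by
    show x * y = y * x
    rw [hxy, hy, smul_mul_assoc, h2]
  have hsum : x + y = A.trace • (1 : E) := by
    have := congrArg (fun z => xi * z) h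
    simp only [mul_add, mul_sub, mul_smul_comm, ← mul_assoc, h2, one_mul, mul_one, mul_zero] at this
    rw [hy]
    linear_combination (norm := module) this
  have hS : ∀ i, x ^ i + y ^ i = (A ^ i).trace • (1 : E) := by
    intro i
    induction i using Nat.twoStepInduction with
    | zero => simp [← one_add_one_eq_two, add_smul]
    | one => simpa using hsum
    | more i ih1 ih2 =>
      have e : x ^ (i + 2) + y ^ (i + 2) =
          (x + y) * (x ^ (i + 1) + y ^ (i + 1)) - x * y * (x ^ i + y ^ i) := by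
        rw [add_mul, mul_add, mul_add, mul_add, ← pow_succ', ← pow_succ',
          show x * y * x ^ i = y * x ^ (i + 1) by
            rw [hcomm.eq, mul_assoc, ← pow_succ'],
          show x * y * y ^ i = x * y ^ (i + 1) by rw [mul_assoc, ← pow_succ']]
        abel
      rw [show i + 1 + 1 = i + 2 from rfl, e, ih1, ih2, hsum, hxy, smul_mul_assoc, one_mul,
        smul_mul_assoc, one_mul, trace_pow_add_two]
      module
  have hprod : x ^ j * y ^ j = (A ^ j).det • (1 : E) := by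
    rw [← hcomm.mul_pow, hxy, smul_pow, one_pow, Matrix.det_pow]
  have := congrArg (fun z => x ^ j * z) (hS j)
  simp only [mul_add, mul_smul_comm, mul_one, hprod] at this
  linear_combination (norm := module) this

variable {Rr : Type*} [CommRing Rr] {W : Type*} [AddCommGroup W] [Module Rr W] {G : Type*}
  [Group G]

theorem quad_conj (act : G →* Module.End Rr W) (ρ : G →* Matrix (Fin 2) (Fin 2) Rr) (g τ : G)
    (h : act τ * act τ - (ρ τ).trace • act τ + (ρ τ).det • (1 : Module.End Rr W) = 0) :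
    act (g * τ * g⁻¹) * act (g * τ * g⁻¹) - (ρ (g * τ * g⁻¹)).trace • act (g * τ * g⁻¹) +
      (ρ (g * τ * g⁻¹)).det • (1 : Module.End Rr W) = 0 := by
  have hg : act g * act g⁻¹ = 1 := by rw [← map_mul, mul_inv_cancel, map_one]
  have hg' : act g⁻¹ * act g = 1 := by rw [← map_mul, inv_mul_cancel, map_one]
  rw [map_mul, map_mul, map_mul, map_mul, Matrix.det_mul, Matrix.det_mul, Matrix.trace_mul_cycle,
    ← map_mul ρ g⁻¹, inv_mul_cancel, map_one, one_mul]
  have hd : (ρ g).det * (ρ τ).det * (ρ g⁻¹).det = (ρ τ).det := by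
    rw [mul_right_comm, ← Matrix.det_mul, ← map_mul, mul_inv_cancel, map_one, Matrix.det_one,
      one_mul]
  rw [hd]
  have e := congrArg (fun z => act g * z * act g⁻¹) h
  simp only [mul_add, add_mul, mul_sub, sub_mul, mul_smul_comm, smul_mul_assoc, mul_zero,
    zero_mul, mul_one] at e
  simp only [mul_assoc] at e ⊢
  rw [← mul_assoc (act g⁻¹) (act g), hg', one_mul]
  rwa [hg] at e

theorem quad_act_pow (act : G →* Module.End Rr W) (ρ : G →* Matrix (Fin 2) (Fin 2) Rr)
    (τ : G) (j : ℕ)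
    (h : act τ * act τ - (ρ τ).trace • act τ + (ρ τ).det • (1 : Module.End Rr W) = 0) :
    act (τ ^ j) * act (τ ^ j) - (ρ (τ ^ j)).trace • act (τ ^ j) +
      (ρ (τ ^ j)).det • (1 : Module.End Rr W) = 0 := by
  rw [map_pow, map_pow]
  exact quad_pow (ρ τ) (xi := act τ⁻¹) (by rw [← map_mul, mul_inv_cancel, map_one])
    (by rw [← map_mul, inv_mul_cancel, map_one]) h j

/-! ### The module -/

/-- The eigen points. -/
def eigPts (N : ℕ) [NeZero N] (p n : ℕ) (a : ℕ → ℤ) (S₀ : Finset ℕ) : AddSubgroup (JZero N) where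
  carrier := {x | EigenPt N p n a S₀ x}
  zero_mem' := ⟨nsmul_zero _, fun l _ => by rw [map_zero]; exact (zsmul_zero _).symm⟩
  add_mem' := fun {x y} hx hy => ⟨by rw [nsmul_add, hx.1, hy.1, add_zero],
    fun l hl => by rw [map_add, hx.2 l hl, hy.2 l hl]; exact (zsmul_add x y (a l)).symm⟩
  neg_mem' := fun {x} hx => ⟨by rw [neg_nsmul, hx.1, neg_zero],
    fun l hl => by rw [map_neg, hx.2 l hl]; exact (zsmul_neg x (a l)).symm⟩

variable {N : ℕ} [NeZero N] {p n : ℕ} {a : ℕ → ℤ} {S₀ : Finset ℕ}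

theorem nsmul_eigPts (x : eigPts N p n a S₀) : p ^ n • x = 0 :=
  Subtype.ext (by rw [AddSubgroupClass.coe_nsmul]; exact x.2.1)

instance : Module (ZMod (p ^ n)) (eigPts N p n a S₀) := AddCommGroup.zmodModule nsmul_eigPts

theorem coe_natCast_smul (c : ℕ) (x : eigPts N p n a S₀) :
    (((c : ZMod (p ^ n)) • x : eigPts N p n a S₀) : JZero N) = c • (x : JZero N) := by
  rw [Nat.cast_smul_eq_nsmul, AddSubgroupClass.coe_nsmul]

theorem coe_intCast_smul (c : ℤ) (x : eigPts N p n a S₀) :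
    (((c : ZMod (p ^ n)) • x : eigPts N p n a S₀) : JZero N) = c • (x : JZero N) := by
  rw [Int.cast_smul_eq_zsmul, AddSubgroupClass.coe_zsmul]

theorem EigenPt.galois (σ : Γℚbar) {x : JZero N} (hx : EigenPt N p n a S₀ x) :
    EigenPt N p n a S₀ (σ • x) :=
  ⟨by rw [← galois_nsmul, hx.1, galois_zero], fun l hl => by
    rw [Kummer.heckeOperatorBar_smul, hx.2 l hl]
    exact map_zsmul (DistribSMul.toAddMonoidHom (JZero N) σ) _ _⟩

variable (N p n a S₀) in
/-- The Galois action. -/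
def galAct : Γℚbar →* Module.End (ZMod (p ^ n)) (eigPts N p n a S₀) where
  toFun σ := ({ toFun := fun x => ⟨σ • (x : JZero N), x.2.galois σ⟩
                map_zero' := Subtype.ext (galois_zero N σ)
                map_add' := fun x y => Subtype.ext (smul_add σ (x : JZero N) y) } :
      eigPts N p n a S₀ →+ eigPts N p n a S₀).toZModLinearMap (p ^ n)
  map_one' := LinearMap.ext fun x => Subtype.ext (one_smul Γℚbar (x : JZero N))
  map_mul' σ τ := LinearMap.ext fun x => Subtype.ext (mul_smul σ τ (x : JZero N))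

theorem coe_galAct (σ : Γℚbar) (x : eigPts N p n a S₀) :
    ((galAct N p n a S₀ σ x : eigPts N p n a S₀) : JZero N) = σ • (x : JZero N) := rfl

variable [NeZero (p ^ n)] {S : Finset ℕ} (R : RepData p n a S)

theorem exists_level : ∃ L : IntermediateField ℚ ℚbar, FiniteDimensional ℚ L ∧
    ∀ σ σ' : Γℚbar, (∀ x ∈ L, σ x = σ' x) →
      R.ρ σ = R.ρ σ' ∧ galAct N p n a S₀ σ = galAct N p n a S₀ σ' := by
  obtain ⟨L₁, hL₁, h₁⟩ := R.finite
  obtain ⟨L₂, hL₂, h₂⟩ := Kummer.torsion_finiteLevel N (p ^ n)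
  refine ⟨L₁ ⊔ L₂, inferInstance, fun σ σ' h => ?_⟩
  have hfix : ∀ x ∈ L₁ ⊔ L₂, (σ'⁻¹ * σ) x = x := fun x hx => by
    rw [AlgEquiv.mul_apply, h x hx]
    exact σ'.symm_apply_apply x
  have e1 := h₁ _ fun x hx => hfix x ((le_sup_left : L₁ ≤ L₁ ⊔ L₂) hx)
  have e2 := h₂ _ fun x hx => hfix x ((le_sup_right : L₂ ≤ L₁ ⊔ L₂) hx)
  have hg : galAct N p n a S₀ (σ'⁻¹ * σ) = 1 := by
    refine LinearMap.ext fun x => Subtype.ext ?_
    have hx : (x : JZero N) ∈ Tors N (p ^ n) := by
      rw [Pic0.mem_torsion, natCast_zsmul]; exact x.2.1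
    have := congrArg
      (fun f : Module.End _ (Tors N (p ^ n)) => ((f ⟨x, hx⟩ : Tors N (p ^ n)) : JZero N)) e2
    simp only [JZero.coe_torsionGaloisRep_apply, Module.End.one_apply] at this
    exact this
  constructor
  · rw [show σ = σ' * (σ'⁻¹ * σ) by group, map_mul, e1, mul_one]
  · rw [show σ = σ' * (σ'⁻¹ * σ) by group, map_mul, hg, mul_one]

variable (hp : p.Prime) (hTR : TorsionReduction N p)

include hp hTR in
/-- **The quadratic relations.** -/
theorem quadRel_eigPts (hS : ∀ l, l ∉ S → ¬ l ∣ N → l ∉ S₀) :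
    QuadRel (galAct N p n a S₀) (fun g => (R.ρ g).trace) (fun g => (R.ρ g).det) := by
  obtain ⟨L, hL, hLeq⟩ := exists_level (N := N) (S₀ := S₀) R
  intro σ
  refine Density.forall_of_forall_frobenius L
    (fun σ => galAct N p n a S₀ σ * galAct N p n a S₀ σ - (R.ρ σ).trace • galAct N p n a S₀ σ +
      (R.ρ σ).det • (1 : Module.End (ZMod (p ^ n)) (eigPts N p n a S₀)) = 0)
    (fun σ σ' h hσ' => by rw [(hLeq σ σ' h).1, (hLeq σ σ' h).2]; exact hσ') (fun g τ h => ?_)
    (fun τ j h => ?_) ((S : Set ℕ) ∪ {l | l ∣ N * p})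
    (S.finite_toSet.union ((N * p).divisors.finite_toSet.subset fun l hl =>
      Nat.mem_divisors.mpr ⟨hl, mul_ne_zero (NeZero.ne N) hp.ne_zero⟩)) ?_ σ
  · exact quad_conj (galAct N p n a S₀) R.ρ g τ h
  · exact quad_act_pow (galAct N p n a S₀) R.ρ τ j h
  · intro l hl hlS A hA τ hτ
    simp only [Set.mem_union, Finset.mem_coe, Set.mem_ofPred_eq, not_or] at hlS
    obtain ⟨ht, hd⟩ := R.frob l hl hlS.1 A hA τ hτ
    refine LinearMap.ext fun x => Subtype.ext ?_
    have h2 := (hTR l hl hlS.2 A hA).2 τ hτ (x : JZero N) ⟨n, x.2.1⟩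
    have h3 : heckeOperatorBar N ⟨l, hl⟩ (τ • (x : JZero N)) = a l • (τ • (x : JZero N)) :=
      (x.2.galois τ).2 ⟨l, hl⟩ (hS l hlS.1 fun h => hlS.2 (h.mul_right p))
    rw [h3] at h2
    simp only [ht, hd, LinearMap.add_apply, LinearMap.sub_apply, LinearMap.smul_apply,
      Module.End.mul_apply, Module.End.one_apply, LinearMap.zero_apply, AddSubgroup.coe_add,
      AddSubgroupClass.coe_sub, coe_intCast_smul, coe_natCast_smul, coe_galAct,
      ZeroMemClass.coe_zero]
    exact h2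

/-- The determinant is the cyclotomic character. -/
theorem apply_root_eq_pow_det (hp : p.Prime) (σ : Γℚbar) {ζ : ℚbar} (hζ : ζ ^ p ^ n = 1) :
    σ ζ = ζ ^ (R.ρ σ).det.val := by
  obtain ⟨L₁, hL₁, h₁⟩ := R.finite
  have : NeZero ((p ^ n : ℕ) : ℚbar) := ⟨Nat.cast_ne_zero.mpr (NeZero.ne _)⟩
  obtain ⟨ζ₀, hζ₀⟩ := HasEnoughRootsOfUnity.exists_primitiveRoot ℚbar (p ^ n)
  have : FiniteDimensional ℚ (IntermediateField.adjoin ℚ {ζ₀}) :=
    IntermediateField.adjoin.finiteDimensional (Algebra.IsIntegral.isIntegral ζ₀)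
  set L := L₁ ⊔ IntermediateField.adjoin ℚ {ζ₀}
  have hpow : ∀ {d d' : ZMod (p ^ n)} {z : ℚbar}, z ^ p ^ n = 1 →
      z ^ (d * d').val = (z ^ d.val) ^ d'.val := fun {d d' z} hz => by
    rw [← pow_mul, ZMod.val_mul, ← pow_eq_pow_mod _ hz]
  refine Density.forall_of_forall_frobenius L
    (fun σ => ∀ ζ : ℚbar, ζ ^ p ^ n = 1 → σ ζ = ζ ^ (R.ρ σ).det.val)
    (fun σ σ' h hσ' z hz => ?_) (fun g τ h z hz => ?_) (fun τ j h => ?_)
    ((S : Set ℕ) ∪ {l | l ∣ p}) (S.finite_toSet.union (p.divisors.finite_toSet.subset fun l hl =>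
      Nat.mem_divisors.mpr ⟨hl, hp.ne_zero⟩)) ?_ σ ζ hζ
  · obtain ⟨i, -, rfl⟩ := hζ₀.eq_pow_of_pow_eq_one hz
    have hmem : ζ₀ ^ i ∈ L := pow_mem ((le_sup_right : _ ≤ L)
      (IntermediateField.mem_adjoin_simple_self ℚ ζ₀)) i
    have e1 : R.ρ σ = R.ρ σ' := by
      have := h₁ (σ'⁻¹ * σ) fun x hx => by
        rw [AlgEquiv.mul_apply, h x ((le_sup_left : L₁ ≤ L) hx)]
        exact σ'.symm_apply_apply x
      rw [show σ = σ' * (σ'⁻¹ * σ) by group, map_mul, this, mul_one]
    rw [h _ hmem, hσ' _ hz, e1]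
  · have hd : (R.ρ (g * τ * g⁻¹)).det = (R.ρ τ).det := by
      rw [map_mul, map_mul, Matrix.det_mul, Matrix.det_mul, mul_right_comm, ← Matrix.det_mul,
        ← map_mul, mul_inv_cancel, map_one, Matrix.det_one, one_mul]
    have hz' : (g⁻¹ : Γℚbar) z ^ p ^ n = 1 := by rw [← map_pow, hz, map_one]
    rw [hd, AlgEquiv.mul_apply, AlgEquiv.mul_apply, h _ hz', map_pow]
    exact congrArg (· ^ _) (g.apply_symm_apply z)
  · induction j with
    | zero => intro z hz; simp [ZMod.val_one_eq_one_mod, ← pow_eq_pow_mod _ hz]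
    | succ j ih =>
      intro z hz
      rw [pow_succ, AlgEquiv.mul_apply, h z hz, map_pow, ih z hz, ← hpow hz, map_mul,
        Matrix.det_mul]
  · intro l hl hlS A hA τ hτ z hz
    simp only [Set.mem_union, Finset.mem_coe, Set.mem_ofPred_eq, not_or] at hlS
    rw [(R.frob l hl hlS.1 A hA τ hτ).2, ZMod.val_natCast, ← pow_eq_pow_mod _ hz]
    exact Gal.apply_rootOfUnity_of_isFrobeniusAt hτ hl hA
      (fun h => hlS.2 (hl.dvd_of_dvd_pow h)) hz

/-- The determinant of Frobenius at `q ≠ p`. -/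
theorem det_frobenius (hp : p.Prime) {q : ℕ} (hq : q.Prime) (hqp : q ≠ p)
    {A : ValuationSubring ℚbar} (hA : A.LiesOverPrime q) {σ : Γℚbar} (hσ : A.IsFrobeniusAt σ q) :
    (R.ρ σ).det = (q : ZMod (p ^ n)) := by
  have : NeZero ((p ^ n : ℕ) : ℚbar) := ⟨Nat.cast_ne_zero.mpr (NeZero.ne _)⟩
  obtain ⟨ζ₀, hζ₀⟩ := HasEnoughRootsOfUnity.exists_primitiveRoot ℚbar (p ^ n)
  have h1 := apply_root_eq_pow_det R hp σ hζ₀.pow_eq_one
  rw [Gal.apply_rootOfUnity_of_isFrobeniusAt hσ hq hA
    (fun h => hqp ((Nat.prime_dvd_prime_iff_eq hq hp).mp (hq.dvd_of_dvd_pow h))) hζ₀.pow_eq_one,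
    pow_eq_pow_mod q hζ₀.pow_eq_one] at h1
  have h2 := hζ₀.pow_inj (Nat.mod_lt _ (Nat.pos_of_ne_zero (NeZero.ne _))) (ZMod.val_lt _) h1
  rw [← ZMod.natCast_zmod_val (R.ρ σ).det, ← h2, ZMod.natCast_mod]

omit [NeZero (p ^ n)] in
include R in
/-- **Some good prime is not Eisenstein.** -/
theorem exists_prime_not_eisenstein [IsLocalRing (ZMod (p ^ n))] (B : Set ℕ) (hB : B.Finite) :
    ∃ l : ℕ, l.Prime ∧ l ∉ S ∧ l ∉ B ∧ IsUnit ((a l : ZMod (p ^ n)) - 1 - (l : ZMod (p ^ n))) := by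
  by_contra hne
  push Not at hne
  obtain ⟨L₁, hL₁, h₁⟩ := R.finite
  obtain ⟨σ, hσ⟩ := R.nonEis
  set f := IsLocalRing.residue (ZMod (p ^ n))
  have key : f (R.ρ σ).trace = 1 + f (R.ρ σ).det := by
    refine Density.forall_of_forall_frobenius L₁
      (fun σ => f (R.ρ σ).trace = 1 + f (R.ρ σ).det) (fun σ σ' h hσ' => ?_) (fun g τ h => ?_)
      (fun τ j h => ?_) ((S : Set ℕ) ∪ B) (S.finite_toSet.union hB) ?_ σ
    · have := h₁ (σ'⁻¹ * σ) fun x hx => by
        rw [AlgEquiv.mul_apply, h x hx]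
        exact σ'.symm_apply_apply x
      rw [show σ = σ' * (σ'⁻¹ * σ) by group, map_mul, this, mul_one]
      exact hσ'
    · rw [map_mul, map_mul, Matrix.det_mul, Matrix.det_mul, Matrix.trace_mul_cycle,
        ← map_mul R.ρ g⁻¹, inv_mul_cancel, map_one, one_mul, mul_right_comm, ← Matrix.det_mul,
        ← map_mul R.ρ, mul_inv_cancel, map_one, Matrix.det_one, one_mul]
      exact h
    · rw [map_pow, Matrix.det_pow, map_pow]
      induction j using Nat.twoStepInduction with
      | zero => simp [← one_add_one_eq_two]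
      | one => simpa using h
      | more i ih1 ih2 =>
        rw [show i + 1 + 1 = i + 2 from rfl, trace_pow_add_two, map_sub, map_mul, map_mul, ih1, ih2,
          h]
        ring
    · intro l hl hlS A hA τ hτ
      simp only [Set.mem_union, Finset.mem_coe, not_or] at hlS
      rw [(R.frob l hl hlS.1 A hA τ hτ).1, (R.frob l hl hlS.1 A hA τ hτ).2, ← map_one f, ← map_add,
        ← sub_eq_zero, ← map_sub, IsLocalRing.residue_eq_zero_iff, IsLocalRing.mem_maximalIdeal,
        mem_nonunits_iff, ← sub_sub]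
      exact hne l hl hlS.1 hlS.2
  refine (hσ.map f).ne_zero ?_
  rw [map_sub, map_sub, map_one, key]
  ring

end Fermat.Agent.MazurPrinciple
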