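import Fermat.Agent.MazurPrinciple.RepOfCurve
import Fermat.Agent.MazurPrinciple.TorsEigen
import Fermat.Agent.LevelLowerP.ArithEigen
import Fermat.Agent.Newform.MultOne
import Fermat.Agent.Newform.BadCoeff
import Fermat.Agent.Newform.Decomposition
import Fermat.Agent.MazurPrinciple.AuxThree
import Fermat.Agent.MazurPrinciple.NewAtAux
import Fermat.Agent.MazurPrinciple.Stabilise

/-!
# Mazur's principle modulo `p` from one step of the principle

`mazur_lowering_of_step`: a residual newform of squarefree level `M` gives one of level dividing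
`M / q` at a prime `q ∣ M` where the representation is unramified and either `q ≢ 1 (mod p)` or
Frobenius is not scalar, given one step of the principle.
-/

set_option autoImplicit false

noncomputable section

namespace Fermat.Agent.MazurPrinciple

open AlgebraicCurve ModularCurve ModularFormClass CongruenceSubgroup Matrix
open Fermat.Agent.Kummer (Tors)
open Fermat.Agent.Cosets (homRank)
open Fermat.Agent.GalRep (torsCoord torsHecke torsCoord_torsHecke heckeMat TorsionReduction)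

local notation "ℚbar" => AlgebraicClosure ℚ
local notation "Γℚbar" => AlgebraicClosure ℚ ≃ₐ[ℚ] AlgebraicClosure ℚ

/-! ### Points and coordinate vectors -/

section Point

variable {N p : ℕ} [NeZero N] [Fact p.Prime] (a : ℕ → ℤ) (S₀ : Finset ℕ)

/-- An eigenvector modulo `p` gives a point. -/
theorem exists_eigenPt_of_eigvec {v : Fin (homRank N) → ZMod p} (hv0 : v ≠ 0)
    (hv : ∀ l : Nat.Primes, (l : ℕ) ∉ S₀ →
      (heckeMat N l).map (Int.cast : ℤ → ZMod p) *ᵥ v = (a l : ZMod p) • v) :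
    ∃ x : JZero N, x ≠ 0 ∧ EigenPt N p 1 a S₀ x := by
  have : NeZero p := ⟨(Fact.out : p.Prime).ne_zero⟩
  obtain ⟨x, rfl⟩ := (torsCoord N p).surjective v
  refine ⟨x, fun h => hv0 (by rw [show x = 0 from Subtype.ext h, map_zero]), ?_, fun l hl => ?_⟩
  · rw [pow_one]
    have := x.2
    rwa [Pic0.mem_torsion, natCast_zsmul] at this
  · have h := hv l hl
    rw [← torsCoord_torsHecke, Int.cast_smul_eq_zsmul, ← map_zsmul] at h
    exact congrArg Subtype.val ((torsCoord N p).injective h)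

/-- An eigen point gives an eigenvector. -/
theorem exists_eigvec_of_eigenPt (S' : Set Nat.Primes) {x : JZero N} (hx0 : x ≠ 0)
    (hxp : p ^ 1 • x = 0) (hx : ∀ l ∈ S', heckeOperatorBar N l x = a l • x) :
    ∃ v : Fin (homRank N) → ZMod p, v ≠ 0 ∧
      ∀ l ∈ S', (heckeMat N l).map (Int.cast : ℤ → ZMod p) *ᵥ v = (a l : ZMod p) • v := by
  have : NeZero p := ⟨(Fact.out : p.Prime).ne_zero⟩
  have hmem : x ∈ Tors N p := by rw [Pic0.mem_torsion, natCast_zsmul, ← pow_one p]; exact hxp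
  refine ⟨torsCoord N p ⟨x, hmem⟩, fun h => hx0 ?_, fun l hl => ?_⟩
  · exact congrArg Subtype.val ((torsCoord N p).injective (h.trans (map_zero _).symm))
  · rw [← torsCoord_torsHecke, Int.cast_smul_eq_zsmul, ← map_zsmul]
    exact congrArg _ (Subtype.ext (hx l hl))

end Point

/-! ### The eigenvalue at a good prime -/

variable {W : WeierstrassCurve ℤ} {p : ℕ} [Fact p.Prime] {a : ℕ → ℤ} {S S₀ : Finset ℕ}

/-- Eichler–Shimura and the quadratic relations give `T_ℓ = a_ℓ` on eigen points at every good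
prime. -/
theorem heckeOperatorBar_eigPt_of_good {N : ℕ} [NeZero N] (hTR : TorsionReduction N p)
    (R : RepData p 1 a S) (hS₀ : ∀ l, l ∉ S → ¬ l ∣ N → l ∉ S₀) {l : ℕ} (hl : l.Prime) (hlp : l ≠ p)
    (hlN : ¬ l ∣ N) (htr : ∀ A : ValuationSubring ℚbar, A.LiesOverPrime l → ∀ σ : Γℚbar,
      A.IsFrobeniusAt σ l → (R.ρ σ).trace = (a l : ZMod (p ^ 1)))
    {z : JZero N} (hz : EigenPt N p 1 a S₀ z) :
    heckeOperatorBar N ⟨l, hl⟩ z = a l • z := by
  have hp : p.Prime := Fact.out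
  have : NeZero (p ^ 1) := ⟨pow_ne_zero 1 hp.ne_zero⟩
  obtain ⟨A, hA⟩ := Gal.exists_liesOverPrime (L := ℚbar) hl
  obtain ⟨τ, hτ⟩ := Gal.exists_isFrobeniusAt hl hA
  have hlNp : ¬ l ∣ N * p := fun h =>
    (hl.dvd_mul.mp h).elim hlN fun h' => hlp ((Nat.prime_dvd_prime_iff_eq hl hp).mp h')
  set y : eigPts N p 1 a S₀ := ⟨τ⁻¹ • z, hz.galois τ⁻¹⟩
  have hq := LinearMap.congr_fun (quadRel_eigPts R hp hTR hS₀ τ) y
  have hq' := congrArg (fun w : eigPts N p 1 a S₀ => (w : JZero N)) hq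
  simp only [htr A hA τ hτ, det_frobenius R hp hl hlp hA hτ, LinearMap.add_apply,
    LinearMap.sub_apply, LinearMap.smul_apply, Module.End.mul_apply, Module.End.one_apply,
    LinearMap.zero_apply, AddSubgroup.coe_add, AddSubgroupClass.coe_sub, coe_intCast_smul,
    coe_natCast_smul, coe_galAct, ZeroMemClass.coe_zero] at hq'
  have hE := (hTR l hl hlNp A hA).2 τ hτ ((y : JZero N)) ⟨1, y.2.1⟩
  have hy : (y : JZero N) = τ⁻¹ • z := rfl
  rw [hy, smul_inv_smul] at hq' hE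
  rw [← sub_eq_zero]
  linear_combination (norm := abel) hq' - hE

/-! ### A newform from an eigen point -/

theorem sq_sub_one_mem {R : Type*} [CommRing R] (𝔪 : Ideal R) {c : R} {ε : ℤ}
    (hε : ε = 1 ∨ ε = -1) (h : c - (ε : R) ∈ 𝔪) : c ^ 2 - 1 ∈ 𝔪 := by
  have e : c ^ 2 - 1 = (c + (ε : R)) * (c - (ε : R)) := by
    rcases hε with rfl | rfl <;> push_cast <;> ring
  rw [e]
  exact 𝔪.mul_mem_left _ h

/-- An eigen point of squarefree level gives a residual newform of smaller or equal level. -/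
theorem exists_resNewform_of_eigPt (hred : ∀ (N p : ℕ) [NeZero N], p.Prime → TorsionReduction N p)
    (R : RepData p 1 a S) (ε : ℤ) (hε : ε = 1 ∨ ε = -1) (hap : a p = ε)
    (ha : ∀ l : ℕ, l.Prime → l ≠ p → a l = W.apOfModel l)
    (htr : ∀ l : ℕ, l.Prime → W.IsGoodPrimeFor l → l ≠ p → ∀ A : ValuationSubring ℚbar,
      A.LiesOverPrime l → ∀ σ : Γℚbar, A.IsFrobeniusAt σ l →
        (R.ρ σ).trace = (a l : ZMod (p ^ 1)))
    (hgood : ∀ l : ℕ, l.Prime → l ∉ S → W.IsGoodPrimeFor l ∧ l ≠ p)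
    (hS₀ : ∀ l, l ∉ S → l ∉ S₀) (hsub : ∀ l : ℕ, l.Prime → l ∈ S → l ∉ S₀ → l = p)
    (hp₀ : (p : ℤ) ∣ W.Δ → p ∉ S₀) :
    ∀ N : ℕ, Squarefree N → (∀ l : ℕ, l.Prime → l ∣ N → l ∈ S) →
      (∀ [NeZero N], ∃ x : JZero N, x ≠ 0 ∧ EigenPt N p 1 a S₀ x) →
      ∃ M : ℕ, M ∣ N ∧ Root.ResNewform p W M := by
  intro N
  induction N using Nat.strong_induction_on with
  | _ N ih =>
    intro hsq hNS hx
    have : NeZero N := ⟨hsq.ne_zero⟩
    have hp : p.Prime := Fact.out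
    obtain ⟨x, hx0, hxe⟩ := hx
    let S' : Set Nat.Primes :=
      {l | (l : ℕ) ∉ S₀ ∨ (W.IsGoodPrimeFor l ∧ ¬ (l : ℕ) ∣ N ∧ (l : ℕ) ≠ p)}
    obtain ⟨v, hv0, hv⟩ := exists_eigvec_of_eigenPt a S' hx0 hxe.1 fun l hl => by
      rcases hl with hl | ⟨hg, hlN, hlp⟩
      · exact hxe.2 l hl
      · exact heckeOperatorBar_eigPt_of_good (hred N p hp) R (fun l hl _ => hS₀ l hl) l.2 hlp hlN
          (htr l l.2 hg hlp) hxe
    obtain ⟨g, 𝔪, hg, h𝔪, hp𝔪, hc⟩ :=
      LevelLowerP.exists_eigenform_of_eigvec hv0 (fun l => a l) S' hv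
    obtain ⟨M', hM', g', hg', hga⟩ := Newform.exists_isNewform_goodEigensystem hg
    have : NeZero M' := ⟨fun h => hsq.ne_zero (by subst h; simpa using hM')⟩
    by_cases hMN : M' = N
    · subst hMN
      have e : g = g' := Newform.eq_of_isNewform hg' hg ∅ fun ℓ hℓ hℓN _ => (hga ℓ hℓ hℓN).symm
      refine ⟨M', dvd_rfl, g, 𝔪, e ▸ hg', h𝔪, hp𝔪, fun ℓ hℓ hgd hℓM hℓp => ?_, fun hpΔ => ?_⟩
      · obtain ⟨c, hc1, hc2⟩ := hc ⟨ℓ, hℓ⟩ (Or.inr ⟨hgd, hℓM, hℓp⟩)
        exact ⟨c, hc1, by simpa [ha ℓ hℓ hℓp] using hc2⟩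
      · obtain ⟨c, hc1, hc2⟩ := hc ⟨p, hp⟩ (Or.inl (hp₀ hpΔ))
        simp only [hap] at hc2
        exact ⟨c, hc1, sq_sub_one_mem 𝔪 hε hc2⟩
    · have hlt : M' < N := lt_of_le_of_ne (Nat.le_of_dvd (Nat.pos_of_ne_zero hsq.ne_zero) hM') hMN
      have hagree : ∀ ℓ : ℕ, ℓ.Prime → ℓ ∉ N.primeFactors → qCoeff ⇑g ℓ = qCoeff ⇑g' ℓ :=
        fun ℓ hℓ hℓN => (hga ℓ hℓ fun h => hℓN (Nat.mem_primeFactors.mpr ⟨hℓ, h, hsq.ne_zero⟩)).symm
      obtain ⟨v', hv'0, hv'⟩ := LevelLowerP.exists_eigvec hg'.1 h𝔪 hp𝔪 (fun l => a l)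
        {l : Nat.Primes | (l : ℕ) ∉ S₀} fun l hl c hcl => by
          obtain ⟨d, hd1, hd2⟩ := hc l (Or.inl hl)
          by_cases hld : (l : ℕ) ∣ N / M'
          · obtain ⟨l, hlpr⟩ := l
            change l ∉ S₀ at hl
            change l ∣ N / M' at hld
            have hlN : l ∣ N := hld.trans (Nat.div_dvd_of_dvd hM')
            obtain rfl : l = p := hsub l hlpr (hNS l hlpr hlN) hl
            have hlM : ¬ l ∣ M' := fun h => by
              have h2 : l * l ∣ M' * (N / M') := mul_dvd_mul h hld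
              rw [Nat.mul_div_cancel' hM'] at h2
              exact hlpr.not_isUnit (hsq l h2)
            have hk : (N / M').factorization l ≤ 1 :=
              (hsq.squarefree_of_dvd (Nat.div_dvd_of_dvd hM')).natFactorization_le_one l
            have hr := Newform.qCoeff_root_of_exactly_dvd hg hg' _ hagree hlpr hlN hlM hk
            have hr' : d ^ 2 - c * d + (l : integralClosure ℤ ℂ) = 0 := Subtype.ext (by
              push_cast
              rw [hd1, hcl]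
              exact hr)
            have e : c - ((ε : ℤ) : integralClosure ℤ ℂ) =
                ((ε : ℤ) : integralClosure ℤ ℂ) *
                  ((d - (ε : ℤ)) * (d + (ε : ℤ) - c) + (l : integralClosure ℤ ℂ)) := by
              rcases hε with rfl | rfl <;> push_cast at hr' ⊢
              · linear_combination -hr'
              · linear_combination hr'
            simp only [hap] at hd2 ⊢
            rw [e]
            exact 𝔪.mul_mem_left _ (add_mem (𝔪.mul_mem_right _ hd2) hp𝔪)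
          · have e := Newform.qCoeff_eq_of_not_dvd_div hg hg' _ hagree l.2 hld
            rwa [show c = d from Subtype.ext (hcl.trans (e.symm.trans hd1.symm))]
      obtain ⟨M, hM, hres⟩ := ih M' hlt (hsq.squarefree_of_dvd hM')
        (fun l hl h => hNS l hl (h.trans hM')) (exists_eigenPt_of_eigvec a S₀ hv'0 hv')
      exact ⟨M, hM.trans hM', hres⟩

/-! ### The principle -/

omit [Fact p.Prime] in
/-- For `p ≠ 2, 3` there is an auxiliary prime `r ≡ 11 (mod 12)` with `p ∤ r + 1`. -/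
theorem exists_aux_prime {q : ℕ} (hp : p.Prime) (hp2 : p ≠ 2) (h3 : p ≠ 3) :
    ∃ r : ℕ, r.Prime ∧ r % 4 = 3 ∧ r % 3 = 2 ∧ r ≠ q ∧ r ≠ p ∧ ¬ p ∣ r + 1 := by
  have hcop : Nat.Coprime 12 p := by
    rw [Nat.coprime_comm, hp.coprime_iff_not_dvd]
    intro h
    have h' : p ∣ 2 * 2 * 3 := h
    rcases hp.dvd_mul.mp h' with h' | h'
    · rcases hp.dvd_mul.mp h' with h' | h' <;>
        exact hp2 ((Nat.prime_dvd_prime_iff_eq hp Nat.prime_two).mp h')
    · exact h3 ((Nat.prime_dvd_prime_iff_eq hp Nat.prime_three).mp h')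
  obtain ⟨c, hc12, hcp⟩ := Nat.chineseRemainder hcop 11 1
  have hc : Nat.Coprime c (12 * p) := by
    refine Nat.Coprime.mul_right ?_ ?_
    · rw [Nat.Coprime, hc12.gcd_eq]; rfl
    · rw [Nat.Coprime, hcp.gcd_eq]; exact Nat.gcd_one_left p
  obtain ⟨r, hr, hrp, hmod⟩ := Nat.forall_exists_prime_gt_and_modEq (q + p)
    (mul_ne_zero (by norm_num) hp.ne_zero) hc
  have h12 : r % 12 = 11 := (hmod.of_dvd (dvd_mul_right 12 p)).trans hc12
  have h1 : r ≡ 1 [MOD p] := (hmod.of_dvd (dvd_mul_left p 12)).trans hcp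
  refine ⟨r, hrp, by omega, by omega, by omega, by omega, fun hd => hp2 ?_⟩
  have h2 : (1 + 1) % p = 0 := (h1.add_right 1).symm.trans (Nat.modEq_zero_iff_dvd.mpr hd)
  exact (Nat.prime_dvd_prime_iff_eq hp Nat.prime_two).mp (Nat.dvd_of_mod_eq_zero h2)

/-- Removing `q` from the level `L = M₁ q` of an eigenform congruent to `W`, by one step with the
auxiliary prime `r`. -/
theorem exists_resNewform_of_step (hstep : StepProp)
    (hred : ∀ (N p : ℕ) [NeZero N], p.Prime → TorsionReduction N p)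
    (W : WeierstrassCurve ℤ) (hW : Root.Semistable W) (p M₁ q r : ℕ) (hp : p.Prime)
    (hp2 : p ≠ 2) (hirr : W.ModRepIsIrreducible p) (hM : Squarefree (M₁ * q)) (hq : q.Prime)
    (hqp : q ≠ p) (hq1 : q % p ≠ 1 ∨ ¬ Root.FrobScalarMod p W q)
    (hunr : Root.UnramifiedMod p W q) (hr : r.Prime) (hr4 : r % 4 = 3)
    (hr3 : r % 3 = 2 ∨ 2 ∣ M₁) (hrq : r ≠ q) (hrp : r ≠ p) (hrd : r ∣ M₁ ∨ ¬ p ∣ r + 1)
    {L : ℕ} (hL : L = M₁ * q) {f : CuspForm (CongruenceSubgroup.Gamma0 L) 2}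
    (hf : f.IsNormalizedEigenform) {𝔪 : Ideal (integralClosure ℤ ℂ)} (h𝔪 : 𝔪.IsMaximal)
    (hp𝔪 : (p : integralClosure ℤ ℂ) ∈ 𝔪)
    (hfW : ∀ ℓ : ℕ, ℓ.Prime → W.IsGoodPrimeFor ℓ → ¬ ℓ ∣ L → ℓ ≠ p →
      ∃ a : integralClosure ℤ ℂ, (a : ℂ) = qCoeff ⇑f ℓ ∧
        a - ((W.apOfModel ℓ : ℤ) : integralClosure ℤ ℂ) ∈ 𝔪)
    (hfp : (p : ℤ) ∣ W.Δ → ∃ a : integralClosure ℤ ℂ, (a : ℂ) = qCoeff ⇑f p ∧ a ^ 2 - 1 ∈ 𝔪) :
    ∃ M' : ℕ, M' ∣ M₁ ∧ Root.ResNewform p W M' := by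
  classical
  subst hL
  have : Fact p.Prime := ⟨hp⟩
  have hqM : q ∣ M₁ * q := dvd_mul_left q M₁
  have : NeZero (M₁ * q) := ⟨hM.ne_zero⟩
  have : NeZero M₁ := ⟨left_ne_zero_of_mul hM.ne_zero⟩
  have hqM₁ : ¬ q ∣ M₁ := fun hd => hq.not_isUnit (hM q (mul_dvd_mul hd dvd_rfl))
  -- the eigenvalue at `p`
  obtain ⟨ε, hε, hεc⟩ : ∃ ε : ℤ, (ε = 1 ∨ ε = -1) ∧ ((p : ℤ) ∣ W.Δ →
      ∃ c : integralClosure ℤ ℂ, (c : ℂ) = qCoeff ⇑f p ∧ c - (ε : integralClosure ℤ ℂ) ∈ 𝔪) := by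
    by_cases hpΔ : (p : ℤ) ∣ W.Δ
    · obtain ⟨c, hc, hmem⟩ := hfp hpΔ
      rw [show c ^ 2 - 1 = (c - 1) * (c + 1) by ring] at hmem
      rcases h𝔪.isPrime.mem_or_mem hmem with h1 | h1
      · exact ⟨1, Or.inl rfl, fun _ => ⟨c, hc, by simpa using h1⟩⟩
      · exact ⟨-1, Or.inr rfl, fun _ => ⟨c, hc, by simpa using h1⟩⟩
    · exact ⟨1, Or.inl rfl, fun h => absurd h hpΔ⟩
  set S : Finset ℕ := insert p ((M₁ * q).primeFactors ∪ W.Δ.natAbs.primeFactors) with hSdef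
  have hgood : ∀ l : ℕ, l.Prime → l ∉ S → W.IsGoodPrimeFor l ∧ p ≠ l := fun l hl hlS => by
    simp only [hSdef, Finset.mem_insert, Finset.mem_union, Nat.mem_primeFactors, not_or] at hlS
    exact ⟨fun hd => hlS.2.2 ⟨hl, Int.natCast_dvd.mp hd, Int.natAbs_ne_zero.mpr hW.ne⟩,
      Ne.symm hlS.1⟩
  obtain ⟨R₀, htr₀, hgoodAt⟩ := exists_repData hW.ne hp2 hirr hgood
  let a : ℕ → ℤ := fun l => if l = p then ε else W.apOfModel l
  have ha : ∀ l : ℕ, l ≠ p → a l = W.apOfModel l := fun l hl => if_neg hl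
  let R : RepData p 1 a S :=
    { ρ := R₀.ρ, finite := R₀.finite, commutator := R₀.commutator, nonEis := R₀.nonEis
      frob := fun l hl hlS A hA σ hσ => by
        rw [ha l (Ne.symm (hgood l hl hlS).2)]
        exact R₀.frob l hl hlS A hA σ hσ }
  have hqS : q ∈ S := Finset.mem_insert_of_mem (Finset.mem_union_left _
    (Nat.mem_primeFactors.mpr ⟨hq, hqM, hM.ne_zero⟩))
  set S₀ : Finset ℕ := if (p : ℤ) ∣ W.Δ then S.erase p else S with hS₀def
  have hsub₀ : S₀ ⊆ S := by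
    rw [hS₀def]; split_ifs
    · exact Finset.erase_subset _ _
    · exact le_rfl
  have hmem₀ : ∀ l : ℕ, l ∈ S → l ∉ S₀ → l = p ∧ (p : ℤ) ∣ W.Δ := fun l hlS hl => by
    rw [hS₀def] at hl
    split_ifs at hl with h
    · exact ⟨by_contra fun hne => hl (Finset.mem_erase.mpr ⟨hne, hlS⟩), h⟩
    · exact absurd hlS hl
  have hp₀ : (p : ℤ) ∣ W.Δ → p ∉ S₀ := fun h => by
    rw [hS₀def, if_pos h]; exact Finset.notMem_erase p S
  -- the point at level `M₁ q`
  obtain ⟨v, hv0, hv⟩ := LevelLowerP.exists_eigvec hf h𝔪 hp𝔪 (fun l => a l)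
    {l : Nat.Primes | (l : ℕ) ∉ S₀} fun l hl c hc => by
      by_cases hlp : (l : ℕ) = p
      · have hpS : (l : ℕ) ∈ S := hlp ▸ Finset.mem_insert_self _ _
        obtain ⟨d, hd1, hd2⟩ := hεc (hmem₀ l hpS hl).2
        obtain rfl : c = d := Subtype.ext (hc.trans (by rw [hlp, hd1]))
        show c - ((a l : ℤ) : integralClosure ℤ ℂ) ∈ 𝔪
        rwa [hlp, show a p = ε from if_pos rfl]
      · have hlS : (l : ℕ) ∉ S := fun h => hlp (hmem₀ l h hl).1
        have hlM : ¬ (l : ℕ) ∣ M₁ * q := fun h => hlS (Finset.mem_insert_of_mem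
          (Finset.mem_union_left _ (Nat.mem_primeFactors.mpr ⟨l.2, h, hM.ne_zero⟩)))
        obtain ⟨d, hd1, hd2⟩ := hfW l l.2 (hgood l l.2 hlS).1 hlM hlp
        obtain rfl : c = d := Subtype.ext (hc.trans hd1.symm)
        show c - ((a l : ℤ) : integralClosure ℤ ℂ) ∈ 𝔪
        rwa [ha l hlp]
  obtain ⟨x, hx0, hxe⟩ := exists_eigenPt_of_eigvec a S₀ hv0 hv
  obtain ⟨y, hye, hy0⟩ := hstep p 1 a S S₀ R M₁ q r 0 hsub₀ hp hq hqp hqM₁ hr hr4 hr3
    hrq hrp (hrd.imp_right fun h => by simpa using h) one_pos (hred _ p hp)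
    ⟨(hgoodAt q hq hunr hq1).unram, (hgoodAt q hq hunr hq1).frob⟩ x hxe (by simpa using hx0)
  refine exists_resNewform_of_eigPt hred R ε hε (if_pos rfl) (fun l _ hl => ha l hl) ?_
    (fun l hl hlS => ⟨(hgood l hl hlS).1, Ne.symm (hgood l hl hlS).2⟩)
    (S₀ := insert q S₀) ?_ ?_ ?_ M₁ (hM.squarefree_of_dvd (dvd_mul_right _ _)) ?_
    ⟨y, fun h => hy0 (by rw [h, smul_zero]), hye⟩
  · intro l hl hgl hlp A hA σ hσ
    rw [ha l hlp]
    exact htr₀ l hl hgl (Ne.symm hlp) A hA σ hσ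
  · intro l hl hmem
    rcases Finset.mem_insert.mp hmem with rfl | h
    · exact hl hqS
    · exact hl (hsub₀ h)
  · intro l _ hlS hl
    exact (hmem₀ l hlS fun h => hl (Finset.mem_insert_of_mem h)).1
  · intro hpΔ hmem
    rcases Finset.mem_insert.mp hmem with h | h
    · exact hqp h.symm
    · exact hp₀ hpΔ h
  · intro l hl hlM
    exact Finset.mem_insert_of_mem (Finset.mem_union_left _
      (Nat.mem_primeFactors.mpr ⟨hl, hlM.mul_right q, hM.ne_zero⟩))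

/-- **Mazur's principle modulo `p`**, keeping ordinarity at `p`. At `p = 3` the elliptic points are
removed by passing through the level with an auxiliary prime `r` at which nothing congruent to `W`
is new. -/
theorem mazur_lowering_of_step (hstep : StepProp)
    (hred : ∀ (N p : ℕ) [NeZero N], p.Prime → TorsionReduction N p)
    (W : WeierstrassCurve ℤ) (hW : Root.Semistable W) (p M q : ℕ) (hp : p.Prime)
    (hp2 : p ≠ 2) (hirr : W.ModRepIsIrreducible p) (hM : Squarefree M) (hq : q.Prime)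
    (hqM : q ∣ M) (hqp : q ≠ p) (hq1 : q % p ≠ 1 ∨ ¬ Root.FrobScalarMod p W q)
    (hunr : Root.UnramifiedMod p W q) (h : Root.ResNewform p W M) :
    ∃ M' : ℕ, M' ∣ M / q ∧ Root.ResNewform p W M' := by
  classical
  have : Fact p.Prime := ⟨hp⟩
  obtain ⟨M₁, rfl⟩ : ∃ M₁, M = M₁ * q := ⟨M / q, (Nat.div_mul_cancel hqM).symm⟩
  rw [Nat.mul_div_cancel M₁ hq.pos]
  obtain ⟨f, 𝔪, hf, h𝔪, hp𝔪, hfW, hfp⟩ := h
  by_cases h3 : p = 3
  · subst h3
    obtain ⟨r, hr, hrS, hgood, hr12, hra⟩ :=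
      exists_aux_prime_three hW hirr (insert q (insert 3 (M₁ * q).primeFactors))
    simp only [Finset.mem_insert, Nat.mem_primeFactors, not_or, not_and] at hrS
    have hrM : ¬ r ∣ M₁ * q := fun h => hrS.2.2 hr h hM.ne_zero
    have : NeZero (M₁ * q) := ⟨hM.ne_zero⟩
    have : NeZero (M₁ * q * r) := ⟨mul_ne_zero hM.ne_zero hr.ne_zero⟩
    obtain ⟨g, hg, hgf⟩ := exists_eigenform_raise hr hrM hf.1
    have hsq : Squarefree (M₁ * r * q) := by
      rw [mul_right_comm, Nat.squarefree_mul_iff]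
      exact ⟨(hr.coprime_iff_not_dvd.mpr hrM).symm, hM, hr.squarefree⟩
    obtain ⟨M', hd, h'⟩ := exists_resNewform_of_step hstep hred W hW 3 (M₁ * r) q r hp hp2 hirr
      hsq hq hqp hq1 hunr hr (by omega) (Or.inl (by omega)) hrS.1 hrS.2.1
      (Or.inl (dvd_mul_left r M₁)) (mul_right_comm M₁ q r) hg h𝔪 hp𝔪
      (fun ℓ hℓ hgd hℓL hℓp => by
        rw [hgf ℓ hℓ fun e => hℓL (e ▸ dvd_mul_left r (M₁ * q))]
        exact hfW ℓ hℓ hgd (fun hd => hℓL (hd.mul_right r)) hℓp)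
      (fun hpΔ => by rw [hgf 3 hp (Ne.symm hrS.2.1)]; exact hfp hpΔ)
    have hsq' : Squarefree M' := (hsq.squarefree_of_dvd (dvd_mul_right _ q)).squarefree_of_dvd hd
    have : NeZero M' := ⟨hsq'.ne_zero⟩
    have hrM' : ¬ r ∣ M' := not_dvd_of_resNewform W hW.ne 3 hr hrS.2.1 hgood
      (fun hd2 => hr.not_isUnit (hsq' r (by rwa [sq] at hd2))) h' fun e _ hd3 => hra <| by
        have h6 : (3 : ℤ) ∣ e * (r + 1) := (show (3 : ℤ) ∣ r + 1 by omega).mul_left e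
        simpa using dvd_add hd3 h6
    exact ⟨M', ((hr.coprime_iff_not_dvd.mpr hrM').symm).dvd_of_dvd_mul_right hd, h'⟩
  · obtain ⟨r, hr, hr4, hr3, hrq, hrp, hrd⟩ := exists_aux_prime (q := q) hp hp2 h3
    exact exists_resNewform_of_step hstep hred W hW p M₁ q r hp hp2 hirr hM hq hqp hq1 hunr hr hr4
      (Or.inl hr3) hrq hrp (Or.inr hrd) rfl hf.1 h𝔪 hp𝔪 hfW hfp

end Fermat.Agent.MazurPrinciple
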