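import Fermat.Agent.MazurPrinciple.StepDef
import Fermat.Agent.MazurPrinciple.EndLevel
import Fermat.Agent.GalRep.HeckeLattice
import Fermat.Agent.GalRep.Residual
import Fermat.Prelude.Def_FLTPrelim_Modularity
import Fermat.Prelude.Def_EllipticCurve_FrobeniusTrace

/-!
# Eigen points modulo unbounded powers of `p` give an eigenform

Points of `J₀(N)` of exact order `p ^ m`, `m` unbounded, on which `T_l` is `a l` for `l` in larger
and larger finite sets give a rational vector in the lattice, hence a character of the Hecke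
algebra.
-/

set_option autoImplicit false

noncomputable section

namespace Fermat.Agent.MazurPrinciple

open Matrix CuspForm CongruenceSubgroup ModularCurve AlgebraicCurve
open Fermat.Agent.Cosets (homRank)
open Fermat.Agent.Kummer (Tors)
open Fermat.Agent.GalRep (heckeMat heckeOp latticeMat latticeMat_heckeOp torsCoord torsHecke
  torsCoord_torsHecke)

variable {N : ℕ} [NeZero N]

/-- A rational common eigenvector of the integral Hecke matrices gives an eigenform. -/
theorem exists_eigenform_of_rat_vec {v : Fin (homRank N) → ℚ} (hv0 : v ≠ 0) (a : ℕ → ℤ)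
    (G : Set Nat.Primes)
    (hv : ∀ l ∈ G, (heckeMat N l).map (Int.cast : ℤ → ℚ) *ᵥ v = (a l : ℚ) • v) :
    ∃ g : CuspForm (Gamma0 N) 2, g.IsNormalizedEigenform ∧
      ∀ l ∈ G, ModularFormClass.qCoeff ⇑g l = (a l : ℂ) := by
  classical
  have := Fermat.Agent.S22.result N 2 (∅ : Set ℕ)
  let φ : heckeAlgebra N 2 ∅ →+* Matrix (Fin (homRank N)) (Fin (homRank N)) ℚ :=
    (Int.castRingHom ℚ).mapMatrix.comp (latticeMat N)
  let J : Ideal (heckeAlgebra N 2 ∅) :=
    { carrier := {t | φ t *ᵥ v = 0}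
      add_mem' := fun {s t} (hs : _ = _) (ht : _ = _) => by
        show φ (s + t) *ᵥ v = 0
        rw [map_add, Matrix.add_mulVec, hs, ht, add_zero]
      zero_mem' := by show φ 0 *ᵥ v = 0; rw [map_zero, Matrix.zero_mulVec]
      smul_mem' := fun c t (ht : _ = _) => by
        show φ (c * t) *ᵥ v = 0
        rw [map_mul, ← Matrix.mulVec_mulVec, ht, Matrix.mulVec_zero] }
  have hint : ∀ n : ℤ, ((n : heckeAlgebra N 2 ∅) ∈ J ↔ n = 0) := fun n => by
    constructor
    · intro h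
      have h' : φ (n : heckeAlgebra N 2 ∅) *ᵥ v = 0 := h
      rw [map_intCast, Matrix.intCast_mulVec] at h'
      exact_mod_cast (smul_eq_zero.mp h').resolve_right hv0
    · rintro rfl
      rw [Int.cast_zero]
      exact zero_mem J
  obtain ⟨P, hPp, hJP, hPd⟩ := Ideal.exists_le_prime_disjoint J
    (Submonoid.map (Int.castRingHom (heckeAlgebra N 2 ∅)) (nonZeroDivisors ℤ))
    (Set.disjoint_left.mpr fun x hxJ hx => by
      obtain ⟨n, hn, rfl⟩ := hx
      exact nonZeroDivisors.ne_zero hn ((hint n).mp hxJ))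
  let T' := heckeAlgebra N 2 ∅ ⧸ P
  have : IsDomain T' := Ideal.Quotient.isDomain P
  have : Module.Finite ℤ T' :=
    Module.Finite.of_surjective ((Ideal.Quotient.mk P).toIntAlgHom.toLinearMap)
      Ideal.Quotient.mk_surjective
  have : Module.IsTorsionFree ℤ T' := by
    refine Module.isTorsionFree_iff_algebraMap_injective.mpr ((injective_iff_map_eq_zero _).mpr
      fun n hn => ?_)
    rw [eq_intCast, ← map_intCast (Ideal.Quotient.mk P),
      Ideal.Quotient.eq_zero_iff_mem] at hn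
    by_contra h0
    exact Set.disjoint_left.mp hPd hn ⟨n, mem_nonZeroDivisors_of_ne_zero h0, rfl⟩
  have : Algebra.IsAlgebraic ℤ T' := Algebra.IsIntegral.isAlgebraic
  obtain ⟨ψ⟩ : Nonempty (T' →ₐ[ℤ] ℂ) := ⟨IsAlgClosed.lift⟩
  let χ : heckeAlgebra N 2 ∅ →+* ℂ := ψ.toRingHom.comp (Ideal.Quotient.mk P)
  obtain ⟨w, hw0, hw⟩ :=
    Hecke.exists_eigenvector one_le_two (MFCore.hasIntegralStructure N 2) χ
  obtain ⟨g, hg, hgχ, -⟩ := Hecke.IsEigenvector.exists_normalizedEigenform (χ := χ) hw hw0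
  refine ⟨g, hg, fun l hl => ?_⟩
  have hmem : heckeOp N l - (a l : heckeAlgebra N 2 ∅) ∈ P := hJP (show φ _ *ᵥ v = 0 by
    rw [map_sub, map_intCast, Matrix.sub_mulVec, Matrix.intCast_mulVec, sub_eq_zero]
    show (latticeMat N (heckeOp N l)).map (Int.cast : ℤ → ℚ) *ᵥ v = _
    rw [latticeMat_heckeOp, hv l hl, Int.cast_smul_eq_zsmul])
  have hχ : χ (heckeOp N l) = (a l : ℂ) := by
    rw [← sub_eq_zero, ← map_intCast χ, ← map_sub]
    show ψ (Ideal.Quotient.mk P _) = 0
    rw [Ideal.Quotient.eq_zero_iff_mem.mpr hmem, map_zero]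
  rw [← hχ, ← GalRep.eigenCharacterInt_heckeOp hg l]
  have h1 := hgχ (heckeOp N l)
  rw [Hecke.eigenCharacter_isEigenvector hg ∅ (heckeOp N l)] at h1
  have h2 := congrArg (fun F : CuspForm (Gamma0 N) 2 => ModularFormClass.qCoeff ⇑F 1) h1
  rw [Hecke.qCoeff_smul, Hecke.qCoeff_smul, hg.qCoeff_one, mul_one, mul_one] at h2
  exact h2

/-- An eigen point of exact order gives an eigenvector of exact order. -/
theorem exists_eigvec_of_exact {p m : ℕ} [Fact p.Prime] {a : ℕ → ℤ} {S₀ : Finset ℕ} {x : JZero N}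
    (hx : EigenPt N p m a S₀ x) {k : ℕ} (hk : p ^ k • x ≠ 0) :
    ∃ v : Fin (homRank N) → ZMod (p ^ m), p ^ k • v ≠ 0 ∧ ∀ l : Nat.Primes, (l : ℕ) ∉ S₀ →
      (heckeMat N l).map (Int.cast : ℤ → ZMod (p ^ m)) *ᵥ v = (a l : ZMod (p ^ m)) • v := by
  have : NeZero (p ^ m) := ⟨pow_ne_zero _ (Fact.out : p.Prime).ne_zero⟩
  have hmem : x ∈ Tors N (p ^ m) := by rw [Pic0.mem_torsion, natCast_zsmul]; exact hx.1
  refine ⟨torsCoord N (p ^ m) ⟨x, hmem⟩, fun h => hk ?_, fun l hl => ?_⟩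
  · rw [← map_nsmul, ← map_zero (torsCoord N (p ^ m))] at h
    exact congrArg Subtype.val ((torsCoord N (p ^ m)).injective h)
  · rw [← torsCoord_torsHecke, Int.cast_smul_eq_zsmul, ← map_zsmul]
    exact congrArg _ (Subtype.ext (hx.2 l hl))

/-- **The end of the principle.** Eigen points of unbounded order, with exceptional sets avoiding
any given finite set of good primes, make `W` modular of level `N`. -/
theorem isModularModel_of_eigenPts (W : WeierstrassCurve ℤ) {p : ℕ} [Fact p.Prime] (E : Finset ℕ)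
    (hE : ∀ l ∈ E, l ∣ N ∨ ¬ W.IsGoodPrimeFor l)
    (h : ∀ (b : ℕ), ∃ (m k : ℕ) (S₀ : Finset ℕ) (x : JZero N), b ≤ k ∧
      (∀ l ∈ S₀, l ∈ E ∨ b ≤ l) ∧ EigenPt N p m (fun l => W.apOfModel l) S₀ x ∧
      p ^ k • x ≠ 0) :
    W.IsModularModelOfLevel N := by
  classical
  let I := {l : Nat.Primes // W.IsGoodPrimeFor l ∧ ¬ (l : ℕ) ∣ N}
  let g : I → Matrix (Fin (homRank N)) (Fin (homRank N)) ℤ := fun l =>
    heckeMat N l.1 - ((W.apOfModel l.1 : ℤ) : Matrix (Fin (homRank N)) (Fin (homRank N)) ℤ)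
  have hmap : ∀ (R : Type) [CommRing R] (l : I) (v : Fin (homRank N) → R),
      (g l).map (Int.cast : ℤ → R) *ᵥ v =
        (heckeMat N l.1).map (Int.cast : ℤ → R) *ᵥ v - (W.apOfModel l.1 : R) • v :=
      fun R _ l v => by
    show (Int.castRingHom R).mapMatrix (g l) *ᵥ v = _
    simp only [g]
    rw [map_sub, map_intCast, Matrix.sub_mulVec, Matrix.intCast_mulVec, Int.cast_smul_eq_zsmul]
    rfl
  obtain ⟨v, hv0, hv⟩ := exists_rat_ker (Fact.out : p.Prime) g fun s b => by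
    obtain ⟨m, k, S₀, x, hk, hS, hx, hx0⟩ := h (b + (s.sup fun l => (l.1 : ℕ)) + 1)
    obtain ⟨w, hw0, hw⟩ := exists_eigvec_of_exact hx hx0
    refine ⟨m, w, fun l hl => ?_, fun h0 => hw0 ?_⟩
    · have hlS : (l.1 : ℕ) ∉ S₀ := fun hmem => by
        rcases hS _ hmem with h1 | h1
        · exact (hE _ h1).elim l.2.2 fun h2 => h2 l.2.1
        · have := Finset.le_sup (f := fun l : I => (l.1 : ℕ)) hl
          omega
      rw [hmap, hw l.1 hlS, sub_self]
    · rw [show k = b + (k - b) by omega, pow_add, mul_comm, mul_smul, h0, smul_zero]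
  obtain ⟨f, hf, hfa⟩ := exists_eigenform_of_rat_vec hv0 (fun l => W.apOfModel l)
    {l : Nat.Primes | W.IsGoodPrimeFor l ∧ ¬ (l : ℕ) ∣ N} fun l hl => by
      have := hv ⟨l, hl⟩
      rwa [hmap, sub_eq_zero] at this
  exact ⟨f, hf, fun l hl hgood hlN => hfa ⟨l, hl⟩ ⟨hgood, hlN⟩⟩

end Fermat.Agent.MazurPrinciple
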