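import Fermat.Agent.Semistable.Pair

/-!
# Normalised reductions of series

Normalised reductions of arbitrary series which are quotients of integral ones, well defined up to
constants: `NRed` for one series, `NRed2` for a pair with a common scalar.
-/

set_option autoImplicit false

noncomputable section

namespace Fermat.Agent.MazurPrinciple

open HahnSeries ModularCurve Fermat.Agent.Reduction
open Fermat.Agent.Semistable (Ser2 Red2)

variable {K k : Type*} [Field K] [Field k] (A : ValuationSubring K) (π : A →+* k)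

/-- `g` is a normalised reduction of `y`. -/
def NRed (y : LaurentSeries K) (g : LaurentSeries k) : Prop :=
  ∃ (c : K) (a b : LaurentSeries K) (ga gb : LaurentSeries k), c ≠ 0 ∧
    algebraMap K (LaurentSeries K) c * y * b = a ∧ Red A π a ga ∧ Red A π b gb ∧
      ga ≠ 0 ∧ gb ≠ 0 ∧ g * gb = ga

/-- `g` is a reduction of the pair `y` normalised with one scalar. -/
def NRed2 (y : Ser2 K) (g : Ser2 k) : Prop :=
  ∃ (c : K) (a b : Ser2 K) (ga gb : Ser2 k), c ≠ 0 ∧
    algebraMap K (LaurentSeries K) c * y.1 * b.1 = a.1 ∧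
    algebraMap K (LaurentSeries K) c * y.2 * b.2 = a.2 ∧
    Red2 A π a ga ∧ Red2 A π b gb ∧ ga.1 ≠ 0 ∧ ga.2 ≠ 0 ∧ gb.1 ≠ 0 ∧ gb.2 ≠ 0 ∧
      g.1 * gb.1 = ga.1 ∧ g.2 * gb.2 = ga.2

variable {A π}

theorem ne_zero_of_red {y : LaurentSeries K} {x : LaurentSeries k} (h : Red A π y x) (hx : x ≠ 0) :
    y ≠ 0 := fun h0 => hx ((h0 ▸ h).unique red_zero)

namespace NRed

variable {y y' : LaurentSeries K} {g g' : LaurentSeries k}

theorem of_red {c : K} (hc : c ≠ 0) (h : Red A π (algebraMap K (LaurentSeries K) c * y) g)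
    (hg : g ≠ 0) : NRed A π y g :=
  ⟨c, _, 1, g, 1, hc, mul_one _, h, red_one, hg, one_ne_zero, mul_one g⟩

theorem one : NRed A π (1 : LaurentSeries K) (1 : LaurentSeries k) :=
  of_red one_ne_zero (by rw [map_one, one_mul]; exact red_one) one_ne_zero

theorem ne_zero_left (h : NRed A π y g) : y ≠ 0 := by
  obtain ⟨c, a, b, ga, gb, -, hab, ha, -, hga, -, -⟩ := h
  rintro rfl
  rw [mul_zero, zero_mul] at hab
  exact ne_zero_of_red ha hga hab.symm

theorem ne_zero (h : NRed A π y g) : g ≠ 0 := by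
  obtain ⟨c, a, b, ga, gb, -, -, -, -, hga, -, hg⟩ := h
  rintro rfl
  exact hga (by rw [← hg, zero_mul])

theorem mul (h : NRed A π y g) (h' : NRed A π y' g') : NRed A π (y * y') (g * g') := by
  obtain ⟨c, a, b, ga, gb, hc, hab, ha, hb, hga, hgb, hg⟩ := h
  obtain ⟨c', a', b', ga', gb', hc', hab', ha', hb', hga', hgb', hg'⟩ := h'
  refine ⟨c * c', a * a', b * b', ga * ga', gb * gb', mul_ne_zero hc hc', ?_, ha.mul ha',
    hb.mul hb', mul_ne_zero hga hga', mul_ne_zero hgb hgb', ?_⟩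
  · rw [map_mul, ← hab, ← hab']; ring
  · rw [← hg, ← hg']; ring

theorem pow (h : NRed A π y g) : ∀ n : ℕ, NRed A π (y ^ n) (g ^ n)
  | 0 => by simpa using one
  | n + 1 => by simpa [pow_succ] using (h.pow n).mul h

theorem inv (h : NRed A π y g) : NRed A π y⁻¹ g⁻¹ := by
  have hy := h.ne_zero_left
  have hg0 := h.ne_zero
  obtain ⟨c, a, b, ga, gb, hc, hab, ha, hb, hga, hgb, hg⟩ := h
  refine ⟨c⁻¹, b, a, gb, ga, inv_ne_zero hc, ?_, hb, ha, hgb, hga, ?_⟩
  · rw [← hab, map_inv₀]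
    have := (map_ne_zero (algebraMap K (LaurentSeries K))).mpr hc
    field_simp
  · rw [← hg]; field_simp

theorem div (h : NRed A π y g) (h' : NRed A π y' g') : NRed A π (y / y') (g / g') := by
  simpa [div_eq_mul_inv] using h.mul h'.inv

theorem const_mul {e : K} (he : e ≠ 0) (h : NRed A π y g) :
    NRed A π (algebraMap K (LaurentSeries K) e * y) g := by
  obtain ⟨c, a, b, ga, gb, hc, hab, ha, hb, hga, hgb, hg⟩ := h
  refine ⟨c / e, a, b, ga, gb, div_ne_zero hc he, ?_, ha, hb, hga, hgb, hg⟩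
  rw [← hab, ← mul_assoc (algebraMap K (LaurentSeries K) (c / e)), ← map_mul, div_mul_cancel₀ c he]

theorem mul_const {u : k} (hπ : Function.Surjective π) (hu : u ≠ 0) (h : NRed A π y g) :
    NRed A π y (algebraMap k (LaurentSeries k) u * g) := by
  obtain ⟨c, a, b, ga, gb, hc, hab, ha, hb, hga, hgb, hg⟩ := h
  obtain ⟨e, rfl⟩ := hπ u
  have he : (e : K) ≠ 0 := fun h0 => hu (by rw [show e = 0 from Subtype.ext h0, map_zero])
  refine ⟨(e : K) * c, algebraMap K (LaurentSeries K) (e : K) * a, b,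
    algebraMap k (LaurentSeries k) (π e) * ga, gb, mul_ne_zero he hc, ?_,
    (red_algebraMap e).mul ha, hb, mul_ne_zero ((map_ne_zero _).mpr hu) hga, hgb, ?_⟩
  · rw [← hab, map_mul]; ring
  · rw [← hg]; ring

/-- Two scalings of one series with nonzero reductions differ by a unit. -/
theorem exists_unit_of_red (hπ : Function.Surjective π) {Y : LaurentSeries K} {c c' : K}
    (hc : c ≠ 0) (hc' : c' ≠ 0) {X X' : LaurentSeries k}
    (h : Red A π (algebraMap K (LaurentSeries K) c * Y) X)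
    (h' : Red A π (algebraMap K (LaurentSeries K) c' * Y) X') (hX : X ≠ 0) (hX' : X' ≠ 0) :
    ∃ e : A, (e : K) = c' / c ∧ π e ≠ 0 ∧ X' = algebraMap k (LaurentSeries k) (π e) * X := by
  have key : ∀ {c c' : K}, c ≠ 0 → c' ≠ 0 → ∀ {X X' : LaurentSeries k},
      Red A π (algebraMap K (LaurentSeries K) c * Y) X →
      Red A π (algebraMap K (LaurentSeries K) c' * Y) X' → X ≠ 0 →
      A.valuation c' ≤ A.valuation c := by
    intro c c' _ _ X X' h h' hX
    obtain ⟨i, hi⟩ : ∃ i, X.coeff i ≠ 0 := by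
      by_contra hall
      push Not at hall
      exact hX (HahnSeries.ext (funext hall))
    have h1 := h.coeff_valuation_eq_one hπ hi
    have h2 := (ValuationSubring.valuation_le_one_iff _ _).mpr (h'.coeff_mem i)
    rw [coeff_algebraMap_mul, map_mul] at h1 h2
    have hY : A.valuation (Y.coeff i) ≠ 0 := fun h0 => by
      rw [h0, mul_zero] at h1; exact zero_ne_one h1
    exact le_of_mul_le_mul_right (h2.trans h1.ge) (zero_lt_iff.mpr hY)
  have hv : A.valuation (c' / c) = 1 := by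
    rw [map_div₀, le_antisymm (key hc hc' h h' hX) (key hc' hc h' h hX'),
      div_self ((A.valuation.ne_zero_iff).mpr hc)]
  refine ⟨⟨c' / c, (ValuationSubring.valuation_le_one_iff _ _).mp hv.le⟩, rfl, ?_, ?_⟩
  · exact (residue_ne_zero_iff hπ _).mpr hv
  · refine h'.unique ?_
    have := (red_algebraMap (π := π)
      (⟨c' / c, (ValuationSubring.valuation_le_one_iff _ _).mp hv.le⟩ : A)).mul h
    rwa [← mul_assoc, ← map_mul, div_mul_cancel₀ c' hc] at this

/-- **Normalised reductions are unique up to constants.** -/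
theorem unique (hπ : Function.Surjective π) (h : NRed A π y g) (h' : NRed A π y g') :
    ∃ u : k, u ≠ 0 ∧ g' = algebraMap k (LaurentSeries k) u * g := by
  obtain ⟨c, a, b, ga, gb, hc, hab, ha, hb, hga, hgb, hg⟩ := h
  obtain ⟨c', a', b', ga', gb', hc', hab', ha', hb', hga', hgb', hg'⟩ := h'
  have e1 : a * b' = algebraMap K (LaurentSeries K) c * (y * b * b') := by rw [← hab]; ring
  have e2 : a' * b = algebraMap K (LaurentSeries K) c' * (y * b * b') := by rw [← hab']; ring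
  obtain ⟨e, -, he, hX⟩ := exists_unit_of_red hπ hc hc' (e1 ▸ ha.mul hb') (e2 ▸ ha'.mul hb)
    (mul_ne_zero hga hgb') (mul_ne_zero hga' hgb)
  refine ⟨π e, he, mul_right_cancel₀ (mul_ne_zero hgb hgb') ?_⟩
  calc g' * (gb * gb') = ga' * gb := by rw [← hg']; ring
    _ = _ := by rw [hX, ← hg]; ring

/-- Transport along a map of series compatible with reduction. -/
theorem map {T : LaurentSeries K →*₀ LaurentSeries K} {φ : LaurentSeries k →*₀ LaurentSeries k}
    (hT : ∀ c : K, c ≠ 0 → ∃ c' : K, c' ≠ 0 ∧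
      T (algebraMap K (LaurentSeries K) c) = algebraMap K (LaurentSeries K) c')
    (hred : ∀ a x, Red A π a x → Red A π (T a) (φ x)) (hφ : ∀ x, x ≠ 0 → φ x ≠ 0)
    (h : NRed A π y g) : NRed A π (T y) (φ g) := by
  obtain ⟨c, a, b, ga, gb, hc, hab, ha, hb, hga, hgb, hg⟩ := h
  obtain ⟨c', hc', hTc⟩ := hT c hc
  refine ⟨c', T a, T b, φ ga, φ gb, hc', ?_, hred _ _ ha, hred _ _ hb, hφ _ hga, hφ _ hgb, ?_⟩
  · rw [← hab, map_mul, map_mul, hTc]
  · rw [← hg, map_mul]

end NRed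

namespace NRed2

variable {y y' : Ser2 K} {g g' : Ser2 k}

theorem fst (h : NRed2 A π y g) : NRed A π y.1 g.1 := by
  obtain ⟨c, a, b, ga, gb, hc, h1, -, ha, hb, hga, -, hgb, -, hg, -⟩ := h
  exact ⟨c, a.1, b.1, ga.1, gb.1, hc, h1, ha.1, hb.1, hga, hgb, hg⟩

theorem snd (h : NRed2 A π y g) : NRed A π y.2 g.2 := by
  obtain ⟨c, a, b, ga, gb, hc, -, h2, ha, hb, -, hga, -, hgb, -, hg⟩ := h
  exact ⟨c, a.2, b.2, ga.2, gb.2, hc, h2, ha.2, hb.2, hga, hgb, hg⟩

theorem of_red2 (h : Red2 A π y g) (h1 : g.1 ≠ 0) (h2 : g.2 ≠ 0) : NRed2 A π y g :=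
  ⟨1, y, 1, g, 1, one_ne_zero, by simp, by simp, h, Semistable.red2_one, h1, h2, by simp, by simp,
    by simp, by simp⟩

theorem one : NRed2 A π (1 : Ser2 K) (1 : Ser2 k) :=
  of_red2 Semistable.red2_one one_ne_zero one_ne_zero

theorem mul (h : NRed2 A π y g) (h' : NRed2 A π y' g') : NRed2 A π (y * y') (g * g') := by
  obtain ⟨c, a, b, ga, gb, hc, h1, h2, ha, hb, hga1, hga2, hgb1, hgb2, hg1, hg2⟩ := h
  obtain ⟨c', a', b', ga', gb', hc', h1', h2', ha', hb', hga1', hga2', hgb1', hgb2', hg1', hg2'⟩ :=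
    h'
  refine ⟨c * c', a * a', b * b', ga * ga', gb * gb', mul_ne_zero hc hc', ?_, ?_, ha.mul ha',
    hb.mul hb', mul_ne_zero hga1 hga1', mul_ne_zero hga2 hga2', mul_ne_zero hgb1 hgb1',
    mul_ne_zero hgb2 hgb2', ?_, ?_⟩ <;>
    simp only [Prod.fst_mul, Prod.snd_mul, map_mul, ← h1, ← h2, ← h1', ← h2', ← hg1, ← hg2, ← hg1',
      ← hg2'] <;> ring

theorem pow (h : NRed2 A π y g) : ∀ n : ℕ, NRed2 A π (y ^ n) (g ^ n)
  | 0 => by simpa using one
  | n + 1 => by simpa [pow_succ] using (h.pow n).mul h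

/-- A pair which can be normalised has, after one scaling, the reduction `g` up to one constant. -/
theorem exists_red2 (hπ : Function.Surjective π) (h : NRed2 A π y g) {e : K} (he : e ≠ 0)
    {x : Ser2 k} (hx0 : x ≠ 0)
    (hx : Red2 A π
      (algebraMap K (LaurentSeries K) e * y.1, algebraMap K (LaurentSeries K) e * y.2) x) :
    ∃ u : k, u ≠ 0 ∧ x.1 = algebraMap k (LaurentSeries k) u * g.1 ∧
      x.2 = algebraMap k (LaurentSeries k) u * g.2 := by
  obtain ⟨c, a, b, ga, gb, hc, h1, h2, ha, hb, hga1, hga2, hgb1, hgb2, hg1, hg2⟩ := h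
  have e1 : a.1 = algebraMap K (LaurentSeries K) c * (y.1 * b.1) := by rw [← h1]; ring
  have e2 : a.2 = algebraMap K (LaurentSeries K) c * (y.2 * b.2) := by rw [← h2]; ring
  have r1 : Red A π (algebraMap K (LaurentSeries K) e * (y.1 * b.1)) (x.1 * gb.1) := by
    rw [← mul_assoc]; exact hx.1.mul hb.1
  have r2 : Red A π (algebraMap K (LaurentSeries K) e * (y.2 * b.2)) (x.2 * gb.2) := by
    rw [← mul_assoc]; exact hx.2.mul hb.2
  have conv : ∀ {Y : LaurentSeries K} {X : LaurentSeries k} {X' : LaurentSeries k} {w : A},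
      (w : K) = e / c → Red A π (algebraMap K (LaurentSeries K) c * Y) X →
      Red A π (algebraMap K (LaurentSeries K) e * Y) X' →
      X' = algebraMap k (LaurentSeries k) (π w) * X := by
    intro Y X X' w hw hX hX'
    refine hX'.unique ?_
    have := (red_algebraMap (π := π) w).mul hX
    rwa [← mul_assoc, ← map_mul, hw, div_mul_cancel₀ e hc] at this
  obtain ⟨w, hw, hwne⟩ : ∃ w : A, (w : K) = e / c ∧ π w ≠ 0 := by
    by_cases hx1 : x.1 = 0
    · have hx2 : x.2 ≠ 0 := fun h0 => hx0 (Prod.ext hx1 h0)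
      obtain ⟨w, hw, hwne, -⟩ := NRed.exists_unit_of_red hπ hc he (e2 ▸ ha.2) r2 hga2
        (mul_ne_zero hx2 hgb2)
      exact ⟨w, hw, hwne⟩
    · obtain ⟨w, hw, hwne, -⟩ := NRed.exists_unit_of_red hπ hc he (e1 ▸ ha.1) r1 hga1
        (mul_ne_zero hx1 hgb1)
      exact ⟨w, hw, hwne⟩
  refine ⟨π w, hwne, mul_right_cancel₀ hgb1 ?_, mul_right_cancel₀ hgb2 ?_⟩
  · rw [conv hw (e1 ▸ ha.1) r1, mul_assoc, hg1]
  · rw [conv hw (e2 ▸ ha.2) r2, mul_assoc, hg2]

end NRed2

end Fermat.Agent.MazurPrinciple
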