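import Fermat.Agent.MazurPrinciple.Regular

/-!
# Smoothness of all nodes from the order of one fixed function

If a fixed function `P` reduces to `(p, 0)` and `P · w P = ϖ ^ d ε`, every zero of `p` where the
reduction of `ε` is nonzero is a node and has order at most `d`. If these zeros account for
`d` times the number of nodes, every node is smooth.
-/

set_option autoImplicit false

noncomputable section

namespace Fermat.Agent.MazurPrinciple

open Fermat.Agent.Semistable Fermat.Agent.Reduction AlgebraicCurve ModularCurve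

variable {K F k : Type*} [Field K] [Field F] [Algebra K F] [Field k] {A : ValuationSubring K}
  {π : A →+* k} {q : ℕ} [NeZero q] {S : Sheets A π q F}

/-- The node seen from its second branch. -/
def flipNode (u : S.Node) : S.Node :=
  ⟨S.flip u.1, fun b hb => by
    have h1 : u.1 b.2 = S.flip u.1 b.1 := u.2 (b.2, b.1) (by
      simpa [Sheets.pr, Prod.swap] using hb.swap)
    rw [← h1, Sheets.flip_apply, Sheets.flip_apply_frC]⟩

theorem flip_flipNode (u : S.Node) : S.flip (flipNode u).1 = u.1 :=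
  DFunLike.ext _ _ fun x => (Sheets.flip_apply _ x).trans (Sheets.flip_apply_frC u.1 x)

theorem ι_w_smul (S : Sheets A π q F) (c : K) (f : F) : S.ι (S.w (c • f)) = c • S.ι (S.w f) :=
  congrArg Prod.snd (map_smul S.T c f)

namespace RatData

variable (R : RatData S) {Fk : Type*} [Field Fk] [Algebra k Fk] (M : CurveModel S Fk)
  [FF.IsFunctionField K F] [IsAlgClosed K] [FF.IsFunctionField k Fk] [IsAlgClosed k]

omit [IsAlgClosed K] in
/-- A zero of the reduction of `P` is a node, of order at most `d`; in case of equality the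
reduction of the opposite function has, at the other branch, the opposite order. -/
theorem exists_node_of_zero {P ε : F} (hP : S.Reg P) {pf ef : Fk}
    (hPred : Red2 A π (S.T P) (M.κ pf, 0)) (hpf : pf ≠ 0) {d : ℕ} (hPP : P * S.w P = R.ϖ ^ d • ε)
    (hε : Red A π (S.ι ε) (M.κ ef)) {v : Place k Fk} (hv : v ≠ M.pt) (hvp : 0 < v.ord pf)
    (hef : ef ≠ 0) (hve : v.ord ef = 0) :
    ∃ u : S.Node, M.center u.1 = v ∧ v.ord pf ≤ (d : ℤ) ∧ (v.ord pf = (d : ℤ) →
      ∃ (X : F) (x₀ : LaurentSeries k) (z : Fk), S.Reg X ∧ R.Fix X ∧ Red2 A π (S.T X) (0, x₀) ∧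
        Red A π (R.ϖ⁻¹ • S.ι X) (M.κ z) ∧
          (d : ℤ) * (M.center (S.flip u.1)).ord z + (M.center (S.flip u.1)).ord pf = 0) := by
  classical
  have : Fintype S.Node := Fintype.ofFinite _
  set Z₀ : Finset (Place k Fk) := Finset.univ.image fun u : S.Node => M.center u.1 with hZ₀
  obtain ⟨N, hN⟩ := M.exists_exact
  set H : Divisor k Fk := ∑ w ∈ Z₀, Finsupp.single w 1 with hH
  have hHapp : ∀ w, H w = if w ∈ Z₀ then 1 else 0 := fun w => by
    simp [hH, Finsupp.finsetSum_apply, Finsupp.single_apply]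
  set D : Divisor k Fk :=
    Finsupp.single M.pt (N + (insert v Z₀).card + Divisor.degree H) - H with hD
  obtain ⟨t, ht, ht0, htv, -⟩ := hN D (insert v Z₀) (by
    rw [hD, map_sub, Divisor.degree_single, FF.deg_eq_one]
    simp) v (Finset.mem_insert_self _ _)
  have hDw : ∀ w, w ≠ M.pt → -D w = if w ∈ Z₀ then 1 else 0 := fun w hw => by
    rw [hD, Finsupp.sub_apply, Finsupp.single_eq_of_ne hw, zero_sub, neg_neg, hHapp]
  have htw : ∀ w, w ≠ M.pt → t ∈ FF.ordGE w (if w ∈ Z₀ then 1 else 0) := fun w hw =>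
    hDw w hw ▸ FF.mem_riemannRochSpace.mp ht w
  rw [hDw v hv] at htv
  let tC : S.C := ⟨M.κ t, M.κ_mem fun w hw =>
    FF.ordGE_antitone w (by split_ifs <;> omega) (htw w hw)⟩
  -- the pair `(t, 0)` lifts to a fixed function
  have htbar : S.IsCbar (Sheets.pr (tC, 0)) := by
    refine (Sheets.isCbar_iff (tC, 0)).mpr fun w => ?_
    show w.1 tC = S.flip w.1 (0 : S.C)
    rw [show S.flip w.1 (0 : S.C) = 0 from map_zero (S.flip w.1).1, M.center_spec,
      M.toFk_eq (x := tC) (f := t) rfl]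
    have := htw (M.center w.1) (M.center_ne_pt _)
    rwa [if_pos (Finset.mem_image.mpr ⟨w, Finset.mem_univ _, rfl⟩)] at this
  obtain ⟨f, hf, hfx⟩ := htbar
  obtain ⟨nf, hnf⟩ := exists_mem_L_zero hf
  obtain ⟨B, hB, hBfix, hBred⟩ := R.exists_fix_lift (W := S.L 0 nf)
    (fun σ _ g hg => by
      have := σ.mem_L_act hg
      rwa [map_zero] at this)
    (fun g hg hg0 => (Sheets.reg_of_mem_L S.neg_zero' hg).normalizable2 hg0)
    (mem_redPair.mpr ⟨f, hnf nf le_rfl, hfx⟩)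
  have hBreg : S.Reg B := Sheets.reg_of_mem_L S.neg_zero' hB
  have hB1 : Red A π (S.ι B) (M.κ t) := hBred.1
  obtain ⟨zb, hzb⟩ := hBfix.apply_w.exists_red_div hBred.2
  -- `zb` is in the field
  have hh : S.Reg (R.ϖ⁻¹ • (B * S.w B)) := (hBreg.mul hBreg.apply_w).smul _
  have hhred : Red2 A π (S.T (R.ϖ⁻¹ • (B * S.w B))) (M.κ t * zb, zb * M.κ t) := by
    rw [map_smul, S.T_mul]
    constructor
    · show Red A π (R.ϖ⁻¹ • (S.ι B * S.ι (S.w B))) _
      rw [smul_eq_algebraMap_mul, mul_left_comm, ← smul_eq_algebraMap_mul]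
      exact hB1.mul hzb
    · show Red A π (R.ϖ⁻¹ • (S.ι (S.w B) * S.ι (S.w (S.w B)))) _
      rw [S.w_w, smul_eq_algebraMap_mul, ← mul_assoc, ← smul_eq_algebraMap_mul]
      exact hzb.mul hB1
  set zf : Fk := M.toFk ⟨_, (hh.red_mem hhred).1⟩ / t with hzf
  have hzfκ : M.κ zf = zb := by
    rw [hzf, map_div₀, M.κ_toFk, mul_div_cancel_left₀ _ ((_root_.map_ne_zero M.κ).mpr ht0)]
  -- the function `U`
  set U : F := (R.ϖ ^ d)⁻¹ • (B ^ d * S.w P) with hU
  have hUreg : S.Reg U := ((hBreg.pow d).mul hP.apply_w).smul _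
  have hϖd : R.ϖ ^ d ≠ 0 := pow_ne_zero _ R.ϖ_ne
  have hy : Red A π (S.ι P * S.ι ((R.ϖ ^ d)⁻¹ • S.w P)) (M.κ ef) := by
    rw [← map_mul, mul_smul_comm, hPP, smul_smul, inv_mul_cancel₀ hϖd, one_smul]
    exact hε
  have hynorm : S.ι ((R.ϖ ^ d)⁻¹ • S.w P) = 0 ∨
      Normalizable A π (S.ι ((R.ϖ ^ d)⁻¹ • S.w P)) := by
    rcases eq_or_ne ((R.ϖ ^ d)⁻¹ • S.w P) 0 with h0 | h0
    · exact Or.inl (by rw [h0, map_zero])
    · exact Or.inr (S.normalizable _ (hP.apply_w.smul _) h0)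
  obtain ⟨y, hyred, hye⟩ :=
    exists_red_of_mul S.surj hPred.1 ((_root_.map_ne_zero M.κ).mpr hpf) hy hynorm
  have hUred : Red2 A π (S.T U) (M.κ t ^ d * y, zb ^ d * M.κ pf) := by
    constructor
    · show Red A π (S.ι U) _
      rw [hU, ← mul_smul_comm, map_mul, map_pow]
      exact (hB1.pow d).mul hyred
    · show Red A π (S.ι (S.w U)) _
      rw [hU, ι_w_smul, map_mul, map_mul, map_pow, map_pow, S.w_w,
        smul_eq_algebraMap_mul, ← inv_pow, map_pow, ← mul_assoc, ← mul_pow,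
        ← smul_eq_algebraMap_mul]
      exact (hzb.pow d).mul hPred.1
  obtain ⟨hU1, hU2⟩ := hUreg.red_mem hUred
  set U₁ : S.C := ⟨_, hU1⟩ with hU₁
  set U₂ : S.C := ⟨_, hU2⟩ with hU₂
  have heq : M.toFk U₁ * pf = t ^ d * ef := M.κ_injective (by
    rw [map_mul, map_mul, map_pow, M.κ_toFk, hU₁, mul_assoc, mul_comm y, hye])
  have hU₁0 : M.toFk U₁ ≠ 0 := fun h => by
    rw [h, zero_mul, eq_comm] at heq
    exact mul_ne_zero (pow_ne_zero _ ht0) hef heq
  have ho := congrArg v.ord heq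
  rw [v.ord_mul hU₁0 hpf, v.ord_mul (pow_ne_zero _ ht0) hef, FF.ord_pow, hve, htv] at ho
  have hU₁v : 0 ≤ v.ord (M.toFk U₁) :=
    (FF.mem_ordGE_of_ne_zero v hU₁0).mp (M.toFk_mem _ hv)
  by_cases hvZ : v ∈ Z₀
  swap
  · rw [if_neg hvZ, mul_zero] at ho
    omega
  rw [if_pos hvZ, mul_one] at ho
  obtain ⟨u, -, rfl⟩ := Finset.mem_image.mp hvZ
  refine ⟨u, rfl, by omega, fun hd => ⟨S.w B, M.κ t, zf, hBreg.apply_w, hBfix.apply_w, ?_, ?_, ?_⟩⟩
  · rw [S.T_w]
    exact hBred.swap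
  · rw [hzfκ]
    exact hzb
  · have hu : u.1 U₁ ≠ 0 := M.ne_zero_of_ord_center hU₁0 (by omega)
    rw [u.2 (U₁, U₂) ⟨U, hUreg, hUred⟩] at hu
    obtain ⟨hU₂0, hU₂o⟩ := M.ord_center_eq_zero hu
    have heq₂ : M.toFk U₂ = zf ^ d * pf := M.toFk_eq (by
      rw [map_mul, map_pow, hzfκ, hU₂])
    rw [heq₂] at hU₂0 hU₂o
    obtain ⟨h1, h2⟩ := mul_ne_zero_iff.mp hU₂0
    rwa [(M.center _).ord_mul h1 h2, FF.ord_pow] at hU₂o

omit [IsAlgClosed K] in
/-- **All nodes are smooth** if the zeros of `p` account for `d` times the number of nodes. -/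
theorem smoothNode_of_sum_ord {P ε : F} (hP : S.Reg P) {pf ef : Fk}
    (hPred : Red2 A π (S.T P) (M.κ pf, 0)) (hpf : pf ≠ 0) {d : ℕ} (hd : 0 < d)
    (hPP : P * S.w P = R.ϖ ^ d • ε) (hε : Red A π (S.ι ε) (M.κ ef)) (hef : ef ≠ 0)
    (Z : Finset (Place k Fk)) (hZ : ∀ v ∈ Z, v ≠ M.pt ∧ 0 < v.ord pf ∧ v.ord ef = 0)
    (hsum : (d : ℤ) * Nat.card S.Node ≤ ∑ v ∈ Z, v.ord pf) (u : S.Node) :
    R.SmoothNode M u := by
  classical
  have : Fintype S.Node := Fintype.ofFinite _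
  set c : S.Node → Place k Fk := fun u => M.center u.1 with hc
  have hcinj : Function.Injective c := fun a b h => Subtype.ext (M.center_injective h)
  have key : ∀ v ∈ Z, ∃ w : S.Node, c w = v ∧ v.ord pf ≤ (d : ℤ) := fun v hv => by
    obtain ⟨w, hw, hle, -⟩ := R.exists_node_of_zero M hP hPred hpf hPP hε (hZ v hv).1
      (hZ v hv).2.1 hef (hZ v hv).2.2
    exact ⟨w, hw, hle⟩
  have hsub : Z ⊆ Finset.univ.image c := fun v hv => by
    obtain ⟨w, hw, -⟩ := key v hv
    exact Finset.mem_image.mpr ⟨w, Finset.mem_univ _, hw⟩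
  have hcard : (Finset.univ.image c).card = Fintype.card S.Node := by
    rw [Finset.card_image_of_injective _ hcinj, Finset.card_univ]
  have h1 : ∑ v ∈ Z, v.ord pf ≤ ∑ _v ∈ Z, (d : ℤ) :=
    Finset.sum_le_sum fun v hv => (key v hv).choose_spec.2
  rw [Finset.sum_const, nsmul_eq_mul] at h1
  rw [Nat.card_eq_fintype_card] at hsum
  have h2 : Z.card = Fintype.card S.Node := by
    refine le_antisymm (hcard ▸ Finset.card_le_card hsub) ?_
    have : (d : ℤ) * Fintype.card S.Node ≤ (d : ℤ) * Z.card := by linarith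
    exact_mod_cast le_of_mul_le_mul_left this (by exact_mod_cast hd)
  have hall : ∀ w, c w ∈ Z := fun w => by
    rw [Finset.eq_of_subset_of_card_le hsub (by rw [hcard, h2])]
    exact Finset.mem_image.mpr ⟨w, Finset.mem_univ _, rfl⟩
  have hord : ∀ v ∈ Z, v.ord pf = (d : ℤ) := by
    refine (Finset.sum_eq_sum_iff_of_le fun v hv => (key v hv).choose_spec.2).mp
      (le_antisymm (Finset.sum_le_sum fun v hv => (key v hv).choose_spec.2) ?_)
    rw [Finset.sum_const, nsmul_eq_mul, h2]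
    linarith
  -- use the node on the other side
  set w := flipNode u
  obtain ⟨w', hw', -, hX⟩ := R.exists_node_of_zero M hP hPred hpf hPP hε (hZ _ (hall w)).1
    (hZ _ (hall w)).2.1 hef (hZ _ (hall w)).2.2
  obtain rfl : w' = w := hcinj hw'
  obtain ⟨X, x₀, z, hXreg, hXfix, hXred, hXz, hzo⟩ := hX (hord _ (hall _))
  rw [show S.flip w.1 = u.1 from flip_flipNode u] at hzo
  refine ⟨X, x₀, z, hXreg, hXfix, hXred, hXz, ?_⟩
  rw [show (M.center u.1).ord pf = (d : ℤ) from hord _ (hall u)] at hzo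
  nlinarith

end RatData

end Fermat.Agent.MazurPrinciple
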