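import Fermat.Agent.LevelLowerP.GeoGen
import Fermat.Agent.Semistable.Cusps
import Fermat.Agent.Reduction.Level.Setup

/-!
# `Δ(τ)/Δ(qτ)` in `ℚ̄(X₀(Mq))`: its two expansions and integrality over `ℚ̄[j]`
-/

set_option autoImplicit false

noncomputable section

open Polynomial ModularCurve AlgebraicCurve Fermat.Agent.Igusa

namespace Fermat.Agent.MazurPrinciple

open Fermat.Agent.Semistable Fermat.Agent.LevelLowerP

local notation "ℚbar" => AlgebraicClosure ℚ

variable {q M : ℕ} [NeZero q] [NeZero M] [Fact q.Prime]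

/-- Transport along an equality of subfields. -/
def castField {K L : Type*} [Field K] [Field L] [Algebra K L] {E₁ E₂ : IntermediateField K L}
    (h : E₁ = E₂) : E₁ →+* E₂ where
  toFun x := ⟨x, h ▸ x.2⟩
  map_one' := rfl
  map_mul' _ _ := rfl
  map_zero' := rfl
  map_add' _ _ := rfl

theorem coe_castField {K L : Type*} [Field K] [Field L] [Algebra K L]
    {E₁ E₂ : IntermediateField K L} (h : E₁ = E₂) (x : E₁) : (castField h x : L) = x := rfl

/-- The identification with the field generated by the `j(dτ)`. -/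
def toFull (N : ℕ) : modularFunctionFieldBar N →+* modularFunctionFieldFullC ℚbar N :=
  castField (Reduction.Level.modularFunctionFieldBar_eq_fullC N)

theorem coe_toFull (N : ℕ) (x : modularFunctionFieldBar N) :
    (toFull N x : LaurentSeries ℚbar) = (x : LaurentSeries ℚbar) :=
  coe_castField (Reduction.Level.modularFunctionFieldBar_eq_fullC N) x

theorem coe_jGenBar (N d : ℕ) [NeZero d] (hd : d ∣ N) :
    (jGenBar N d hd : LaurentSeries ℚbar) = qExpand ℚbar d (jqModC ℚbar) := by
  show coeffEmb ℚbar (qExpand ℚ d jq) = _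
  rw [← jqModC_rat, Reduction.Level.coeffEmb_qExpand_jqModC]

theorem toFull_algebraMap (N : ℕ) (c : ℚbar) :
    toFull N (algebraMap ℚbar (modularFunctionFieldBar N) c) =
      algebraMap ℚbar (modularFunctionFieldFullC ℚbar N) c := by
  refine Subtype.ext ?_
  rw [coe_toFull, IntermediateField.coe_algebraMap_apply, IntermediateField.coe_algebraMap_apply]

omit [NeZero q] in
theorem wAL_algebraMap (hqM : ¬ q ∣ M) (c : ℚbar) :
    wAL ℚbar M q hqM (algebraMap ℚbar (modularFunctionFieldFullC ℚbar (M * q)) c) =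
      algebraMap ℚbar (modularFunctionFieldFullC ℚbar (M * q)) c := by
  rw [← inclP_algebraMap, wAL_inclP]
  refine Subtype.ext ?_
  rw [coe_scaleP, coe_inclP, IntermediateField.coe_algebraMap_apply,
    algebraMap_laurentSeries_eq_single, qExpand_single, mul_zero]

theorem toFull_wHom_jGenBar (w : ALData q M) (hq : q.Prime) (hqM : ¬ q ∣ M) (d : ℕ) [NeZero d]
    (hd : d ∣ M * q) :
    toFull (M * q) (wHom w hq (jGenBar (M * q) d hd)) =
      wAL ℚbar M q hqM (toFull (M * q) (jGenBar (M * q) d hd)) := by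
  rcases dvd_or_of_dvd_mul hq hd with h | ⟨e, he, rfl⟩
  · have : NeZero (q * d) := ⟨Nat.mul_ne_zero (NeZero.ne q) (NeZero.ne d)⟩
    rw [(wHom_jGenBar w hq h).1]
    have h1 : toFull (M * q) (jGenBar (M * q) d hd) =
        inclP M q ⟨qExpand ℚbar d (jqModC ℚbar), jqModCd_mem_full ℚbar M h⟩ :=
      Subtype.ext (by rw [coe_toFull, coe_jGenBar, coe_inclP])
    rw [h1, wAL_inclP]
    exact Subtype.ext (by rw [coe_toFull, coe_jGenBar, coe_scaleP, qExpand_qExpand])
  · have : NeZero e := ⟨ne_zero_of_dvd_ne_zero (NeZero.ne M) he⟩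
    rw [(wHom_jGenBar w hq he).2]
    have h1 : toFull (M * q) (jGenBar (M * q) (q * e) hd) =
        scaleP M q ⟨qExpand ℚbar e (jqModC ℚbar), jqModCd_mem_full ℚbar M he⟩ :=
      Subtype.ext (by rw [coe_toFull, coe_jGenBar, coe_scaleP, qExpand_qExpand])
    rw [h1, wAL_scaleP]
    exact Subtype.ext (by rw [coe_toFull, coe_jGenBar, coe_inclP])

/-- The two descriptions of the Atkin–Lehner involution agree. -/
theorem toFull_wEquiv (w : ALData q M) (hq : q.Prime) (hqM : ¬ q ∣ M)
    (x : modularFunctionFieldBar (M * q)) :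
    toFull (M * q) (wEquiv w hq x) = wAL ℚbar M q hqM (toFull (M * q) x) := by
  refine modularBar_eq_top (RingHom.eqLocusField
    ((toFull (M * q)).comp
      (wEquiv w hq : modularFunctionFieldBar (M * q) →+* modularFunctionFieldBar (M * q)))
    ((wAL ℚbar M q hqM).comp (toFull (M * q)))) (fun c => ?_) (fun d _ hd => ?_) x
  · show toFull (M * q) (wEquiv w hq (algebraMap ℚbar _ c)) = wAL ℚbar M q hqM _
    rw [AlgEquiv.commutes, toFull_algebraMap, wAL_algebraMap]
  · exact toFull_wHom_jGenBar w hq hqM d hd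

/-- `Δ(τ)/Δ(qτ)`. -/
def vBar (q M : ℕ) [NeZero M] [Fact q.Prime] (hqM : ¬ q ∣ M) : modularFunctionFieldBar (M * q) :=
  ⟨vSer q ℚbar, by
    rw [Reduction.Level.modularFunctionFieldBar_eq_fullC, ← coe_vElt ℚbar M q hqM]
    exact (vElt ℚbar M q).2⟩

omit [NeZero q] in
theorem coe_vBar (hqM : ¬ q ∣ M) : (vBar q M hqM : LaurentSeries ℚbar) = vSer q ℚbar := rfl

/-- The expansion at `0`. -/
theorem coe_wEquiv_vBar (w : ALData q M) (hq : q.Prime) (hqM : ¬ q ∣ M) :
    (wEquiv w hq (vBar q M hqM) : LaurentSeries ℚbar) =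
      (q : LaurentSeries ℚbar) ^ 12 * (qExpand ℚbar q (deltaR ℚbar) * deltaInvR ℚbar) := by
  have h : toFull (M * q) (vBar q M hqM) = vElt ℚbar M q :=
    Subtype.ext (coe_vElt ℚbar M q hqM).symm
  rw [← coe_toFull, toFull_wEquiv w hq hqM, h, coe_wAL_vElt]

theorem vBar_mul_wEquiv (w : ALData q M) (hq : q.Prime) (hqM : ¬ q ∣ M) :
    vBar q M hqM * wEquiv w hq (vBar q M hqM) =
      algebraMap ℚbar _ ((q : ℚbar) ^ 12) := by
  refine Subtype.ext ?_
  show vSer q ℚbar * (wEquiv w hq (vBar q M hqM) : LaurentSeries ℚbar) =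
    algebraMap ℚbar (LaurentSeries ℚbar) ((q : ℚbar) ^ 12)
  rw [coe_wEquiv_vBar, vSer, map_pow, map_natCast]
  have h := deltaR_mul_deltaInvR ℚbar
  have h' := congrArg (qExpand ℚbar q) h
  rw [map_mul, map_one] at h'
  linear_combination ((q : LaurentSeries ℚbar) ^ 12 * (deltaR ℚbar * deltaInvR ℚbar)) * h' +
    (q : LaurentSeries ℚbar) ^ 12 * h

/-- Where `j` is finite, `Δ(τ)/Δ(qτ)` is finite. -/
theorem ord_vBar_nonneg (hqM : ¬ q ∣ M) (v : Place ℚbar (modularFunctionFieldBar (M * q)))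
    (hv : MFGenus.jElt ℚbar (M * q) ∈ v.toValuationSubring) : 0 ≤ v.ord (vBar q M hqM) := by
  refine FF.ord_nonneg_of_mem v ?_
  obtain ⟨Q, -, hQm, -, hQ, -⟩ := exists_vPoly q
  let φ : ℤ[X] →+* modularFunctionFieldBar (M * q) :=
    eval₂RingHom (Int.castRingHom _) (MFGenus.jElt ℚbar (M * q))
  have hmem : ∀ p, φ p ∈ v.toValuationSubring := by
    intro p
    induction p using Polynomial.induction_on' with
    | add a b ha hb => rw [map_add]; exact add_mem ha hb
    | monomial i c =>
      simp only [φ, coe_eval₂RingHom, eval₂_monomial, eq_intCast]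
      exact mul_mem (intCast_mem _ c) (pow_mem hv i)
  have hroot : Q.eval₂ φ (vBar q M hqM) = 0 := by
    refine Subtype.val_injective ?_
    show (modularFunctionFieldBar (M * q)).val.toRingHom _ = 0
    rw [Polynomial.hom_eval₂]
    have h := congrArg (coeffMap (Int.castRingHom ℚbar)) hQ
    rw [map_zero, Polynomial.hom_eval₂, coeffMap_vSer] at h
    refine Eq.trans ?_ h
    show Q.eval₂ _ (vSer q ℚbar) = _
    congr 1
    refine Polynomial.ringHom_ext (fun c => by simp) ?_
    show (modularFunctionFieldBar (M * q)).val.toRingHom (φ X) = _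
    simp only [φ, coe_eval₂RingHom, eval₂_X]
    show (MFGenus.jElt ℚbar (M * q) : LaurentSeries ℚbar) = _
    rw [Semistable.coe_jElt]
    simp [evq, coeffMap_jqModC]
  have hint : IsIntegral v.toValuationSubring (vBar q M hqM) := by
    refine ⟨Q.map (φ.codRestrict v.toValuationSubring hmem), hQm.map _, ?_⟩
    rw [Polynomial.eval₂_map]
    exact hroot
  obtain ⟨z, hz⟩ := IsIntegrallyClosed.isIntegral_iff.1 hint
  exact hz ▸ z.2

end Fermat.Agent.MazurPrinciple
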