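import Fermat.Agent.MazurPrinciple.SheetsModel
import Fermat.Agent.MazurPrinciple.NodeOrder
import Fermat.Agent.MazurPrinciple.VBar
import Fermat.Agent.MazurPrinciple.EtaUnit
import Fermat.Agent.OrdinaryP.Forms

/-!
# All nodes of the reduction of `X₀(qM)` are smooth when `ν₂(M) = ν₃(M) = 0`

`P = Δ(τ)/Δ(qτ)` times a power of a level `M` unit vanishing at the other cusps reduces to
`(H(j) e, 0)` with `H` of degree `q - 1`; the number of nodes is `(q - 1) ψ(M) / 12`.
-/

set_option autoImplicit false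

noncomputable section

open Polynomial ModularCurve AlgebraicCurve Fermat.Agent.Igusa Fermat.Agent.Reduction
  Fermat.Agent.Reduction.Level Fermat.Agent.Semistable Fermat.Agent.LevelLowerP

namespace Fermat.Agent.MazurPrinciple

local notation "ℚbar" => AlgebraicClosure ℚ

/-! ### The numerics -/

theorem cuspCount_mul_prime {q M : ℕ} (hq : q.Prime) (hqM : ¬ q ∣ M) :
    cuspCount (M * q) = 2 * cuspCount M := by
  have hcop : M.Coprime q := ((Nat.Prime.coprime_iff_not_dvd hq).mpr hqM).symm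
  rw [cuspCount, Cosets.sum_divisors_mul_coprime hcop, Finset.sum_product, cuspCount,
    Finset.mul_sum]
  refine Finset.sum_congr rfl fun a ha => ?_
  obtain ⟨haM, hM0⟩ := Nat.mem_divisors.mp ha
  obtain ⟨b, rfl⟩ := haM
  have ha0 : 0 < a := Nat.pos_of_ne_zero fun h => hM0 (by rw [h, zero_mul])
  rw [hq.divisors, Finset.sum_insert (by simp [hq.ne_one.symm]), Finset.sum_singleton, mul_one,
    Nat.mul_div_cancel_left _ ha0, mul_assoc a b q, Nat.mul_div_cancel_left _ ha0,
    show a * (b * q) = (a * q) * b by ring, Nat.mul_div_cancel_left _ (Nat.mul_pos ha0 hq.pos)]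
  have hca : Nat.Coprime q a := (hcop.coprime_dvd_left (dvd_mul_right a b)).symm
  have hcb : Nat.Coprime q b := (hcop.coprime_dvd_left (dvd_mul_left b a)).symm
  rw [Nat.Coprime.gcd_mul_right_cancel_right b hca, Nat.Coprime.gcd_mul_right_cancel a hcb]
  ring

theorem genusFormula_sub_one {N : ℕ} (h2 : nuTwo N = 0) (h3 : nuThree N = 0) :
    12 * (genusFormula N - 1) = (dedekindPsi N : ℚ) - 6 * cuspCount N := by
  rw [genusFormula, h2, h3]
  push_cast
  ring

theorem nu_eq_zero_of_dvd {M N : ℕ} [NeZero M] [NeZero N] (h : M ∣ N) :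
    (nuTwo M = 0 → nuTwo N = 0) ∧ (nuThree M = 0 → nuThree N = 0) := by
  constructor <;> intro hM
  · rw [nuTwo, Nat.card_eq_zero] at hM ⊢
    rcases hM with hM | hM
    · exact Or.inl ⟨fun x => hM.false ⟨ZMod.castHom h (ZMod M) x.1, by
        rw [← map_pow, ← map_one (ZMod.castHom h (ZMod M)), ← map_add, x.2, map_zero]⟩⟩
    · exact absurd hM (not_infinite_iff_finite.mpr inferInstance)
  · rw [nuThree, Nat.card_eq_zero] at hM ⊢
    rcases hM with hM | hM
    · exact Or.inl ⟨fun x => hM.false ⟨ZMod.castHom h (ZMod M) x.1, by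
        rw [← map_pow, ← map_add, ← map_one (ZMod.castHom h (ZMod M)), ← map_add, x.2, map_zero]⟩⟩
    · exact absurd hM (not_infinite_iff_finite.mpr inferInstance)

/-! ### Reductions of integral series -/

theorem red_of_int {K k : Type*} [Field K] [Field k] {A : ValuationSubring K} (π : A →+* k)
    (s : LaurentSeries ℤ) :
    Red A π (coeffMap (Int.castRingHom K) s) (coeffMap (Int.castRingHom k) s) := fun i => by
  refine ⟨by simp, ?_⟩
  simp only [coeffMap_coeff, eq_intCast]
  rw [show (⟨((s.coeff i : ℤ) : K), intCast_mem A _⟩ : A) = ((s.coeff i : ℤ) : A) from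
    Subtype.ext (by simp), map_intCast]

/-- Transport of a positivity property along an equality of fields. -/
theorem forall_pole_of_eq {K : Type*} [Field K] {F₁ F₂ : IntermediateField K (LaurentSeries K)}
    (h : F₁ = F₂) {p₁ : Place K F₁} {p₂ : Place K F₂}
    (h₁ : ∀ f : F₁, p₁.ord f = (f : LaurentSeries K).order)
    (h₂ : ∀ f : F₂, p₂.ord f = (f : LaurentSeries K).order) {y₁ j₁ : F₁} {y₂ j₂ : F₂}
    (hy : (y₁ : LaurentSeries K) = y₂) (hj : (j₁ : LaurentSeries K) = j₂)
    (hP : ∀ v : Place K F₂, v ≠ p₂ → 0 ≤ v.ord y₂ ∧ (v.ord j₂ < 0 → 0 < v.ord y₂)) :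
    ∀ v : Place K F₁, v ≠ p₁ → 0 ≤ v.ord y₁ ∧ (v.ord j₁ < 0 → 0 < v.ord y₁) := by
  subst h
  obtain rfl : y₁ = y₂ := Subtype.ext hy
  obtain rfl : j₁ = j₂ := Subtype.ext hj
  obtain rfl : p₁ = p₂ := place_eq_of_ord fun f => (h₁ f).trans (h₂ f).symm
  exact hP

variable {k : Type*} [Field k] [IsAlgClosed k] {A : ValuationSubring ℚbar} {π : A →+* k} {q M : ℕ}
  [NeZero q] [NeZero M] [CharP k q] [Fact q.Prime] (L : LevelData A π M) (w : ALData q M)
  (hq : q.Prime) (hA : A.LiesOverPrime q) (hπ : Function.Surjective π) (hqM : ¬ q ∣ M)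

omit [NeZero q] [Fact q.Prime] in
include hπ hqM in
theorem riemannGenus_bar_le [FF.IsFunctionField k (modularFunctionFieldFullC k M)] :
    FF.riemannGenus ℚbar (modularFunctionFieldBar M) ≤
      FF.riemannGenus k (modularFunctionFieldFullC k M) := by
  have hN : (M : k) ≠ 0 := natCast_residue_ne_zero (q := q) hqM
  have := isFunctionField_level (k := ℚbar) (N := M) (natCast_ne_zero_of_red hN π)
  obtain ⟨πR, hK, hk⟩ := exists_piR A π M hN
  have key : ∀ E : IntermediateField ℚbar (LaurentSeries ℚbar), modularFunctionFieldBar M = E →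
      ∀ [FF.IsFunctionField ℚbar E], FF.riemannGenus ℚbar E ≤
        FF.riemannGenus k (modularFunctionFieldFullC k M) →
      FF.riemannGenus ℚbar (modularFunctionFieldBar M) ≤
        FF.riemannGenus k (modularFunctionFieldFullC k M) := by
    rintro E rfl _ h
    exact h
  exact key _ (modularFunctionFieldBar_eq_fullC M)
    (riemannGenus_le hπ πR hK hk (normalLift_of_ne_zero FF.qbarToComplex hπ hN))

theorem riemannGenus_bar_eq_genusFormula (N : ℕ) [NeZero N] :
    (FF.riemannGenus ℚbar (modularFunctionFieldBar N) : ℚ) = genusFormula N := by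
  rw [OrdinaryP.riemannGenus_bar_eq_finrank (N := N), ← S20.result N]
  push_cast
  rfl

/-- **The number of nodes.** -/
theorem card_node [FF.IsFunctionField k (modularFunctionFieldFullC k M)]
    (Mo : CurveModel (L.sheets w hq hA hπ hqM) (modularFunctionFieldFullC k M))
    (h2 : nuTwo M = 0) (h3 : nuThree M = 0) :
    (12 : ℤ) * Nat.card (L.sheets w hq hA hπ hqM).Node ≤ ((q : ℤ) - 1) * dedekindPsi M := by
  set S := L.sheets w hq hA hπ hqM
  obtain ⟨N₁, hN₁⟩ := S.exists_ell_bd
  obtain ⟨N₂, hN₂⟩ :=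
    FF.exists_ell_eq_of_degree_ge ℚbar (modularFunctionFieldBar (M * q))
  set n : ℤ := |N₁| + |N₂| + S.n₀ with hn
  have := le_abs_self N₁
  have := le_abs_self N₂
  have := abs_nonneg N₁
  have := abs_nonneg N₂
  have e1 := (hN₁ n (by omega)).1
  have e2 := hN₂ (S.bd n) (by rw [S.degree_bd]; omega)
  rw [S.degree_bd] at e2
  have e3 := S.finrank_Ole (n := n) (by omega)
  have hg : FF.riemannGenus ℚbar (modularFunctionFieldBar M) ≤ S.gM :=
    Mo.riemannGenus_eq ▸ riemannGenus_bar_le (q := q) hπ hqM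
  have hnode : (Nat.card S.Node : ℚ) ≤
      FF.riemannGenus ℚbar (modularFunctionFieldBar (M * q)) -
        2 * (FF.riemannGenus ℚbar (modularFunctionFieldBar M) : ℚ) + 1 := by
    have : (Nat.card S.Node : ℤ) ≤ FF.riemannGenus ℚbar (modularFunctionFieldBar (M * q)) -
        2 * FF.riemannGenus ℚbar (modularFunctionFieldBar M) + 1 := by omega
    exact_mod_cast this
  rw [riemannGenus_bar_eq_genusFormula, riemannGenus_bar_eq_genusFormula] at hnode
  obtain ⟨h2', h3'⟩ := nu_eq_zero_of_dvd (dvd_mul_right M q)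
  have f1 := genusFormula_sub_one h2 h3
  have f2 := genusFormula_sub_one (h2' h2) (h3' h3)
  have hψ : dedekindPsi (M * q) = dedekindPsi M * (q + 1) := by
    rw [Cosets.dedekindPsi_mul ((Nat.Prime.coprime_iff_not_dvd hq).mpr hqM).symm]
    congr 1
    simpa using Cosets.dedekindPsi_prime_pow hq 0
  rw [hψ, cuspCount_mul_prime hq hqM] at f2
  push_cast at f2
  have : (12 : ℚ) * Nat.card S.Node ≤ ((q : ℚ) - 1) * dedekindPsi M := by linarith
  exact_mod_cast this

omit [IsAlgClosed k] [NeZero M] in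
/-- The reduction of `Δ(τ)/Δ(qτ)` is `H(j)` with `deg H = q - 1`. -/
theorem exists_hasse :
    ∃ H : k[X], evq k H = vSer q k ∧ H ≠ 0 ∧ (H.natDegree : ℤ) = (q : ℤ) - 1 := by
  obtain ⟨H, hH, -⟩ := exists_vQ_reduction q
  refine ⟨H.map (ZMod.castHom dvd_rfl k), ?_, ?_⟩
  · rw [← coeffMap_evq, ← hH, coeffMap_vSer]
  have h1 : evq k (H.map (ZMod.castHom dvd_rfl k)) = vSer q k := by
    rw [← coeffMap_evq, ← hH, coeffMap_vSer]
  have hΔ : deltaR k ≠ 0 := left_ne_zero_of_mul_eq_one (deltaR_mul_deltaInvR k)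
  have hΔ' : deltaInvR k ≠ 0 := right_ne_zero_of_mul_eq_one (deltaR_mul_deltaInvR k)
  have hΔq : qExpand k q (deltaInvR k) ≠ 0 :=
    (map_ne_zero_iff _ (qExpand_injective q)).mpr hΔ'
  have h0 : H.map (ZMod.castHom dvd_rfl k) ≠ 0 := fun h => by
    rw [h, map_zero, eq_comm, vSer] at h1
    exact mul_ne_zero hΔ hΔq h1
  refine ⟨h0, ?_⟩
  have h2 := order_evq h0
  rw [h1, vSer, HahnSeries.order_mul hΔ hΔq, Sheets.order_qExpand q hΔ', order_deltaR,
    order_deltaInvR] at h2
  linarith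

include hA in
/-- **All nodes are smooth.** -/
theorem smoothNode_sheets [FF.IsFunctionField k (modularFunctionFieldFullC k M)]
    (Mo : CurveModel (L.sheets w hq hA hπ hqM) (modularFunctionFieldFullC k M))
    (hκ : ∀ f : modularFunctionFieldFullC k M, Mo.κ f = (f : LaurentSeries k))
    (h2 : nuTwo M = 0) (h3 : nuThree M = 0) (u : (L.sheets w hq hA hπ hqM).Node) :
    (ratData L w hq hA hπ hqM).SmoothNode Mo u := by
  classical
  set R := ratData L w hq hA hπ hqM with hR
  have hN : (M : k) ≠ 0 := natCast_residue_ne_zero (q := q) hqM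
  have hNK : (M : ℚbar) ≠ 0 := Nat.cast_ne_zero.mpr (NeZero.ne M)
  have := isFunctionField_level (k := ℚbar) (N := M) hNK
  obtain ⟨πR, hK, hk⟩ := exists_piR A π M hN
  -- the unit of level `M`
  obtain ⟨n, hn⟩ := exists_cuspExponents hNK (A.subtype.comp πR) hK
  obtain ⟨UK, hUK, hUKreg, -⟩ := exists_etaUnit (A.subtype.comp πR) hK n
  obtain ⟨Uk, hUk, -, -⟩ := exists_etaUnit (π.comp πR) hk n
  obtain ⟨hUk0, hUkord⟩ := ord_etaUnit_eq_zero (π.comp πR) hk n hUk
  obtain ⟨hUK0, hUKord⟩ := ord_etaUnit_eq_zero (A.subtype.comp πR) hK n hUK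
  set e : modularFunctionFieldBar M :=
    castField (modularFunctionFieldBar_eq_fullC M).symm UK with he
  have hecoe : (e : LaurentSeries ℚbar) = etaSer M ℚbar n := by
    rw [he, coe_castField, hUK]
  have heprop : ∀ v : Place ℚbar (modularFunctionFieldBar M), v ≠ cuspInf M →
      0 ≤ v.ord e ∧ (v.ord (MFGenus.jElt ℚbar M) < 0 → 0 < v.ord e) := by
    refine forall_pole_of_eq (modularFunctionFieldBar_eq_fullC M) (fun f => ord_cuspInf M f)
      (ord_cuspPlace_cst0 (A.subtype.comp πR) hK) (y₂ := UK) (j₂ := jC ℚbar M)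
      (hecoe.trans hUK.symm) (Semistable.coe_jElt M) fun v hv => ?_
    by_cases hj : jC ℚbar M ∈ v.toValuationSubring
    · refine ⟨(hUKord v hj).ge, fun h => absurd (FF.ord_nonneg_of_mem v hj) (not_le.mpr h)⟩
    · exact ⟨(hn UK hUK v hj hv).le, fun _ => hn UK hUK v hj hv⟩
  set α := heckeAlphaBar ℚbar M q with hα
  have hαreg : (L.sheets w hq hA hπ hqM).Reg (α e) :=
    regOff_alpha w hq hqM fun v hv => (heprop v hv).1
  -- a power making `P` regular
  set T := (FF.finite_setOf_ord_neg (K := ℚbar) (vBar q M hqM)).toFinset with hT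
  set r : ℕ := ∑ v ∈ T, (v.ord (vBar q M hqM)).natAbs + 1 with hr
  have hv0 : vBar q M hqM ≠ 0 := fun h => by
    have := vBar_mul_wEquiv w hq hqM
    rw [h, zero_mul, eq_comm, map_eq_zero] at this
    exact pow_ne_zero _ (Nat.cast_ne_zero.mpr hq.ne_zero) this
  have he0 : e ≠ 0 := fun h => hUK0 (Subtype.ext (by
    rw [hUK, ← hecoe, h, ZeroMemClass.coe_zero, ZeroMemClass.coe_zero]))
  have hαe0 : α e ≠ 0 := (_root_.map_ne_zero α).mpr he0
  set P := vBar q M hqM * α e ^ r with hP
  have hPreg : (L.sheets w hq hA hπ hqM).Reg P := fun v h1 h2 => by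
    refine FF.mem_ordGE_of_le_ord v ?_
    rw [hP, v.ord_mul hv0 (pow_ne_zero _ hαe0), FF.ord_pow]
    have h3 : 0 ≤ v.ord (α e) := (FF.mem_ordGE_of_ne_zero v hαe0).mp (hαreg v h1 h2)
    by_cases hvv : 0 ≤ v.ord (vBar q M hqM)
    · have : 0 ≤ (r : ℤ) * v.ord (α e) := mul_nonneg (Int.natCast_nonneg _) h3
      linarith
    have hvT : v ∈ T := by simpa [hT] using not_le.mp hvv
    have hle := Finset.single_le_sum (f := fun v => (v.ord (vBar q M hqM)).natAbs)
      (fun _ _ => Nat.zero_le _) hvT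
    have hj : v.ord (MFGenus.jElt ℚbar (M * q)) < 0 := by
      by_contra hge
      refine hvv (ord_vBar_nonneg hqM v ((FF.mem_toValuationSubring_iff_ord v ?_).mpr
        (not_lt.mp hge)))
      intro h0
      have := Semistable.coe_jElt (M * q)
      rw [h0] at this
      exact jqModC_ne_zero_of_nontrivial ℚbar this.symm
    have hαi := FF.isIntegralAlong α
    have hαj : α (MFGenus.jElt ℚbar M) = MFGenus.jElt ℚbar (M * q) :=
      Subtype.ext (by rw [hα, coe_heckeAlphaBar, Semistable.coe_jElt, Semistable.coe_jElt])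
    rw [← hαj, Place.ord_restrictAlong α hαi v] at hj
    have h4 : 1 ≤ v.ord (α e) := by
      rw [Place.ord_restrictAlong α hαi v]
      have h5 : v.restrictAlong α hαi ≠ cuspInf M := fun h => by
        rcases eq_cusp_of_restrict w hq hqM hαi v h with h' | h'
        exacts [h1 h', h2 h']
      have h6 := ((heprop _ h5).2 (by
        by_contra hge
        exact absurd hj (not_lt.mpr (mul_nonneg (Int.natCast_nonneg _) (not_lt.mp hge)))))
      refine one_le_mul_of_one_le_of_one_le ?_ h6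
      let _ := algebraAlong (heckeAlphaBar ℚbar M q)
      have := isScalarTower_along (heckeAlphaBar ℚbar M q)
      have := isIntegral_along (heckeAlphaBar ℚbar M q) hαi
      exact_mod_cast v.ramificationIndex_pos (F := modularFunctionFieldBar M)
    have : (r : ℤ) * 1 ≤ r * v.ord (α e) :=
      mul_le_mul_of_nonneg_left h4 (Int.natCast_nonneg _)
    have hrz : ((v.ord (vBar q M hqM)).natAbs : ℤ) + 1 ≤ r := by
      rw [hr]; exact_mod_cast Nat.add_le_add_right hle 1
    omega
  -- expansions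
  set ε := α e ^ r * (L.sheets w hq hA hπ hqM).w (α e) ^ r with hε
  have hwα : ((L.sheets w hq hA hπ hqM).w (α e) : LaurentSeries ℚbar) =
      qExpand ℚbar q (etaSer M ℚbar n) := by
    show ((wEquiv w hq (α e) : modularFunctionFieldBar (M * q)) : LaurentSeries ℚbar) = _
    rw [hα, wEquiv_heckeAlphaBar, coe_heckeBetaBar, hecoe]
  have hιP : (L.sheets w hq hA hπ hqM).ι P = vSer q ℚbar * etaSer M ℚbar n ^ r := by
    rw [hP, map_mul, map_pow]
    show (vBar q M hqM : LaurentSeries ℚbar) * (α e : LaurentSeries ℚbar) ^ r = _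
    rw [coe_vBar, hα, coe_heckeAlphaBar, hecoe]
  have hιwP : (L.sheets w hq hA hπ hqM).ι ((L.sheets w hq hA hπ hqM).w P) =
      (q : LaurentSeries ℚbar) ^ 12 *
      (qExpand ℚbar q (deltaR ℚbar) * deltaInvR ℚbar) *
        qExpand ℚbar q (etaSer M ℚbar n) ^ r := by
    rw [hP, map_mul, map_pow, map_mul, map_pow]
    show (wEquiv w hq (vBar q M hqM) : LaurentSeries ℚbar) *
      ((L.sheets w hq hA hπ hqM).w (α e) : LaurentSeries ℚbar) ^ r = _
    rw [hwα, coe_wEquiv_vBar]
  have hPP : P * (L.sheets w hq hA hπ hqM).w P = R.ϖ ^ 12 • ε := by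
    rw [hP, map_mul, map_pow, mul_mul_mul_comm, Algebra.smul_def]
    show vBar q M hqM * wEquiv w hq (vBar q M hqM) * _ = _
    rw [vBar_mul_wEquiv]
    rfl
  -- the reductions
  have hcast : ∀ s : LaurentSeries ℤ, coeffMap (Int.castRingHom k) s =
      coeffMap (ZMod.castHom dvd_rfl k) (coeffMap (Int.castRingHom (ZMod q)) s) := fun s => by
    ext i
    simp
  have hηk : Red A π (etaSer M ℚbar n) (etaSer M k n) := by
    have := red_of_int (K := ℚbar) π (etaSer M ℤ n)
    rwa [coeffMap_etaSer, coeffMap_etaSer] at this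
  have hηq : Red A π (qExpand ℚbar q (etaSer M ℚbar n)) (etaSer M k n ^ q) := by
    have := red_of_int (K := ℚbar) π (qExpand ℤ q (etaSer M ℤ n))
    rw [hcast, coeffMap_qExpand, coeffMap_qExpand, coeffMap_etaSer, coeffMap_etaSer,
      qExpand_eq_pow, map_pow, coeffMap_etaSer] at this
    exact this
  have hvk : Red A π (vSer q ℚbar) (vSer q k) := by
    have := red_of_int (K := ℚbar) π (vSer q ℤ)
    rwa [coeffMap_vSer, coeffMap_vSer] at this
  have hΔk : Red A π (qExpand ℚbar q (deltaR ℚbar) * deltaInvR ℚbar)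
      (qExpand k q (deltaR k) * deltaInvR k) := by
    have := red_of_int (K := ℚbar) π (qExpand ℤ q (deltaR ℤ) * deltaInvR ℤ)
    rwa [map_mul, map_mul, coeffMap_qExpand, coeffMap_qExpand, coeffMap_deltaR, coeffMap_deltaR,
      coeffMap_deltaInvR, coeffMap_deltaInvR] at this
  obtain ⟨H, hH, hH0, hHdeg⟩ := exists_hasse (k := k) (q := q)
  set h : modularFunctionFieldFullC k M := Level.evC k M H with hh
  have hhcoe : (h : LaurentSeries k) = vSer q k := by rw [hh, Level.coe_evC, hH]
  set pf : modularFunctionFieldFullC k M := h * Uk ^ r with hpf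
  set ef : modularFunctionFieldFullC k M := Uk ^ r * (Uk ^ q) ^ r with hef
  have hh0 : h ≠ 0 := fun h0 => hH0 (Level.evC_injective k M (by rw [← hh, h0, map_zero]))
  have hPred : Red2 A π ((L.sheets w hq hA hπ hqM).T P) (Mo.κ pf, 0) := by
    refine ⟨?_, ?_⟩
    · show Red A π ((L.sheets w hq hA hπ hqM).ι P) (Mo.κ pf)
      rw [hιP, hκ, hpf]
      show Red A π _ ((h : LaurentSeries k) * (Uk : LaurentSeries k) ^ r)
      rw [hhcoe, hUk]
      exact hvk.mul (hηk.pow r)
    · show Red A π ((L.sheets w hq hA hπ hqM).ι ((L.sheets w hq hA hπ hqM).w P)) _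
      rw [hιwP]
      have h12 := (red_natCast (A := A) (π := π) q).pow 12
      rw [show (q : LaurentSeries k) = 0 by
        rw [← map_natCast (algebraMap k (LaurentSeries k)), CharP.cast_eq_zero, map_zero],
        zero_pow (by norm_num)] at h12
      simpa using (h12.mul hΔk).mul (hηq.pow r)
  have hεred : Red A π ((L.sheets w hq hA hπ hqM).ι ε) (Mo.κ ef) := by
    rw [hε, map_mul, map_pow, map_pow, hκ, hef]
    show Red A π ((α e : LaurentSeries ℚbar) ^ r *
        ((L.sheets w hq hA hπ hqM).w (α e) : LaurentSeries ℚbar) ^ r)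
      ((Uk : LaurentSeries k) ^ r * ((Uk : LaurentSeries k) ^ q) ^ r)
    rw [hwα, hα, coe_heckeAlphaBar, hecoe, hUk]
    exact (hηk.pow r).mul (hηq.pow r)
  -- the zeros of `H(j)`
  set Z := (FF.poleDiv k h⁻¹).support with hZ
  have hZmem : ∀ v, v ∈ Z ↔ 0 < v.ord h := fun v => by
    rw [hZ, Finsupp.mem_support_iff, FF.poleDiv_apply, v.ord_inv, neg_neg]
    omega
  have hjord : ∀ v : Place k (modularFunctionFieldFullC k M), 0 < v.ord h →
      jC k M ∈ v.toValuationSubring := by
    intro v hv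
    by_contra hj
    have hj0 : jC k M ≠ 0 := fun h0 => hj (h0 ▸ zero_mem _)
    have hjn : v.ord (jC k M) < 0 := by
      by_contra hge
      exact hj ((FF.mem_toValuationSubring_iff_ord v hj0).mpr (not_lt.mp hge))
    rw [hh, Level.ord_evC v hjn hH0] at hv
    nlinarith [Int.natCast_nonneg H.natDegree]
  have hZprop : ∀ v ∈ Z, v ≠ Mo.pt ∧ 0 < v.ord pf ∧ v.ord ef = 0 := by
    intro v hv
    have hvh := (hZmem v).mp hv
    have hj := hjord v hvh
    have hU := hUkord v hj
    refine ⟨fun hpt => ?_, ?_, ?_⟩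
    · have hjo := FF.ord_nonneg_of_mem v hj
      rw [hpt, Mo.ord_pt, hκ, show ((jC k M : modularFunctionFieldFullC k M) : LaurentSeries k) =
        jqModC k from rfl, order_jqModC] at hjo
      omega
    · rw [hpf, v.ord_mul hh0 (pow_ne_zero _ hUk0), FF.ord_pow, hU, mul_zero, add_zero]
      exact hvh
    · rw [hef, v.ord_mul (pow_ne_zero _ hUk0) (pow_ne_zero _ (pow_ne_zero _ hUk0)), FF.ord_pow,
        FF.ord_pow, FF.ord_pow, hU, mul_zero, mul_zero, mul_zero, add_zero]
  have hdeg : ∑ v ∈ Z, v.ord pf = ((q : ℤ) - 1) * dedekindPsi M := by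
    have hpole : FF.poleDiv k h = jPoles k M H.natDegree := by
      refine Finsupp.ext fun v => ?_
      rw [jPoles, Finsupp.smul_apply, FF.poleDiv_apply, FF.poleDiv_apply, smul_eq_mul]
      by_cases hj : v.ord (jC k M) < 0
      · rw [hh, Level.ord_evC v hj hH0, max_eq_left (by nlinarith [Int.natCast_nonneg H.natDegree]),
          max_eq_left (by omega)]
        ring
      · have hjm : jC k M ∈ v.toValuationSubring :=
          (FF.mem_toValuationSubring_iff v).mpr (by
            rcases eq_or_ne (jC k M) 0 with h0 | h0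
            · rw [h0]; exact Submodule.zero_mem _
            · exact (FF.mem_ordGE_of_ne_zero v h0).mpr (not_lt.mp hj))
        have := FF.ord_nonneg_of_mem v ((Level.regFin_evC H).mem_place v hjm)
        rw [← hh] at this
        rw [max_eq_right (by omega), max_eq_right (by omega), mul_zero]
    have hd := FF.degree_divOf (K := k) h
    rw [FF.divOf, map_sub, sub_eq_zero, hpole, degree_jPoles (π.comp πR) hk,
      FF.degree_eq_sum, ← hZ, show idx M = dedekindPsi M from
        (finrank_fullC M hN).symm.trans (finrank_fullC_eq_dedekindPsi M hN), hHdeg] at hd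
    rw [← hd]
    refine Finset.sum_congr rfl fun v hv => ?_
    have hvh := (hZmem v).mp hv
    rw [FF.deg_eq_one, Nat.cast_one, mul_one, FF.poleDiv_apply, v.ord_inv, neg_neg,
      max_eq_left hvh.le, hpf, v.ord_mul hh0 (pow_ne_zero _ hUk0), FF.ord_pow,
      hUkord v (hjord v hvh), mul_zero, add_zero]
  refine R.smoothNode_of_sum_ord Mo hPreg hPred (mul_ne_zero hh0 (pow_ne_zero _ hUk0))
    (d := 12) (by norm_num) hPP hεred
    (mul_ne_zero (pow_ne_zero _ hUk0) (pow_ne_zero _ (pow_ne_zero _ hUk0))) Z hZprop ?_ u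
  rw [hdeg]
  exact card_node L w hq hA hπ hqM Mo h2 h3

include hA in
/-- **Regularity of the special fibre of `X₀(qM)`**: if an inertia invariant class is killed by
`m`, the reductions of its Kummer function have divisors divisible by `m`. -/
theorem exists_dvd_ord_x0 (h2 : nuTwo M = 0) (h3 : nuThree M = 0) {m : ℕ} (hm : 0 < m)
    {E : Divisor ℚbar (modularFunctionFieldBar (M * q))}
    (hE : (L.sheets w hq hA hπ hqM).Neg E) (hdeg : Divisor.degree E = 0)
    (hfix : ∀ τ ∈ A.inertiaSubgroupIn ℚ,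
      arithmeticGalois (modularFunctionFieldFull (M * q)) τ • E = E)
    {G : modularFunctionFieldBar (M * q)} (hG : G ≠ 0)
    (hord : ∀ v, v.ord G = -((m : ℤ) * E v)) {g₁ g₂ : LaurentSeries k}
    (hred : Red2 A π ((L.sheets w hq hA hπ hqM).T G) (g₁, g₂)) (hg₁ : g₁ ≠ 0) (hg₂ : g₂ ≠ 0) :
    ∃ f₁ f₂ : modularFunctionFieldFullC k M, (f₁ : LaurentSeries k) = g₁ ∧
      (f₂ : LaurentSeries k) = g₂ ∧ ∀ v : Place k (modularFunctionFieldFullC k M),
        (m : ℤ) ∣ v.ord f₁ ∧ (m : ℤ) ∣ v.ord f₂ := by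
  have hN : (M : k) ≠ 0 := natCast_residue_ne_zero (q := q) hqM
  have := isFunctionField_level (k := k) (N := M) hN
  obtain ⟨Mo, hκ⟩ := exists_curveModel L w hq hA hπ hqM
  have hreg : (L.sheets w hq hA hπ hqM).Reg G := fun v h1 h2 =>
    FF.mem_ordGE_of_le_ord v (by rw [hord]; have := hE v h1 h2; nlinarith)
  obtain ⟨m1, m2⟩ := hreg.red_mem hred
  set f₁ := Mo.toFk ⟨g₁, m1⟩ with hf₁
  set f₂ := Mo.toFk ⟨g₂, m2⟩ with hf₂
  have e1 : Mo.κ f₁ = g₁ := by rw [hf₁, Mo.κ_toFk]
  have e2 : Mo.κ f₂ = g₂ := by rw [hf₂, Mo.κ_toFk]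
  refine ⟨f₁, f₂, by rw [← hκ, e1], by rw [← hκ, e2], ?_⟩
  exact (ratData L w hq hA hπ hqM).dvd_ord Mo
    (fun u => smoothNode_sheets L w hq hA hπ hqM Mo hκ h2 h3 u) hm hE hdeg
    (by rintro σ ⟨τ, hτ, rfl⟩; rw [LevelData.inertia_act]; exact hfix τ hτ) hG hord
    (by rw [e1, e2]; exact hred) (fun h => hg₁ (by rw [← e1, h, map_zero]))
    (fun h => hg₂ (by rw [← e2, h, map_zero]))

end Fermat.Agent.MazurPrinciple
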