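import Fermat.Agent.MazurPrinciple.Balance
import Fermat.Agent.MazurPrinciple.NodeX0
import Fermat.Agent.MazurPrinciple.Descend
import Fermat.Agent.Reduction.Level.Setup

/-!
# Pulling back to a level without elliptic points

Pulling a fixed balanced representative to a level without elliptic points: the reduced Kummer
function has all its orders there divisible by `m`.
-/

set_option autoImplicit false

noncomputable section

namespace Fermat.Agent.MazurPrinciple

open HahnSeries AlgebraicCurve ModularCurve Fermat.Agent.Reduction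
open Fermat.Agent.Semistable (ALData wEquiv wHom_jGenBar jGenBar modularBar_eq_top LevelData Ser2
  Sheets Red2 red2_zero)

local notation "ℚbar" => AlgebraicClosure ℚ
local notation "Γℚbar" => AlgebraicClosure ℚ ≃ₐ[ℚ] AlgebraicClosure ℚ

theorem bar_le {N N' : ℕ} [NeZero N] [NeZero N'] (h : N ∣ N') :
    modularFunctionFieldBar N ≤ modularFunctionFieldBar N' := by
  rw [Reduction.Level.modularFunctionFieldBar_eq_fullC,
    Reduction.Level.modularFunctionFieldBar_eq_fullC]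
  exact full_degeneracyC_le ℚbar h

/-- The inclusion in a higher level. -/
def barIncl {N N' : ℕ} [NeZero N] [NeZero N'] (h : N ∣ N') :
    modularFunctionFieldBar N →ₐ[ℚbar] modularFunctionFieldBar N' :=
  IntermediateField.inclusion (bar_le h)

theorem coe_barIncl {N N' : ℕ} [NeZero N] [NeZero N'] (h : N ∣ N') (x : modularFunctionFieldBar N) :
    (barIncl h x : LaurentSeries ℚbar) = x := IntermediateField.coe_inclusion (bar_le h) x

theorem barIncl_galFun {N N' : ℕ} [NeZero N] [NeZero N'] (h : N ∣ N') (σ : Γℚbar)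
    (x : modularFunctionFieldBar N) : barIncl h (galFun N σ x) = galFun N' σ (barIncl h x) :=
  Subtype.ext (by
    rw [coe_barIncl, coe_arithmeticRingAut_apply, coe_arithmeticRingAut_apply, coe_barIncl])

variable {q M M' : ℕ} [NeZero q] [NeZero M] [NeZero M'] [hq : Fact q.Prime]

theorem barIncl_wEquiv (hM : M ∣ M') (w : ALData q M) (w' : ALData q M')
    (x : modularFunctionFieldBar (M * q)) :
    barIncl (mul_dvd_mul_right hM q) (wEquiv w hq.out x) =
      wEquiv w' hq.out (barIncl (mul_dvd_mul_right hM q) x) := by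
  set i := barIncl (mul_dvd_mul_right hM q)
  have hi : ∀ (d : ℕ) [NeZero d] (hd : d ∣ M * q),
      i (jGenBar (M * q) d hd) = jGenBar (M' * q) d (hd.trans (mul_dvd_mul_right hM q)) :=
    fun d _ hd => Subtype.ext (coe_barIncl _ _)
  refine modularBar_eq_top (RingHom.eqLocusField
    ((i : modularFunctionFieldBar (M * q) →+* modularFunctionFieldBar (M' * q)).comp
      (wEquiv w hq.out : modularFunctionFieldBar (M * q) →+* modularFunctionFieldBar (M * q)))
    ((wEquiv w' hq.out : modularFunctionFieldBar (M' * q) →+* modularFunctionFieldBar (M' * q)).comp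
      (i : modularFunctionFieldBar (M * q) →+* modularFunctionFieldBar (M' * q))))
    (fun c => ?_) (fun d _ hd => ?_) x
  · show i (wEquiv w hq.out _) = wEquiv w' hq.out (i _)
    rw [AlgEquiv.commutes, AlgHom.commutes, AlgEquiv.commutes]
  · show i (wEquiv w hq.out (jGenBar (M * q) d hd)) = wEquiv w' hq.out (i (jGenBar (M * q) d hd))
    rcases Semistable.dvd_or_of_dvd_mul hq.out hd with h | ⟨e, he, rfl⟩
    · have : NeZero (q * d) := ⟨Nat.mul_ne_zero (NeZero.ne q) (NeZero.ne d)⟩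
      rw [show wEquiv w hq.out (jGenBar (M * q) d hd) = _ from (wHom_jGenBar w hq.out h).1, hi, hi]
      exact (wHom_jGenBar w' hq.out (h.trans hM)).1.symm
    · have : NeZero e := ⟨ne_zero_of_dvd_ne_zero (NeZero.ne M) he⟩
      rw [show wEquiv w hq.out (jGenBar (M * q) (q * e) hd) = _ from (wHom_jGenBar w hq.out he).2,
        hi, hi]
      exact (wHom_jGenBar w' hq.out (he.trans hM)).2.symm

variable {k : Type*} [Field k] [IsAlgClosed k] {A : ValuationSubring ℚbar} {π : A →+* k}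
  [CharP k q]

/-- The reduced functions of level `M` are functions of `k(X₀(M))`. -/
theorem exists_coe_eq_of_mem_fracSub (L : LevelData A π M) (w : ALData q M)
    (hA : A.LiesOverPrime q) (hπ : Function.Surjective π) (hqM : ¬ q ∣ M) {x : LaurentSeries k}
    (hx : x ∈ fracSub (shQ L w hA hπ hqM).C) :
    ∃ f : modularFunctionFieldFullC k M, (f : LaurentSeries k) = x := by
  obtain ⟨Mo, hκ⟩ := exists_curveModel L w hq.out hA hπ hqM
  have hle : fracSub (shQ L w hA hπ hqM).C ≤ modularFunctionFieldFullC k M := by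
    rw [fracSub, IntermediateField.adjoin_le_iff]
    intro y hy
    obtain ⟨f, rfl, -⟩ := (Mo.mem y).mp hy
    rw [hκ]
    exact f.2
  exact ⟨⟨x, hle hx⟩, rfl⟩

section Generic

variable {K F : Type*} [Field K] [Field F] [Algebra K F] [IsAlgClosed K] [FF.IsFunctionField K F]
  {A₀ : ValuationSubring K} {k₀ : Type*} [Field k₀] [IsAlgClosed k₀] {π₀ : A₀ →+* k₀} {q₀ : ℕ}
  [NeZero q₀]

omit [IsAlgClosed k₀] in
/-- Regularisation by a fixed balanced function. -/
theorem exists_fixed_regular {S : Sheets A₀ π₀ q₀ F} (R : RatData S) {m : ℕ} (hm : 0 < m)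
    {D : Divisor K F} (hdeg : Divisor.degree D = 0) {f : F} (hf : f ≠ 0)
    (hord : ∀ v, v.ord f = (m : ℤ) * D v) (hfix : ∀ σ ∈ R.I, σ.g f = f) {g : Ser2 k₀}
    (hn : NRed2 A₀ π₀ (S.ι f, S.ι (S.w f)) g) :
    ∃ (E : Divisor K F) (G : F) (u : k₀) (N : ℕ) (y : Ser2 k₀), u ≠ 0 ∧ G ≠ 0 ∧ y.1 ≠ 0 ∧
      y.2 ≠ 0 ∧ y.1 ∈ S.C ∧ S.Neg E ∧ Divisor.degree E = 0 ∧ (∀ σ ∈ R.I, σ.act E = E) ∧
      (∀ v, v.ord G = -((m : ℤ) * E v)) ∧
      Red2 A₀ π₀ (S.T G) (algebraMap k₀ (LaurentSeries k₀) u * (g.1 * (y.1 ^ N) ^ m),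
        algebraMap k₀ (LaurentSeries k₀) u * (g.2 * (y.2 ^ N) ^ m)) := by
  classical
  have key : ∀ σ ∈ R.I, ∀ (m' : ℕ) (z : F) (Z : Divisor K F), 0 < m' →
      (∀ v, v.ord z = (m' : ℤ) * Z v) → σ.g z = z → σ.act Z = Z := by
    intro σ hσ m' z Z hm' hz hzf
    refine Finsupp.ext fun v => ?_
    obtain ⟨v, rfl⟩ := σ.P.surjective v
    refine mul_left_cancel₀ (Nat.cast_ne_zero.mpr hm'.ne' : (m' : ℤ) ≠ 0) ?_
    have h1 : (σ.P v).ord (σ.g z) = v.ord z := σ.ord_P v z
    rw [hzf, hz, hz] at h1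
    rw [σ.act_apply, h1]
  set P : Divisor K F := Finsupp.mapRange (fun z : ℤ => min z 0) (min_self 0) D with hP
  have hPneg : S.Neg P := fun v _ _ => by
    rw [hP, Finsupp.mapRange_apply]; exact min_le_right _ _
  have hPfix : ∀ σ ∈ R.I, σ.act P = P := fun σ hσ => by
    refine Finsupp.ext fun v => ?_
    obtain ⟨v, rfl⟩ := σ.P.surjective v
    have := DFunLike.congr_fun (key σ hσ m f D hm hord (hfix σ hσ)) (σ.P v)
    rw [σ.act_apply] at this ⊢
    rw [hP, Finsupp.mapRange_apply, Finsupp.mapRange_apply, this]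
  obtain ⟨n, h₀, hh₀, y, hy, hy1, hy2, hy10, hy20⟩ := S.exists_balanced hPneg
  obtain ⟨h₁, hh₁, hh₁fix, hy'⟩ := R.exists_fix_lift
    (W := S.L P n) (fun σ hσ z hz => by
      have := σ.mem_L_act hz
      rwa [hPfix σ hσ] at this)
    (fun z hz hz0 => (Sheets.reg_of_mem_L hPneg hz).normalizable2 hz0) (x := y) ⟨h₀, hh₀, hy⟩
  have hh10 : h₁ ≠ 0 := by
    rintro rfl
    rw [map_zero] at hy'
    exact hy10 (congrArg Prod.fst (hy'.unique red2_zero))
  obtain ⟨G, N, c, u, hG, hGreg, hc, hu, hGe, hGred⟩ :=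
    exists_regularise S hf hn hy' hy10 hy20 (Sheets.reg_of_mem_L hPneg hh₁) (fun v e1 e2 hlt => by
      have := S.mem_L.mp hh₁ v
      rw [FF.mem_ordGE_of_ne_zero v hh10, Finsupp.add_apply, S.bd_of_ne n e1 e2, hP,
        Finsupp.mapRange_apply] at this
      rw [hord] at hlt
      have hDv : D v < 0 := neg_of_mul_neg_right hlt (Int.natCast_nonneg m)
      omega) hm
  set E : Divisor K F := -(D + (N : ℤ) • FF.divOf K h₁) with hE
  have hordG : ∀ v, v.ord G = -((m : ℤ) * E v) := fun v => by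
    rw [hGe, v.ord_mul ((map_ne_zero _).mpr hc)
      (mul_ne_zero hf (pow_ne_zero _ (pow_ne_zero _ hh10))), FF.ord_algebraMap,
      v.ord_mul hf (pow_ne_zero _ (pow_ne_zero _ hh10)), FF.ord_pow, FF.ord_pow, hord, hE,
      Finsupp.neg_apply, Finsupp.add_apply, Finsupp.smul_apply, FF.divOf_apply, smul_eq_mul]
    ring
  refine ⟨E, G, u, N, y, hu, hG, hy10, hy20, hy1, fun v v1 v2 => ?_, ?_, fun σ hσ => ?_, hordG,
    hGred⟩
  · have h0 := (FF.mem_ordGE_of_ne_zero v hG).mp (hGreg v v1 v2)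
    rw [hordG] at h0
    nlinarith [show (0 : ℤ) < m by exact_mod_cast hm]
  · rw [hE, map_neg, map_add, map_zsmul, FF.degree_divOf, hdeg, smul_zero, add_zero, neg_zero]
  · rw [hE, map_neg, map_add, map_zsmul, key σ hσ m f D hm hord (hfix σ hσ),
      key σ hσ 1 h₁ (FF.divOf K h₁) one_pos (fun v => by rw [Nat.cast_one, one_mul, FF.divOf_apply])
        (hh₁fix σ hσ)]

end Generic

theorem ι_shQ (L : LevelData A π M) (w : ALData q M) (hA : A.LiesOverPrime q)
    (hπ : Function.Surjective π) (hqM : ¬ q ∣ M) (f : modularFunctionFieldBar (M * q)) :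
    (shQ L w hA hπ hqM).ι f = (f : LaurentSeries ℚbar) ∧
      (shQ L w hA hπ hqM).w f = wEquiv w hq.out f := ⟨rfl, rfl⟩

theorem NRed2.pullUp (L : LevelData A π M) (w : ALData q M) (L' : LevelData A π M')
    (w' : ALData q M') (hA : A.LiesOverPrime q) (hπ : Function.Surjective π) (hqM : ¬ q ∣ M)
    (hqM' : ¬ q ∣ M') (hM : M ∣ M') {f : modularFunctionFieldBar (M * q)} {g : Ser2 k}
    (h : NRed2 A π ((shQ L w hA hπ hqM).ι f,
      (shQ L w hA hπ hqM).ι ((shQ L w hA hπ hqM).w f)) g) :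
    NRed2 A π ((shQ L' w' hA hπ hqM').ι (barIncl (mul_dvd_mul_right hM q) f),
      (shQ L' w' hA hπ hqM').ι
        ((shQ L' w' hA hπ hqM').w (barIncl (mul_dvd_mul_right hM q) f))) g := by
  rw [(ι_shQ L' w' hA hπ hqM' _).1, (ι_shQ L' w' hA hπ hqM' _).2,
    (ι_shQ L' w' hA hπ hqM' _).1, ← barIncl_wEquiv hM w w',
    coe_barIncl (N := M * q) (N' := M' * q), coe_barIncl (N := M * q) (N' := M' * q)]
  rw [(ι_shQ L w hA hπ hqM _).1, (ι_shQ L w hA hπ hqM _).2, (ι_shQ L w hA hπ hqM _).1] at h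
  exact h

theorem mem_ratData_I (L' : LevelData A π M') (w' : ALData q M') (hA : A.LiesOverPrime q)
    (hπ : Function.Surjective π) (hqM' : ¬ q ∣ M') {τ : Γℚbar}
    (hτ : τ ∈ A.inertiaSubgroupIn ℚ) :
    ∃ σ ∈ (ratData L' w' hq.out hA hπ hqM').I,
      ∀ D, σ.act D = arithmeticGalois (modularFunctionFieldFull (M' * q)) τ • D :=
  ⟨L'.inertia w' hq.out hA hπ hqM' hτ, ⟨τ, hτ, rfl⟩,
    fun D => LevelData.inertia_act L' w' hq.out hA hπ hqM' hτ D⟩

theorem ratData_g_eq (L' : LevelData A π M') (w' : ALData q M') (hA : A.LiesOverPrime q)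
    (hπ : Function.Surjective π) (hqM' : ¬ q ∣ M') {f : modularFunctionFieldBar (M' * q)}
    (hf : ∀ τ ∈ A.inertiaSubgroupIn ℚ, galFun (M' * q) τ f = f) :
    ∀ σ ∈ (ratData L' w' hq.out hA hπ hqM').I, σ.g f = f := by
  rintro σ ⟨τ, hτ, rfl⟩
  exact hf τ hτ

/-- **All orders at level `M'` are divisible by `m`.** -/
theorem exists_dvd_ord_upper (L : LevelData A π M) (w : ALData q M) (L' : LevelData A π M')
    (w' : ALData q M') (hA : A.LiesOverPrime q) (hπ : Function.Surjective π) (hqM : ¬ q ∣ M)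
    (hqM' : ¬ q ∣ M') (hM : M ∣ M') (h2 : nuTwo M' = 0) (h3 : nuThree M' = 0) {m : ℕ} (hm : 0 < m)
    {x : JZero (M * q)} {g : Ser2 k} (h : FixBRep L w hA hπ hqM m x g) :
    ∃ f : modularFunctionFieldFullC k M, f ≠ 0 ∧ (f : LaurentSeries k) = g.1 ∧
      ∀ v : Place k (modularFunctionFieldFullC k M'),
        (m : ℤ) ∣ v.ord (IntermediateField.inclusion (full_degeneracyC_le k hM) f) := by
  have hN := natCast_residue_ne_zero (k := k) (q := q) hqM'
  have := FF.isFunctionField_fullC k M' hN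
  have := Kummer.isFunctionField_FL (N := M * q) Kummer.ιbar
  have := Kummer.isFunctionField_FL (N := M' * q) Kummer.ιbar
  obtain ⟨D, f₀, hf₀, -, hord₀, hfix₀, hn₀⟩ := h
  obtain ⟨f₁, hf₁⟩ := exists_coe_eq_of_mem_fracSub L w hA hπ hqM
    (nred_mem_fracSub (shQ L w hA hπ hqM) hn₀.fst)
  have hg1 : g.1 ≠ 0 := hn₀.fst.ne_zero
  have hg2 : g.2 ≠ 0 := hn₀.snd.ne_zero
  refine ⟨f₁, fun h0 => hg1 (by rw [← hf₁, h0]; rfl), hf₁, ?_⟩
  set i := barIncl (N := M * q) (N' := M' * q) (mul_dvd_mul_right hM q) with hi_def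
  have hi : i.toRingHom.IsIntegral := FF.isIntegralAlong i
  have hFI := FF.fundamentalIdentityAlong i hi
  obtain ⟨E, G, u, N, y, hu, hG, hy10, hy20, hy1, hEneg, hEdeg, hEfix, hordG, hGred⟩ :=
    exists_fixed_regular (ratData L' w' hq.out hA hπ hqM') hm
      (D := Divisor.pullbackAlong i hi D)
      (by rw [Divisor.degree_pullbackAlong i hi hFI, Divisor.mem_degZero.mp D.2, mul_zero])
      (f := i f₀) ((map_ne_zero i).mpr hf₀)
      (fun v => by
        rw [Place.ord_restrictAlong i hi, hord₀, Divisor.pullbackAlong_apply]; ring)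
      (ratData_g_eq L' w' hA hπ hqM' fun τ hτ => by rw [hi_def, ← barIncl_galFun, hfix₀ τ hτ])
      (NRed2.pullUp L w L' w' hA hπ hqM hqM' hM hn₀)
  have hy0N : ∀ z : LaurentSeries k, z ≠ 0 → ∀ g' : LaurentSeries k, g' ≠ 0 →
      algebraMap k (LaurentSeries k) u * (g' * (z ^ N) ^ m) ≠ 0 := fun z hz g' hg' =>
    mul_ne_zero ((map_ne_zero _).mpr hu) (mul_ne_zero hg' (pow_ne_zero _ (pow_ne_zero _ hz)))
  obtain ⟨F₁, F₂, hF₁, -, hdvd⟩ := exists_dvd_ord_x0 L' w' hq.out hA hπ hqM' h2 h3 hm hEneg hEdeg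
    (fun τ hτ => by
      obtain ⟨σ, hσ, hσe⟩ := mem_ratData_I L' w' hA hπ hqM' hτ
      rw [← hσe, hEfix σ hσ])
    hG hordG hGred (hy0N _ hy10 _ hg1) (hy0N _ hy20 _ hg2)
  obtain ⟨Y, hY⟩ := exists_coe_eq_of_mem_fracSub L' w' hA hπ hqM' (mem_fracSub_of_mem hy1)
  intro v
  set j := IntermediateField.inclusion (full_degeneracyC_le k hM) f₁ with hj
  have hY0 : Y ≠ 0 := fun h0 => hy10 (by rw [← hY, h0]; rfl)
  have hj0 : j ≠ 0 := fun h0 => hg1 (by
    rw [← hf₁, ← IntermediateField.coe_inclusion (full_degeneracyC_le k hM) f₁, ← hj, h0]; rfl)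
  have hF : F₁ = algebraMap k _ u * (j * (Y ^ N) ^ m) := Subtype.ext (by
    rw [hF₁]
    push_cast
    rw [hY, hj, IntermediateField.coe_inclusion, hf₁])
  have := (hdvd v).1
  rw [hF, v.ord_mul ((map_ne_zero _).mpr hu) (mul_ne_zero hj0 (pow_ne_zero _ (pow_ne_zero _ hY0))),
    FF.ord_algebraMap, zero_add, v.ord_mul hj0 (pow_ne_zero _ (pow_ne_zero _ hY0)), FF.ord_pow,
    FF.ord_pow] at this
  exact (Int.dvd_add_left (dvd_mul_right _ _)).mp this

end Fermat.Agent.MazurPrinciple
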