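import Fermat.Agent.Semistable.Steps

/-!
# Elements fixed by inertia

A finite dimensional space of functions stable under a set of inertia elements has, for every
reduced pair, a lift fixed by all of them (echelon form relative to residually independent
coefficients).
-/

set_option autoImplicit false

noncomputable section

namespace Fermat.Agent.MazurPrinciple

open Fermat.Agent.Semistable Fermat.Agent.Reduction AlgebraicCurve ModularCurve

variable {K F k : Type*} [Field K] [Field F] [Algebra K F] [Field k] {A : ValuationSubring K}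
  {π : A →+* k} {q : ℕ} [NeZero q]

/-- A set of inertia elements whose fixed field has uniformiser `ϖ` and the full residue field. -/
structure RatData (S : Sheets A π q F) where
  I : Set S.Inertia
  ϖ : K
  ϖ_ne : ϖ ≠ 0
  ϖ_fix : ∀ σ ∈ I, σ.τ ϖ = ϖ
  ϖ_lt : A.valuation ϖ < 1
  disc : ∀ a : K, (∀ σ ∈ I, σ.τ a = a) → A.valuation a < 1 → A.valuation a ≤ A.valuation ϖ
  exists_res : ∀ c : k, ∃ a : A, (∀ σ ∈ I, σ.τ (a : K) = a) ∧ π a = c

variable {S : Sheets A π q F}

theorem Inertia.g_algebraMap (σ : S.Inertia) (c : K) :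
    σ.g (algebraMap K F c) = algebraMap K F (σ.τ c) := by
  refine S.ι.toRingHom.injective ?_
  show S.ι (σ.g (algebraMap K F c)) = S.ι (algebraMap K F (σ.τ c))
  rw [σ.ι_g, S.ι.commutes, S.ι.commutes, coeffMap_algebraMap]
  rfl

theorem Inertia.g_smul (σ : S.Inertia) (c : K) (f : F) : σ.g (c • f) = σ.τ c • σ.g f := by
  rw [Algebra.smul_def, Algebra.smul_def, map_mul, g_algebraMap]

/-- A coefficient of one of the two expansions. -/
def coord (K : Type*) [Field K] (p : Bool × ℤ) (y : Ser2 K) : K :=
  if p.1 then y.1.coeff p.2 else y.2.coeff p.2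

theorem coord_add (p : Bool × ℤ) (y z : Ser2 K) :
    coord K p (y + z) = coord K p y + coord K p z := by
  cases hp : p.1 <;> simp [coord, hp]

theorem coord_smul (p : Bool × ℤ) (c : K) (y : Ser2 K) : coord K p (c • y) = c * coord K p y := by
  cases hp : p.1 <;> simp [coord, hp]

/-- `coord` as a linear map. -/
def coordLin (K : Type*) [Field K] (p : Bool × ℤ) : Ser2 K →ₗ[K] K where
  toFun := coord K p
  map_add' := coord_add p
  map_smul' := coord_smul p

theorem red2_coord {y : Ser2 K} {x : Ser2 k} (h : Red2 A π y x) (p : Bool × ℤ) :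
    ∃ hy : coord K p y ∈ A, π ⟨coord K p y, hy⟩ = coord k p x := by
  obtain ⟨b, i⟩ := p
  cases b
  · exact h.2 i
  · exact h.1 i

theorem Inertia.coord_g (σ : S.Inertia) (f : F) (p : Bool × ℤ) :
    coord K p (S.T (σ.g f)) = σ.τ (coord K p (S.T f)) := by
  obtain ⟨b, i⟩ := p
  cases b <;> simp [coord, σ.T_g]

/-- A finite set of coefficients identifying a finite dimensional space of pairs with `k^P`. -/
theorem exists_coord_basis {R : Type*} [Field R] (W : Submodule R (Ser2 R))
    [FiniteDimensional R W] : ∃ P : Finset (Bool × ℤ),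
      P.card = Module.finrank R W ∧ ∀ c : P → R, ∃ w ∈ W, ∀ p : P, coord R p.1 w = c p := by
  classical
  set φ : Bool × ℤ → Module.Dual R W := fun p => (coordLin R p).comp W.subtype with hφ
  have hspan : Submodule.span R (Set.range φ) = ⊤ := by
    by_contra hne
    obtain ⟨ξ, hξ0, hξ⟩ := Submodule.exists_le_ker_of_lt_top _ (lt_top_iff_ne_top.mpr hne)
    obtain ⟨w, hw⟩ := (Module.evalEquiv R W).surjective ξ
    apply hξ0
    have hw0 : w = 0 := by
      refine Subtype.ext (Prod.ext ?_ ?_) <;> ext i
      · have := hξ (Submodule.subset_span ⟨(true, i), rfl⟩)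
        rw [LinearMap.mem_ker, ← hw] at this
        exact this
      · have := hξ (Submodule.subset_span ⟨(false, i), rfl⟩)
        rw [LinearMap.mem_ker, ← hw] at this
        exact this
    rw [← hw, hw0, map_zero]
  obtain ⟨b, hbsub, hbspan, hbli⟩ := exists_linearIndependent R (Set.range φ)
  rw [hspan] at hbspan
  let B : Module.Basis b R (Module.Dual R W) :=
    Module.Basis.mk hbli (by rw [Subtype.range_coe]; exact hbspan.ge)
  have : Finite b := Module.Finite.finite_basis B
  have : Fintype b := Fintype.ofFinite b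
  choose pick hpick using fun x : b => hbsub x.2
  have hpinj : Function.Injective pick := fun x y h =>
    Subtype.ext ((hpick x).symm.trans ((congrArg φ h).trans (hpick y)))
  refine ⟨Finset.univ.image pick, ?_, fun c => ?_⟩
  · rw [Finset.card_image_of_injective _ hpinj, Finset.card_univ, ← Subspace.dual_finrank_eq,
      Module.finrank_eq_card_basis B]
  · set ξ : Module.Dual R (Module.Dual R W) :=
      B.constr R fun x => c ⟨pick x, Finset.mem_image_of_mem _ (Finset.mem_univ x)⟩
    obtain ⟨w, hw⟩ := (Module.evalEquiv R W).surjective ξ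
    refine ⟨w, w.2, fun p => ?_⟩
    obtain ⟨x, -, hx⟩ := Finset.mem_image.mp p.2
    have h1 : ξ (B x) = c ⟨pick x, Finset.mem_image_of_mem _ (Finset.mem_univ x)⟩ :=
      B.constr_basis R _ x
    rw [← hw, Module.Basis.mk_apply] at h1
    have h2 : (x : Module.Dual R W) w = coord R (pick x) (w : Ser2 R) := by
      rw [← hpick x]; rfl
    rw [show p = ⟨pick x, Finset.mem_image_of_mem _ (Finset.mem_univ x)⟩ from Subtype.ext hx.symm]
    exact h2.symm.trans h1

variable (R : RatData S)

namespace RatData

/-- Fixed by all the inertia elements. -/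
def Fix (f : F) : Prop := ∀ σ ∈ R.I, σ.g f = f

variable {R}

theorem Fix.apply_w {f : F} (hf : R.Fix f) : R.Fix (S.w f) := fun σ hσ => by
  rw [← σ.w_g, hf σ hσ]

theorem Fix.coeff {f : F} (hf : R.Fix f) (i : ℤ) :
    ∀ σ ∈ R.I, σ.τ ((S.ι f).coeff i) = (S.ι f).coeff i := fun σ hσ => by
  conv_rhs => rw [← hf σ hσ, σ.ι_g, coeffMap_coeff]
  rfl

/-- A fixed function with vanishing reduction is divisible by the uniformiser. -/
theorem Fix.exists_red_div {f : F} (hf : R.Fix f) (h : Red A π (S.ι f) 0) :
    ∃ z, Red A π (R.ϖ⁻¹ • S.ι f) z := by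
  refine exists_red_of_coeff_mem π fun i => ?_
  obtain ⟨hi, hv⟩ := h i
  rw [HahnSeries.coeff_zero] at hv
  have hlt : A.valuation ((S.ι f).coeff i) < 1 := (residue_eq_zero_iff S.surj ⟨_, hi⟩).mp hv
  have hle := R.disc _ (hf.coeff i) hlt
  rw [coeff_smulC, ← ValuationSubring.valuation_le_one_iff, map_mul, map_inv₀,
    inv_mul_le_iff₀ ((Valuation.pos_iff _).mpr R.ϖ_ne), mul_one]
  exact hle

variable (R)

/-- **Fixed lifts.** -/
theorem exists_fix_lift {W : Submodule K F} [FiniteDimensional K W]
    (hW : ∀ σ ∈ R.I, ∀ f ∈ W, σ.g f ∈ W) (hN : ∀ f ∈ W, f ≠ 0 → Normalizable2 A π (S.T f))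
    {x : Ser2 k} (hx : x ∈ redPair S.surj S.T W) :
    ∃ f ∈ W, R.Fix f ∧ Red2 A π (S.T f) x := by
  classical
  have := finiteDimensional_redPair S.surj S.T W
  obtain ⟨P, hP, hsurj⟩ := exists_coord_basis (redPair S.surj S.T W)
  have hcard : P.card = Module.finrank K W := by rw [hP, finrank_redPair S.surj S.T W hN]
  -- residual dual elements and their lifts
  choose e he hec using fun p : P => hsurj (Pi.single p 1)
  choose l hl hlr using fun p : P => (mem_redPair.mp (he p))
  let M : Matrix P P A := fun p p' =>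
    ⟨coord K p'.1 (S.T (l p)), (red2_coord (hlr p) p'.1).1⟩
  have hM : M.map π = 1 := by
    ext p p'
    show π (M p p') = _
    rw [(red2_coord (hlr p) p'.1).2, hec p p', Matrix.one_apply, Pi.single_apply]
    exact if_congr eq_comm rfl rfl
  have hdet : IsUnit M.det := by
    rw [ValuationSubring.valuation_eq_one_iff, ← residue_ne_zero_iff S.surj,
      RingHom.map_det, RingHom.mapMatrix_apply, hM, Matrix.det_one]
    exact one_ne_zero
  -- the echelon basis
  let Φ : W →ₗ[K] (P → K) := LinearMap.pi fun p => ((coordLin K p.1).comp S.T).comp W.subtype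
  let b : P → F := fun p => ∑ p'' : P, ((M⁻¹) p p'' : K) • l p''
  have hb : ∀ p, b p ∈ W := fun p =>
    Submodule.sum_mem _ fun p'' _ => Submodule.smul_mem _ _ (hl p'')
  have hbc : ∀ p p' : P, coord K p'.1 (S.T (b p)) = if p = p' then 1 else 0 := by
    intro p p'
    have hcl : coord K p'.1 (S.T (b p)) = ∑ p'' : P, ((M⁻¹) p p'' : K) * (M p'' p' : K) := by
      show coordLin K p'.1 (S.T (b p)) = _
      simp only [b, map_sum, map_smul, smul_eq_mul]
      rfl
    have h1 : ((M⁻¹ * M) p p' : A) = if p = p' then 1 else 0 := by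
      rw [Matrix.nonsing_inv_mul M hdet, Matrix.one_apply]
    rw [Matrix.mul_apply] at h1
    rw [hcl]
    have h2 := congrArg A.subtype h1
    rw [map_sum] at h2
    simpa [apply_ite] using h2
  have hsurjΦ : Function.Surjective Φ := fun c => by
    refine ⟨∑ p, c p • ⟨b p, hb p⟩, funext fun p' => ?_⟩
    show coordLin K p'.1 (S.T ((∑ p, c p • (⟨b p, hb p⟩ : W) : W) : F)) = c p'
    simp only [AddSubmonoidClass.coe_finsetSum, SetLike.val_smul, map_sum, map_smul, smul_eq_mul]
    rw [Finset.sum_eq_single p']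
    · show c p' * coord K p'.1 (S.T (b p')) = c p'
      rw [hbc, if_pos rfl, mul_one]
    · intro p _ hp
      show c p * coord K p'.1 (S.T (b p)) = 0
      rw [hbc, if_neg hp, mul_zero]
    · exact fun h => absurd (Finset.mem_univ p') h
  have hinjΦ : Function.Injective Φ :=
    (LinearMap.injective_iff_surjective_of_finrank_eq_finrank (by
      rw [Module.finrank_pi, Fintype.card_coe, hcard])).mpr hsurjΦ
  have hfix : ∀ p, R.Fix (b p) := fun p σ hσ => by
    refine congrArg Subtype.val (hinjΦ (a₁ := ⟨σ.g (b p), hW σ hσ _ (hb p)⟩)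
      (a₂ := ⟨b p, hb p⟩) (funext fun p' => ?_))
    show coord K p'.1 (S.T (σ.g (b p))) = coord K p'.1 (S.T (b p))
    rw [Inertia.coord_g, hbc]
    split_ifs <;> simp
  have hbred : ∀ p, ∃ y, y ∈ redPair S.surj S.T W ∧ Red2 A π (S.T (b p)) y := by
    intro p
    have h0 : ∀ t : Finset P, ∃ y, Red2 A π (S.T (∑ p'' ∈ t, ((M⁻¹) p p'' : K) • l p'')) y := by
      intro t
      induction t using Finset.induction_on with
      | empty => exact ⟨0, by rw [Finset.sum_empty, map_zero]; exact red2_zero⟩
      | insert a t ha ih =>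
        obtain ⟨y, hy⟩ := ih
        exact ⟨_, by rw [Finset.sum_insert ha, map_add, map_smul]; exact ((hlr a).smul _).add hy⟩
    obtain ⟨y, hy⟩ := h0 Finset.univ
    exact ⟨y, ⟨b p, hb p, hy⟩, hy⟩
  choose y hyW hy using hbred
  choose a haf har using fun p : P => R.exists_res (coord k p.1 x)
  refine ⟨∑ p, (a p : K) • b p, Submodule.sum_mem _ fun p _ => Submodule.smul_mem _ _ (hb p),
    fun σ hσ => ?_, ?_⟩
  · rw [map_sum]
    exact Finset.sum_congr rfl fun p _ => by
      rw [Inertia.g_smul, hfix p σ hσ, haf p σ hσ]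
  have h0 : ∀ t : Finset P, Red2 A π (S.T (∑ p ∈ t, (a p : K) • b p))
      (∑ p ∈ t, π (a p) • y p) := by
    intro t
    induction t using Finset.induction_on with
    | empty => simpa using red2_zero
    | insert c t hc ih =>
      rw [Finset.sum_insert hc, Finset.sum_insert hc, map_add, map_smul]
      exact ((hy c).smul _).add ih
  convert h0 Finset.univ using 1
  -- both sides have the same coefficients in `P`
  set x' : Ser2 k := ∑ p, π (a p) • y p with hx'
  have hx'W : x' ∈ redPair S.surj S.T W :=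
    Submodule.sum_mem _ fun p _ => Submodule.smul_mem _ _ (hyW p)
  let Ψ : redPair S.surj S.T W →ₗ[k] (P → k) :=
    LinearMap.pi fun p => (coordLin k p.1).comp (redPair S.surj S.T W).subtype
  have hΨs : Function.Surjective Ψ := fun c => by
    obtain ⟨w, hw, hwc⟩ := hsurj c
    exact ⟨⟨w, hw⟩, funext hwc⟩
  have hΨi : Function.Injective Ψ :=
    (LinearMap.injective_iff_surjective_of_finrank_eq_finrank (by
      rw [Module.finrank_pi, Fintype.card_coe, hP])).mpr hΨs
  refine congrArg Subtype.val (hΨi (a₁ := ⟨x, hx⟩) (a₂ := ⟨x', hx'W⟩) (funext fun p' => ?_))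
  show coord k p'.1 x = coordLin k p'.1 x'
  have hyc : ∀ p, coord k p'.1 (y p) = if p = p' then 1 else 0 := fun p => by
    obtain ⟨hm, hv⟩ := red2_coord (hy p) p'.1
    rw [← hv]
    have hc : (⟨coord K p'.1 (S.T (b p)), hm⟩ : A) = if p = p' then 1 else 0 := Subtype.ext (by
      show coord K p'.1 (S.T (b p)) = _
      rw [hbc]
      split_ifs <;> rfl)
    rw [hc]
    split_ifs <;> simp
  simp only [hx', map_sum, map_smul, smul_eq_mul]
  rw [Finset.sum_eq_single p']
  · show coord k p'.1 x = π (a p') * coord k p'.1 (y p')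
    rw [hyc, if_pos rfl, mul_one, har]
  · intro p _ hp
    show π (a p) * coord k p'.1 (y p) = 0
    rw [hyc, if_neg hp, mul_zero]
  · exact fun h => absurd (Finset.mem_univ p') h

end RatData

end Fermat.Agent.MazurPrinciple
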