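import Fermat.Agent.MazurPrinciple.RatLift
import Fermat.Agent.MazurPrinciple.CurveModel

/-!
# Divisibility of reduced divisors at smooth nodes

If every node is smooth for the inertia elements `I`, a function with divisor `-m E`, `E` fixed by
`I`, reduces on both sheets to functions whose divisors are divisible by `m`: the reduced sections
of `E + n` lie in `L(D₁ + n) × L(D₂ + n)`, one relation at each node, and have dimension
`2 (n + 1 - g) - #nodes`.
-/

set_option autoImplicit false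

noncomputable section

namespace Fermat.Agent.MazurPrinciple

open Fermat.Agent.Semistable Fermat.Agent.Reduction AlgebraicCurve ModularCurve

variable {K F k : Type*} [Field K] [Field F] [Algebra K F] [Field k] {A : ValuationSubring K}
  {π : A →+* k} {q : ℕ} [NeZero q]

/-- A regular function lies in some `L(0, n)`. -/
theorem exists_mem_L_zero {S : Sheets A π q F} {f : F} (hf : S.Reg f) :
    ∃ n₁ : ℤ, ∀ n, n₁ ≤ n → f ∈ S.L 0 n := by
  obtain ⟨j₁, -, hj₁⟩ := Sheets.exists_poleLE 0 (S.ι f)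
  obtain ⟨j₂, -, hj₂⟩ := Sheets.exists_poleLE 0 (S.ι (S.w f))
  exact ⟨max j₁ j₂, fun n hn => Sheets.mem_L_zero.mpr
    ⟨hf, hj₁.mono (le_trans (le_max_left _ _) hn), hj₂.mono (le_trans (le_max_right _ _) hn)⟩⟩

/-- The leading coefficient at a rational place. -/
theorem exists_topFun {Fk : Type*} [Field Fk] [Algebra k Fk] [FF.IsFunctionField k Fk]
    [IsAlgClosed k] (v : Place k Fk) (d : ℤ) :
    ∃ l : FF.ordGE v d →ₗ[k] k, ∀ f, l f = 0 ↔ (f : Fk) ∈ FF.ordGE v (d + 1) := by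
  obtain ⟨t, ht0, ht⟩ := FF.exists_ne_zero_ord_eq v (-d)
  have h1 : Module.finrank k v.ResidueField = Module.finrank k k := by
    rw [Module.finrank_self]; exact FF.deg_eq_one v
  let e : v.ResidueField ≃ₗ[k] k := LinearEquiv.ofFinrankEq _ _ h1
  refine ⟨e.toLinearMap.comp ((FF.residueMap v).comp (LinearMap.codRestrict (FF.ordGE v 0)
    ((LinearMap.mulLeft k t).comp (FF.ordGE v d).subtype) fun f => ?_)), fun f => ?_⟩
  · have := FF.mul_mem_ordGE v (FF.mem_ordGE_of_le_ord v ht.ge) f.2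
    rwa [neg_add_cancel] at this
  · rw [LinearMap.comp_apply, LinearEquiv.coe_coe, LinearEquiv.map_eq_zero_iff,
      LinearMap.comp_apply,
      FF.residueMap_eq_zero_iff]
    show t * (f : Fk) ∈ FF.ordGE v 1 ↔ _
    have h2 := FF.mul_mem_ordGE_iff v (f := t) (g := (f : Fk)) (n := d + 1) ht0
    rwa [ht, show -d + (d + 1) = (1 : ℤ) by omega] at h2

namespace RatData

variable {S : Sheets A π q F} (R : RatData S) {Fk : Type*} [Field Fk] [Algebra k Fk]
  (M : CurveModel S Fk)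

/-- The node is a smooth point of the fixed model: a fixed function vanishing on the first sheet
has, after division by the uniformiser, a pole at the node. -/
def SmoothNode [FF.IsFunctionField k Fk] (u : S.Node) : Prop :=
  ∃ (X : F) (x₀ : LaurentSeries k) (z : Fk), S.Reg X ∧ R.Fix X ∧ Red2 A π (S.T X) (0, x₀) ∧
    Red A π (R.ϖ⁻¹ • S.ι X) (M.κ z) ∧ (M.center u.1).ord z < 0

/-- `⌊-div f / m⌋`. -/
def floorDiv [FF.IsFunctionField k Fk] (m : ℕ) (f : Fk) : Divisor k Fk :=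
  (-FF.divOf k f).mapRange (fun z => z / (m : ℤ)) (Int.zero_ediv _)

theorem floorDiv_apply [FF.IsFunctionField k Fk] (m : ℕ) (f : Fk) (v : Place k Fk) :
    floorDiv m f v = -v.ord f / (m : ℤ) := by
  simp [floorDiv, FF.divOf_apply]

theorem dvd_ord_of_degree_floorDiv [FF.IsFunctionField k Fk] [IsAlgClosed k] {m : ℕ} (hm : 0 < m)
    (f : Fk) : Divisor.degree (floorDiv (k := k) m f) ≤ 0 ∧
      (0 ≤ Divisor.degree (floorDiv (k := k) m f) → ∀ v : Place k Fk, (m : ℤ) ∣ v.ord f) := by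
  set D := floorDiv (k := k) m f with hD
  set B : Divisor k Fk := -FF.divOf k f - (m : ℤ) • D with hB
  have hBv : ∀ v, B v = -v.ord f - (m : ℤ) * (-v.ord f / (m : ℤ)) := fun v => by
    simp [hB, hD, floorDiv_apply, FF.divOf_apply]
  have hB0 : ∀ v, 0 ≤ B v := fun v => by
    rw [hBv, ← Int.emod_def]
    exact Int.emod_nonneg _ (by omega)
  have hdeg : Divisor.degree B = -((m : ℤ) * Divisor.degree D) := by
    rw [hB, map_sub, map_neg, FF.degree_divOf, map_zsmul, smul_eq_mul, neg_zero, zero_sub]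
  have hsum : Divisor.degree B = ∑ v ∈ B.support, B v := by
    rw [FF.degree_eq_sum]
    exact Finset.sum_congr rfl fun v _ => by rw [FF.deg_eq_one, Nat.cast_one, mul_one]
  have h0 : 0 ≤ Divisor.degree B := hsum ▸ Finset.sum_nonneg fun v _ => hB0 v
  have hmz : (0 : ℤ) < m := by exact_mod_cast hm
  refine ⟨by nlinarith, fun hpos v => ?_⟩
  have hz : Divisor.degree B = 0 := by nlinarith
  have hv : B v = 0 := by
    by_contra hne
    have := Finset.single_le_sum (fun w _ => hB0 w) (Finsupp.mem_support_iff.mpr hne)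
    rw [← hsum, hz] at this
    have := hB0 v
    omega
  rw [hBv] at hv
  refine dvd_neg.mp ⟨-v.ord f / (m : ℤ), ?_⟩
  linarith

section Main

variable [FF.IsFunctionField K F] [IsAlgClosed K] [FF.IsFunctionField k Fk] [IsAlgClosed k]
  {m : ℕ} {E : Divisor K F} {G : F} {g₁ g₂ : Fk}

omit [IsAlgClosed k] [FF.IsFunctionField K F] [IsAlgClosed K] in
/-- Reduced sections are bounded by the `m`-th part of the reduced divisor of `G`. -/
theorem exists_mem_of_redPair (hm : 0 < m) (hE : S.Neg E) (hG : G ≠ 0)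
    (hord : ∀ v, v.ord G = -((m : ℤ) * E v)) (hred : Red2 A π (S.T G) (M.κ g₁, M.κ g₂))
    (hg₁ : g₁ ≠ 0) (hg₂ : g₂ ≠ 0) {n : ℤ} {x : Ser2 k}
    (hx : x ∈ redPair S.surj S.T (S.L E n)) :
    ∃ a ∈ riemannRochSpace (floorDiv (k := k) m g₁ + Finsupp.single M.pt n),
      ∃ b ∈ riemannRochSpace (floorDiv (k := k) m g₂ + Finsupp.single M.pt n),
        M.κ a = x.1 ∧ M.κ b = x.2 := by
  obtain ⟨f, hf, hfx⟩ := mem_redPair.mp hx
  set r : F := f ^ m * G⁻¹ with hr
  have hrL : r ∈ S.L 0 ((m : ℤ) * n) := by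
    refine S.mem_L.mpr fun v => ?_
    have h1 := FF.pow_mem_ordGE v (S.mem_L.mp hf v) m
    have h2 : G⁻¹ ∈ FF.ordGE v ((m : ℤ) * E v) :=
      FF.mem_ordGE_of_le_ord v (by rw [v.ord_inv, hord]; omega)
    refine FF.ordGE_antitone v (le_of_eq ?_) (FF.mul_mem_ordGE v h1 h2)
    have hb : S.bd ((m : ℤ) * n) v = (m : ℤ) * S.bd n v := by
      by_cases h1 : v = S.inf
      · subst h1; rw [S.bd_inf, S.bd_inf]
      by_cases h2 : v = S.zero
      · subst h2; rw [S.bd_zero, S.bd_zero]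
      rw [S.bd_of_ne _ h1 h2, S.bd_of_ne _ h1 h2, mul_zero]
    rw [Finsupp.add_apply, Finsupp.add_apply, Finsupp.zero_apply, hb, zero_add]
    ring
  have hGr : Red2 A π (S.T (G * r)) (x ^ m) := by
    rw [hr, mul_comm (f ^ m), ← mul_assoc, mul_inv_cancel₀ hG, one_mul, S.T_pow]
    exact hfx.pow m
  obtain ⟨z, hz, he⟩ := Sheets.exists_red2_of_mul (S := S) (Sheets.reg_of_mem_L S.neg_zero' hrL)
    hred ((_root_.map_ne_zero M.κ).mpr hg₁) ((_root_.map_ne_zero M.κ).mpr hg₂) hGr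
  have hzC := (Sheets.redPair_L_le ((m : ℤ) * n) ⟨r, hrL, hz⟩).1
  have hxC := (Sheets.reg_of_mem_L hE hf).red_mem hfx
  have key : ∀ (a : S.C) (z : LaurentSeries k) (g : Fk), g ≠ 0 → z ∈ S.Cle ((m : ℤ) * n) →
      M.κ g * z = (a : LaurentSeries k) ^ m →
        M.toFk a ∈ riemannRochSpace (floorDiv (k := k) m g + Finsupp.single M.pt n) := by
    intro a z g hg hz he
    refine FF.mem_riemannRochSpace.mpr fun v => ?_
    rcases eq_or_ne (M.toFk a) 0 with h0 | h0
    · rw [h0]; exact Submodule.zero_mem _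
    refine FF.mem_ordGE_of_le_ord v ?_
    set zf := M.toFk ⟨z, hz.2⟩ with hzf
    have heq : g * zf = M.toFk a ^ m := M.κ_injective (by
      rw [map_mul, map_pow, hzf, M.κ_toFk, M.κ_toFk]
      exact he)
    have hzf0 : zf ≠ 0 := fun h => by
      rw [h, mul_zero] at heq
      exact pow_ne_zero m h0 heq.symm
    have ho := congrArg v.ord heq
    rw [v.ord_mul hg hzf0, FF.ord_pow] at ho
    have hmz : (0 : ℤ) < m := by exact_mod_cast hm
    rw [Finsupp.add_apply, floorDiv_apply, neg_add, ← sub_eq_add_neg]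
    rcases eq_or_ne v M.pt with rfl | hv
    · have h2 : -((m : ℤ) * n) ≤ M.pt.ord zf := by
        rw [← FF.mem_ordGE_of_ne_zero _ hzf0, M.mem_ordGE_pt, hzf, M.κ_toFk]
        exact hz.1
      rw [Finsupp.single_eq_same]
      have h3 : -M.pt.ord (M.toFk a) - n ≤ -M.pt.ord g / (m : ℤ) :=
        (Int.le_ediv_iff_mul_le hmz).mpr (by linarith)
      linarith
    · have h2 : 0 ≤ v.ord zf :=
        (FF.mem_ordGE_of_ne_zero v hzf0).mp (M.toFk_mem _ hv)
      rw [Finsupp.single_eq_of_ne hv]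
      have h3 : -v.ord (M.toFk a) ≤ -v.ord g / (m : ℤ) :=
        (Int.le_ediv_iff_mul_le hmz).mpr (by linarith)
      linarith
  exact ⟨_, key ⟨x.1, hxC.1⟩ z.1 g₁ hg₁ hzC.1 (congrArg Prod.fst he),
    _, key ⟨x.2, hxC.2⟩ z.2 g₂ hg₂ hzC.2 (congrArg Prod.snd he),
    M.κ_toFk _, M.κ_toFk _⟩

omit [IsAlgClosed K] in
omit [IsAlgClosed k] in
/-- No reduced section vanishes on the second sheet and has exact order at a smooth node. -/
theorem false_of_exact_fst (hm : 0 < m) (hE : S.Neg E) (hfix : ∀ σ ∈ R.I, σ.act E = E)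
    (hG : G ≠ 0) (hord : ∀ v, v.ord G = -((m : ℤ) * E v))
    (hred : Red2 A π (S.T G) (M.κ g₁, M.κ g₂)) (hg₁ : g₁ ≠ 0) (hg₂ : g₂ ≠ 0) {u : S.Node}
    (hu : R.SmoothNode M u) {n : ℤ} {e : Fk} (he : e ≠ 0)
    (heo : (M.center u.1).ord e = -floorDiv (k := k) m g₁ (M.center u.1))
    (hmem : (M.κ e, 0) ∈ redPair S.surj S.T (S.L E n)) : False := by
  obtain ⟨X, x₀, z, hX, hXfix, hXred, hXz, hzo⟩ := hu
  obtain ⟨f, hf, hffix, hfred⟩ := R.exists_fix_lift (W := S.L E n)
    (fun σ hσ f hf => by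
      have := σ.mem_L_act hf
      rwa [hfix σ hσ] at this)
    (fun f hf hf0 => (Sheets.reg_of_mem_L hE hf).normalizable2 hf0) hmem
  obtain ⟨w, hw⟩ := hffix.apply_w.exists_red_div hfred.2
  obtain ⟨nX, hnX⟩ := exists_mem_L_zero hX
  have hh : R.ϖ⁻¹ • (f * X) ∈ S.L E (n + nX) := by
    refine Submodule.smul_mem _ _ ?_
    have := Sheets.mul_mem_L hf (hnX nX le_rfl)
    rwa [add_zero] at this
  have hT : Red2 A π (S.T (R.ϖ⁻¹ • (f * X))) (M.κ (e * z), w * x₀) := by
    rw [map_smul, S.T_mul]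
    constructor
    · show Red A π (R.ϖ⁻¹ • (S.ι f * S.ι X)) _
      rw [show R.ϖ⁻¹ • (S.ι f * S.ι X) = S.ι f * (R.ϖ⁻¹ • S.ι X) by
        rw [smul_eq_algebraMap_mul, smul_eq_algebraMap_mul, mul_left_comm], map_mul]
      exact hfred.1.mul hXz
    · show Red A π (R.ϖ⁻¹ • (S.ι (S.w f) * S.ι (S.w X))) _
      rw [show R.ϖ⁻¹ • (S.ι (S.w f) * S.ι (S.w X)) = (R.ϖ⁻¹ • S.ι (S.w f)) * S.ι (S.w X) by
        rw [smul_eq_algebraMap_mul, smul_eq_algebraMap_mul, mul_assoc]]
      exact hw.mul hXred.2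
  obtain ⟨a, ha, -, -, hae, -⟩ :=
    exists_mem_of_redPair M hm hE hG hord hred hg₁ hg₂ (mem_redPair.mpr ⟨_, hh, hT⟩)
  obtain rfl : a = e * z := M.κ_injective hae
  have hz0 : z ≠ 0 := by
    rintro rfl
    rw [Place.ord_zero] at hzo
    omega
  have h1 := FF.mem_riemannRochSpace.mp ha (M.center u.1)
  rw [FF.mem_ordGE_of_ne_zero _ (mul_ne_zero he hz0), (M.center u.1).ord_mul he hz0,
    Finsupp.add_apply, Finsupp.single_eq_of_ne (M.center_ne_pt u.1), add_zero, heo] at h1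
  omega

omit [FF.IsFunctionField K F] [IsAlgClosed K] in
/-- Multiplying by reduced pairs produces a section vanishing on the second sheet. -/
theorem exists_exact_fst {u : S.Node} {n : ℤ} {a₁ a₂ b₁ b₂ : Fk}
    (ha : (M.κ a₁, M.κ a₂) ∈ redPair S.surj S.T (S.L E n))
    (hb : (M.κ b₁, M.κ b₂) ∈ redPair S.surj S.T (S.L E n)) {d₁ d₂ : ℤ} (ha₁ : a₁ ≠ 0)
    (ha₁o : (M.center u.1).ord a₁ = d₁) (hb₂ : b₂ ≠ 0)
    (hb₂o : (M.center (S.flip u.1)).ord b₂ = d₂)
    (ha₂o : a₂ ∈ FF.ordGE (M.center (S.flip u.1)) (d₂ + 1)) :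
    ∃ (n' : ℤ) (e : Fk), e ≠ 0 ∧ (M.center u.1).ord e = d₁ ∧
      (M.κ e, 0) ∈ redPair S.surj S.T (S.L E n') := by
  classical
  set v' := M.center (S.flip u.1) with hv'
  set r : Fk := a₂ * b₂⁻¹ with hr
  have hrv : r ∈ FF.ordGE v' 1 := by
    refine FF.ordGE_antitone v' (le_of_eq ?_) (FF.mul_mem_ordGE v' ha₂o
      (FF.mem_ordGE_of_le_ord v' (v'.ord_inv b₂).ge))
    rw [hb₂o]; ring
  set T₀ : Finset (Place k Fk) := (FF.finite_setOf_ord_neg (K := k) r).toFinset ∪
    (Set.finite_range fun w : S.Node => M.center (S.flip w.1)).toFinset with hT₀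
  set T : Finset (Place k Fk) := (T₀.erase v').erase M.pt with hT
  set H : Divisor k Fk := ∑ w ∈ T, Finsupp.single w (1 + |w.ord r|) with hH
  have hHapp : ∀ w, H w = if w ∈ T then 1 + |w.ord r| else 0 := fun w => by
    simp only [hH, Finsupp.finsetSum_apply, Finsupp.single_apply]
    exact Finset.sum_ite_eq' T w _
  obtain ⟨N₀, hN₀⟩ := M.exists_exact
  set D : Divisor k Fk :=
    Finsupp.single M.pt (N₀ + (insert v' T).card + Divisor.degree H) - H with hD
  obtain ⟨c, hc, hc0, hcv, -⟩ := hN₀ D (insert v' T) (by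
    rw [hD, map_sub, Divisor.degree_single, FF.deg_eq_one]
    simp) v' (Finset.mem_insert_self _ _)
  have hcw : ∀ w, w ≠ M.pt → c ∈ FF.ordGE w (H w) := fun w hw => by
    have := FF.mem_riemannRochSpace.mp hc w
    rwa [hD, Finsupp.sub_apply, Finsupp.single_eq_of_ne hw, zero_sub, neg_neg] at this
  have hv'T : v' ∉ T := fun h => (Finset.mem_erase.mp (Finset.mem_of_mem_erase h)).1 rfl
  have hcv0 : v'.ord c = 0 := by
    rw [hcv, hD, Finsupp.sub_apply, hHapp, if_neg hv'T, Finsupp.single_eq_of_ne (M.center_ne_pt _),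
      sub_zero, neg_zero]
  -- the product is regular and vanishes at all second points
  have hd : ∀ w, w ≠ M.pt →
      r * c ∈ FF.ordGE w (if w ∈ T₀ ∨ w = v' then 1 else 0) := fun w hw => by
    rcases eq_or_ne w v' with rfl | hwv
    · rw [if_pos (Or.inr rfl)]
      simpa using FF.mul_mem_ordGE _ hrv (FF.mem_ordGE_of_le_ord _ hcv0.ge)
    by_cases hwT : w ∈ T₀
    · rw [if_pos (Or.inl hwT)]
      have hwT' : w ∈ T := by simp [hT, hwT, hw, hwv]
      have h1 := FF.mul_mem_ordGE w (FF.mem_ordGE_of_le_ord w (le_refl (w.ord r))) (hcw w hw)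
      rw [hHapp, if_pos hwT'] at h1
      refine FF.ordGE_antitone w ?_ h1
      have := neg_abs_le (w.ord r)
      omega
    · rw [if_neg (by tauto)]
      have hr0 : 0 ≤ w.ord r := by
        by_contra hlt
        exact hwT (Finset.mem_union_left _ (by simpa using not_le.mp hlt))
      have h1 := FF.mul_mem_ordGE w (FF.mem_ordGE_of_le_ord w hr0) (hcw w hw)
      rw [hHapp, if_neg (fun h => hwT (Finset.mem_of_mem_erase (Finset.mem_of_mem_erase h)))] at h1
      simpa using h1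
  let c₂ : S.C := ⟨M.κ c, M.κ_mem fun w hw => FF.ordGE_antitone w
    (by rw [hHapp]; split_ifs <;> positivity) (hcw w hw)⟩
  let d : S.C := ⟨M.κ (r * c), M.κ_mem fun w hw => FF.ordGE_antitone w
    (by split_ifs <;> norm_num) (hd w hw)⟩
  obtain ⟨c₁, hc₁⟩ := Sheets.evPt_surjective (S := S) fun w => S.flip w c₂
  have hc₁v : ∀ w : S.Pt, w c₁ = S.flip w c₂ := fun w => congrFun hc₁ w
  have hcbar : S.IsCbar (Sheets.pr (c₁, c₂)) := (Sheets.isCbar_iff (c₁, c₂)).mpr fun w => hc₁v w.1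
  have hdbar : S.IsCbar (Sheets.pr (0, d)) := by
    refine (Sheets.isCbar_iff (0, d)).mpr fun w => ?_
    show w.1 (0 : S.C) = S.flip w.1 d
    rw [show w.1 (0 : S.C) = 0 from map_zero w.1.1, eq_comm, M.center_spec,
      M.toFk_eq (f := r * c) rfl]
    have hw0 : M.center (S.flip w.1) ∈ T₀ := Finset.mem_union_right _ (by simp)
    have := hd (M.center (S.flip w.1)) (M.center_ne_pt _)
    rwa [if_pos (Or.inl hw0)] at this
  obtain ⟨fc, hfc, hfcx⟩ := hcbar
  obtain ⟨fd, hfd, hfdx⟩ := hdbar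
  obtain ⟨nc, hnc⟩ := exists_mem_L_zero hfc
  obtain ⟨nd, hnd⟩ := exists_mem_L_zero hfd
  obtain ⟨fa, hfa, hfax⟩ := mem_redPair.mp ha
  obtain ⟨fb, hfb, hfbx⟩ := mem_redPair.mp hb
  have hu0 : u.1 c₁ ≠ 0 := by
    rw [hc₁v]
    refine M.ne_zero_of_ord_center ?_ ?_ <;> rw [M.toFk_eq (x := c₂) (f := c) rfl]
    exacts [hc0, hcv0]
  obtain ⟨hc₁0, hc₁o⟩ := M.ord_center_eq_zero hu0
  refine ⟨n + max nc nd, a₁ * M.toFk c₁, mul_ne_zero ha₁ hc₁0, ?_,
    mem_redPair.mpr ⟨fa * fc - fb * fd, Submodule.sub_mem _ ?_ ?_, ?_⟩⟩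
  · rw [(M.center u.1).ord_mul ha₁ hc₁0, hc₁o, add_zero, ha₁o]
  · simpa using Sheets.mul_mem_L hfa (hnc _ (le_max_left nc nd))
  · simpa using Sheets.mul_mem_L hfb (hnd _ (le_max_right nc nd))
  · rw [map_sub, S.T_mul, S.T_mul]
    convert (hfax.mul hfcx).sub (hfbx.mul hfdx) using 1
    refine Prod.ext ?_ ?_
    · show M.κ (a₁ * M.toFk c₁) =
        M.κ a₁ * (c₁ : LaurentSeries k) - M.κ b₁ * ((0 : S.C) : LaurentSeries k)
      rw [map_mul, M.κ_toFk, ZeroMemClass.coe_zero, mul_zero, sub_zero]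
    · show (0 : LaurentSeries k) = M.κ a₂ * M.κ c - M.κ b₂ * M.κ (r * c)
      rw [← map_mul, ← map_mul, ← map_sub]
      rw [show a₂ * c - b₂ * (r * c) = 0 by rw [hr]; field_simp; ring, map_zero]

/-- **At smooth nodes the reduced divisors are divisible by `m`.** -/
theorem dvd_ord (hsm : ∀ u : S.Node, R.SmoothNode M u) (hm : 0 < m) (hE : S.Neg E)
    (hdeg : Divisor.degree E = 0) (hfix : ∀ σ ∈ R.I, σ.act E = E) (hG : G ≠ 0)
    (hord : ∀ v, v.ord G = -((m : ℤ) * E v)) (hred : Red2 A π (S.T G) (M.κ g₁, M.κ g₂))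
    (hg₁ : g₁ ≠ 0) (hg₂ : g₂ ≠ 0) :
    ∀ v : Place k Fk, (m : ℤ) ∣ v.ord g₁ ∧ (m : ℤ) ∣ v.ord g₂ := by
  classical
  have : Fintype S.Node := Fintype.ofFinite _
  obtain ⟨hD₁, hD₁'⟩ := dvd_ord_of_degree_floorDiv (k := k) hm g₁
  obtain ⟨hD₂, hD₂'⟩ := dvd_ord_of_degree_floorDiv (k := k) hm g₂
  set D₁ := floorDiv (k := k) m g₁ with hD₁d
  set D₂ := floorDiv (k := k) m g₂ with hD₂d
  suffices hkey : 0 ≤ Divisor.degree D₁ + Divisor.degree D₂ from
    fun v => ⟨hD₁' (by omega) v, hD₂' (by omega) v⟩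
  obtain ⟨N₁, hN₁⟩ := S.exists_ell_eq hdeg
  obtain ⟨N₂, hN₂⟩ := S.exists_ell_bd
  obtain ⟨N₃, hN₃⟩ := M.exists_ell_eq
  obtain ⟨N₄, hN₄⟩ := M.exists_exact
  set T₁ : Finset (Place k Fk) := Finset.univ.image fun u : S.Node => M.center u.1
  set T₂ : Finset (Place k Fk) := Finset.univ.image fun u : S.Node => M.center (S.flip u.1)
  set n : ℤ := |N₁| + |N₂| + |N₃| + |N₄| + T₁.card + T₂.card + S.n₀ +
    |Divisor.degree D₁| + |Divisor.degree D₂| with hn
  have := le_abs_self N₁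
  have := le_abs_self N₂
  have := le_abs_self N₃
  have := le_abs_self N₄
  have := abs_nonneg N₁
  have := abs_nonneg N₂
  have := abs_nonneg N₃
  have := abs_nonneg N₄
  have := neg_abs_le (Divisor.degree D₁)
  have := neg_abs_le (Divisor.degree D₂)
  have := abs_nonneg (Divisor.degree D₁)
  have := abs_nonneg (Divisor.degree D₂)
  set P₁ := D₁ + Finsupp.single M.pt n with hP₁
  set P₂ := D₂ + Finsupp.single M.pt n with hP₂
  have hdP : ∀ D : Divisor k Fk, Divisor.degree (D + Finsupp.single M.pt n) =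
      Divisor.degree D + n := fun D => by
    rw [map_add, Divisor.degree_single, FF.deg_eq_one]; simp
  have hPv : ∀ (D : Divisor k Fk) (u : S.Pt),
      (D + Finsupp.single M.pt n) (M.center u) = D (M.center u) := fun D u => by
    rw [Finsupp.add_apply, Finsupp.single_eq_of_ne (M.center_ne_pt u), add_zero]
  -- the ambient space and its expansions
  let Ψ : (riemannRochSpace P₁ × riemannRochSpace P₂) →ₗ[k] Ser2 k :=
    { toFun := fun w => (M.κ w.1, M.κ w.2)
      map_add' := fun w w' => Prod.ext (map_add M.κ _ _) (map_add M.κ _ _)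
      map_smul' := fun c w => by
        refine Prod.ext ?_ ?_ <;>
          simp [Algebra.smul_def, smul_eq_algebraMap_mul] }
  have hΨ : Function.Injective Ψ := fun w w' h => Prod.ext
    (Subtype.ext (M.κ_injective (congrArg Prod.fst h)))
    (Subtype.ext (M.κ_injective (congrArg Prod.snd h)))
  set V := redPair S.surj S.T (S.L E n) with hV
  have hVle : V ≤ LinearMap.range Ψ := fun x hx => by
    obtain ⟨a, ha, b, hb, e₁, e₂⟩ := exists_mem_of_redPair M hm hE hG hord hred hg₁ hg₂ hx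
    exact ⟨(⟨a, ha⟩, ⟨b, hb⟩), Prod.ext e₁ e₂⟩
  set Vc := V.comap Ψ with hVc
  have hfinVc : Module.finrank k Vc = Module.finrank k V := by
    rw [(Submodule.equivMapOfInjective Ψ hΨ Vc).finrank_eq, hVc, Submodule.map_comap_eq,
      inf_eq_right.mpr hVle]
  -- the leading coefficients at the nodes
  choose l₁ hl₁ using fun u : S.Pt => exists_topFun (M.center u) (-D₁ (M.center u))
  choose l₂ hl₂ using fun u : S.Pt => exists_topFun (M.center u) (-D₂ (M.center u))
  let a : S.Node → (riemannRochSpace P₁ × riemannRochSpace P₂) →ₗ[k] k := fun u =>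
    (l₁ u.1).comp (LinearMap.codRestrict _ ((riemannRochSpace P₁).subtype.comp
      (LinearMap.fst k _ _)) fun w => by
        have := FF.mem_riemannRochSpace.mp w.1.2 (M.center u.1)
        rwa [show P₁ (M.center u.1) = D₁ (M.center u.1) from hPv D₁ u.1] at this)
  let b : S.Node → (riemannRochSpace P₁ × riemannRochSpace P₂) →ₗ[k] k := fun u =>
    (l₂ (S.flip u.1)).comp (LinearMap.codRestrict _ ((riemannRochSpace P₂).subtype.comp
      (LinearMap.snd k _ _)) fun w => by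
        have := FF.mem_riemannRochSpace.mp w.2.2 (M.center (S.flip u.1))
        rwa [show P₂ (M.center (S.flip u.1)) = D₂ (M.center (S.flip u.1)) from
          hPv D₂ (S.flip u.1)] at this)
  have ha : ∀ u w, a u w = 0 ↔ (w.1 : Fk) ∈ FF.ordGE (M.center u.1) (-D₁ (M.center u.1) + 1) :=
    fun u w => hl₁ u.1 _
  have hb : ∀ u w, b u w = 0 ↔
      (w.2 : Fk) ∈ FF.ordGE (M.center (S.flip u.1)) (-D₂ (M.center (S.flip u.1)) + 1) :=
    fun u w => hl₂ (S.flip u.1) _
  have hexact : ∀ (v : Place k Fk) (d : ℤ) (f : Fk), f ∈ FF.ordGE v d → f ∉ FF.ordGE v (d + 1) →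
      f ≠ 0 ∧ v.ord f = d := fun v d f h h' => by
    have h0 : f ≠ 0 := fun h0 => h' (h0 ▸ Submodule.zero_mem _)
    rw [FF.mem_ordGE_of_ne_zero v h0] at h h'
    exact ⟨h0, by omega⟩
  -- one relation at each node
  have hrel : ∀ u : S.Node, ∃ α β : k, (α ≠ 0 ∨ β ≠ 0) ∧
      ∀ w ∈ Vc, α * a u w + β * b u w = 0 := by
    intro u
    by_cases hb0 : ∀ w ∈ Vc, b u w = 0
    · exact ⟨0, 1, Or.inr one_ne_zero, fun w hw => by rw [hb0 w hw]; ring⟩
    push Not at hb0
    obtain ⟨wb, hwb, hwb0⟩ := hb0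
    refine ⟨b u wb, -a u wb, Or.inl hwb0, fun w hw => ?_⟩
    by_contra hne
    set wa := b u wb • w - b u w • wb with hwa
    have hwaV : wa ∈ Vc := Submodule.sub_mem _ (Submodule.smul_mem _ _ hw)
      (Submodule.smul_mem _ _ hwb)
    have hab : b u wa = 0 := by
      simp [hwa]; ring
    have haa : a u wa ≠ 0 := fun h => hne (by
      rw [hwa, map_sub, map_smul, map_smul, smul_eq_mul, smul_eq_mul] at h
      linear_combination h)
    obtain ⟨h1, h1o⟩ := hexact _ _ _ (by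
      have := FF.mem_riemannRochSpace.mp wa.1.2 (M.center u.1)
      rwa [show P₁ (M.center u.1) = D₁ (M.center u.1) from hPv D₁ u.1] at this)
        (fun h => haa ((ha u wa).mpr h))
    obtain ⟨h2, h2o⟩ := hexact _ _ _ (by
      have := FF.mem_riemannRochSpace.mp wb.2.2 (M.center (S.flip u.1))
      rwa [show P₂ (M.center (S.flip u.1)) = D₂ (M.center (S.flip u.1)) from
        hPv D₂ (S.flip u.1)] at this) (fun h => hwb0 ((hb u wb).mpr h))
    obtain ⟨n', e, he, heo, hmem⟩ := exists_exact_fst M (u := u) (a₁ := (wa.1 : Fk))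
      (a₂ := (wa.2 : Fk)) (b₁ := (wb.1 : Fk)) (b₂ := (wb.2 : Fk)) (n := n) hwaV hwb h1 h1o h2
      h2o ((hb u wa).mp hab)
    exact false_of_exact_fst R M hm hE hfix hG hord hred hg₁ hg₂ (hsm u) he heo hmem
  choose α β hαβ hrel using hrel
  let Λ : (riemannRochSpace P₁ × riemannRochSpace P₂) →ₗ[k] (S.Node → k) :=
    LinearMap.pi fun u => α u • a u + β u • b u
  have hΛ : ∀ w u, Λ w u = α u * a u w + β u * b u w := fun w u => rfl
  have hsep : ∀ u, ∃ w, Λ w u ≠ 0 ∧ ∀ u', u' ≠ u → Λ w u' = 0 := by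
    intro u
    have hinj : ∀ u' : S.Node, u' ≠ u → M.center u'.1 ≠ M.center u.1 ∧
        M.center (S.flip u'.1) ≠ M.center (S.flip u.1) := fun u' hne =>
      ⟨fun h => hne (Subtype.ext (M.center_injective h)),
        fun h => hne (Subtype.ext (S.flip.injective (M.center_injective h)))⟩
    rcases eq_or_ne (α u) 0 with hα | hα
    · have hβ := (hαβ u).resolve_left (not_not.mpr hα)
      obtain ⟨f, hf, hf0, hfo, hfT⟩ := hN₄ P₂ T₂ (by rw [hP₂, hdP]; omega)
        (M.center (S.flip u.1)) (Finset.mem_image.mpr ⟨u, Finset.mem_univ _, rfl⟩)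
      refine ⟨(0, ⟨f, hf⟩), ?_, fun u' hu' => ?_⟩
      · rw [hΛ, hα, zero_mul, zero_add]
        refine mul_ne_zero hβ fun h => ?_
        rw [hb, FF.mem_ordGE_of_ne_zero _ hf0, hfo,
          show P₂ (M.center (S.flip u.1)) = _ from hPv D₂ (S.flip u.1)] at h
        omega
      · rw [hΛ, (ha u' _).mpr (Submodule.zero_mem _), (hb u' _).mpr ?_]
        · ring
        have := hfT _ (Finset.mem_image.mpr ⟨u', Finset.mem_univ _, rfl⟩) (hinj u' hu').2
        rwa [show P₂ (M.center (S.flip u'.1)) = _ from hPv D₂ (S.flip u'.1), sub_eq_neg_add] at this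
    · obtain ⟨f, hf, hf0, hfo, hfT⟩ := hN₄ P₁ T₁ (by rw [hP₁, hdP]; omega)
        (M.center u.1) (Finset.mem_image.mpr ⟨u, Finset.mem_univ _, rfl⟩)
      refine ⟨(⟨f, hf⟩, 0), ?_, fun u' hu' => ?_⟩
      · rw [hΛ, (hb u _).mpr (Submodule.zero_mem _), mul_zero, add_zero]
        refine mul_ne_zero hα fun h => ?_
        rw [ha, FF.mem_ordGE_of_ne_zero _ hf0, hfo, show P₁ (M.center u.1) = _ from hPv D₁ u.1] at h
        omega
      · rw [hΛ, (hb u' _).mpr (Submodule.zero_mem _), (ha u' _).mpr ?_]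
        · ring
        have := hfT _ (Finset.mem_image.mpr ⟨u', Finset.mem_univ _, rfl⟩) (hinj u' hu').1
        rwa [show P₁ (M.center u'.1) = _ from hPv D₁ u'.1, sub_eq_neg_add] at this
  choose w hw hw' using hsep
  have hsurj : Function.Surjective Λ := fun c => by
    refine ⟨∑ u, (c u / Λ (w u) u) • w u, funext fun u => ?_⟩
    rw [map_sum, Finset.sum_apply, Finset.sum_eq_single u]
    · simp [div_mul_cancel₀ _ (hw u)]
    · intro u' _ hne
      simp [hw' u' u (Ne.symm hne)]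
    · exact fun h => absurd (Finset.mem_univ u) h
  -- dimensions
  have hker : Vc ≤ LinearMap.ker Λ := fun x hx =>
    funext fun u => (hΛ x u).trans (hrel u x hx)
  have hrank := Λ.finrank_range_add_finrank_ker
  rw [LinearMap.range_eq_top.mpr hsurj, finrank_top, Module.finrank_pi,
    Module.finrank_prod] at hrank
  have hle := Submodule.finrank_mono hker
  have hV' : Module.finrank k V = FF.ell (E + S.bd n) :=
    finrank_redPair S.surj _ _ fun f hf hf0 => (Sheets.reg_of_mem_L hE hf).normalizable2 hf0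
  have hB := (hN₂ n (by omega)).1
  have hA := hN₁ n (by omega)
  have hO := S.finrank_Ole (n := n) (by omega)
  have hW₁ := hN₃ P₁ (by rw [hP₁, hdP]; omega)
  have hW₂ := hN₃ P₂ (by rw [hP₂, hdP]; omega)
  rw [hP₁, hdP, ← hP₁] at hW₁
  rw [hP₂, hdP, ← hP₂] at hW₂
  unfold FF.ell at hW₁ hW₂
  rw [Nat.card_eq_fintype_card] at hB
  omega

end Main

end RatData

end Fermat.Agent.MazurPrinciple
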