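import Fermat.Agent.MazurPrinciple.StepDef
import Fermat.Agent.Root.Defs
import Fermat.Agent.Conductor.Residual
import Fermat.Agent.EC.Frobenius.Model
import Fermat.Agent.Gal.Frobenius

/-!
# `E[p]` as representation data

The representation on `E[p]` of an irreducible integral model as input of Mazur's principle
modulo `p`.
-/

set_option autoImplicit false

noncomputable section

namespace Fermat.Agent.MazurPrinciple

open WeierstrassCurve WeierstrassCurve.Affine.Point Matrix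
open scoped WeierstrassCurve.Affine

local notation "ℚbar" => AlgebraicClosure ℚ
local notation "Γℚbar" => AlgebraicClosure ℚ ≃ₐ[ℚ] AlgebraicClosure ℚ

/-- `det (hk - kh) = (2 - tr (h k h⁻¹ k⁻¹)) det (h k)`. -/
theorem det_mul_sub_mul {R : Type*} [CommRing R] {G : Type*} [Group G]
    (ρ : G →* Matrix (Fin 2) (Fin 2) R) (h k : G) :
    (ρ h * ρ k - ρ k * ρ h).det = (2 - (ρ (h * k * h⁻¹ * k⁻¹)).trace) * (ρ h * ρ k).det := by
  have hd : (ρ (h * k * h⁻¹ * k⁻¹)).det = 1 := by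
    have e : ∀ a : G, (ρ a).det * (ρ a⁻¹).det = 1 := fun a => by
      rw [← Matrix.det_mul, ← map_mul, mul_inv_cancel, map_one, Matrix.det_one]
    simp only [map_mul, Matrix.det_mul]
    linear_combination (ρ k).det * (ρ k⁻¹).det * e h + e k
  have he : ρ h * ρ k - ρ k * ρ h = (ρ (h * k * h⁻¹ * k⁻¹) - 1) * (ρ k * ρ h) := by
    rw [sub_mul, one_mul, ← map_mul, ← map_mul, ← map_mul]
    congr 2
    group
  rw [he, Matrix.det_mul, Matrix.det_mul (ρ h), Matrix.det_mul (ρ k), mul_comm (ρ k).det]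
  congr 1
  rw [Matrix.det_fin_two] at hd
  simp only [Matrix.det_fin_two, Matrix.trace_fin_two, Matrix.sub_apply, Matrix.one_apply_eq,
    Matrix.one_apply_ne (show (0 : Fin 2) ≠ 1 by decide),
    Matrix.one_apply_ne (show (1 : Fin 2) ≠ 0 by decide)]
  linear_combination hd

/-- An element acting as `diag(1, -1)` and non-triangular elements give the two conditions. -/
theorem exists_commutator_and_nonEis {k : Type*} [Field k] {G : Type*} [Group G]
    (ρ : G →* Matrix (Fin 2) (Fin 2) k) (h2 : (2 : k) ≠ 0) {c g g' : G}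
    (hc : ρ c = !![1, 0; 0, -1]) (hg : ρ g 1 0 ≠ 0) (hg' : ρ g' 0 1 ≠ 0) :
    (∃ h l : G, (ρ (h * l * h⁻¹ * l⁻¹)).trace - 2 ≠ 0) ∧
      ∃ σ : G, (ρ σ).trace - 1 - (ρ σ).det ≠ 0 := by
  obtain ⟨x, hx10, hx01⟩ : ∃ x, ρ x 1 0 ≠ 0 ∧ ρ x 0 1 ≠ 0 := by
    by_cases h1 : ρ g 0 1 ≠ 0
    · exact ⟨g, hg, h1⟩
    by_cases h3 : ρ g' 1 0 ≠ 0
    · exact ⟨g', h3, hg'⟩
    rw [not_not] at h1 h3
    have hd : ∀ a : G, (ρ a).det ≠ 0 := fun a =>
      (IsUnit.of_mul_eq_one ((ρ a⁻¹).det) (by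
        rw [← Matrix.det_mul, ← map_mul, mul_inv_cancel, map_one, Matrix.det_one])).ne_zero
    have hdg := hd g
    have hdg' := hd g'
    rw [Matrix.det_fin_two, h1, zero_mul, sub_zero] at hdg
    rw [Matrix.det_fin_two, h3, mul_zero, sub_zero] at hdg'
    obtain ⟨a1, d1⟩ := mul_ne_zero_iff.mp hdg
    obtain ⟨a2, d2⟩ := mul_ne_zero_iff.mp hdg'
    refine ⟨g * g', ?_, ?_⟩ <;>
      simp only [map_mul, Matrix.mul_apply, Fin.sum_univ_two, h1, h3, mul_zero, zero_mul, add_zero]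
    · exact mul_ne_zero hg a2
    · exact mul_ne_zero a1 hg'
  have hcx : ρ c * ρ x = !![ρ x 0 0, ρ x 0 1; -ρ x 1 0, -ρ x 1 1] := by
    ext i j
    rw [hc, Matrix.mul_apply, Fin.sum_univ_two]
    fin_cases i <;> fin_cases j <;> simp
  have hxc : ρ x * ρ c = !![ρ x 0 0, -ρ x 0 1; ρ x 1 0, -ρ x 1 1] := by
    ext i j
    rw [hc, Matrix.mul_apply, Fin.sum_univ_two]
    fin_cases i <;> fin_cases j <;> simp
  refine ⟨⟨c, x, fun h0 => ?_⟩, ?_⟩
  · have he := det_mul_sub_mul ρ c x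
    rw [sub_eq_zero] at h0
    rw [h0, sub_self, zero_mul, hcx, hxc] at he
    simp [Matrix.det_fin_two] at he
    rcases he with he | he
    · exact mul_ne_zero h2 hx01 (by linear_combination he)
    · exact mul_ne_zero h2 hx10 (by linear_combination -he)
  · by_contra hall
    push Not at hall
    have e1 := hall x
    have e2 := hall (c * x)
    rw [map_mul, hcx] at e2
    simp [Matrix.det_fin_two, Matrix.trace_fin_two] at e1 e2
    have ha : (2 : k) * (ρ x 0 0 - 1) = 0 := by linear_combination e1 + e2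
    have ha' : ρ x 0 0 = 1 := sub_eq_zero.mp ((mul_eq_zero.mp ha).resolve_left h2)
    rw [ha'] at e1
    exact mul_ne_zero hx01 hx10 (by linear_combination e1)

variable {W : WeierstrassCurve ℤ} {p : ℕ} [Fact p.Prime]

/-- **`E[p]` as representation data.** -/
theorem exists_repData (hΔ : W.Δ ≠ 0) (hp2 : p ≠ 2) (hirr : W.ModRepIsIrreducible p) {S : Finset ℕ}
    (hS : ∀ l : ℕ, l.Prime → l ∉ S → W.IsGoodPrimeFor l ∧ p ≠ l) :
    ∃ R : RepData p 1 (fun l => W.apOfModel l) S,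
      (∀ l : ℕ, l.Prime → W.IsGoodPrimeFor l → p ≠ l → ∀ A : ValuationSubring ℚbar,
        A.LiesOverPrime l → ∀ σ : Γℚbar, A.IsFrobeniusAt σ l →
          (R.ρ σ).trace = ((W.apOfModel l : ℤ) : ZMod (p ^ 1))) ∧
      ∀ q : ℕ, q.Prime → Root.UnramifiedMod p W q → (q % p ≠ 1 ∨ ¬ Root.FrobScalarMod p W q) →
        R.GoodAt q := by
  classical
  have hp : p.Prime := Fact.out
  have := EC.Frobenius.isElliptic_map_rat hΔ
  set E := W.map (Int.castRingHom ℚ)
  have h2p : ((2 : ℕ) : ZMod p) ≠ 0 := by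
    rw [ne_eq, ZMod.natCast_eq_zero_iff]
    exact fun h => hp2 ((Nat.prime_dvd_prime_iff_eq hp Nat.prime_two).mp h)
  have h2 : (2 : ZMod p) ≠ 0 := by exact_mod_cast h2p
  have hcard := Isogeny.card_torsionBy_baseChange (K := ℚbar) E (n := p)
    (Nat.cast_ne_zero.mpr hp.ne_zero)
  have hker := EC.Frobenius.galoisFactorsThroughFiniteLevel_torsion E hp.ne_zero
  set ρE := E.residualGaloisRepOf p hcard hker
  obtain ⟨b, c, g, g', hcb0, hcb1, hg, hg'⟩ : Conductor.SplitData ρE :=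
    Conductor.splitData_of_irreducible h2 (fun U hU => hirr.2 U hU)
      complexConjugation_mul_self (Conductor.det_involution W hΔ p hp2 complexConjugation_mul_self
        Conductor.complexConjugation_ne_one)
  let e := LinearMap.toMatrixAlgEquiv b
  let R₂ : Γℚbar →* Matrix (Fin 2) (Fin 2) (ZMod p) := e.toAlgHom.toMonoidHom.comp ρE.ρ
  have hR₂ : ∀ σ i j, R₂ σ i j = b.repr (ρE.ρ σ (b j)) i := fun σ i j =>
    LinearMap.toMatrixAlgEquiv_apply b _ i j
  have hc : R₂ c = !![1, 0; 0, -1] := by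
    ext i j
    rw [hR₂]
    fin_cases j
    · fin_cases i <;> simp [hcb0]
    · fin_cases i <;> simp [hcb1]
  obtain ⟨⟨x, y, hxy⟩, σ₀, hσ₀⟩ := exists_commutator_and_nonEis R₂ h2 hc
    (g := g) (g' := g') (by rw [hR₂]; exact hg) (by rw [hR₂]; exact hg')
  let ι : ZMod p ≃+* ZMod (p ^ 1) := ZMod.ringEquivCongr (pow_one p).symm
  let ρ : Γℚbar →* Matrix (Fin 2) (Fin 2) (ZMod (p ^ 1)) :=
    ι.toRingHom.mapMatrix.toMonoidHom.comp R₂
  have htr : ∀ σ, (ρ σ).trace = ι (R₂ σ).trace := fun σ => by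
    simp [ρ, Matrix.trace_fin_two]
  have hdet : ∀ σ, (ρ σ).det = ι (R₂ σ).det := fun σ => by
    simp [ρ, Matrix.det_fin_two]
  have hunit : ∀ {a : ZMod p}, a ≠ 0 → IsUnit (ι a) := fun {a} ha => (Ne.isUnit ha).map ι
  have hfrob : ∀ l : ℕ, l.Prime → W.IsGoodPrimeFor l → p ≠ l →
      ∀ A : ValuationSubring ℚbar, A.LiesOverPrime l →
      ∀ σ : Γℚbar, A.IsFrobeniusAt σ l →
        (ρ σ).trace = ((W.apOfModel l : ℤ) : ZMod (p ^ 1)) ∧ (ρ σ).det = (l : ZMod (p ^ 1)) := by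
    intro l hl hlg hlp A hA σ hσ
    obtain ⟨ht, hd, -⟩ :=
      haveI := EC.Frobenius.moduleFinite_torsion E p
      EC.Frobenius.trace_det_charpoly (W := W) hl hlg hlp hA hσ
    rw [htr, hdet, show (R₂ σ).trace = (W.apOfModel l : ZMod p) from
      (LinearMap.trace_eq_matrix_trace (ZMod p) b (ρE.ρ σ)).symm.trans ht,
      show (R₂ σ).det = (l : ZMod p) from (LinearMap.det_toMatrix b (ρE.ρ σ)).trans hd,
      map_intCast, map_natCast]
    exact ⟨rfl, rfl⟩
  obtain ⟨L, hL, hLρ⟩ := hker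
  have hone : ∀ σ, ρE.ρ σ = 1 → ρ σ = 1 := fun σ h => by
    show ι.toRingHom.mapMatrix (e (ρE.ρ σ)) = 1
    rw [h, map_one, map_one]
  refine ⟨⟨ρ, ⟨L, hL, fun σ hσ => hone σ (hLρ σ hσ)⟩, ⟨x, y, ?_⟩, ⟨σ₀, ?_⟩,
      fun l hl hlS => hfrob l hl (hS l hl hlS).1 (hS l hl hlS).2⟩,
    fun l hl hg hlp A hA σ hσ => (hfrob l hl hg hlp A hA σ hσ).1,
    fun q hq hunr hgood => ⟨fun A hA τ hτ => hone τ ?_, hgood.imp_right fun hsc A hA σ hσ => ?_⟩⟩
  · rw [htr, ← map_ofNat ι 2, ← map_sub]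
    exact hunit hxy
  · rw [htr, hdet, ← map_one ι, ← map_sub, ← map_sub]
    exact hunit hσ₀
  · exact LinearMap.ext fun P => hunr A hA τ hτ P
  · rintro ⟨n, hn⟩
    refine hsc fun A' hA' σ' hσ' => ?_
    have hscal : ρE.ρ σ = (n : ZMod p) • (1 : Module.End (ZMod p) ρE.V) := by
      apply e.injective
      rw [map_smul, map_one]
      ext i j
      have h1 := hn i j
      have hv : ∀ z : ZMod (p ^ 1), p ∣ z.val → z = 0 := fun z hz => by
        have : NeZero (p ^ 1) := ⟨pow_ne_zero 1 hp.ne_zero⟩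
        refine (ZMod.val_eq_zero z).mp (Nat.eq_zero_of_dvd_of_lt hz ?_)
        simpa using ZMod.val_lt z
      have h3 := sub_eq_zero.mp (hv _ h1)
      rw [Matrix.smul_apply, Matrix.one_apply, smul_eq_mul, mul_ite, mul_one, mul_zero]
      refine ι.injective (h3.trans ?_)
      split_ifs <;> simp
    obtain ⟨τ, rfl⟩ := Gal.exists_smul_eq_of_liesOverPrime hq hA hA'
    have hσ'' : A.IsFrobeniusAt (τ⁻¹ * σ' * τ) q := by
      rw [← Gal.isFrobeniusAt_smul_iff τ]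
      simpa [mul_assoc] using hσ'
    have hin := Gal.inv_mul_mem_inertia hσ hσ''
    have h4 : ρE.ρ (τ⁻¹ * σ' * τ) = (n : ZMod p) • (1 : Module.End (ZMod p) ρE.V) := by
      rw [show τ⁻¹ * σ' * τ = σ * (σ⁻¹ * (τ⁻¹ * σ' * τ)) from (mul_inv_cancel_left σ _).symm,
        map_mul, hscal, show ρE.ρ (σ⁻¹ * (τ⁻¹ * σ' * τ)) = 1 from
          LinearMap.ext fun P => hunr A hA _ hin P, mul_one]
    refine ⟨(n : ZMod p), ?_⟩
    have h5 : ρE.ρ σ' = ρE.ρ τ * ρE.ρ (τ⁻¹ * σ' * τ) * ρE.ρ τ⁻¹ := by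
      rw [← map_mul, ← map_mul]
      congr 1
      group
    rw [h4, mul_smul_comm, mul_one, smul_mul_assoc, ← map_mul, mul_inv_cancel, map_one] at h5
    exact h5

end Fermat.Agent.MazurPrinciple
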