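import Fermat.Agent.MazurPrinciple.Algebra

/-!
# The trace pairing and translates twisted by an involution

Trace pairing for a residually irreducible two-dimensional representation and the vanishing of
vectors on all translates of which an element is a scalar times an involution.
-/

set_option autoImplicit false

noncomputable section

namespace Fermat.Agent.MazurPrinciple

open IsLocalRing

/-- Trace pairing with `1, H, K, HK` is perfect if `HK - KH` is invertible. -/
theorem eq_zero_of_trace_mul {k : Type*} [Field k] {H K e : Matrix (Fin 2) (Fin 2) k}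
    (hd : (H * K - K * H).det ≠ 0) (h0 : e.trace = 0) (h1 : (H * e).trace = 0)
    (h2 : (K * e).trace = 0) (h3 : (H * K * e).trace = 0) : e = 0 := by
  simp only [Matrix.trace_fin_two, Matrix.mul_apply, Fin.sum_univ_two] at h0 h1 h2 h3
  rw [Matrix.det_fin_two] at hd
  simp only [Matrix.sub_apply, Matrix.mul_apply, Fin.sum_univ_two] at hd
  have e11 : e 1 1 = -e 0 0 := by linear_combination h0
  rw [e11] at h1 h2 h3
  set A₁ := H 0 0 - H 1 1
  set B₁ := H 1 0
  set C₁ := H 0 1
  set A₂ := K 0 0 - K 1 1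
  set B₂ := K 1 0
  set C₂ := K 0 1
  set A₃ := H 0 0 * K 0 0 + H 0 1 * K 1 0 - (H 1 0 * K 0 1 + H 1 1 * K 1 1)
  set B₃ := H 1 0 * K 0 0 + H 1 1 * K 1 0
  set C₃ := H 0 0 * K 0 1 + H 0 1 * K 1 1
  have l1 : A₁ * e 0 0 + B₁ * e 0 1 + C₁ * e 1 0 = 0 := by
    simp only [A₁, B₁, C₁]; linear_combination h1
  have l2 : A₂ * e 0 0 + B₂ * e 0 1 + C₂ * e 1 0 = 0 := by
    simp only [A₂, B₂, C₂]; linear_combination h2
  have l3 : A₃ * e 0 0 + B₃ * e 0 1 + C₃ * e 1 0 = 0 := by
    simp only [A₃, B₃, C₃]; linear_combination h3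
  set D := A₁ * (B₂ * C₃ - B₃ * C₂) + A₂ * (B₃ * C₁ - B₁ * C₃) + A₃ * (B₁ * C₂ - B₂ * C₁)
  have hD : D ≠ 0 := by
    intro hD0
    refine hd (Eq.trans ?_ hD0)
    simp only [D, A₁, B₁, C₁, A₂, B₂, C₂, A₃, B₃, C₃]
    ring
  have hx : D * e 0 0 = 0 := by
    simp only [D]
    linear_combination (B₂ * C₃ - B₃ * C₂) * l1 + (B₃ * C₁ - B₁ * C₃) * l2 +
      (B₁ * C₂ - B₂ * C₁) * l3
  have hy : D * e 0 1 = 0 := by
    simp only [D]
    linear_combination (C₂ * A₃ - C₃ * A₂) * l1 + (C₃ * A₁ - C₁ * A₃) * l2 +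
      (C₁ * A₂ - C₂ * A₁) * l3
  have hz : D * e 1 0 = 0 := by
    simp only [D]
    linear_combination (A₂ * B₃ - A₃ * B₂) * l1 + (A₃ * B₁ - A₁ * B₃) * l2 +
      (A₁ * B₂ - A₂ * B₁) * l3
  ext i j
  fin_cases i <;> fin_cases j
  · exact (mul_eq_zero.mp hx).resolve_left hD
  · exact (mul_eq_zero.mp hy).resolve_left hD
  · exact (mul_eq_zero.mp hz).resolve_left hD
  · show e 1 1 = 0
    rw [e11, (mul_eq_zero.mp hx).resolve_left hD, neg_zero]

variable {R : Type*} [CommRing R] [IsLocalRing R] {G : Type*} [Group G]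
  (ρ : G →* Matrix (Fin 2) (Fin 2) R)

/-- **Trace pairing.** -/
theorem exists_isUnit_trace_mul (hcomm : ∃ h k : G, IsUnit ((ρ (h * k * h⁻¹ * k⁻¹)).trace - 2))
    (e : Matrix (Fin 2) (Fin 2) R) (he : ¬ ∀ i j, e i j ∈ maximalIdeal R) :
    ∃ g, IsUnit ((ρ g * e).trace) := by
  by_contra hne
  push Not at hne
  obtain ⟨h, k, hu⟩ := hcomm
  set r : Matrix (Fin 2) (Fin 2) R →+* Matrix (Fin 2) (Fin 2) (ResidueField R) :=
    (residue R).mapMatrix with hr
  have hzero : ∀ g, (r (ρ g) * r e).trace = 0 := fun g => by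
    rw [← map_mul, hr, RingHom.mapMatrix_apply]
    refine Eq.trans ?_ ((residue_eq_zero_iff _).mpr ((mem_maximalIdeal _).mpr (hne g)))
    simp [Matrix.trace_fin_two, Matrix.mul_apply, Fin.sum_univ_two]
  set u := h * k * h⁻¹ * k⁻¹ with hudef
  have hdu : (ρ u).det = 1 := (traceDet_of_matrix ρ ⟨h, k, hu⟩).det_commutator h k
  have hdet : ((ρ h * ρ k - ρ k * ρ h)).det = (2 - (ρ u).trace) * (ρ (k * h)).det := by
    have e1 : ρ h * ρ k - ρ k * ρ h = (ρ u - 1) * ρ (k * h) := by
      rw [sub_mul, one_mul, ← map_mul, ← map_mul, ← map_mul,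
        show u * (k * h) = h * k by rw [hudef]; group]
    rw [e1, Matrix.det_mul]
    congr 1
    rw [Matrix.det_fin_two, Matrix.trace_fin_two]
    rw [Matrix.det_fin_two] at hdu
    simp only [Matrix.sub_apply, Matrix.one_apply_eq, ne_eq, zero_ne_one, not_false_eq_true,
      Matrix.one_apply_ne, one_ne_zero]
    linear_combination hdu
  have hne0 : (r (ρ h) * r (ρ k) - r (ρ k) * r (ρ h)).det ≠ 0 := by
    rw [← map_mul r, ← map_mul r, ← map_sub r, hr, ← RingHom.map_det, hdet]
    refine ((IsUnit.mul ?_ ((traceDet_of_matrix ρ ⟨h, k, hu⟩).det_unit _)).map (residue R)).ne_zero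
    rw [← neg_sub]
    exact hu.neg
  have he0 : r e = 0 := eq_zero_of_trace_mul hne0 (by simpa using hzero 1) (hzero h) (hzero k)
    (by have := hzero (h * k); rwa [map_mul, map_mul] at this)
  refine he fun i j => (residue_eq_zero_iff _).mp ?_
  exact congrFun (congrFun he0 i) j

variable {W : Type*} [AddCommGroup W] [Module R W] {act : G →* Module.End R W}

/-- **No translate twisted by an involution.** If on all translates of `z`, killed by the maximal
ideal, `F` is `-c` times an involution commuting with the group, `c = det ρ F`, then `z = 0`,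
provided `c ≢ 1` or `ρ F` is residually not a scalar. -/
theorem QuadRel.eq_zero_of_forall_twist
    (hW : QuadRel act (fun g => (ρ g).trace) (fun g => (ρ g).det))
    (hcomm : ∃ h k : G, IsUnit ((ρ (h * k * h⁻¹ * k⁻¹)).trace - 2))
    {w : Module.End R W} (hw : ∀ y, w (w y) = y) (hwc : ∀ g y, w (act g y) = act g (w y))
    {F : G} {c : R} (hc : IsUnit c) (hdet : (ρ F).det = c)
    (h2 : IsUnit (2 : R) ∨ c - 1 ∈ maximalIdeal R)
    (hF : IsUnit (c - 1) ∨
      ¬ ∃ a : R, ∀ i j, ρ F i j - (if i = j then a else 0) ∈ maximalIdeal R)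
    {z : W} (hz : ∀ a ∈ maximalIdeal R, a • z = 0)
    (hev : ∀ g, act F (act g z) = -c • w (act g z)) : z = 0 := by
  have hT := traceDet_of_matrix ρ hcomm
  have eig : ∀ (c' : R) (y : W), IsUnit c' → (IsUnit (c - 1) → IsUnit (c - c' ^ 2)) →
      (∀ a ∈ maximalIdeal R, a • y = 0) → (∀ g, act F (act g y) = c' • act g y) → y = 0 := by
    intro c' y hc' hcc hy hey
    refine hW.eq_zero_of_forall_eigen hT hc' ?_ hy hey
    simp only [hdet]
    by_cases hu : IsUnit (c - c' ^ 2)
    · exact Or.inl hu
    refine Or.inr ⟨(mem_maximalIdeal _).mpr hu, ?_⟩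
    have hns := hF.resolve_left fun h => hu (hcc h)
    obtain ⟨g, hg⟩ := exists_isUnit_trace_mul ρ hcomm (c' • (1 : Matrix (Fin 2) (Fin 2) R) - ρ F)
      fun h => hns ⟨c', fun i j => by
        have := (maximalIdeal R).neg_mem (h i j)
        simpa [Matrix.one_apply] using this⟩
    refine ⟨g, ?_⟩
    simpa [mul_sub, Matrix.trace_sub, map_mul] using hg
  have hwz : ∀ a ∈ maximalIdeal R, a • w z = 0 := fun a ha => by rw [← map_smul, hz a ha, map_zero]
  rcases h2 with h2 | hc1
  · -- the two eigenvectors of the involution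
    have hsq : IsUnit (c - 1) → ∀ c' : R, c' ^ 2 = c ^ 2 → IsUnit (c - c' ^ 2) :=
      fun h c' hc' => by
        rw [hc', show c - c ^ 2 = -(c * (c - 1)) by ring]
        exact (hc.mul h).neg
    have hev' : ∀ g, act F (act g (w z)) = -c • act g z := fun g => by
      rw [← hwc, ← hwc, hev g, map_smul, hw]
    have hplus : z + w z = 0 := eig (-c) _ hc.neg (fun h => hsq h _ (by ring))
      (fun a ha => by rw [smul_add, hz a ha, hwz a ha, add_zero]) fun g => by
      rw [map_add, map_add, hev, hev', hwc, smul_add, add_comm]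
    have hminus : z - w z = 0 := eig c _ hc (fun h => hsq h _ rfl)
      (fun a ha => by rw [smul_sub, hz a ha, hwz a ha, sub_zero]) fun g => by
      rw [map_sub, map_sub, hev, hev', hwc]
      module
    refine h2.smul_eq_zero.mp ?_
    rw [show (2 : R) • z = (z + w z) + (z - w z) by rw [two_smul]; abel, hplus, hminus, add_zero]
  · -- residue characteristic two
    obtain ⟨h, hu⟩ := exists_isUnit_trace_mul ρ hcomm (ρ F) fun hall => by
      have hmem : (ρ F).det ∈ maximalIdeal R := by
        rw [Matrix.det_fin_two]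
        exact sub_mem (Ideal.mul_mem_right _ _ (hall 0 0)) (Ideal.mul_mem_right _ _ (hall 0 1))
      rw [hdet] at hmem
      exact (mem_maximalIdeal _).mp hmem hc
    rw [← map_mul] at hu
    have key : (c ^ 2 * (ρ h).trace) • act h z + (c * (ρ (h * F)).trace) • w (act h z) =
        ((ρ h).det * (c * (c - 1))) • z := by
      have h1 := LinearMap.congr_fun (hW (h * F)) z
      have h3 := LinearMap.congr_fun (hW h) z
      have hFz : act F z = -c • w z := by simpa using hev 1
      simp only [map_mul, Matrix.det_mul, hdet, LinearMap.add_apply, LinearMap.sub_apply,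
        LinearMap.smul_apply, Module.End.mul_apply, Module.End.one_apply, LinearMap.zero_apply,
        hFz, map_smul, ← hwc, hev h, hw] at h1 h3 ⊢
      linear_combination (norm := module) h1 - (c ^ 2) • h3
    rw [hz ((ρ h).det * (c * (c - 1))) (Ideal.mul_mem_left _ _ (Ideal.mul_mem_left _ _ hc1))] at key
    by_cases ht : IsUnit (ρ h).trace
    · obtain ⟨v, hv⟩ := (hc.mul hu).exists_left_inv
      set l : R := -(v * (c ^ 2 * (ρ h).trace)) with hl
      have hlu : IsUnit l :=
        ((IsUnit.of_mul_eq_one _ hv).mul ((hc.pow 2).mul ht)).neg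
      have hwh : w (act h z) = l • act h z := by
        have := congrArg (fun x => v • x) key
        simp only [smul_add, smul_zero, smul_smul, hv, one_smul] at this
        rw [hl]
        linear_combination (norm := module) this
      have hwz' : w z = l • z := by
        have := congrArg (act h⁻¹) hwh
        rwa [← hwc, map_smul, show act h⁻¹ (act h z) = z by
          rw [← Module.End.mul_apply, act_inv_mul_act, Module.End.one_apply]] at this
      refine eig (-c * l) z (hc.neg.mul hlu) (fun h => absurd h ((mem_maximalIdeal _).mp hc1)) hz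
        fun g => ?_
      rw [hev g, hwc, hwz', map_smul, smul_smul]
    · have h0 : (c ^ 2 * (ρ h).trace) • act h z = 0 := by
        rw [← map_smul, hz _ (Ideal.mul_mem_left _ _ ((mem_maximalIdeal _).mpr ht)), map_zero]
      rw [h0, zero_add] at key
      have h1 := congrArg w ((hc.mul hu).smul_eq_zero.mp key)
      rw [hw, map_zero] at h1
      have h2' := congrArg (act h⁻¹) h1
      rwa [map_zero, ← Module.End.mul_apply, act_inv_mul_act, Module.End.one_apply] at h2'

end Fermat.Agent.MazurPrinciple
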