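import Fermat.Agent.MazurPrinciple.CurveModel
import Fermat.Agent.MazurPrinciple.RatLift
import Fermat.Agent.Semistable.Level
import Fermat.Agent.Carayol.Descent.InertiaField

/-!
# The function field model and the inertia data of the reduction of `X₀(qM)`

The reduced ring of level `M` is the ring of functions of `k(X₀(M))` regular outside `∞`; the
fixed field of inertia at a place over `q` has uniformiser `q` and the full residue field.
-/

set_option autoImplicit false

noncomputable section

open ModularCurve AlgebraicCurve Fermat.Agent.Igusa Fermat.Agent.Reduction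
  Fermat.Agent.Reduction.Level Fermat.Agent.Semistable

namespace Fermat.Agent.MazurPrinciple

local notation "ℚbar" => AlgebraicClosure ℚ
local notation "Γℚbar" => (AlgebraicClosure ℚ ≃ₐ[ℚ] AlgebraicClosure ℚ)

/-- The order at the cusp place of the trivial conjugate is the order of the expansion. -/
theorem ord_cuspPlace_cst0 {k : Type*} [Field k] [IsAlgClosed k] {N : ℕ} [NeZero N]
    (π : Rz N →+* k) (hπ : IsPrimitiveRoot (π (zetaR N)) N) (y : modularFunctionFieldFullC k N) :
    (cuspPlace π hπ cst0).ord y = (y : LaurentSeries k).order := by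
  refine ord_eq_order_of_mem_iff _ (fun x => ?_) y
  rw [mem_cuspPlace, sig_cst0_apply]
  rcases eq_or_ne (x : LaurentSeries k) 0 with h0 | h0
  · simp [h0, PoleLE]
  · rw [poleLE_iff_order h0,
      poleLE_iff_order ((map_ne_zero_iff _ (qExpand k N).injective).mpr h0), order_qExpand]
    have := NeZero.pos N
    constructor <;> intro <;> nlinarith

theorem natCast_residue_ne_zero {k : Type*} [Field k] {q M : ℕ} [CharP k q] (hqM : ¬ q ∣ M) :
    (M : k) ≠ 0 := fun h => hqM ((CharP.cast_eq_zero_iff k q M).mp h)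

/-- A function field model from an inclusion and a genus bound. -/
theorem CurveModel.exists_of_le {K F k : Type*} [Field K] [Field F] [Algebra K F] [Field k]
    [IsAlgClosed k] {A : ValuationSubring K} {π : A →+* k} {q : ℕ} [NeZero q]
    {S : Sheets A π q F} {Fk : Type*} [Field Fk] [Algebra k Fk] [FF.IsFunctionField k Fk]
    (κ : Fk →ₐ[k] LaurentSeries k) (pt : Place k Fk) (ord_pt : ∀ f, pt.ord f = (κ f).order)
    (hle : ∀ x ∈ S.C, ∃ f, κ f = x ∧ ∀ v, v ≠ pt → f ∈ FF.ordGE v 0)
    (hg : S.gM ≤ FF.riemannGenus k Fk) :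
    ∃ M : CurveModel S Fk, M.κ = κ ∧ M.pt = pt := by
  refine ⟨⟨κ, pt, ord_pt, fun x => ⟨hle x, ?_⟩⟩, rfl, rfl⟩
  rintro ⟨f, rfl, hf⟩
  obtain ⟨N, hN⟩ := FF.exists_ell_eq_of_degree_ge k Fk
  set n : ℤ := max (max N S.n₀) (-(κ f).order) with hn
  have hdeg : Divisor.degree (Finsupp.single pt n) = n := by
    rw [Divisor.degree_single, FF.deg_eq_one]; simp
  have hpole : ∀ g : Fk, g ∈ FF.ordGE pt (-n) ↔ PoleLE n (κ g) := fun g =>
    Sheets.mem_ordGE_iff_poleLE (fun g => map_eq_zero κ) ord_pt
  choose φ hφ hφreg using fun x : S.Cle n => hle x.1 x.2.2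
  have hκ : ∀ (c : k) (g : Fk), κ (c • g) = c • κ g := fun c g => by
    rw [Algebra.smul_def, map_mul, AlgHom.commutes, smul_eq_algebraMap_mul]
  let l : S.Cle n →ₗ[k] riemannRochSpace (Finsupp.single pt n) :=
    { toFun := fun x => ⟨φ x, FF.mem_riemannRochSpace.mpr fun v => by
        rcases eq_or_ne v pt with rfl | hv
        · rw [Finsupp.single_eq_same, hpole, hφ]
          exact x.2.1
        · rw [Finsupp.single_eq_of_ne hv, neg_zero]
          exact hφreg x v hv⟩
      map_add' := fun x y => Subtype.ext (κ.toRingHom.injective (by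
        show κ (φ (x + y)) = κ (φ x + φ y)
        rw [map_add, hφ, hφ, hφ]; rfl))
      map_smul' := fun c x => Subtype.ext (κ.toRingHom.injective (by
        show κ (φ (c • x)) = κ (c • φ x)
        rw [hκ, hφ, hφ]; rfl)) }
  have hinj : Function.Injective l := fun x y h =>
    Subtype.ext ((hφ x).symm.trans ((congrArg (fun z : riemannRochSpace _ => κ (z : Fk)) h).trans
      (hφ y)))
  have := S.finiteDimensional_Cle n
  have h1 := hN (Finsupp.single pt n) (by rw [hdeg]; simp [hn])
  rw [hdeg] at h1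
  have h2 := S.finrank_Cle (n := n) (by simp [hn])
  have h3 := LinearMap.finrank_le_finrank_of_injective hinj
  unfold FF.ell at h1
  have hsurj : Function.Surjective l :=
    (LinearMap.injective_iff_surjective_of_finrank_eq_finrank (by omega)).mp hinj
  have hfmem : f ∈ riemannRochSpace (Finsupp.single pt n) := by
    refine FF.mem_riemannRochSpace.mpr fun v => ?_
    rcases eq_or_ne v pt with rfl | hv
    · rw [Finsupp.single_eq_same, hpole]
      exact (poleLE_neg_order _).mono (le_max_right _ _)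
    · rw [Finsupp.single_eq_of_ne hv, neg_zero]
      exact hf v hv
  obtain ⟨x, hx⟩ := hsurj ⟨f, hfmem⟩
  have : κ f = x.1 := by
    rw [← hφ x]; exact congrArg (fun z : riemannRochSpace _ => κ (z : Fk)) hx.symm
  rw [this]
  exact x.2.2

variable {k : Type*} [Field k] [IsAlgClosed k] {A : ValuationSubring ℚbar} {π : A →+* k} {q M : ℕ}
  [NeZero q] [NeZero M] [CharP k q] [Fact q.Prime] (L : LevelData A π M) (w : ALData q M)
  (hq : q.Prime) (hA : A.LiesOverPrime q) (hπ : Function.Surjective π) (hqM : ¬ q ∣ M)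

omit [NeZero q] [Fact q.Prime] in
include hπ hqM in
/-- Reductions of the lifts of level `M` are regular outside `∞`. -/
theorem exists_regular_of_mem {pt : Place k (modularFunctionFieldFullC k M)}
    (hpt : ∀ f, pt.ord f = (f : LaurentSeries k).order) {x : LaurentSeries k} (hx : x ∈ L.C) :
    ∃ f : modularFunctionFieldFullC k M, (f : LaurentSeries k) = x ∧
      ∀ v, v ≠ pt → f ∈ FF.ordGE v 0 := by
  have hN : (M : k) ≠ 0 := natCast_residue_ne_zero (q := q) hqM
  have := isFunctionField_level (k := ℚbar) (N := M) (natCast_ne_zero_of_red hN π)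
  have := isFunctionField_level (k := k) (N := M) hN
  obtain ⟨πR, hK, hk⟩ := exists_piR A π M hN
  obtain ⟨y, hy, hyx, -⟩ := L.exists_lift (max L.n₀ (-x.order).toNat) (le_max_left _ _) x hx
    ((poleLE_neg_order x).mono (by omega))
  set u : modularFunctionFieldFullC ℚbar M :=
    ⟨(y : LaurentSeries ℚbar), (modularFunctionFieldBar_eq_fullC M) ▸ y.2⟩
  have hreg' : ∀ v, v ≠ cuspPlace (A.subtype.comp πR) hK cst0 → 0 ≤ v.ord u :=
    (Semistable.forall_place_of_eq (modularFunctionFieldBar_eq_fullC M) (fun f => ord_cuspInf M f)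
      (ord_cuspPlace_cst0 (A.subtype.comp πR) hK) (y₁ := y) (y₂ := u) rfl).mp hy
  have humem : ∀ v : Place ℚbar (modularFunctionFieldFullC ℚbar M),
      v ≠ cuspPlace (A.subtype.comp πR) hK cst0 → u ∈ v.toValuationSubring := fun v hv => by
    rcases eq_or_ne u 0 with h0 | h0
    · rw [h0]; exact zero_mem _
    · exact (FF.mem_toValuationSubring_iff_ord v h0).mpr (hreg' v hv)
  have hreg : RegFin u := regFin_of_forall_mem (natCast_ne_zero_of_red hN π) fun v hv =>
    humem v fun h => jC_notMem_cuspPlace (A.subtype.comp πR) hK cst0 (h ▸ hv)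
  obtain ⟨f, hf, hfx, hall⟩ := exists_red_all hπ πR hK hk hreg hyx
  refine ⟨f, hfx, fun v hv => (FF.mem_toValuationSubring_iff v).mp ?_⟩
  by_cases hjv : jC k M ∈ v.toValuationSubring
  · exact hf.mem_place v hjv
  obtain ⟨i, rfl⟩ := exists_cuspPlace_eq (π.comp πR) hk v hjv
  have hi : i ≠ cst0 := fun h => hv (place_eq_of_ord fun f => by
    rw [h, ord_cuspPlace_cst0, hpt])
  exact (mem_cuspPlace _ hk).mpr ((hall i).poleLE ((mem_cuspPlace _ hK).mp
    (humem (cuspPlace (A.subtype.comp πR) hK i) (cuspPlace_ne (A.subtype.comp πR) hK hi))))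

omit [NeZero q] [Fact q.Prime] [IsAlgClosed k] [CharP k q] in
include hπ in
/-- The genus of the data is at most the genus over `ℚ̄`. -/
theorem gM_le_riemannGenus [FF.IsFunctionField ℚbar (modularFunctionFieldBar M)] :
    L.gM ≤ FF.riemannGenus ℚbar (modularFunctionFieldBar M) := by
  obtain ⟨N, hN⟩ := FF.exists_ell_eq_of_degree_ge ℚbar (modularFunctionFieldBar M)
  set n : ℤ := max N L.n₀ with hn
  have h1 := hN (Finsupp.single (cuspInf M) n) (by
    rw [Divisor.degree_single, FF.deg_eq_one]; simp [hn])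
  rw [Divisor.degree_single, FF.deg_eq_one] at h1
  push_cast at h1
  set W : Submodule ℚbar (LaurentSeries ℚbar) :=
    (riemannRochSpace (Finsupp.single (cuspInf M) n)).map
      (inclLin (modularFunctionFieldBar M)) with hW
  have hWfr : Module.finrank ℚbar W = FF.ell (Finsupp.single (cuspInf M) n) :=
    (Submodule.equivMapOfInjective _ (inclLin_injective _) _).finrank_eq.symm
  have hWmem : ∀ z ∈ W, ∃ y : modularFunctionFieldBar M, RegM y ∧ (y : LaurentSeries ℚbar) = z ∧
      PoleLE n z := by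
    rintro _ ⟨y, hy, rfl⟩
    refine ⟨y, fun v hv => ?_, rfl, ?_⟩
    · rcases eq_or_ne y 0 with rfl | hy0
      · simp
      have := FF.mem_riemannRochSpace.mp hy v
      rw [Finsupp.single_eq_of_ne hv, neg_zero, FF.mem_ordGE_of_ne_zero v hy0] at this
      exact this
    · have := FF.mem_riemannRochSpace.mp hy (cuspInf M)
      rw [Finsupp.single_eq_same] at this
      exact (Sheets.mem_ordGE_iff_poleLE (h := fun f : modularFunctionFieldBar M =>
        (f : LaurentSeries ℚbar)) (fun f => ⟨fun h => Subtype.ext h, fun h => by rw [h]; rfl⟩)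
        (ord_cuspInf M)).mp this
  have : FiniteDimensional ℚbar W := Module.Finite.map _ _
  have hnorm : NormalizableSub A π W := fun z hz hz0 => by
    obtain ⟨y, hy, rfl, -⟩ := hWmem z hz
    exact L.normalizable y hy fun h => hz0 (by rw [h]; rfl)
  have hle : redSub hπ W ≤ poleLESubmodule k n ⊓ L.Csub := by
    rintro x ⟨z, hz, hzx⟩
    obtain ⟨y, hy, rfl, hp⟩ := hWmem z hz
    exact ⟨hzx.poleLE hp, L.red_mem y hy x hzx⟩
  have : FiniteDimensional k ↥(poleLESubmodule k n ⊓ L.Csub) := L.finite_C n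
  have h2 := Submodule.finrank_mono hle
  rw [finrank_redSub hπ W hnorm, hWfr] at h2
  have h3 : (Module.finrank k ↥(poleLESubmodule k n ⊓ L.Csub) : ℤ) = n + 1 - L.gM :=
    L.finrank_C n (le_max_right _ _)
  omega

include w hA hπ in
/-- **The model of the reduced level `M` ring.** -/
theorem exists_curveModel :
    ∃ Mo : CurveModel (L.sheets w hq hA hπ hqM) (modularFunctionFieldFullC k M),
      ∀ f : modularFunctionFieldFullC k M, Mo.κ f = (f : LaurentSeries k) := by
  have hN : (M : k) ≠ 0 := natCast_residue_ne_zero (q := q) hqM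
  have hNK := natCast_ne_zero_of_red (K := ℚbar) hN π
  have := isFunctionField_level (k := ℚbar) (N := M) hNK
  have := isFunctionField_level (k := k) (N := M) hN
  obtain ⟨πR, hK, hk⟩ := exists_piR A π M hN
  have hgb : L.gM ≤ FF.riemannGenus k (modularFunctionFieldFullC k M) := by
    have h1 := riemannGenus_le hπ πR hK hk
      (normalLift_of_ne_zero FF.qbarToComplex hπ hN)
    have key : ∀ E : IntermediateField ℚbar (LaurentSeries ℚbar), modularFunctionFieldBar M = E →
        ∀ [FF.IsFunctionField ℚbar E], L.gM ≤ FF.riemannGenus ℚbar E := by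
      rintro E rfl _
      exact gM_le_riemannGenus L hπ
    exact (key _ (modularFunctionFieldBar_eq_fullC M)).trans h1
  obtain ⟨Mo, hκ, -⟩ := CurveModel.exists_of_le (S := L.sheets w hq hA hπ hqM)
    (modularFunctionFieldFullC k M).val (cuspPlace (π.comp πR) hk cst0)
    (fun f => ord_cuspPlace_cst0 (π.comp πR) hk f)
    (fun x hx => exists_regular_of_mem (q := q) L hπ hqM
      (fun f => ord_cuspPlace_cst0 (π.comp πR) hk f) hx) hgb
  exact ⟨Mo, fun f => by rw [hκ]; rfl⟩

omit [NeZero q] [IsAlgClosed k] [CharP k q] in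
include hA hπ in
/-- Residues lift to elements fixed by inertia. -/
theorem exists_fixed_residue (c : k) :
    ∃ a : A, (∀ σ ∈ A.inertiaSubgroupIn ℚ, σ (a : ℚbar) = a) ∧ π a = c := by
  have hq' : q.Prime := Fact.out
  have := Gal.charP_residueField A hq' hA
  let _ : Algebra (ZMod q) (IsLocalRing.ResidueField A) := ZMod.algebra _ q
  have := Gal.isAlgebraic_residueField A hA
  obtain ⟨a₀, rfl⟩ := hπ c
  suffices h : ∃ a : A, (∀ σ ∈ A.inertiaSubgroupIn ℚ, σ (a : ℚbar) = a) ∧
      IsLocalRing.residue A a = IsLocalRing.residue A a₀ by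
    obtain ⟨a, ha, har⟩ := h
    refine ⟨a, ha, ?_⟩
    rw [← sub_eq_zero, ← map_sub, IsLocalRing.residue_eq_zero_iff] at har
    rw [← sub_eq_zero, ← map_sub, residue_eq_zero_iff hπ]
    exact A.mem_nonunits_iff.mp (A.coe_mem_nonunits_iff.mpr har)
  generalize IsLocalRing.residue A a₀ = c
  rcases eq_or_ne c 0 with rfl | hc
  · exact ⟨0, fun σ _ => map_zero σ, map_zero _⟩
  let E := IntermediateField.adjoin (ZMod q) ({c} : Set (IsLocalRing.ResidueField A))
  have : FiniteDimensional (ZMod q) E :=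
    IntermediateField.adjoin.finiteDimensional (Algebra.IsIntegral.isIntegral c)
  have : Finite E := Module.finite_of_finite (ZMod q)
  let _ := Fintype.ofFinite E
  set m := Fintype.card E - 1
  have hpow : c ^ m = 1 :=
    congrArg Subtype.val (FiniteField.pow_card_sub_one_eq_one
      (⟨c, IntermediateField.mem_adjoin_simple_self _ c⟩ : E)
      (fun h => hc (congrArg Subtype.val h)))
  have hm : (m : IsLocalRing.ResidueField A) = -1 := by
    rw [Nat.cast_sub Fintype.card_pos, Nat.cast_one]
    have : (Fintype.card E : E) = 0 := Nat.cast_card_eq_zero E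
    have := congrArg (algebraMap E (IsLocalRing.ResidueField A)) this
    rw [map_natCast, map_zero] at this
    rw [this, zero_sub]
  have hm0 : m ≠ 0 := fun h => by simp [h] at hm
  obtain ⟨y, -, hyc, hyfix⟩ := Gal.exists_root_fixed_of_simple_root (K := ℚ) A
    (p := Polynomial.X ^ m - Polynomial.C 1) (Polynomial.monic_X_pow_sub_C 1 hm0)
    (fun i σ _ => by
      rw [Polynomial.coeff_sub, Polynomial.coeff_X_pow, Polynomial.coeff_C]
      split_ifs <;> simp) (c := c) (by simp [Polynomial.IsRoot, hpow]) (by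
      simp [Polynomial.IsRoot, Polynomial.derivative_X_pow, hm, pow_ne_zero _ hc])
  exact ⟨y, hyfix, hyc⟩

/-- The inertia elements of the reduction of `X₀(qM)`, with uniformiser `q`. -/
def ratData : RatData (L.sheets w hq hA hπ hqM) where
  I := {σ | ∃ (τ : Γℚbar) (hτ : τ ∈ A.inertiaSubgroupIn ℚ), σ = L.inertia w hq hA hπ hqM hτ}
  ϖ := (q : ℚbar)
  ϖ_ne := Nat.cast_ne_zero.mpr hq.ne_zero
  ϖ_fix := fun _ _ => map_natCast _ q
  ϖ_lt := A.mem_nonunits_iff.mp hA
  disc := by
    intro a hfix ha
    rcases eq_or_ne a 0 with rfl | ha0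
    · rw [map_zero]; exact zero_le
    obtain ⟨m, h1, h2⟩ := Carayol.InertiaField.exists_zpow_mul_unit hq hA
      (fun τ hτ => hfix (L.inertia w hq hA hπ hqM hτ) ⟨τ, hτ, rfl⟩) ha0
    have hq0 : (q : ℚbar) ≠ 0 := Nat.cast_ne_zero.mpr hq.ne_zero
    have hvq : A.valuation (q : ℚbar) < 1 := A.mem_nonunits_iff.mp hA
    have he : A.valuation a = A.valuation (q : ℚbar) ^ m := by
      have e1 := (A.valuation_le_one_iff _).mpr h1
      have e2 := (A.valuation_le_one_iff _).mpr h2
      rw [map_div₀, map_zpow₀] at e1 e2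
      have hv : A.valuation (q : ℚbar) ^ m ≠ 0 := zpow_ne_zero _ ((Valuation.ne_zero_iff _).mpr hq0)
      exact le_antisymm ((div_le_one₀ (zero_lt_iff.mpr hv)).mp e1)
        ((div_le_one₀ (zero_lt_iff.mpr ((Valuation.ne_zero_iff _).mpr ha0))).mp e2)
    have hm : 1 ≤ m := by
      by_contra hlt
      have hle : m ≤ 0 := by omega
      rw [he] at ha
      obtain ⟨e, rfl⟩ : ∃ e : ℕ, m = -(e : ℤ) := ⟨(-m).toNat, by omega⟩
      rw [zpow_neg, zpow_natCast] at ha
      exact absurd ha (not_lt.mpr ((one_le_inv₀ (zero_lt_iff.mpr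
        (pow_ne_zero _ ((Valuation.ne_zero_iff _).mpr hq0)))).mpr (pow_le_one₀ zero_le hvq.le)))
    obtain ⟨e, rfl⟩ : ∃ e : ℕ, m = ((e + 1 : ℕ) : ℤ) := ⟨(m - 1).toNat, by omega⟩
    rw [he, zpow_natCast, pow_succ']
    exact mul_le_of_le_one_right' (pow_le_one₀ zero_le hvq.le)
  exists_res := fun c => by
    obtain ⟨a, ha, hac⟩ := exists_fixed_residue hA hπ c
    exact ⟨a, fun σ ⟨τ, hτ, hσ⟩ => by rw [hσ]; exact ha τ hτ, hac⟩

end Fermat.Agent.MazurPrinciple
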