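import Fermat.Agent.MazurPrinciple.TorsEigen
import Fermat.Agent.MazurPrinciple.Residual
import Fermat.Agent.MazurPrinciple.PullUp
import Fermat.Agent.MazurPrinciple.LevelKum
import Fermat.Agent.LevelLowerP.AuxPrime

/-!
# One step of Mazur's principle modulo `pⁿ`

`step` proves `StepProp`: a point of order `pⁿ` and level `M q` with eigenvalues `a l` gives one of
order at least `p ^ (n - δ)` at level `M`.
-/

set_option autoImplicit false

noncomputable section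

namespace Fermat.Agent.MazurPrinciple

open HahnSeries AlgebraicCurve ModularCurve Fermat.Agent.Reduction
open Fermat.Agent.Semistable (ALData LevelData Ser2)
open Fermat.Agent.Kummer (Tors)
open Fermat.Agent.GalRep (TorsionReduction galois_zero galois_nsmul)

local notation "ℚbar" => AlgebraicClosure ℚ
local notation "Γℚbar" => AlgebraicClosure ℚ ≃ₐ[ℚ] AlgebraicClosure ℚ

/-! ### The ring `ℤ/pⁿ` -/

theorem mem_maximalIdeal_zmod {p n : ℕ} [NeZero (p ^ n)] (hp : p.Prime) (hn : n ≠ 0)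
    [IsLocalRing (ZMod (p ^ n))] (x : ZMod (p ^ n)) :
    x ∈ IsLocalRing.maximalIdeal (ZMod (p ^ n)) ↔ p ∣ x.val := by
  rw [IsLocalRing.mem_maximalIdeal, mem_nonunits_iff, ← ZMod.natCast_zmod_val x,
    ZMod.isUnit_iff_coprime, ZMod.natCast_zmod_val,
    Nat.coprime_pow_right_iff (Nat.pos_of_ne_zero hn), Nat.coprime_comm, hp.coprime_iff_not_dvd,
    not_not]

theorem isUnit_natCast_zmod {p n : ℕ} (hp : p.Prime) (hn : n ≠ 0) {x : ℕ} :
    IsUnit (x : ZMod (p ^ n)) ↔ ¬ p ∣ x := by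
  rw [ZMod.isUnit_iff_coprime, Nat.coprime_pow_right_iff (Nat.pos_of_ne_zero hn),
    Nat.coprime_comm, hp.coprime_iff_not_dvd]

/-! ### The level without elliptic points -/

theorem nuThree_eq_zero_of_even {N : ℕ} [NeZero N] (h : 2 ∣ N) : nuThree N = 0 := by
  refine (nu_eq_zero_of_dvd h).2 ?_
  rw [nuThree, Nat.card_eq_zero]
  exact Or.inl ⟨fun x => (by decide : ∀ y : ZMod 2, y ^ 2 + y + 1 ≠ 0) x.1 x.2⟩

theorem nu_mul_aux {M r : ℕ} [NeZero M] [hr : Fact r.Prime] (hr4 : r % 4 = 3)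
    (hr3 : r % 3 = 2 ∨ 2 ∣ M) : nuTwo (M * r) = 0 ∧ nuThree (M * r) = 0 := by
  have : NeZero r := ⟨hr.out.ne_zero⟩
  refine ⟨LevelLowerP.nuTwo_mul_eq_zero hr4 M, ?_⟩
  rcases hr3 with h | h
  · exact LevelLowerP.nuThree_mul_eq_zero h M
  · exact nuThree_eq_zero_of_even (h.mul_right r)

theorem nu_of_dvd {M r : ℕ} [NeZero M] [hr : Fact r.Prime] (hrM : r ∣ M) (hr4 : r % 4 = 3)
    (hr3 : r % 3 = 2 ∨ 2 ∣ M) : nuTwo M = 0 ∧ nuThree M = 0 := by
  obtain ⟨M₀, hM₀⟩ := exists_eq_mul_left_of_dvd hrM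
  refine ⟨by rw [hM₀]; exact LevelLowerP.nuTwo_mul_eq_zero hr4 M₀, ?_⟩
  rcases hr3 with h | h
  · rw [hM₀]; exact LevelLowerP.nuThree_mul_eq_zero h M₀
  · exact nuThree_eq_zero_of_even h

theorem dvd_pow_mul_of_dvd_succ_mul {p n r δ : ℕ} (hp : p.Prime) (hδ : ¬ p ^ (δ + 1) ∣ r + 1)
    {e : ℤ} (h : ((p ^ n : ℕ) : ℤ) ∣ ((r : ℤ) + 1) * e) :
    ((p ^ n : ℕ) : ℤ) ∣ ((p ^ δ : ℕ) : ℤ) * e := by
  obtain ⟨i, s, hs, hrs⟩ := Nat.exists_eq_pow_mul_and_not_dvd (n := r + 1) (by omega) p hp.ne_one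
  have hi : i ≤ δ := by
    by_contra hi
    exact hδ (hrs ▸ Dvd.dvd.mul_right (pow_dvd_pow p (by omega)) s)
  have hcop : IsCoprime ((p ^ n : ℕ) : ℤ) (s : ℤ) :=
    Nat.isCoprime_iff_coprime.mpr (((hp.coprime_iff_not_dvd).mpr hs).pow_left n)
  have h1 : ((p ^ n : ℕ) : ℤ) ∣ (s : ℤ) * (((p ^ i : ℕ) : ℤ) * e) := by
    have e1 : ((r : ℤ) + 1) = ((p ^ i : ℕ) : ℤ) * (s : ℤ) := by exact_mod_cast hrs
    rw [e1] at h
    rwa [← mul_assoc, mul_comm (s : ℤ)]
  exact (hcop.dvd_of_dvd_mul_left h1).trans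
    (mul_dvd_mul_right (Int.natCast_dvd_natCast.mpr (pow_dvd_pow p hi)) e)

section Sheets

variable {q M : ℕ} [NeZero q] [NeZero M] [Fact q.Prime] {A : ValuationSubring ℚbar}
  [IsAlgClosed (IsLocalRing.ResidueField A)] [CharP (IsLocalRing.ResidueField A) q]
  (L : LevelData A (IsLocalRing.residue A) M) (w : ALData q M) (hA : A.LiesOverPrime q)
  (hqM : ¬ q ∣ M)

local notation "k₀" => IsLocalRing.ResidueField A
local notation "π₀" => IsLocalRing.residue A
local notation "hπ₀" => @IsLocalRing.residue_surjective A _ _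

/-- **Divisibility at level `M`.** -/
theorem exists_dvd_mul_ord {p n r δ : ℕ} (hp : p.Prime) (hr : r.Prime) (hr4 : r % 4 = 3)
    (hr3 : r % 3 = 2 ∨ 2 ∣ M) (hrq : r ≠ q) (hδ : r ∣ M ∨ ¬ p ^ (δ + 1) ∣ r + 1)
    {x : JZero (M * q)} {g : Ser2 k₀} (h : FixBRep L w hA hπ₀ hqM (p ^ n) x g) :
    ∃ f : modularFunctionFieldFullC k₀ M, f ≠ 0 ∧ (f : LaurentSeries k₀) = g.1 ∧
      ∀ v : Place k₀ (modularFunctionFieldFullC k₀ M),
        ((p ^ n : ℕ) : ℤ) ∣ ((p ^ δ : ℕ) : ℤ) * v.ord f := by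
  have : Fact r.Prime := ⟨hr⟩
  have hm : 0 < p ^ n := pow_pos hp.pos n
  by_cases hrM : r ∣ M
  · obtain ⟨h2, h3⟩ := nu_of_dvd hrM hr4 hr3
    obtain ⟨f, hf, hfg, hord⟩ :=
      exists_dvd_ord_upper L w L w hA hπ₀ hqM hqM dvd_rfl h2 h3 hm h
    refine ⟨f, hf, hfg, fun v => ?_⟩
    have := hord v
    rw [show IntermediateField.inclusion (full_degeneracyC_le k₀ (dvd_refl M)) f = f from
      Subtype.ext (IntermediateField.coe_inclusion _ _)] at this
    exact Dvd.dvd.mul_left this _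
  · have : NeZero r := ⟨hr.ne_zero⟩
    have hqM' : ¬ q ∣ M * r := fun hd => ((Fact.out : q.Prime).dvd_mul.mp hd).elim hqM fun h' =>
      hrq ((Nat.prime_dvd_prime_iff_eq Fact.out hr).mp h').symm
    obtain ⟨L'⟩ := LevelData.nonempty_residue A hA (M * r) hqM'
    obtain ⟨w'⟩ := ALData.exists_of_coprime (Fact.out : q.Prime) hqM'
    obtain ⟨h2, h3⟩ := nu_mul_aux (M := M) hr4 hr3
    obtain ⟨f, hf, hfg, hord⟩ :=
      exists_dvd_ord_upper L w L' w' hA hπ₀ hqM hqM' (dvd_mul_right M r) h2 h3 hm h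
    exact ⟨f, hf, hfg, fun v => dvd_pow_mul_of_dvd_succ_mul hp (hδ.resolve_left hrM)
      (dvd_mul_ord_of_levelIncl k₀ M r hr hrM (natCast_residue_ne_zero hqM') _ f hord v)⟩

include hqM in
theorem omQ_mem_eigPts {p n : ℕ} [NeZero (p ^ n)] {a : ℕ → ℤ} {S₁ : Finset ℕ}
    (hS₁ : ∀ l : Nat.Primes, (l : ℕ) ∣ M * q → (l : ℕ) ∈ S₁) {y : JZero (M * q)}
    (hy : EigenPt (M * q) p n a S₁ y) : EigenPt (M * q) p n a S₁ (omQ w • y) := by
  have hym : y ∈ Tors (M * q) (p ^ n) := by rw [Pic0.mem_torsion, natCast_zsmul]; exact hy.1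
  have h0 : p ^ n • (omQ w • y) = 0 :=
    (map_nsmul (DistribSMul.toAddMonoidHom (JZero (M * q)) (omQ w)) _ _).symm.trans
      (by rw [hy.1, map_zero])
  have hwm : omQ w • y ∈ Tors (M * q) (p ^ n) := by rw [Pic0.mem_torsion, natCast_zsmul]; exact h0
  refine ⟨h0, fun l hl => ?_⟩
  have hlN : ¬ (l : ℕ) ∣ M * q := fun h => hl (hS₁ l h)
  have h1 := heckeTw_omQ w hqM l (fun h => hlN (h ▸ dvd_mul_left q M)) ⟨y, hym⟩ ⟨_, hwm⟩ rfl
  rw [heckeTw_of_not_dvd _ _ l hlN, heckeTw_of_not_dvd _ _ l hlN] at h1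
  refine h1.trans ?_
  show omQ w • heckeOperatorBar (M * q) l y = _
  rw [hy.2 l hl]
  exact map_zsmul (DistribSMul.toAddMonoidHom (JZero (M * q)) (omQ w)) _ _

variable {p n : ℕ} [NeZero (p ^ n)] [IsLocalRing (ZMod (p ^ n))] {a : ℕ → ℤ} {S S₀ : Finset ℕ}

/-- The exceptional set: `S₀` and the divisors of the level. -/
abbrev excSet (M q : ℕ) (S₀ : Finset ℕ) : Finset ℕ := S₀ ∪ (M * q).divisors

omit [NeZero q] [NeZero M] [Fact q.Prime] in
theorem notMem_excSet {l : ℕ} (h : l ∉ S₀) (hN : ¬ l ∣ M * q) : l ∉ excSet M q S₀ := fun hl =>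
  (Finset.mem_union.mp hl).elim h fun h' => hN (Nat.dvd_of_mem_divisors h')

omit [Fact q.Prime] in
theorem mem_excSet {l : ℕ} (h : l ∣ M * q) : l ∈ excSet M q S₀ :=
  Finset.mem_union_right _ (Nat.mem_divisors.mpr ⟨h, NeZero.ne _⟩)

variable (R : RepData p n a S) (hS₀ : S₀ ⊆ S) (hp : p.Prime) (hTR : TorsionReduction (M * q) p)
  (hgood : R.GoodAt q)

omit [Fact q.Prime] [IsLocalRing (ZMod (p ^ n))] in
include hS₀ hp hTR in
theorem quadRel_excSet : QuadRel (galAct (M * q) p n a (excSet M q S₀)) (fun g => (R.ρ g).trace)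
    (fun g => (R.ρ g).det) :=
  quadRel_eigPts R hp hTR fun _ hl hlN => notMem_excSet (fun h => hl (hS₀ h)) hlN

include hS₀ hp hTR hgood in
/-- Every eigen point has a balanced representative fixed by inertia. -/
theorem exists_fixBRep_eigPts (y : eigPts (M * q) p n a (excSet M q S₀)) :
    ∃ g, FixBRep L w hA hπ₀ hqM (p ^ n) (y : JZero (M * q)) g := by
  obtain ⟨l, hl, hlS, hlB, hlu⟩ :=
    exists_prime_not_eisenstein R ((M * q).divisors : Set ℕ) (Finset.finite_toSet _)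
  have hlN : ¬ l ∣ M * q := fun h => hlB (Nat.mem_divisors.mpr ⟨h, NeZero.ne _⟩)
  have hlS₁ : l ∉ excSet M q S₀ := notMem_excSet (fun h => hlS (hS₀ h)) hlN
  obtain ⟨v, hv⟩ := hlu.exists_left_inv
  set y₀ : eigPts (M * q) p n a (excSet M q S₀) := v • y
  obtain ⟨g, hg⟩ := exists_fixBRep L w hA hπ₀ hqM (m := p ^ n) (ℓ := ⟨l, hl⟩) hlN
    (x := (y₀ : JZero (M * q))) (by rw [natCast_zsmul]; exact y₀.2.1) (fun τ hτ => by
      rw [← coe_galAct,
        (quadRel_excSet R hS₀ hp hTR).act_eq_one_of_ker R.commutator (hgood.unram A hA τ hτ),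
        Module.End.one_apply])
  refine ⟨g, ?_⟩
  convert hg using 1
  rw [y₀.2.2 ⟨l, hl⟩ hlS₁, ← coe_intCast_smul, ← coe_natCast_smul,
    ← AddSubgroupClass.coe_sub, ← sub_smul, smul_smul]
  refine congrArg Subtype.val ?_
  rw [show ((a l : ZMod (p ^ n)) - ((l + 1 : ℕ) : ZMod (p ^ n))) * v = 1 by
    rw [← hv]; push_cast; ring, one_smul]

omit [Fact q.Prime] [IsLocalRing (ZMod (p ^ n))] in
/-- The twist of an eigen point is an eigen point away from the level. -/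
theorem eigenPt_excSet (X : Tors (M * q) (p ^ n))
    (hX : ∀ l : Nat.Primes, (l : ℕ) ∉ S₀ → heckeTw (M * q) (p ^ n) l X = a l • X) :
    EigenPt (M * q) p n a (excSet M q S₀) (X : JZero (M * q)) := by
  refine ⟨?_, fun l hl => ?_⟩
  · have := X.2
    rwa [Pic0.mem_torsion, natCast_zsmul] at this
  · have hlN : ¬ (l : ℕ) ∣ M * q := fun h => hl (mem_excSet h)
    have := congrArg (fun t : Tors (M * q) (p ^ n) => (t : JZero (M * q)))
      (hX l fun h => hl (Finset.mem_union_left _ h))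
    rw [heckeTw_of_not_dvd _ _ l hlN] at this
    exact this

/-- `w_q` on the eigen points. -/
def omW : Module.End (ZMod (p ^ n)) (eigPts (M * q) p n a (excSet M q S₀)) :=
  ({ toFun := fun y => ⟨omQ w • (y : JZero (M * q)),
        omQ_mem_eigPts w hqM (fun _ h => mem_excSet h) y.2⟩
     map_zero' := Subtype.ext (smul_zero _)
     map_add' := fun _ _ => Subtype.ext (smul_add _ _ _) } :
    eigPts (M * q) p n a (excSet M q S₀) →+ eigPts (M * q) p n a (excSet M q S₀)).toZModLinearMap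
      (p ^ n)

include hS₀ hp hTR hgood in
/-- **Some translate has a nontrivial reduced Kummer function.** -/
theorem exists_nontrivial (hn : n ≠ 0) (hqp : q ≠ p) {F : Γℚbar} (hF : A.IsFrobeniusAt F q)
    {X : Tors (M * q) (p ^ n)}
    (hX : ∀ l : Nat.Primes, (l : ℕ) ∉ S₀ → heckeTw (M * q) (p ^ n) l X = a l • X)
    (hX0 : p ^ (n - 1) • X ≠ 0) :
    ∃ (v : Tors (M * q) (p ^ n)) (g : Ser2 k₀),
      (∀ l : Nat.Primes, (l : ℕ) ∉ S₀ → (l : ℕ) ≠ q →
        (heckeTw (M * q) (p ^ n) l v : JZero (M * q)) = a l • (v : JZero (M * q))) ∧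
      FixBRep L w hA hπ₀ hqM (p ^ n) (v : JZero (M * q)) g ∧
      ¬ Triv (fracSub (shQ L w hA hπ₀ hqM).C) (p ^ n) (g.1 ^ p ^ (n - 1)) := by
  by_contra hall
  push Not at hall
  have hq : q.Prime := Fact.out
  have := Kummer.isFunctionField_FL (N := M * q) Kummer.ιbar
  have hQ : RedField π₀ (shQ L w hA hπ₀ hqM).ι (fracSub (shQ L w hA hπ₀ hqM).C) := redField_sheets
  set X₁ : eigPts (M * q) p n a (excSet M q S₀) := ⟨(X : JZero (M * q)), eigenPt_excSet X hX⟩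
  set Z : eigPts (M * q) p n a (excSet M q S₀) := p ^ (n - 1) • X₁ with hZdef
  have hZ0 : Z ≠ 0 := fun h => hX0 (Subtype.ext (by
    have := congrArg (fun t : eigPts (M * q) p n a (excSet M q S₀) => (t : JZero (M * q))) h
    rw [hZdef, AddSubgroupClass.coe_nsmul] at this
    rw [AddSubgroupClass.coe_nsmul]; exact this))
  have hcast : ((q : ZMod (p ^ n)) - 1) = ((q - 1 : ℕ) : ZMod (p ^ n)) := by
    rw [Nat.cast_sub hq.one_le, Nat.cast_one]
  have hF' : IsUnit ((q : ZMod (p ^ n)) - 1) ∨ ¬ ∃ b : ZMod (p ^ n), ∀ i j,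
      R.ρ F i j - (if i = j then b else 0) ∈ IsLocalRing.maximalIdeal (ZMod (p ^ n)) := by
    rcases hgood.frob with h | h
    · refine Or.inl ?_
      rw [hcast, isUnit_natCast_zmod hp hn]
      rintro ⟨c, hc⟩
      have h1 := hq.one_le
      exact h (by rw [show q = p * c + 1 by omega, Nat.mul_add_mod, Nat.mod_eq_of_lt hp.one_lt])
    · refine Or.inr fun ⟨b, hb⟩ => h A hA F hF ⟨(b.val : ℤ), fun i j => ?_⟩
      have := (mem_maximalIdeal_zmod hp hn _).mp (hb i j)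
      rwa [Int.cast_natCast, ZMod.natCast_zmod_val]
  have hmem : ∀ v : eigPts (M * q) p n a (excSet M q S₀),
      (v : JZero (M * q)) ∈ Tors (M * q) (p ^ n) := fun v => by
    rw [Pic0.mem_torsion, natCast_zsmul]; exact v.2.1
  have htriv : ∀ v : eigPts (M * q) p n a (excSet M q S₀),
      (∀ l : Nat.Primes, (l : ℕ) ∉ S₀ → (l : ℕ) ≠ q →
        (heckeTw (M * q) (p ^ n) l ⟨v, hmem v⟩ : JZero (M * q)) = a l • (v : JZero (M * q))) →
      ∀ G', Kum π₀ (shQ L w hA hπ₀ hqM).ι (p ^ n)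
        ((p ^ (n - 1) • v : eigPts (M * q) p n a (excSet M q S₀)) : JZero (M * q)) G' →
        Triv (fracSub (shQ L w hA hπ₀ hqM).C) (p ^ n) G' := by
    intro v hv G' hG'
    obtain ⟨g', hg'⟩ := exists_fixBRep_eigPts L w hA hqM R hS₀ hp hTR hgood v
    have ht := hall ⟨v, hmem v⟩ g' hv hg'
    have hK := (hg'.bRep L w hA hπ₀ hqM).kum_fst.nsmul (p ^ (n - 1))
    rw [AddSubgroupClass.coe_nsmul] at hG'
    exact (Kum.triv_iff hQ hK hG').mp ht
  refine hZ0 (QuadRel.eq_zero_of_forall_twist R.ρ (quadRel_excSet R hS₀ hp hTR) R.commutator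
    (w := omW w hqM)
    (fun y => Subtype.ext (omQ_omQ w (y : JZero (M * q))))
    (fun g y => Subtype.ext (galois_omQ w g (y : JZero (M * q))).symm)
    (F := F) (c := (q : ZMod (p ^ n)))
    ((isUnit_natCast_zmod hp hn).mpr fun h =>
      hqp ((Nat.prime_dvd_prime_iff_eq hp hq).mp h).symm)
    (det_frobenius R hp hq hqp hA hF) ?_ hF' ?_ fun g => ?_)
  · by_cases h2 : p = 2
    · refine Or.inr ((mem_maximalIdeal_zmod hp hn _).mpr ?_)
      rw [hcast, ZMod.val_natCast, Nat.dvd_mod_iff (dvd_pow_self p hn)]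
      obtain ⟨c, hc⟩ := hq.odd_of_ne_two (h2 ▸ hqp)
      exact ⟨c, by rw [h2]; omega⟩
    · refine Or.inl ?_
      rw [← Nat.cast_two, isUnit_natCast_zmod hp hn]
      exact fun h => h2 ((Nat.prime_dvd_prime_iff_eq hp Nat.prime_two).mp h)
  · intro b hb
    obtain ⟨c, hc⟩ := (mem_maximalIdeal_zmod hp hn b).mp hb
    rw [hZdef, ← ZMod.natCast_zmod_val b, Nat.cast_smul_eq_nsmul, smul_smul, hc,
      show p * c * p ^ (n - 1) = c * p ^ n by
        rw [mul_comm p c, mul_assoc, ← pow_succ', Nat.sub_add_cancel (by omega)],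
      ← smul_smul, nsmul_eigPts, smul_zero]
  · -- every translate reduces trivially on both sheets
    set Y : eigPts (M * q) p n a (excSet M q S₀) :=
      galAct (M * q) p n a (excSet M q S₀) g X₁ with hY
    have hZY : galAct (M * q) p n a (excSet M q S₀) g Z = p ^ (n - 1) • Y := by
      rw [hZdef, map_nsmul]
    have hYtw : ∀ l : Nat.Primes, (l : ℕ) ∉ S₀ →
        (heckeTw (M * q) (p ^ n) l ⟨Y, hmem Y⟩ : JZero (M * q)) = a l • (Y : JZero (M * q)) := by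
      intro l hl
      rw [heckeTw_galois (M * q) (p ^ n) l g X ⟨Y, hmem Y⟩ rfl, hX l hl]
      exact map_zsmul (DistribSMul.toAddMonoidHom (JZero (M * q)) g) _ _
    obtain ⟨G, hG⟩ := exists_fixBRep_eigPts L w hA hqM R hS₀ hp hTR hgood (p ^ (n - 1) • Y)
    have hb := hG.bRep L w hA hπ₀ hqM
    have h1 := htriv Y (fun l h1 _ => hYtw l h1) _ hb.kum_fst
    have h2 : Triv (fracSub (shQ L w hA hπ₀ hqM).C) (p ^ n) G.2 := by
      refine htriv (omW w hqM Y) (fun l h1 h2 => ?_) _ ?_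
      · rw [heckeTw_omQ w hqM l h2 ⟨Y, hmem Y⟩ ⟨_, hmem _⟩ rfl, hYtw l h1]
        exact map_zsmul (DistribSMul.toAddMonoidHom (JZero (M * q)) (omQ w)) _ _
      · rw [← map_nsmul]
        exact hb.kum_snd
    have := frob_smul_eq_neg L w hA hπ₀ hqM hF (pow_pos hp.pos n)
      (fun h => hqp ((Nat.prime_dvd_prime_iff_eq hq hp).mp (hq.dvd_of_dvd_pow h))) hG h1 h2
    rw [hZY, neg_smul, Nat.cast_smul_eq_nsmul, eq_neg_iff_add_eq_zero]
    refine Subtype.ext ?_
    rw [natCast_zsmul] at this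
    exact this

end Sheets

section Down

variable {q M : ℕ} [NeZero q] [NeZero M] [Fact q.Prime] {A : ValuationSubring ℚbar}
  (hA : A.LiesOverPrime q) (hqM : ¬ q ∣ M)

local notation "k₀" => IsLocalRing.ResidueField A
local notation "π₀" => IsLocalRing.residue A

include hA hqM in
/-- **The point at level `M`.** -/
theorem exists_lower_eigen {p n δ : ℕ} [NeZero (p ^ n)] {a : ℕ → ℤ} {S₀ : Finset ℕ}
    (hδn : δ < n) (hqm : ¬ q ∣ p ^ n) {v : Tors (M * q) (p ^ n)}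
    (hv : ∀ l : Nat.Primes, (l : ℕ) ∉ S₀ → (l : ℕ) ≠ q →
      (heckeTw (M * q) (p ^ n) l v : JZero (M * q)) = a l • (v : JZero (M * q)))
    {Q : IntermediateField k₀ (LaurentSeries k₀)}
    (hQ : RedField π₀ (expN (M * q)) Q) (hQM : Q = modularFunctionFieldFullC k₀ M)
    {g : LaurentSeries k₀} (hK : Kum π₀ (expN (M * q)) (p ^ n) (v : JZero (M * q)) g)
    (hnt : ¬ Triv Q (p ^ n) (g ^ p ^ (n - 1)))
    {f : modularFunctionFieldFullC k₀ M} (hf : f ≠ 0) (hfg : (f : LaurentSeries k₀) = g)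
    (hord : ∀ v : Place k₀ (modularFunctionFieldFullC k₀ M),
      ((p ^ n : ℕ) : ℤ) ∣ ((p ^ δ : ℕ) : ℤ) * v.ord f) :
    ∃ y : JZero M, EigenPt M p n a (insert q S₀) y ∧ p ^ (n - 1 - δ) • y ≠ 0 := by
  subst hQM
  have := Kummer.isFunctionField_FL (N := M * q) Kummer.ιbar
  have := Kummer.isFunctionField_FL (N := M) Kummer.ιbar
  obtain ⟨y', hy', hkum⟩ := exists_kum_lower A hA M hqM hqm (f ^ p ^ δ) (pow_ne_zero _ hf)
    fun v => by rw [FF.ord_pow]; exact hord v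
  rw [IntermediateField.coe_pow, hfg] at hkum
  set Y' : Tors M (p ^ n) := ⟨y', by rw [Pic0.mem_torsion]; exact hy'⟩
  refine ⟨(twistPt M (p ^ n) Y' : JZero M), ⟨?_, fun l' hl' => ?_⟩, ?_⟩
  · have := (twistPt M (p ^ n) Y').2
    rwa [Pic0.mem_torsion, natCast_zsmul] at this
  · rw [Finset.mem_insert, not_or] at hl'
    have : NeZero (l' : ℕ) := ⟨l'.2.ne_zero⟩
    have h1 : Triv (modularFunctionFieldFullC k₀ M) (p ^ n)
        (hSer k₀ (M * q) l' g / g ^ a l') := by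
      have h2 := Kum.heckeTw l' (x := v) hK
      rw [hv l' hl'.2 hl'.1] at h2
      exact Kum.unique hQ (hK.zsmul (a l')) h2
    have hser : hSer k₀ M l' = hSer k₀ (M * q) l' := by
      have e : (l' : ℕ) ∣ M ↔ (l' : ℕ) ∣ M * q := ⟨fun h => h.mul_right q, fun h =>
        (l'.2.dvd_mul.mp h).resolve_right fun h' =>
          hl'.1 ((Nat.prime_dvd_prime_iff_eq l'.2 Fact.out).mp h')⟩
      simp only [hSer, e]
    have hK' : Kum π₀ (expN M) (p ^ n)
        ((heckeTw M (p ^ n) l' Y' : JZero M) - a l' • (Y' : JZero M))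
        ((hSer k₀ (M * q) l' g / g ^ a l') ^ p ^ δ) := by
      have h2 := (Kum.heckeTw l' (x := Y') hkum).sub (hkum.zsmul (a l'))
      rw [hser, map_pow, ← zpow_natCast g, ← zpow_mul, mul_comm _ (a l'), zpow_mul,
        zpow_natCast, ← div_pow] at h2
      exact h2
    have h3 : heckeTw M (p ^ n) l' Y' = a l' • Y' := Subtype.ext (sub_eq_zero.mp
      (eq_zero_of_kum_triv_bar hA hqM hqm hK' (h1.pow (p ^ δ))))
    have h4 := heckeTw_twistPt M (p ^ n) l' (twistPt M (p ^ n) Y')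
    rw [twistPt_twistPt, h3] at h4
    have h5 := congrArg (twistPt M (p ^ n)) h4
    rw [twistPt_twistPt, map_zsmul] at h5
    exact (congrArg (fun t : Tors M (p ^ n) => (t : JZero M)) h5).symm
  · intro h0
    have h1 : p ^ (n - 1 - δ) • Y' = 0 :=
      (twistPt M (p ^ n)).injective (by rw [map_nsmul, map_zero]; exact Subtype.ext h0)
    have h2 := hkum.nsmul (p ^ (n - 1 - δ))
    rw [show p ^ (n - 1 - δ) • y' = 0 from congrArg Subtype.val h1] at h2
    have h3 := Kum.triv_zero (redField_bar hA hqM) h2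
    rw [← pow_mul, ← _root_.pow_add, show δ + (n - 1 - δ) = n - 1 by omega] at h3
    exact hnt h3

end Down

/-- **Mazur's principle modulo `pⁿ`, one step.** -/
theorem step : StepProp := by
  intro p n a S S₀ R M q r δ _ _ hS₀ hp hq hqp hqM hr hr4 hr3 hrq hrp hδ hδn hTR hgood x hx hxn
  have : Fact q.Prime := ⟨hq⟩
  have : NeZero q := ⟨hq.ne_zero⟩
  have : NeZero (p ^ n) := ⟨pow_ne_zero n hp.ne_zero⟩
  have hn : n ≠ 0 := by omega
  have : IsLocalRing (ZMod (p ^ n)) := isLocalRing_zmod_pow hp hn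
  have hqm : ¬ q ∣ p ^ n := fun h =>
    hqp ((Nat.prime_dvd_prime_iff_eq hq hp).mp (hq.dvd_of_dvd_pow h))
  obtain ⟨A, hA⟩ := Gal.exists_liesOverPrime (L := ℚbar) hq
  have := Gal.isAlgClosed_residueField A
  have := Gal.charP_residueField A hq hA
  obtain ⟨L, hLC⟩ := exists_levelData hA hqM
  obtain ⟨w⟩ := ALData.exists_of_coprime hq hqM
  obtain ⟨F, hF⟩ := Gal.exists_isFrobeniusAt hq hA
  have := Kummer.isFunctionField_FL (N := M * q) Kummer.ιbar
  -- the twisted point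
  have hxm : x ∈ Tors (M * q) (p ^ n) := by rw [Pic0.mem_torsion, natCast_zsmul]; exact hx.1
  have hX : ∀ l : Nat.Primes, (l : ℕ) ∉ S₀ →
      heckeTw (M * q) (p ^ n) l (twistPt (M * q) (p ^ n) ⟨x, hxm⟩) =
        a l • twistPt (M * q) (p ^ n) ⟨x, hxm⟩ := fun l hl => by
    rw [heckeTw_twistPt, ← map_zsmul]
    exact congrArg _ (Subtype.ext (hx.2 l hl))
  have hX0 : p ^ (n - 1) • twistPt (M * q) (p ^ n) ⟨x, hxm⟩ ≠ 0 := fun h => by
    rw [← map_nsmul, EmbeddingLike.map_eq_zero_iff] at h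
    exact hxn (congrArg Subtype.val h)
  obtain ⟨v, g, hv, hg, hnt⟩ :=
    exists_nontrivial L w hA hqM R hS₀ hp hTR hgood hn hqp hF hX hX0
  obtain ⟨f, hf, hfg, hord⟩ := exists_dvd_mul_ord L w hA hqM hp hr hr4 hr3 hrq hδ hg
  exact exists_lower_eigen hA hqM hδn hqm hv
    (redField_sheets (S := shQ L w hA IsLocalRing.residue_surjective hqM))
    hLC (hg.bRep L w hA IsLocalRing.residue_surjective hqM).kum_fst hnt hf hfg hord

end Fermat.Agent.MazurPrinciple
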