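import Fermat.Agent.MazurPrinciple.NRed
import Fermat.Agent.LevelLowerP.SeriesNorm
import Fermat.Prelude.Thm_ModularCurve_coeffMap_qExpand

/-!
# The series lift of `T_ℓ` on normalised reductions

The series lift `y ↦ y(q ^ ℓ) * N_ℓ(y)` of `T_ℓ`, and coefficient maps, on normalised reductions.
-/

set_option autoImplicit false

noncomputable section

namespace Fermat.Agent.MazurPrinciple

open HahnSeries ModularCurve Fermat.Agent.Reduction
open Fermat.Agent.Semistable (Ser2)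
open Fermat.Agent.LevelLowerP (seriesNorm seriesNorm_mul seriesNorm_one seriesNorm_C
  seriesNorm_ne_zero coeffMap_seriesNorm)

theorem seriesNorm_zero {R : Type*} [CommRing R] (ℓ : ℕ) [NeZero ℓ] :
    seriesNorm ℓ (0 : LaurentSeries R) = 0 := by
  rw [seriesNorm, show LevelLowerP.seriesMat ℓ (0 : LaurentSeries R) = 0 from
    map_zero (LevelLowerP.seriesMatHom ℓ)]
  exact Matrix.det_zero

/-- The series of `T_ℓ`. -/
def tSer (R : Type*) [CommRing R] (ℓ : ℕ) [NeZero ℓ] : LaurentSeries R →*₀ LaurentSeries R where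
  toFun y := qExpand R ℓ y * seriesNorm ℓ y
  map_zero' := by rw [map_zero, zero_mul]
  map_one' := by rw [map_one, seriesNorm_one, one_mul]
  map_mul' a b := by rw [map_mul, seriesNorm_mul]; ring

theorem tSer_apply {R : Type*} [CommRing R] (ℓ : ℕ) [NeZero ℓ] (y : LaurentSeries R) :
    tSer R ℓ y = qExpand R ℓ y * seriesNorm ℓ y := rfl

theorem coeffMap_tSer {R S : Type*} [CommRing R] [CommRing S] (f : R →+* S) (ℓ : ℕ) [NeZero ℓ]
    (y : LaurentSeries R) : coeffMap f (tSer R ℓ y) = tSer S ℓ (coeffMap f y) := by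
  rw [tSer_apply, tSer_apply, map_mul, coeffMap_qExpand, coeffMap_seriesNorm]

theorem tSer_algebraMap {K : Type*} [Field K] (ℓ : ℕ) [NeZero ℓ] (c : K) :
    tSer K ℓ (algebraMap K (LaurentSeries K) c) = algebraMap K (LaurentSeries K) (c ^ (ℓ + 1)) := by
  rw [algebraMap_laurentSeries_eq_single, algebraMap_laurentSeries_eq_single, ← HahnSeries.C_apply,
    ← HahnSeries.C_apply, tSer_apply, qExpand_C, seriesNorm_C, ← map_mul]
  congr 1
  ring

theorem tSer_ne_zero {K : Type*} [Field K] (ℓ : ℕ) [NeZero ℓ] {y : LaurentSeries K} (hy : y ≠ 0) :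
    tSer K ℓ y ≠ 0 :=
  mul_ne_zero (fun h => hy (qExpand_injective ℓ (h.trans (map_zero _).symm)))
    (seriesNorm_ne_zero ℓ hy)

variable {K k : Type*} [Field K] [Field k] {A : ValuationSubring K} {π : A →+* k}

theorem red_tSer (ℓ : ℕ) [NeZero ℓ] {y : LaurentSeries K} {x : LaurentSeries k}
    (h : Red A π y x) : Red A π (tSer K ℓ y) (tSer k ℓ x) := by
  obtain ⟨z, rfl, rfl⟩ := red_iff_exists.mp h
  exact red_iff_exists.mpr ⟨tSer A ℓ z, coeffMap_tSer _ _ _, coeffMap_tSer _ _ _⟩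

theorem tSer_div_key {R : Type*} [Field R] (ℓ : ℕ) [NeZero ℓ] {r s t : LaurentSeries R} {e : R}
    (hr : r ≠ 0) (ht : algebraMap R (LaurentSeries R) e * r * s = t) :
    algebraMap R (LaurentSeries R) 1 * (tSer R ℓ r / r ^ (ℓ + 1)) *
      (tSer R ℓ s * t ^ (ℓ + 1)) = tSer R ℓ t * s ^ (ℓ + 1) := by
  subst ht
  rw [map_one, one_mul, map_mul, map_mul, tSer_algebraMap, map_pow, mul_pow, mul_pow]
  field_simp

/-- **Balancing.** `T_ℓ(y) / y ^ (ℓ + 1)` is reduced with one scalar on both components, whatever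
the scalars normalising the two components separately. -/
theorem NRed2.tSer_div {y1 y2 : LaurentSeries K} {g1 g2 : LaurentSeries k} (ℓ : ℕ) [NeZero ℓ]
    (h1 : NRed A π y1 g1) (h2 : NRed A π y2 g2) :
    NRed2 A π (MazurPrinciple.tSer K ℓ y1 / y1 ^ (ℓ + 1), MazurPrinciple.tSer K ℓ y2 / y2 ^ (ℓ + 1))
      (MazurPrinciple.tSer k ℓ g1 / g1 ^ (ℓ + 1), MazurPrinciple.tSer k ℓ g2 / g2 ^ (ℓ + 1)) := by
  have hy1 := h1.ne_zero_left
  have hy2 := h2.ne_zero_left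
  have hg1' := h1.ne_zero
  have hg2' := h2.ne_zero
  obtain ⟨c, a, b, ga, gb, hc, hab, ha, hb, hga, hgb, hg⟩ := h1
  obtain ⟨c', a', b', ga', gb', hc', hab', ha', hb', hga', hgb', hg'⟩ := h2
  refine ⟨1, (MazurPrinciple.tSer K ℓ a * b ^ (ℓ + 1), MazurPrinciple.tSer K ℓ a' * b' ^ (ℓ + 1)),
    (MazurPrinciple.tSer K ℓ b * a ^ (ℓ + 1), MazurPrinciple.tSer K ℓ b' * a' ^ (ℓ + 1)),
    (MazurPrinciple.tSer k ℓ ga * gb ^ (ℓ + 1), MazurPrinciple.tSer k ℓ ga' * gb' ^ (ℓ + 1)),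
    (MazurPrinciple.tSer k ℓ gb * ga ^ (ℓ + 1), MazurPrinciple.tSer k ℓ gb' * ga' ^ (ℓ + 1)),
    one_ne_zero, tSer_div_key ℓ hy1 hab, tSer_div_key ℓ hy2 hab',
    ⟨(red_tSer ℓ ha).mul (hb.pow _), (red_tSer ℓ ha').mul (hb'.pow _)⟩,
    ⟨(red_tSer ℓ hb).mul (ha.pow _), (red_tSer ℓ hb').mul (ha'.pow _)⟩,
    mul_ne_zero (tSer_ne_zero ℓ hga) (pow_ne_zero _ hgb),
    mul_ne_zero (tSer_ne_zero ℓ hga') (pow_ne_zero _ hgb'),
    mul_ne_zero (tSer_ne_zero ℓ hgb) (pow_ne_zero _ hga),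
    mul_ne_zero (tSer_ne_zero ℓ hgb') (pow_ne_zero _ hga'), ?_, ?_⟩
  · simpa using tSer_div_key ℓ (t := ga) (s := gb) (e := (1 : k)) hg1'
      (by rw [map_one, one_mul, hg])
  · simpa using tSer_div_key ℓ (t := ga') (s := gb') (e := (1 : k)) hg2'
      (by rw [map_one, one_mul, hg'])

end Fermat.Agent.MazurPrinciple
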