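import Fermat.Agent.MazurPrinciple.NodeOrder
import Fermat.Agent.Semistable.Frobenius
import Fermat.Agent.Semistable.SeriesPlace
import Fermat.Prelude.Def_AlgebraicCurve_BaseChangeGalois

/-!
# Frobenius on the classes of the two sheets

Frobenius on classes of the two sheets: if `E` is such a class then `φ E + q • w E` is principal.
-/

set_option autoImplicit false

noncomputable section

namespace Fermat.Agent.MazurPrinciple

open HahnSeries AlgebraicCurve ModularCurve Fermat.Agent.Reduction Fermat.Agent.Semistable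

variable {K F k : Type*} [Field K] [Field F] [Algebra K F] [Field k] {A : ValuationSubring K}
  {π : A →+* k} {q : ℕ} [NeZero q]

/-- An element of the decomposition group acting as Frobenius on `k`. -/
structure FrobOne (S : Sheets A π q F) extends Sheets.Semi S where
  res : ∀ a : A, π ⟨τ a, mem a a.2⟩ = S.σ (π a)

variable {S : Sheets A π q F}

theorem FrobOne.red (σ : FrobOne S) {y : LaurentSeries K} {x : LaurentSeries k}
    (h : Red A π y x) :
    Red A π (coeffMap (σ.τ : K →+* K) y) (coeffMap (S.σ : k →+* k) x) := fun i => by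
  obtain ⟨hi, hv⟩ := h i
  exact ⟨σ.mem _ hi, (σ.res ⟨_, hi⟩).trans (congrArg S.σ hv)⟩

theorem FrobOne.red2 (σ : FrobOne S) {f : F} {x : Ser2 k} (h : Red2 A π (S.T f) x) :
    Red2 A π (S.T (σ.g f)) (coeffMap (S.σ : k →+* k) x.1, coeffMap (S.σ : k →+* k) x.2) := by
  rw [σ.T_g]
  exact ⟨σ.red h.1, σ.red h.2⟩

theorem sigC_flip (u : S.Pt) (x : S.C) : S.flip u (S.sigC x) = u x ^ q := by
  rw [Sheets.flip_apply, Sheets.frC_sigC]
  exact _root_.map_pow u.1 x q

variable (S) in
/-- The involution acting on divisors and classes. -/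
def omega : SemilinearAut K F := SemilinearAut.ofAlgAut S.w

theorem omega_ord (v : Place K F) (f : F) : (omega S • v).ord (S.w f) = v.ord f :=
  SemilinearAut.ord_smul (omega S) v f

theorem omega_apply (D : Divisor K F) (v : Place K F) :
    (omega S • D : Divisor K F) (omega S • v) = D v :=
  SemilinearAut.divisor_smul_apply_smul _ D v

theorem omega_inf : omega S • S.inf = S.zero := place_eq_of_ord fun f => by
  obtain ⟨g, rfl⟩ := S.w.surjective f
  rw [omega_ord, S.ord_inf, S.ord_zero, S.w_w]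

theorem omega_zero : omega S • S.zero = S.inf := place_eq_of_ord fun f => by
  obtain ⟨g, rfl⟩ := S.w.surjective f
  rw [omega_ord, S.ord_inf, S.ord_zero]

theorem omega_ne {v : Place K F} (h1 : omega S • v ≠ S.inf) (h2 : omega S • v ≠ S.zero) :
    v ≠ S.inf ∧ v ≠ S.zero :=
  ⟨fun h => h2 (by rw [h, omega_inf]), fun h => h1 (by rw [h, omega_zero])⟩

theorem neg_omega {E : Divisor K F} (hE : S.Neg E) : S.Neg (omega S • E) := fun v h1 h2 => by
  obtain ⟨v, rfl⟩ := MulAction.surjective (omega S) v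
  rw [omega_apply]
  exact hE v (omega_ne h1 h2).1 (omega_ne h1 h2).2

theorem bd_omega (n : ℤ) (v : Place K F) : S.bd n (omega S • v) = S.bd n v := by
  by_cases h1 : v = S.inf
  · subst h1; rw [omega_inf, S.bd_zero, S.bd_inf]
  by_cases h2 : v = S.zero
  · subst h2; rw [omega_zero, S.bd_inf, S.bd_zero]
  rw [S.bd_of_ne n h1 h2, S.bd_of_ne n
    (fun h => h2 (MulAction.injective (omega S) (h.trans omega_zero.symm)))
    (fun h => h1 (MulAction.injective (omega S) (h.trans omega_inf.symm)))]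

theorem mem_L_omega {E : Divisor K F} {n : ℤ} {f : F} (hf : f ∈ S.L E n) :
    S.w f ∈ S.L (omega S • E) n := by
  rw [Sheets.mem_L] at hf ⊢
  intro v
  obtain ⟨v, rfl⟩ := MulAction.surjective (omega S) v
  rw [Finsupp.add_apply, omega_apply, bd_omega, ← Finsupp.add_apply]
  rcases eq_or_ne f 0 with rfl | hf0
  · rw [map_zero]; exact Submodule.zero_mem _
  · refine FF.mem_ordGE_of_le_ord _ ?_
    rw [omega_ord]
    exact (FF.mem_ordGE_of_ne_zero v hf0).mp (hf v)

variable [FF.IsFunctionField K F] [IsAlgClosed K] [IsAlgClosed k]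

/-- **Frobenius is `-q w` on classes of the two sheets.** -/
theorem frob_add_omega_mem_principal (σ : FrobOne S) {m : ℕ} (d : S.Datum m) (hm : 0 < m)
    (hmk : (m : k) ≠ 0) :
    σ.act d.E + (q : ℤ) • (omega S • d.E) ∈ Divisor.principal (K := K) (F := F) := by
  set φ : LaurentSeries k →+* LaurentSeries k := coeffMap (S.σ : k →+* k) with hφ
  have hq0 : q ≠ 0 := NeZero.ne q
  have hφne : ∀ {x : LaurentSeries k}, x ≠ 0 → φ x ≠ 0 := fun {x} hx h =>
    hx (φ.injective (h.trans (map_zero φ).symm))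
  have hφc : ∀ c : k, φ (algebraMap k (LaurentSeries k) c) =
      algebraMap k (LaurentSeries k) (c ^ q) := fun c => by
    rw [hφ, coeffMap_algebraMap, RingHom.coe_coe, Sheets.σ_eq_pow]
  set u : k := (d.ū.1 * d.ū.2) ^ q with hu_def
  have hu : u ≠ 0 := pow_ne_zero _ (mul_ne_zero d.u₁_ne d.u₂_ne)
  obtain ⟨a, ha⟩ := S.surj u⁻¹
  have ha0 : (a : K) ≠ 0 := fun h => inv_ne_zero hu (by
    rw [← ha, show a = 0 from Subtype.ext h, map_zero])
  have hgG : σ.g d.G ≠ 0 := fun h' => d.G_ne (σ.g.injective (h'.trans (map_zero σ.g).symm))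
  have hwG : S.w d.G ≠ 0 := (map_ne_zero S.w).mpr d.G_ne
  let e : S.Datum m :=
    { E := σ.act d.E + (q : ℤ) • (omega S • d.E)
      G := (a : K) • (σ.g d.G * S.w d.G ^ q)
      η := (φ d.η.1 * d.η.2 ^ q, φ d.η.2 * d.η.1 ^ q)
      ū := 1
      neg := fun v h1 h2 => by
        have := σ.neg_act d.neg v h1 h2
        have := neg_omega d.neg v h1 h2
        rw [Finsupp.add_apply, Finsupp.smul_apply, smul_eq_mul]
        nlinarith [Int.natCast_nonneg q]
      deg := by
        rw [map_add, map_zsmul, σ.degree_act, SemilinearAut.degree_smul, d.deg, smul_zero, add_zero]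
      G_ne := smul_ne_zero ha0 (mul_ne_zero hgG (pow_ne_zero q hwG))
      ord_G := fun v => by
        rw [Algebra.smul_def, v.ord_mul ((map_ne_zero _).mpr ha0)
          (mul_ne_zero hgG (pow_ne_zero q hwG)), FF.ord_algebraMap,
          v.ord_mul hgG (pow_ne_zero q hwG), FF.ord_pow, Finsupp.add_apply, Finsupp.smul_apply,
          smul_eq_mul]
        obtain ⟨v₁, hv₁⟩ := σ.P.surjective v
        obtain ⟨v₂, hv₂⟩ := MulAction.surjective (omega S) v
        conv_lhs => arg 2; arg 1; rw [← hv₁, σ.ord_P, d.ord_G]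
        conv_lhs => arg 2; arg 2; rw [← hv₂, omega_ord, d.ord_G]
        conv_rhs => arg 1; arg 2; arg 1; rw [← hv₁, σ.act_apply]
        conv_rhs => arg 1; arg 2; arg 2; arg 2; rw [← hv₂, omega_apply]
        ring
      red_G := by
        rw [map_smul, S.T_mul, S.T_pow, S.T_w]
        have h1 := σ.red2 d.red_G
        have h2 := (d.red_G.swap).pow q
        convert (h1.mul h2).smul a using 1
        refine Prod.ext ?_ ?_ <;>
          simp only [ha, scale2, smul_eq_algebraMap_mul, Prod.smul_fst, Prod.smul_snd, Prod.fst_mul,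
            Prod.snd_mul, Prod.pow_fst, Prod.pow_snd, Prod.fst_swap, Prod.snd_swap, Prod.fst_one,
            Prod.snd_one, map_one, one_mul, map_mul, map_pow, ← hφ, hφc, mul_pow] <;>
        · have hu' : algebraMap k (LaurentSeries k) u⁻¹ *
              (algebraMap k (LaurentSeries k) d.ū.1 ^ q *
                algebraMap k (LaurentSeries k) d.ū.2 ^ q) = 1 := by
            rw [← map_pow, ← map_pow, ← map_mul, ← map_mul, ← mul_pow, ← hu_def, inv_mul_cancel₀ hu,
              map_one]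
          first
          | linear_combination (-(φ d.η.1 ^ m * (d.η.2 ^ m) ^ q)) * hu'
          | linear_combination (-(φ d.η.2 ^ m * (d.η.1 ^ m) ^ q)) * hu'
      η₁_mem := S.C.mul_mem (S.σ_mem _ d.η₁_mem) (pow_mem d.η₂_mem q)
      η₂_mem := S.C.mul_mem (S.σ_mem _ d.η₂_mem) (pow_mem d.η₁_mem q)
      η₁_ne := mul_ne_zero (hφne d.η₁_ne) (pow_ne_zero q d.η₂_ne)
      η₂_ne := mul_ne_zero (hφne d.η₂_ne) (pow_ne_zero q d.η₁_ne)
      u₁_ne := one_ne_zero
      u₂_ne := one_ne_zero }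
  obtain ⟨N, hN⟩ := d.exists_value_ne_zero hm
  have htriv : e.IsTrivial := Sheets.Datum.isTrivial_of_witness e hm rfl fun u => by
    obtain ⟨b, hb, hb1, hb2⟩ := hN N le_rfl (flipNode u)
    have hb2' : u.1 (S.elt b).2 ≠ 0 := by
      have h := hb2
      change S.flip (flipNode u).1 (S.elt b).2 ≠ 0 at h
      rwa [flip_flipNode] at h
    have hb1' : S.flip u.1 (S.elt b).1 ≠ 0 := hb1
    obtain ⟨-, f, hf, hfb⟩ := hb
    rw [mulPair_apply] at hfb
    set x : Ser2 k := (φ (b : Ser2 k).1 * (b : Ser2 k).2 ^ q, φ (b : Ser2 k).2 * (b : Ser2 k).1 ^ q)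
      with hx
    have hfm : σ.g f * S.w f ^ q ∈ S.L e.E (N + (q : ℤ) * N) :=
      Sheets.mul_mem_L (σ.mem_L_act hf) (Sheets.pow_mem_L (mem_L_omega hf) q)
    have hxV : x ∈ e.V (N + (q : ℤ) * N) := by
      refine e.mem_V_of_red hm hfm ?_
      rw [S.T_mul, S.T_pow, S.T_w]
      convert (σ.red2 hfb).mul (hfb.swap.pow q) using 1
      refine Prod.ext ?_ ?_ <;>
        simp only [e, hx, Prod.fst_mul, Prod.snd_mul, Prod.pow_fst, Prod.pow_snd, Prod.fst_swap,
          Prod.snd_swap, map_mul, ← hφ, mul_pow] <;> ring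
    refine ⟨_, ⟨x, hxV.1⟩, hxV, ?_, ?_⟩
    all_goals
      have e1 : (S.elt ⟨x, hxV.1⟩).1 = S.sigC (S.elt b).1 * (S.elt b).2 ^ q := Subtype.ext rfl
      have e2 : (S.elt ⟨x, hxV.1⟩).2 = S.sigC (S.elt b).2 * (S.elt b).1 ^ q := Subtype.ext rfl
      have v1 : u.1 (S.elt ⟨x, hxV.1⟩).1 =
          S.flip u.1 (S.elt b).1 ^ q * u.1 (S.elt b).2 ^ q := by
        rw [e1, Sheets.Pt.map_mul, ← sigC_flip (S.flip u.1), Sheets.flip_apply (S.flip u.1),
          Sheets.flip_apply_frC,
          show (u.1 : S.Pt) ((S.elt b).2 ^ q) = u.1 (S.elt b).2 ^ q from _root_.map_pow u.1.1 _ q]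
    · show u.1 (S.elt ⟨x, hxV.1⟩).1 = S.flip u.1 (S.elt ⟨x, hxV.1⟩).2
      rw [v1, e2, Sheets.Pt.map_mul, sigC_flip,
        show S.flip u.1 ((S.elt b).1 ^ q) = S.flip u.1 (S.elt b).1 ^ q from
          _root_.map_pow (S.flip u.1).1 _ q, mul_comm]
    · show u.1 (S.elt ⟨x, hxV.1⟩).1 ≠ 0
      rw [v1]
      exact mul_ne_zero (pow_ne_zero q hb1') (pow_ne_zero q hb2')
  exact Sheets.Datum.IsTrivial.mem_principal' e hm hmk rfl htriv

end Fermat.Agent.MazurPrinciple
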